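import Fermat.Agent.BAD.Sq.Maps
import Fermat.Agent.BAD.AtP.Level.Good
import Fermat.Agent.ES.Local.Approx
import Fermat.Agent.BAD.Points
import Fermat.Agent.BAD.LocalParam
import Fermat.Agent.EC.GoodPrimeTrace

/-!
# Good parameters after enlarging the unramified part

A function of level `M` with a unit coefficient vanishes at a maximal ideal over `q` only where a
good parameter vanishes, once the coefficients contain enough roots of unity of order prime to `q`.
-/

set_option autoImplicit false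

open UpperHalfPlane CongruenceSubgroup IsLocalRing Polynomial
open scoped MatrixGroups

noncomputable section

namespace FermatAgent.BAD.Sq

open FermatAgent.BAD.TwoP
open FermatAgent.ES (BSub BRing SerIn act lexp zetaC AuxLevel CPlace GoodRoot GoodPoint GalGrp repG
  haupt)
open CFT.Local (unramRoot botF Gal' res Res')

variable {q M m : ℕ} [hq : Fact q.Prime] [NeZero M] (Φ : ℂ ≃+* PadicAlgCl q)

theorem lRing_le (n : ℕ) [NeZero n] : lRing Φ n ≤ (CPlace.ofEquiv Φ).ring :=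
  (isCDVR_lRing Φ n).le

instance isDVR_lRing (n : ℕ) [NeZero n] : IsDiscreteValuationRing (lRing Φ n) :=
  (isCDVR_lRing Φ n).dvr

/-- The residue on `lRing`. -/
def resL (n : ℕ) [NeZero n] : lRing Φ n →+* Res' q :=
  (IsLocalRing.residue (CFT.Local.intRing q)).comp
    (((Φ : ℂ →+* PadicAlgCl q).comp (lRing Φ n).subtype).codRestrict _
      fun o => CFT.Local.mem_intRing.mpr ((mem_lRing Φ).mp o.2).2)

theorem resL_apply {n : ℕ} [NeZero n] (o : lRing Φ n) : resL Φ n o = resP Φ o :=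
  (CFT.Local.res_def _).symm

theorem resL_eq_zero_iff {n : ℕ} [NeZero n] (o : lRing Φ n) :
    resL Φ n o = 0 ↔ (CPlace.ofEquiv Φ).abv o < 1 := by
  rw [resL_apply, resP, CFT.Local.res_eq_zero_iff ((mem_lRing Φ).mp o.2).2, CPlace.ofEquiv_abv]

theorem exists_resHomL (n : ℕ) [NeZero n] :
    ∃ ι : ResidueField (lRing Φ n) →+* Res' q, ι.comp (residue (lRing Φ n)) = resL Φ n ∧
      ∀ c : Res' q, (c = 0 ∨ c ^ (q ^ n - 1) = 1) → c ∈ ι.range := by
  obtain ⟨ι, h, hr⟩ := exists_resHom_of Φ (isCDVR_lRing Φ n) (n := n) ((mem_lRing Φ).mpr (by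
    rw [Φ.apply_symm_apply]
    exact ⟨unramRoot_mem_lField n, (CFT.Local.norm_unramRoot (botF q) n).le⟩))
  exact ⟨ι, RingHom.ext fun o => (h o).trans (resL_apply Φ o).symm, hr⟩

theorem apply_hauptRoot_eq (hM : M.Coprime q) (haux : AuxLevel M m) {n : ℕ} [NeZero n]
    (hn : M ∣ q ^ n - 1) {s : Gal' q} (hs : ∀ r ∈ primeToRoots q, s r = r) :
    conjC Φ s (ES.hauptRoot haux) = ES.hauptRoot haux := by
  refine Φ.injective ?_
  rw [map_conjC]
  have hle : uField q n ≤ IntermediateField.fixedField (Subgroup.zpowers s) := by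
    rw [uField, IntermediateField.adjoin_simple_le_iff, IntermediateField.mem_fixedField_iff]
    exact fun f hf => (Subgroup.zpowers_le.mpr
      (show s ∈ MulAction.stabilizer (Gal' q) (unramRoot (botF q) n) from
        hs _ (unramRoot_mem_primeToRoots n))) hf
  exact (IntermediateField.mem_fixedField_iff _ _).mp
    (hle ((mem_uRing Φ).mp (ES.hauptRoot_spec haux (goodRoot_uRing Φ hM hn)).1).1) _
    (Subgroup.mem_zpowers _)

/-- **Good points with prescribed residue.** -/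
theorem exists_goodPt (hM : M.Coprime q) (haux : AuxLevel M m) {n₀ : ℕ} [NeZero n₀]
    (hn₀ : M ∣ q ^ n₀ - 1) {c : Res' q} (h0 : c ≠ 0) (h1 : c ≠ 1)
    (hr : c ≠ resP Φ (ES.hauptRoot haux)) :
    ∃ (τ0 : ℍ) (N : ℕ), 0 < N ∧ resP Φ (haupt haux.dvd τ0) = c ∧
      ∀ n, N ∣ n → ∀ [NeZero n], GoodPoint haux (lRing Φ n) τ0 := by
  obtain ⟨τ0, N, hN, hres, hgP, -, hx⟩ :=
    AtP.exists_goodVal Φ hM haux (fun _ => apply_hauptRoot_eq Φ hM haux hn₀) h0 h1 hr
  exact ⟨τ0, N, hN, hres, fun n hn _ => ES.goodPoint_of_isCDVR haux (isCDVR_lRing Φ n) hgP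
    fun x h => (mem_lRing Φ).mpr (hx x h n hn)⟩

omit hq in
/-- A function of level `M` with a unit coefficient satisfies, after multiplication, a polynomial
equation in `t` with nonzero reduction. -/
theorem exists_poly_unit {P : CPlace q} {O : Subring ℂ} (hO : O ≤ P.ring) (hM : M.Coprime q)
    (haux : AuxLevel M m) (hA : GoodRoot M O (zetaC M)) {f : ℍ → ℂ} (hf : f ∈ BRing M O)
    (hu : P.UnitCoeff (lexp M 1 f)) :
    ∃ (Y : BRing M O) (F : O[X]), (∃ i, P.abv (F.coeff i : ℂ) = 1) ∧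
      ∀ τ, f τ * (Y : ℍ → ℂ) τ = (F.map O.subtype).eval (haupt haux.dvd τ) := by
  obtain ⟨Y, F, hY, n, hn⟩ := ES.exists_poly_unitCoeff P haux hM hO hA hf hu
  refine ⟨Y, F, ?_, hY⟩
  by_contra hall
  push Not at hall
  -- all coefficients small: then the expansion of the product is small
  suffices h : ES.evalT P haux hM (F.map (Subring.inclusion hO)) ∈ ES.maxSmall P (M := M) from
    ((ES.mem_maxSmall P).mp h n).ne hn
  show (F.map (Subring.inclusion hO)).eval₂ (ES.constB P) (ES.tB P haux hM) ∈ _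
  rw [eval₂_eq_sum, Polynomial.sum]
  refine Ideal.sum_mem _ fun i _ => Ideal.mul_mem_right _ _ fun k => ?_
  rw [ES.infExp_constB, HahnSeries.C_apply]
  rcases eq_or_ne k 0 with rfl | hk
  · rw [HahnSeries.coeff_single_same, coeff_map]
    exact lt_of_le_of_ne (hO (F.coeff i).2) (hall i)
  · rw [HahnSeries.coeff_single_of_ne hk, map_zero]
    exact one_pos

/-- The parameter avoids the values `0`, `1` and the root of the Hauptmodul. -/
theorem isUnit_tL_sub_constL {O : Subring ℂ} (haux : AuxLevel M m)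
    (hA : GoodRoot M O (zetaC M)) {r : O}
    (hr : (r : ℂ) = 0 ∨ (r : ℂ) = 1 ∨ (r : ℂ) = ES.hauptRoot haux) :
    IsUnit (tL haux hA - constL r : LRing q M O) := by
  have h2 : (r : ℂ) = 0 → IsUnit (tL haux hA - constL r : LRing q M O) := fun h =>
    IsUnit.of_mul_eq_one (raiseL M ⟨_, ES.polFun_mem_BRing haux hA (ES.two_le haux)⟩)
      (Subtype.ext (funext fun τ => by
        have := congrFun (ES.polFun_two_mul_haupt haux) τ
        simp only [Pi.mul_apply, Pi.one_apply] at this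
        show (haupt haux.dvd τ - (r : ℂ)) * ES.polFun haux.dvd 2 τ = 1
        rw [h, sub_zero, mul_comm, this]))
  rcases hr with h | h | h
  · exact h2 h
  · refine IsUnit.of_mul_eq_one
      (raiseL M ⟨_, ES.polFun_mem_BRing haux hA (j := 0) (Nat.zero_le _)⟩)
      (Subtype.ext (funext fun τ => ?_))
    have := congrFun (ES.polFun_zero_mul haux) τ
    simp only [Pi.mul_apply, Pi.one_apply, Pi.sub_apply] at this
    show (haupt haux.dvd τ - (r : ℂ)) * ES.polFun haux.dvd 0 τ = 1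
    rw [h, mul_comm, this]
  · by_cases hm : m = 3
    · obtain ⟨-, -, -, α, hα, hαe⟩ := ES.polFun_three haux hm hA
      refine IsUnit.of_mul_eq_one (raiseL M (⟨fun _ => α⁻¹, ES.const_mem_BRing hα.2.2⟩ *
        ⟨_, ES.polFun_mem_BRing haux hA (j := 3) (by omega)⟩))
        (Subtype.ext (funext fun τ => ?_))
      show (haupt haux.dvd τ - (r : ℂ)) * (α⁻¹ * ES.polFun haux.dvd 3 τ) = 1
      rw [h, mul_left_comm, mul_comm (_ - _), hαe τ, inv_mul_cancel₀ hα.1]
    · exact h2 (by rw [h, ES.hauptRoot, if_neg hm])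

/-- Outside the three excluded residues a residue is taken at a good point. -/
theorem exists_level_goodPt (hM : M.Coprime q) (haux : AuxLevel M m) {N₀ : ℕ} [NeZero N₀]
    (hn : M ∣ q ^ N₀ - 1) (c : Res' q) : ∃ N : ℕ, 0 < N ∧
      (c ≠ 0 → c ≠ 1 → c ≠ resP Φ (ES.hauptRoot haux) → ∃ τ0 : ℍ,
        resP Φ (haupt haux.dvd τ0) = c ∧
        ∀ n, N ∣ n → ∀ [NeZero n], GoodPoint haux (lRing Φ n) τ0) := by
  by_cases h0 : c = 0
  · exact ⟨1, one_pos, fun h => absurd h0 h⟩
  by_cases h1 : c = 1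
  · exact ⟨1, one_pos, fun _ h => absurd h1 h⟩
  by_cases hr : c = resP Φ (ES.hauptRoot haux)
  · exact ⟨1, one_pos, fun _ _ h => absurd hr h⟩
  obtain ⟨τ0, N, hN, hres, hg⟩ := exists_goodPt Φ hM haux hn h0 h1 hr
  exact ⟨N, hN, fun _ _ _ => ⟨τ0, hres, hg⟩⟩

/-- **Good parameters at the maximal ideals over `q`.** -/
theorem exists_goodT (hM : M.Coprime q) (haux : AuxLevel M m) {N₀ : ℕ} [NeZero N₀]
    (hn : M ∣ q ^ N₀ - 1) {f : ℍ → ℂ} (hf : f ∈ BRing M (lRing Φ N₀))
    (hu : (CPlace.ofEquiv Φ).UnitCoeff (lexp M 1 f)) :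
    ∃ N₁ : ℕ, N₁ ≠ 0 ∧ ∀ N : ℕ, N₁ ∣ N → ∀ [NeZero N],
      ∀ (hA : GoodRoot M (lRing Φ N) (zetaC M)) (hfN : f ∈ BRing M (lRing Φ N))
        (𝔪 : Ideal (LRing q M (lRing Φ N))), 𝔪.IsMaximal →
          (q : LRing q M (lRing Φ N)) ∈ 𝔪 → raiseL M ⟨f, hfN⟩ ∈ 𝔪 →
            ∃ (τ₀ : ℍ) (hg : GoodPoint haux (lRing Φ N) τ₀),
              raiseL M (tPar haux hA hg) ∈ 𝔪 := by
  classical
  have : IsAlgClosed (Res' q) := isAlgClosed_residueField (CFT.Local.intRing q)
  obtain ⟨Y, F, ⟨i0, hi0⟩, hFY⟩ :=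
    exists_poly_unit (lRing_le Φ N₀) hM haux (goodRoot_lRing Φ hM hn) hf hu
  set F' := F.map (resL Φ N₀)
  have hF' : F' ≠ 0 := fun h0 => by
    have h1 := congrArg (fun p => Polynomial.coeff p i0) h0
    simp only [F', coeff_map, coeff_zero, resL_eq_zero_iff, hi0, lt_irrefl] at h1
  choose d hd hdc using fun c : Res' q => exists_exponent_res c
  choose G hG0 hG using exists_level_goodPt Φ hM haux hn
  refine ⟨N₀ * ∏ c ∈ F'.roots.toFinset, d c * G c,
    (Nat.mul_pos (Nat.pos_of_ne_zero (NeZero.ne N₀))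
      (Finset.prod_pos fun c _ => Nat.mul_pos (hd c) (hG0 c))).ne', ?_⟩
  intro N hN _ hA hfN 𝔪 h𝔪 hq𝔪 hf𝔪
  have hN₀ : N₀ ∣ N := (dvd_mul_right _ _).trans hN
  have hdvd : ∀ c ∈ F'.roots, d c ∣ N ∧ G c ∣ N := fun c hc =>
    have h1 : d c * G c ∣ N := (Finset.dvd_prod_of_mem (fun c => d c * G c)
      (Multiset.mem_toFinset.mpr hc)).trans ((dvd_mul_left _ _).trans hN)
    ⟨(dvd_mul_right _ _).trans h1, (dvd_mul_left _ _).trans h1⟩
  obtain ⟨ι, hι, hrange⟩ := exists_resHomL Φ N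
  set j := Subring.inclusion (lRing_mono Φ hN₀)
  set Fb := (F.map j).map (residue (lRing Φ N))
  have hmap : Fb.map ι = F' := by
    simp only [Fb, F', Polynomial.map_map]
    refine congrArg (F.map ·) (RingHom.ext fun o => ?_)
    rw [← RingHom.comp_assoc, hι, RingHom.comp_apply, resL_apply, resL_apply,
      show ((j o : lRing Φ N) : ℂ) = (o : ℂ) from Subring.coe_inclusion (lRing_mono Φ hN₀) o]
  have hsplit : Fb.Splits := Polynomial.Splits.of_splits_map ι (IsAlgClosed.splits _) fun c hc => by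
    rw [hmap] at hc
    refine hrange c ((hdc c).imp_right fun h => ?_)
    obtain ⟨r, hr⟩ := Nat.pow_sub_one_dvd_pow_sub_one q (hdvd c hc).1
    rw [hr, pow_mul, h, one_pow]
  have hFb : Fb ≠ 0 := fun h0 => hF' (by rw [← hmap, h0, Polynomial.map_zero])
  -- the residue field maps to the quotient
  have := h𝔪
  let := Ideal.Quotient.field 𝔪
  set mk := Ideal.Quotient.mk 𝔪
  have : (𝔪.comap (constL : lRing Φ N →+* LRing q M (lRing Φ N))).IsPrime :=
    Ideal.comap_isPrime _ _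
  have hmax : 𝔪.comap (constL : lRing Φ N →+* LRing q M (lRing Φ N)) = maximalIdeal _ := by
    refine IsLocalRing.eq_maximalIdeal (Ideal.IsPrime.isMaximal inferInstance fun h0 => ?_)
    have h1 : (q : lRing Φ N) ∈ 𝔪.comap (constL : lRing Φ N →+* LRing q M (lRing Φ N)) := by
      rw [Ideal.mem_comap, map_natCast]; exact hq𝔪
    rw [h0, Ideal.mem_bot] at h1
    have h2 := congrArg (fun z : lRing Φ N => (z : ℂ)) h1
    simp [hq.out.ne_zero] at h2
  set θ : ResidueField (lRing Φ N) →+* LRing q M (lRing Φ N) ⧸ 𝔪 :=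
    Ideal.Quotient.lift (maximalIdeal (lRing Φ N)) (mk.comp constL) fun r hr => by
      rw [RingHom.comp_apply, Ideal.Quotient.eq_zero_iff_mem, ← Ideal.mem_comap, hmax]
      exact hr
  have hθ : θ.comp (residue _) = mk.comp constL := RingHom.ext fun r => rfl
  set t : LRing q M (lRing Φ N) := tL haux hA
  have hzero : (F.map j).eval₂ constL t = raiseL M ⟨f, hfN⟩ *
      raiseL M ⟨_, ES.BRing_mono (lRing_mono Φ hN₀) Y.2⟩ := by
    refine Subtype.ext (funext fun τ => ?_)
    show ((Pi.evalRingHom (fun _ : ℍ => ℂ) τ).comp (LRing q M (lRing Φ N)).subtype)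
      ((F.map j).eval₂ constL t) = f τ * (Y : ℍ → ℂ) τ
    rw [hom_eval₂, eval₂_map, hFY τ, eval_map]
    have hj : (((Pi.evalRingHom (fun _ : ℍ => ℂ) τ).comp (LRing q M (lRing Φ N)).subtype).comp
        constL).comp j = (lRing Φ N₀).subtype :=
      RingHom.ext fun o => by
        simp only [RingHom.comp_apply, Pi.evalRingHom_apply, Subring.coe_subtype, coe_constL]
        exact Subring.coe_inclusion (lRing_mono Φ hN₀) o
    rw [hj]
    exact congrArg (fun x : ℂ => F.eval₂ (lRing Φ N₀).subtype x)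
      (congrFun (coe_tL (q := q) haux hA) τ)
  have hroot : (Fb.map θ).eval (mk t) = 0 := by
    rw [Polynomial.map_map, hθ, eval_map, ← hom_eval₂, hzero, map_mul,
      Ideal.Quotient.eq_zero_iff_mem.mpr hf𝔪, zero_mul]
  obtain ⟨a, ha, hat⟩ : ∃ a ∈ Fb.roots, θ a = mk t := by
    refine Multiset.mem_map.mp ?_
    rw [← hsplit.roots_map θ, mem_roots (Polynomial.map_ne_zero hFb)]
    exact hroot
  -- it is not a cusp
  have hnc : ∀ r : lRing Φ N, ((r : ℂ) = 0 ∨ (r : ℂ) = 1 ∨ (r : ℂ) = ES.hauptRoot haux) →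
      a ≠ residue _ r := by
    intro r hr har
    have hunit : IsUnit (t - constL r : LRing q M (lRing Φ N)) :=
      isUnit_tL_sub_constL haux hA hr
    refine (hunit.map mk).ne_zero ?_
    rw [map_sub, ← hat, har, sub_eq_zero]
    rfl
  set c := ι a
  have hc : c ∈ F'.roots := by
    rw [mem_roots hF', ← hmap]
    exact (isRoot_of_mem_roots ha).map
  have hι' : ∀ r, ι (residue _ r) = resP Φ r := fun r =>
    (RingHom.congr_fun hι r).trans (resL_apply Φ r)
  have hrootN := (ES.hauptRoot_spec haux hA).1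
  obtain ⟨τ0, hres, hg⟩ := hG c
    (fun h => hnc 0 (Or.inl rfl) (ι.injective (by rw [map_zero, map_zero]; exact h)))
    (fun h => hnc 1 (Or.inr (Or.inl rfl)) (ι.injective (by rw [map_one, map_one]; exact h)))
    (fun h => hnc ⟨_, hrootN⟩ (Or.inr (Or.inr rfl)) (ι.injective (by rw [hι']; exact h)))
  have hg' := hg N (hdvd c hc).2
  refine ⟨τ0, hg', ?_⟩
  have e : raiseL M (tPar haux hA hg') = t - constL ⟨_, hg'.val.mem⟩ := Subtype.ext rfl
  have hat' : a = residue _ ⟨_, hg'.val.mem⟩ := ι.injective (by rw [hι']; exact hres.symm)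
  rw [e, ← Ideal.Quotient.eq_zero_iff_mem, map_sub, sub_eq_zero]
  rw [hat'] at hat
  exact hat.symm

end FermatAgent.BAD.Sq
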