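import Fermat.Agent.BAD.Sq.Glue
import Fermat.Agent.BAD.Limit

/-!
# The power of the root is invariant

Given local roots, the glued function approximates a root `Z` of level `q M` of the function
`yy`; it is a constant times `h ^ (q (q² - 1))` times an invariant function.
-/

set_option autoImplicit false

open UpperHalfPlane CongruenceSubgroup
open scoped MatrixGroups

noncomputable section

namespace FermatAgent.BAD.Sq

open FermatAgent.ES (BSub BRing SerIn HasLExp lexp lexp_eq hasLExp_lexp lexp_act act zetaC AuxLevel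
  CPlace)

variable {q M m : ℕ} [hq : Fact q.Prime] [NeZero M] {P : CPlace q}

omit hq in
/-- Congruent `n`-th powers give congruent series up to a root of unity. -/
theorem exists_root_serLT {n : ℕ} [NeZero n] {a b : LaurentSeries ℂ} (ha : SerIn P.ring a)
    (hb : SerIn P.ring b) (h : P.SerLT (a ^ n - b ^ n)) :
    ∃ c : ℂ, c ^ n = 1 ∧ P.SerLT (a - HahnSeries.C c * b) := by
  have hζ := (ES.zetaC_isPrimitiveRoot n).map_of_injective
    (HahnSeries.C_injective : Function.Injective (HahnSeries.C : ℂ →+* LaurentSeries ℂ))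
  have hroot : ∀ ω ∈ Polynomial.nthRootsFinset n (1 : LaurentSeries ℂ),
      ∃ c : ℂ, c ^ n = 1 ∧ HahnSeries.C c = ω := fun ω hω => by
    obtain ⟨j, -, hj⟩ := hζ.eq_pow_of_pow_eq_one
      ((Polynomial.mem_nthRootsFinset (NeZero.pos n) 1).mp hω)
    exact ⟨zetaC n ^ j, by
      rw [← pow_mul, mul_comm, pow_mul, (ES.zetaC_isPrimitiveRoot n).pow_eq_one, one_pow],
      by rw [map_pow, hj]⟩
  by_contra hno
  push Not at hno
  rw [hζ.pow_sub_pow_eq_prod_sub_mul _ _ (NeZero.pos n)] at h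
  have key : ∀ S : Finset (LaurentSeries ℂ), S ⊆ Polynomial.nthRootsFinset n 1 →
      SerIn P.ring (∏ ω ∈ S, (a - ω * b)) ∧ P.UnitCoeff (∏ ω ∈ S, (a - ω * b)) := by
    classical
    intro S
    induction S using Finset.induction_on with
    | empty => exact fun _ => by rw [Finset.prod_empty]; exact ⟨SerIn.one, 0, by simp⟩
    | insert ω S hω ih =>
      intro hS
      obtain ⟨c, hc, rfl⟩ := hroot ω (hS (Finset.mem_insert_self _ _))
      obtain ⟨i1, i2⟩ := ih fun x hx => hS (Finset.mem_insert_of_mem hx)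
      have hin : SerIn P.ring (a - HahnSeries.C c * b) := by
        rw [sub_eq_add_neg]
        exact ha.add ((SerIn.C ((P.abv_eq_one_of_pow_eq_one (NeZero.ne n) hc).le)).mul hb).neg
      rw [Finset.prod_insert hω]
      exact ⟨hin.mul i1, CPlace.UnitCoeff.mul hin i1 (unitCoeff_of_not_serLT hin (hno c hc)) i2⟩
  obtain ⟨-, i, hi⟩ := key _ Finset.Subset.rfl
  exact (h i).ne hi

omit hq [NeZero M] in
theorem lexp_pow_of {f : ℍ → ℂ} {γ : SL(2, ℤ)} {s : LaurentSeries ℂ}
    (hs : HasLExp (q * M) (act γ f) s) (k : ℕ) :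
    HasLExp (q * M) (act γ (f ^ k)) (s ^ k) :=
  (hs.pow k).congr_fun fun _ => rfl

variable (C : Coef M P)

theorem serIn_ring_serA (γ : SL(2, ℤ)) (f : A0 C) : SerIn P.ring (serA C γ f) := fun i =>
  C.cdvr.le (serIn_serA C γ f i)

variable (haux : AuxLevel M m) (hM : M.Coprime q) (hqm : q ≠ m)

include haux hM hqm in
theorem serLT_of_mem_radical {z : A0 C} (hz : z ∈ (Ideal.span {(q : A0 C)}).radical)
    (γ : SL(2, ℤ)) : P.SerLT (serA C γ z) := by
  obtain ⟨t, ht⟩ := exists_isTyp (q := q) γ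
  exact (mem_smA C).mp
    (smA_of_mem_PT C haux hM hqm ((mem_radical_iff C haux hM hqm z).mp hz t) ht)

theorem serLE_of_pow_dvd {k : ℕ} {z : A0 C} (hz : (q : A0 C) ^ k ∣ z) (γ : SL(2, ℤ)) :
    P.SerLE (P.abv (q : ℂ) ^ k) (serA C γ z) := by
  obtain ⟨w, rfl⟩ := hz
  rw [map_mul, map_pow, map_natCast (serA C γ),
    ← map_natCast (HahnSeries.C : ℂ →+* LaurentSeries ℂ), ← map_pow HahnSeries.C]
  exact CPlace.SerLE.C_mul (map_pow _ _ _).le (serIn_ring_serA C γ w)

variable {n : ℕ} [NeZero n] (E : Elt P hM n) (hE : E.Over C) {ξ : C.O0}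

include hqm in
theorem unitCoeff_gA (hξ : ξ ^ n = 1) (γ : SL(2, ℤ)) :
    P.UnitCoeff (serA C γ (gA C haux hM E hE ξ)) := by
  obtain ⟨t, ht⟩ := exists_isTyp (q := q) γ
  refine unitCoeff_of_not_serLT (serIn_ring_serA C γ _) fun h => ?_
  have h1 := (resA_eq_zero_iff C).mpr ((mem_smA C).mpr h)
  rw [resA_eq_rho C haux hM ht rfl] at h1
  exact rho_gA_ne C haux hM hqm E hE hξ t γ h1

include hqm in
theorem serA_mul_xV_ne : serA C 1 (dA C haux hM * xV C haux hM E hE ^ (q + 1)) ≠ 0 := fun h => by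
  have h0 := serA_injective C 1 (h.trans (map_zero _).symm)
  have h1 := congrArg (rho C hM .inf 1) h0
  rw [map_zero, map_mul, map_pow, rho_dA C haux hM hqm, rho_xV, mul_eq_zero] at h1
  rcases h1 with h1 | h1
  · exact (rho_eInf C haux hM hqm .inf 1).mp h1 rfl
  · exact mul_ne_zero (wBar_ne_zero C haux hM hqm 1) (rho_vA_ne C haux hM E hE .inf 1)
      (eq_zero_of_pow_eq_zero h1)

include hqm in
/-- **The power of the root is invariant.** -/
theorem act_pow_eq_of_localRoot (hn : n.Coprime q) (hξ : IsXi C haux hM E hE ξ)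
    (hloc : ∀ 𝔪 : Ideal (A0 C), 𝔪.IsMaximal → (q : A0 C) ∈ 𝔪 → gA C haux hM E hE ξ ∈ 𝔪 →
      LocalRootNil 𝔪 (q : A0 C) (yy C haux hM E hE) (gA C haux hM E hE ξ) n)
    {δ : SL(2, ℤ)} (hδ : δ ∈ lamD q M) :
    act δ (E.h ^ (q * (q ^ 2 - 1))) = E.h ^ (q * (q ^ 2 - 1)) := by
  have := isNoetherianRing_A0 C haux
  set C0 := q * (q ^ 2 - 1)
  set F := dA C haux hM * xV C haux hM E hE ^ (q + 1) with hF
  set G := gA C haux hM E hE ξ
  set y := yy C haux hM E hE
  obtain ⟨v, hv⟩ := (isUnit_natCast_coef0 C hn).exists_right_inv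
  have happrox := exists_approx_of_localRoot_nil (B := A0 C) (NeZero.pos n) (v := constA C v)
    (by rw [← map_natCast (constA C), ← map_mul, hv, map_one]) (q_regular C)
    (regMod_gA C haux hM hqm E hE hξ.pow_eq) (yy_sub_pow_mem C haux hM hqm E hE hξ.pow_eq) hloc
  choose hk hk1 hk2 using happrox
  set R : SL(2, ℤ) → LaurentSeries ℂ := fun γ => E.ser γ ^ C0 * serA C γ F
  have hRin : ∀ γ, SerIn P.ring (R γ) := fun γ =>
    ((E.normed γ).1.pow C0).mul (serIn_ring_serA C γ F)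
  have hRn : ∀ γ, R γ ^ n = serA C γ y := fun γ => by
    have hyA : serA C γ (yA C hM E hE) = E.ser γ ^ n := lexp_eq (lexp_pow_of (E.hasLExp γ) n)
    show _ = serA C γ (yA C hM E hE ^ C0 * F ^ n)
    rw [map_mul, map_pow, map_pow, hyA, mul_pow, pow_right_comm]
  have hroot : ∀ γ, ∃ c : ℂ, c ^ n = 1 ∧ P.SerLT (serA C γ G - HahnSeries.C c * R γ) := fun γ => by
    refine exists_root_serLT (serIn_ring_serA C γ G) (hRin γ) ?_
    have h := serLT_of_mem_radical C haux hM hqm
      (yy_sub_pow_mem C haux hM hqm E hE hξ.pow_eq) γ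
    intro i
    have h' := h i
    rw [map_sub, map_pow, HahnSeries.coeff_sub] at h'
    rw [hRn, HahnSeries.coeff_sub, P.abv.map_sub]
    exact h'
  choose c hc hcR using hroot
  set L : SL(2, ℤ) → LaurentSeries ℂ := fun γ => HahnSeries.C (c γ) * R γ with hL
  have hLin : ∀ γ, SerIn P.ring (L γ) := fun γ =>
    (SerIn.C (P.abv_eq_one_of_pow_eq_one (NeZero.ne n) (hc γ)).le).mul (hRin γ)
  have hLu : ∀ γ, P.UnitCoeff (L γ) := fun γ =>
    CPlace.UnitCoeff.of_serLE_sub (unitCoeff_gA C haux hM hqm E hE hξ.pow_eq γ) (hcR γ) (hLin γ)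
  have hclose : ∀ k γ, P.SerLE (P.abv (q : ℂ) ^ k) (serA C γ (hk k) - L γ) := fun k γ => by
    refine CPlace.SerLE.of_pow_sub_pow (pow_nonneg (P.abv.nonneg _) k) hn
      (serIn_ring_serA C γ _) (hLin γ) (fun i => ?_) (hLu γ) ?_
    · have h1 := serLT_of_mem_radical C haux hM hqm (hk1 k) γ i
      rw [map_sub, HahnSeries.coeff_sub] at h1
      have h2 := hcR γ i
      rw [HahnSeries.coeff_sub] at h2 ⊢
      have h3 := P.add_lt h1 h2
      rwa [sub_add_sub_cancel] at h3
    · rw [mul_pow, ← map_pow HahnSeries.C, hc, map_one, one_mul, hRn, ← map_pow (serA C γ),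
        ← map_sub]
      exact serLE_of_pow_dvd C (hk2 k) γ
  obtain ⟨Z, hZ, hZL⟩ := exists_mem_of_approx_level haux hM L fun e he _ => by
    obtain ⟨k, hke⟩ := exists_pow_lt_of_lt_one he P.lt_one
    exact ⟨hk k, ES.BRing_mono C.cdvr.le (hk k).2.1.1, fun γ => (hclose k γ).mono hke.le⟩
  have hinv : act δ Z = Z := by
    refine ES.lexp_injective (ES.act_mem_BSub hZ δ) hZ (γ := 1) ?_
    rw [lexp_act, hZL, hZL]
    refine eq_of_forall_serLE (P := P) fun e he _ => ?_
    obtain ⟨k, hke⟩ := exists_pow_lt_of_lt_one he P.lt_one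
    have h1 := (hclose k 1).sub (hclose k (δ * 1))
    rw [serA_lamD_mul C hδ, sub_sub_sub_cancel_left] at h1
    exact h1.mono hke.le
  -- the function found is the expected one
  have h1 := E.hasLExp 1
  have hFexp : ∀ γ, HasLExp (q * M) (act γ (F : ℍ → ℂ)) (serA C γ F) := fun γ =>
    hasLExp_lexp F.2.1.1.1 γ
  have hZeq : ∀ τ, Z τ = c 1 * ((E.h τ) ^ C0 * (F : ℍ → ℂ) τ) := by
    have hA : HasLExp (q * M) (act 1 fun τ => c 1 * ((E.h τ) ^ C0 * (F : ℍ → ℂ) τ)) (L 1) :=
      ((HasLExp.const (c 1)).mul ((lexp_pow_of h1 C0).mul (hFexp 1))).congr_fun fun τ => rfl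
    have hB := hasLExp_lexp hZ 1
    rw [hZL] at hB
    have h := hB.eq_of_series hA
    rw [ES.act_one, ES.act_one] at h
    exact fun τ => congrFun h τ
  have hFinv : act δ (F : ℍ → ℂ) = F := F.2.1.2 δ hδ
  have hc0 : c 1 ≠ 0 := fun h => by
    have := hc 1
    rw [h, zero_pow (NeZero.ne n)] at this
    exact zero_ne_one this
  set D : ℍ → ℂ := act δ (E.h ^ C0) - E.h ^ C0
  have hD : HasLExp (q * M) (act 1 D) (E.ser δ ^ C0 - E.ser 1 ^ C0) :=
    ((lexp_pow_of (E.hasLExp δ) C0).sub (lexp_pow_of h1 C0)).congr_fun fun τ => by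
      simp [D, act]
  have hDF : D * (F : ℍ → ℂ) = 0 := funext fun τ => by
    have e1 := congrFun hinv τ
    have e2 := congrFun hFinv τ
    simp only [act, hZeq] at e1 e2
    simp only [D, Pi.mul_apply, Pi.sub_apply, Pi.pow_apply, act, Pi.zero_apply]
    rw [e2] at e1
    have e3 := mul_left_cancel₀ hc0 e1
    linear_combination e3
  have hzero : (E.ser δ ^ C0 - E.ser 1 ^ C0) * serA C 1 F = 0 := by
    rw [← lexp_eq ((hD.mul (hFexp 1)).congr_fun (g := act 1 (D * (F : ℍ → ℂ))) fun τ => rfl), hDF]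
    exact lexp_eq (HasLExp.zero (M := q * M))
  have hser := (mul_eq_zero.mp hzero).resolve_right (serA_mul_xV_ne C haux hM hqm E hE)
  rw [hser] at hD
  have h0 := hD.eq_of_series HasLExp.zero
  rw [ES.act_one] at h0
  exact sub_eq_zero.mp h0

end FermatAgent.BAD.Sq

end
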