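import Fermat.Agent.BAD.Sq.Level0
import Fermat.Agent.BAD.Points
import Fermat.Agent.ES.Tate.Extend

/-!
# Points and simple zeros of the model

A homomorphism to `ℂ` fixing the unramified constants is evaluation at a point of the upper half
plane; at a point where the Hauptfunktion is integral over the unramified ring some function of the
model has a simple zero.
-/

set_option autoImplicit false

open UpperHalfPlane CongruenceSubgroup Polynomial
open scoped MatrixGroups Manifold

noncomputable section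

namespace FermatAgent.BAD.Sq

open FermatAgent.ES (BSub BRing SerIn HasLExp lexp act zetaC AuxLevel CPlace vanishOrd haupt GalRel
  mapSer)

/-- Finitely many homomorphisms covering a homomorphism pointwise contain it. -/
theorem exists_eq_hom_of_forall {ι R K : Type*} [Fintype ι] [CommRing R] [Field K] [CharZero K]
    (φ : R →+* K) (f : ι → R →+* K) (h : ∀ x, ∃ i, φ x = f i x) : ∃ i, φ = f i := by
  classical
  by_contra hno
  push Not at hno
  choose w hw using fun i => not_forall.mp fun h' => hno i (RingHom.ext h')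
  set e := Fintype.equivFin ι
  set W : R[X] := ∑ k, C (w k) * X ^ (e k : ℕ)
  have hcoeff : ∀ i, W.coeff (e i : ℕ) = w i := fun i => by
    simp only [W, finsetSum_coeff, coeff_C_mul, coeff_X_pow, mul_ite, mul_one, mul_zero]
    rw [Finset.sum_eq_single i (fun k _ hk => if_neg fun h => hk
      (e.injective (Fin.ext h.symm))) (by simp), if_pos rfl]
  have hzero : (∏ i, (W.map φ - W.map (f i))) = 0 := by
    refine eq_zero_of_infinite_isRoot _ ((Set.infinite_range_of_injective
      (Nat.cast_injective (R := K))).mono ?_)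
    rintro _ ⟨n, rfl⟩
    obtain ⟨i, hi⟩ := h (W.eval (n : R))
    show Polynomial.eval _ _ = 0
    rw [eval_prod]
    refine Finset.prod_eq_zero (Finset.mem_univ i) ?_
    rw [eval_sub, eval_natCast_map, eval_natCast_map, hi, sub_self]
  obtain ⟨i, -, hi⟩ := Finset.prod_eq_zero_iff.mp hzero
  have h1 := congrArg (fun p => Polynomial.coeff p (e i : ℕ)) hi
  simp only [coeff_sub, coeff_map, hcoeff, coeff_zero, sub_eq_zero] at h1
  exact hw i h1

variable {q M m : ℕ} [hq : Fact q.Prime] [NeZero M] {P : CPlace q}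
variable (C : Coef M P) (haux : AuxLevel M m) (hM : M.Coprime q)

/-! ### Conjugations of the large ring -/

theorem conjL_mul (a b : (ZMod q)ˣ) (f : LRing q M C.O) :
    (C.D a).conjL haux ((C.D b).conjL haux f) = (C.D (a * b)).conjL haux f := by
  refine serAt_injective 1 (HahnSeries.ext (funext fun n => ?_))
  simp only [(C.D a).serAt_conjL haux _ (GalRel.one _),
    (C.D b).serAt_conjL haux _ (GalRel.one _),
    (C.D (a * b)).serAt_conjL haux _ (GalRel.one _), ES.coeff_mapSer, RingEquiv.coe_toRingHom]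
  exact C.D_mul a b _ (serIn_serAt 1 f n)

omit [NeZero M] in
theorem D_one_apply {z : ℂ} (hz : z ∈ C.O) : (C.D 1).σ z = z :=
  (C.D 1).σ.injective (by rw [C.D_mul 1 1 z hz, one_mul])

theorem conjL_one (f : LRing q M C.O) : (C.D 1).conjL haux f = f := by
  refine serAt_injective 1 (HahnSeries.ext (funext fun n => ?_))
  rw [(C.D 1).serAt_conjL haux _ (GalRel.one _), ES.coeff_mapSer, RingEquiv.coe_toRingHom]
  exact D_one_apply C (serIn_serAt 1 f n)

theorem conjL_toL (a : (ZMod q)ˣ) (z : L0 C) :
    (C.D a).conjL haux (toL C z) = toL C z := by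
  refine Subtype.ext ?_
  have h := conjS_inclS C haux a (inclL C z)
  rw [inclS_inclL, conjS_ofLRing] at h
  have h' := congrArg Subtype.val h
  rwa [coe_ofLRing, coe_ofLRing] at h'

theorem avgLR_of_fixed {f : LRing q M C.O} (h : ∀ a, (C.D a).conjL haux f = f) :
    avgLR C haux f = f := by
  show constL _ * ∑ a, (C.D a).conjL haux f = f
  simp only [h, Finset.sum_const, Finset.card_univ, ZMod.card_units q, nsmul_eq_mul]
  rw [← mul_assoc, ← map_natCast (constL (q := q) (M := M) (O := C.O)), ← map_mul]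
  convert one_mul f
  rw [← map_one (constL (q := q) (M := M) (O := C.O))]
  congr 1
  refine Subtype.ext ?_
  simp only [Subring.coe_mul, Subring.coe_one]
  rw [show (((q - 1 : ℕ) : C.O) : ℂ) = ((q - 1 : ℕ) : ℂ) by simp, inv_mul_cancel₀]
  exact Nat.cast_ne_zero.mpr (Nat.sub_pos_of_lt hq.out.one_lt).ne'

include haux in
theorem isIntegral_toL : (toL C).IsIntegral := by
  intro f
  let s : (ZMod q)ˣ → LRing q M C.O →+* LRing q M C.O := fun a => (C.D a).conjL haux
  set F : (LRing q M C.O)[X] := ∏ a, (X - Polynomial.C (s a f))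
  have hfix : ∀ b, F.map (s b) = F := fun b => by
    simp only [F, Polynomial.map_prod, Polynomial.map_sub, map_X, map_C]
    refine Fintype.prod_equiv (Equiv.mulLeft b) _ _ fun a => ?_
    show X - Polynomial.C (s b (s a f)) = _
    rw [show s b (s a f) = s (b * a) f from conjL_mul C haux b a f]
    rfl
  have hlift : F ∈ lifts (toL C) := (lifts_iff_coeff_lifts _).mpr fun i =>
    ⟨avgL C haux (F.coeff i), by
      rw [toL_avgL]
      exact avgLR_of_fixed C haux fun a => by
        show s a (F.coeff i) = _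
        rw [← coeff_map, hfix]⟩
  obtain ⟨G, hG, -, hGm⟩ := lifts_and_degree_eq_and_monic hlift
    (monic_prod_of_monic _ _ fun _ _ => monic_X_sub_C _)
  refine ⟨G, hGm, ?_⟩
  rw [← eval_map, hG, eval_prod]
  refine Finset.prod_eq_zero (Finset.mem_univ 1) ?_
  rw [eval_sub, eval_X, eval_C, show s 1 f = f from conjL_one C haux f, sub_self]

include haux in
/-- A homomorphism on `L0` fixing the constants extends to one of the large ring fixing its
constants. -/
theorem exists_extend_L0 (ψ : L0 C →+* ℂ) (hψ : ∀ c, ψ (constL0 C c) = c) :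
    ∃ φ : LRing q M C.O →+* ℂ, (∀ c : C.O, φ (constL c) = c) ∧ φ.comp (toL C) = ψ := by
  let := (toL C).toAlgebra
  have : Algebra.IsIntegral (L0 C) (LRing q M C.O) := ⟨isIntegral_toL C haux⟩
  obtain ⟨φ, hφ⟩ := ES.exists_ringHom_extend (A := L0 C) (B := LRing q M C.O) (toL_injective C) ψ
  have hφ0 : ∀ z, φ (toL C z) = ψ z := fun z => RingHom.congr_fun hφ z
  let ρ : C.O →+* ℂ := φ.comp constL
  let σs : (ZMod q)ˣ → C.O →+* ℂ := fun a => ((C.D a).σ : ℂ →+* ℂ).comp C.O.subtype
  obtain ⟨a, ha⟩ := exists_eq_hom_of_forall ρ σs fun r => by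
    set F : C.O[X] := ∏ a, (X - Polynomial.C ((C.D a).σO r))
    have hfix : ∀ b, F.map (C.D b).σO = F := fun b => by
      simp only [F, Polynomial.map_prod, Polynomial.map_sub, map_X, map_C]
      refine Fintype.prod_equiv (Equiv.mulLeft b) _ _ fun a => ?_
      rw [show (C.D b).σO ((C.D a).σO r) = (C.D (b * a)).σO r from
        Subtype.ext (C.D_mul b a _ r.2)]
      rfl
    have hρ : F.map ρ = F.map C.O.subtype := by
      ext i
      rw [coeff_map, coeff_map]
      have h0 : ((F.coeff i : C.O) : ℂ) ∈ C.O0 := (C.mem_iff _).mpr ⟨(F.coeff i).2, fun b => by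
        rw [← (C.D b).coe_σO, ← coeff_map, hfix]⟩
      show φ (constL (F.coeff i)) = _
      have := hφ0 (constL0 C ⟨_, h0⟩)
      rw [toL_constL0, hψ] at this
      exact this
    have h1 : (F.map ρ).eval (ρ r) = 0 := by
      rw [eval_map_apply, eval_prod, Finset.prod_eq_zero (Finset.mem_univ (1 : (ZMod q)ˣ))
        (by rw [eval_sub, eval_X, eval_C, show (C.D 1).σO r = r from
          Subtype.ext (D_one_apply C r.2), sub_self]), map_zero]
    rw [hρ, Polynomial.map_prod, eval_prod, Finset.prod_eq_zero_iff] at h1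
    obtain ⟨a, -, ha⟩ := h1
    rw [Polynomial.map_sub, map_X, map_C, eval_sub, eval_X, eval_C, sub_eq_zero] at ha
    exact ⟨a, ha⟩
  refine ⟨φ.comp ((C.D a⁻¹).conjL haux), fun c => ?_, RingHom.ext fun z => ?_⟩
  · rw [RingHom.comp_apply, ConjData.conjL_constL]
    have h := RingHom.congr_fun ha ((C.D a⁻¹).σO c)
    refine h.trans ?_
    show (C.D a).σ ((C.D a⁻¹).σ (c : ℂ)) = c
    rw [C.D_mul a a⁻¹ _ c.2, mul_inv_cancel]
    exact D_one_apply C c.2
  · show φ ((C.D a⁻¹).conjL haux (toL C z)) = ψ z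
    rw [conjL_toL, hφ0]

include haux hM in
/-- **A homomorphism fixing the constants is a point.** -/
theorem exists_point_A0 (ψ : A0 C →+* ℂ) (hψ : ∀ c, ψ (constA C c) = c) :
    ∃ τ : ℍ, ∀ z, ψ z = (z : ℍ → ℂ) τ := by
  obtain ⟨φ, hφc, hφ⟩ := exists_extend_L0 C haux (ψ.comp (inclL C)) fun c => hψ c
  obtain ⟨τ0, hτ0⟩ := exists_point_of_constHom haux C.root φ hφc
  let ev : BRing (q * M) C.O →+* ℂ :=
    (Pi.evalRingHom (fun _ : ℍ => ℂ) τ0).comp (BRing (q * M) C.O).subtype
  have hev : ψ.comp (inclL C) = ev.comp (toB C) := RingHom.ext fun z =>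
    (RingHom.congr_fun hφ z).symm.trans (hτ0 (toL C z))
  obtain ⟨j, hj⟩ := exists_eq_hom_of_forall ψ (fun j => ev.comp (tA C j)) fun f => by
    have h := congrArg ψ (eval_polA C hM f)
    rw [hom_eval₂, hev, ← eval_map, ← Polynomial.map_map, polA_map, polB, Polynomial.map_prod,
      eval_prod, map_zero, Finset.prod_eq_zero_iff] at h
    obtain ⟨j, -, hj⟩ := h
    rw [Polynomial.map_sub, map_X, map_C, eval_sub, eval_X, eval_C, sub_eq_zero] at hj
    exact ⟨j, hj⟩
  exact ⟨ModularGroup.T ^ (M * j.val) • τ0, fun z => RingHom.congr_fun hj z⟩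

include haux in
/-- **Simple zeros.** -/
theorem exists_simple_zero (τ : ℍ)
    (h : ∃ F : Polynomial C.O0, F.Monic ∧ (F.map C.O0.subtype).eval (haupt haux.dvd τ) = 0) :
    ∃ f : A0 C, vanishOrd (f : ℍ → ℂ) τ = 1 := by
  classical
  have : NeZero q := ⟨hq.out.ne_zero⟩
  obtain ⟨F, hFm, hF⟩ := h
  set c := haupt haux.dvd τ
  set P0 := F.map C.O0.subtype
  have hP0 : P0 ≠ 0 := (hFm.map C.O0.subtype).ne_zero
  have hk : 0 < P0.rootMultiplicity c := (rootMultiplicity_pos hP0).mpr hF
  set G := derivative^[P0.rootMultiplicity c - 1] P0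
  have hGr : G.IsRoot c := isRoot_iterate_derivative_of_lt_rootMultiplicity (by omega)
  have hG' : (derivative G).eval c ≠ 0 := by
    intro h0
    have hlt : P0.rootMultiplicity c < P0.rootMultiplicity c := by
      refine lt_rootMultiplicity_of_isRoot_iterate_derivative hP0 fun i hi => ?_
      rcases Nat.lt_or_eq_of_le hi with hi | hi
      · exact isRoot_iterate_derivative_of_lt_rootMultiplicity hi
      · rw [hi, show P0.rootMultiplicity c = (P0.rootMultiplicity c - 1) + 1 by omega,
          Function.iterate_succ_apply']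
        exact h0
    exact lt_irrefl _ hlt
  obtain ⟨H, hH⟩ := dvd_iff_isRoot.mpr hGr
  have hHc : H.eval c ≠ 0 := by
    rw [hH] at hG'
    simpa [derivative_mul] using hG'
  set G0 := derivative^[P0.rootMultiplicity c - 1] F
  have hG0 : G0.map C.O0.subtype = G := (iterate_derivative_map F C.O0.subtype _).symm
  let cst : C.O0 →+* BRing M C.O0 :=
    ((algebraMap ℂ (ℍ → ℂ)).comp C.O0.subtype).codRestrict _ fun r => ES.const_mem_BRing r.2
  set g : BRing M C.O0 := G0.eval₂ cst (tRing haux C.root0)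
  have hg : ∀ τ', (g : ℍ → ℂ) τ' = G.eval (haupt haux.dvd τ') := fun τ' => by
    rw [← hG0, eval_map]
    exact hom_eval₂ G0 cst ((Pi.evalRingHom (fun _ : ℍ => ℂ) τ').comp (BRing M C.O0).subtype) _
  have ht : MDiff (haupt haux.dvd) := by
    rw [← coe_tRing haux C.root0]
    exact ES.mdifferentiable_of_mem (tRing haux C.root0).2.1
  have hsub : MDiff (ES.hauptSub haux c) := ht.sub mdifferentiable_const
  let Hf : ℍ → ℂ := fun τ' => H.eval (haupt haux.dvd τ')
  have hHd : MDiff Hf := by
    intro τ'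
    exact (H.differentiable.differentiableAt.mdifferentiableAt).comp τ' (ht τ')
  refine ⟨inclL C (raise0 C g), ?_⟩
  have e : ((inclL C (raise0 C g) : A0 C) : ℍ → ℂ) = ES.hauptSub haux c * Hf := funext fun τ' => by
    show (g : ℍ → ℂ) τ' = (haupt haux.dvd τ' - c) * H.eval _
    rw [hg, hH, eval_mul, eval_sub, eval_X, eval_C]
  rw [e, ES.vanishOrd_mul hsub hHd, ES.vanishOrd_hauptSub haux, (ES.vanishOrd_eq_zero hHd).mpr hHc,
    add_zero]

end FermatAgent.BAD.Sq

end
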