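import Fermat.Agent.BAD.Crit
import Mathlib.RingTheory.Flat.EquationalCriterion
import Mathlib.RingTheory.AdicCompletion.AsTensorProduct

/-!
# Roots modulo powers of a parameter, congruent to `G` modulo the radical

The generalisation of the root criterion in which `y ≡ G ^ n` and the local roots `≡ G` hold
only modulo the radical of `(ϖ)`.
-/

set_option autoImplicit false

namespace FermatAgent.BAD.Sq

section General

variable {B S : Type*} [CommRing B] [CommRing S] [Algebra B S]

/-- The elements whose product with `a` is divisible by `g`, as an ideal. -/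
def divIdeal (a g : B) : Ideal B := (Ideal.span {g}).colon {a}

theorem mem_divIdeal {a g x : B} : x ∈ divIdeal a g ↔ g ∣ a * x := by
  rw [divIdeal, Submodule.mem_colon_singleton, smul_eq_mul, Ideal.mem_span_singleton, mul_comm]

/-- Conditions `g ∣ a * x` descend along flat maps. -/
theorem mem_divIdeal_map [Module.Flat B S] {a g : B} {w : S}
    (h : algebraMap B S g ∣ algebraMap B S a * w) :
    w ∈ (divIdeal a g).map (algebraMap B S) := by
  obtain ⟨v, hv⟩ := h
  have hrel : ∑ i : Fin 2, (![a, -g] : Fin 2 → B) i • (![w, v] : Fin 2 → S) i = 0 := by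
    simp [Fin.sum_univ_two, Algebra.smul_def, hv]
  obtain ⟨k, b, y, hxy, hb⟩ := Module.Flat.isTrivialRelation_of_sum_smul_eq_zero hrel
  have hw := hxy 0
  simp only [Matrix.cons_val_zero] at hw
  rw [hw]
  refine Submodule.sum_mem _ fun j _ => ?_
  rw [Algebra.smul_def]
  refine Ideal.mul_mem_right _ _ (Ideal.mem_map_of_mem _ (mem_divIdeal.mpr ⟨b 1 j, ?_⟩))
  have := hb j
  simp only [Fin.sum_univ_two, Matrix.cons_val_zero, Matrix.cons_val_one] at this
  linear_combination this

theorem regMod_map [Module.Flat B S] {ϖ z : B} (h : RegMod ϖ z) :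
    RegMod (algebraMap B S ϖ) (algebraMap B S z) := fun x hx => by
  have h1 := mem_divIdeal_map hx
  have h2 : divIdeal z ϖ ≤ Ideal.span {ϖ} := fun y hy =>
    Ideal.mem_span_singleton.mpr (h y (mem_divIdeal.mp hy))
  have h3 := Ideal.map_mono h2 h1
  rwa [Ideal.map_span, Set.image_singleton, Ideal.mem_span_singleton] at h3

/-- A regular element stays regular along a flat map. -/
theorem regular_map [Module.Flat B S] {ϖ : B} (h : ∀ x, ϖ * x = 0 → x = 0) (x : S)
    (hx : algebraMap B S ϖ * x = 0) : x = 0 := by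
  have h1 := mem_divIdeal_map (a := ϖ) (g := 0) (w := x) (by rw [map_zero, zero_dvd_iff, hx])
  have h2 : divIdeal ϖ 0 ≤ (⊥ : Ideal B) := fun y hy =>
    Ideal.mem_bot.mpr (h y (zero_dvd_iff.mp (mem_divIdeal.mp hy)))
  have h3 := Ideal.map_mono h2 h1
  rwa [Ideal.map_bot, Ideal.mem_bot] at h3

end General

variable {B : Type*} [CommRing B]

/-- An `n`-th root of `y` in the completion at `m`, congruent to `G` modulo the radical. -/
def LocalRootNil (m : Ideal B) (ϖ y G : B) (n : ℕ) : Prop :=
  ∃ L : AdicCompletion m B, L ^ n = algebraMap B (AdicCompletion m B) y ∧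
    L - algebraMap B (AdicCompletion m B) G ∈
      (Ideal.span {algebraMap B (AdicCompletion m B) ϖ}).radical

/-- **The root criterion.** -/
theorem exists_approx_of_localRoot_nil {B : Type} [CommRing B] [IsNoetherianRing B] {ϖ y G v : B}
    {n : ℕ} (hn : 0 < n) (hv : (n : B) * v = 1) (hϖ : ∀ x, ϖ * x = 0 → x = 0) (hG : RegMod ϖ G)
    (hyG : y - G ^ n ∈ (Ideal.span {ϖ}).radical)
    (hloc : ∀ m : Ideal B, m.IsMaximal → ϖ ∈ m → G ∈ m → LocalRootNil m ϖ y G n) (k : ℕ) :
    ∃ h : B, h - G ∈ (Ideal.span {ϖ}).radical ∧ ϖ ^ k ∣ h ^ n - y := by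
  obtain ⟨h, h1, h2⟩ := exists_approx_mod (A := B) (f := 1) hn hv hϖ hG
    (Ideal.le_radical (Ideal.mem_span_singleton_self _)) le_rfl
    (fun e x hx => mem_radical_of_mul_pow hG hx) hyG dvd_rfl (fun m a b d => by
      obtain ⟨L, hL, hLG⟩ := hloc m a b d
      have : Module.Flat B (AdicCompletion m B) := AdicCompletion.flat_of_isNoetherian m
      exact coverRoot_of_completion (regular_map hϖ) (regMod_map hG) hL hLG) k
  exact ⟨h, by simpa using h1, (pow_dvd_pow ϖ k.le_succ).trans (by simpa using h2)⟩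

end FermatAgent.BAD.Sq
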