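import Fermat.Agent.BAD.NodeRoot
import Mathlib.RingTheory.DiscreteValuationRing.Basic
import Mathlib.RingTheory.UniqueFactorizationDomain.Kaplansky
import Mathlib.RingTheory.Finiteness.Ideal

/-!
# Two-dimensional regular local rings given by two parameters

If `x` is a nonzerodivisor, `(x, c)` is the maximal ideal and no power of `c` is divisible by `x`,
then the ring is a factorial domain and `x` is prime.
-/

set_option autoImplicit false

open IsLocalRing

noncomputable section

namespace FermatAgent.BAD.Sq

section Reg2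

variable {R : Type} [CommRing R] [IsNoetherianRing R] [IsLocalRing R] {x c : R}

/-- `x, c` is a regular system of parameters. -/
structure Reg2 (x c : R) : Prop where
  reg : ∀ z, x * z = 0 → z = 0
  max : maximalIdeal R = Ideal.span {x, c}
  npow : ∀ N : ℕ, ¬ x ∣ c ^ N

variable (h : Reg2 x c)
include h

section

omit [IsNoetherianRing R]

/-- The first parameter is not zero. -/
theorem Reg2.ne_zero : x ≠ 0 := fun h0 =>
  one_ne_zero (h.reg 1 (by rw [h0, zero_mul]))

/-- The first parameter is not a unit. -/
theorem Reg2.not_isUnit : ¬ IsUnit x := fun hu => h.npow 0 (hu.dvd)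

/-- The first parameter generates a proper ideal. -/
theorem Reg2.span_ne_top : Ideal.span {x} ≠ (⊤ : Ideal R) := fun e =>
  h.not_isUnit (Ideal.span_singleton_eq_top.mp e)

theorem Reg2.nontrivial_quot : Nontrivial (R ⧸ Ideal.span {x}) :=
  Ideal.Quotient.nontrivial_iff.mpr h.span_ne_top

/-- The quotient by the first parameter is local. -/
theorem Reg2.isLocalRing_quot : IsLocalRing (R ⧸ Ideal.span {x}) :=
  haveI := h.nontrivial_quot
  IsLocalRing.of_surjective' (Ideal.Quotient.mk _) Ideal.Quotient.mk_surjective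

theorem Reg2.maximalIdeal_quot :
    haveI := h.isLocalRing_quot
    maximalIdeal (R ⧸ Ideal.span {x}) = Ideal.span {Ideal.Quotient.mk _ c} := by
  have := h.isLocalRing_quot
  rw [← IsLocalRing.map_maximalIdeal_of_surjective (Ideal.Quotient.mk (Ideal.span {x}))
    Ideal.Quotient.mk_surjective, h.max, Ideal.map_span, Set.image_pair,
    Ideal.Quotient.eq_zero_iff_mem.mpr (Ideal.mem_span_singleton_self x), Ideal.span_insert_zero]

end

/-- Modulo `x` every nonzero element is a power of `c` times a unit. -/
theorem Reg2.exists_eq_pow_mul (z : R ⧸ Ideal.span {x}) (hz : z ≠ 0) :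
    ∃ (k : ℕ) (u : (R ⧸ Ideal.span {x})ˣ), Ideal.Quotient.mk (Ideal.span {x}) c ^ k * u = z := by
  classical
  have := h.isLocalRing_quot
  set c' := Ideal.Quotient.mk (Ideal.span {x}) c
  have hbot := Ideal.iInf_pow_eq_bot_of_isLocalRing (maximalIdeal (R ⧸ Ideal.span {x}))
    (IsLocalRing.maximalIdeal.isMaximal _).ne_top
  have hex : ∃ k, ¬ c' ^ (k + 1) ∣ z := by
    by_contra hno
    push Not at hno
    refine hz ?_
    rw [← Ideal.mem_bot, ← hbot, Submodule.mem_iInf]
    intro k
    rw [h.maximalIdeal_quot, Ideal.span_singleton_pow, Ideal.mem_span_singleton]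
    cases k with
    | zero => simp
    | succ k => exact hno k
  set k := Nat.find hex with hk
  obtain ⟨w, hw⟩ : c' ^ k ∣ z := by
    rcases Nat.eq_zero_or_pos k with h0 | h0
    · rw [h0, pow_zero]; exact one_dvd _
    · obtain ⟨j, hj⟩ : ∃ j, k = j + 1 := ⟨k - 1, by omega⟩
      have := Nat.find_min hex (m := j) (by omega)
      rw [not_not] at this
      rwa [hj]
  have hwu : IsUnit w := by
    by_contra hwu
    have hm : w ∈ maximalIdeal (R ⧸ Ideal.span {x}) := (mem_maximalIdeal w).mpr hwu
    rw [h.maximalIdeal_quot, Ideal.mem_span_singleton] at hm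
    obtain ⟨w', hw'⟩ := hm
    exact Nat.find_spec hex ⟨w', hw.trans (by rw [hw', ← hk, pow_succ]; ring)⟩
  exact ⟨k, hwu.unit, hw.symm⟩

/-- The quotient by the first parameter is a domain. -/
theorem Reg2.isDomain_quot : IsDomain (R ⧸ Ideal.span {x}) := by
  have := h.isLocalRing_quot
  have : NoZeroDivisors (R ⧸ Ideal.span {x}) := ⟨fun {a b} hab => by
    by_contra hno
    rw [not_or] at hno
    obtain ⟨i, u, rfl⟩ := h.exists_eq_pow_mul a hno.1
    obtain ⟨j, v, rfl⟩ := h.exists_eq_pow_mul b hno.2
    have h1 : Ideal.Quotient.mk (Ideal.span {x}) c ^ (i + j) * ((u * v : _ˣ) : R ⧸ Ideal.span {x}) =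
        0 := by rw [← hab, Units.val_mul, pow_add]; ring
    rw [Units.mul_left_eq_zero, ← map_pow, Ideal.Quotient.eq_zero_iff_mem,
      Ideal.mem_span_singleton] at h1
    exact h.npow _ h1⟩
  exact NoZeroDivisors.to_isDomain _

/-- The quotient by the first parameter is a discrete valuation ring. -/
theorem Reg2.isDVR_quot :
    haveI := h.isDomain_quot
    IsDiscreteValuationRing (R ⧸ Ideal.span {x}) := by
  have := h.isLocalRing_quot
  have := h.isDomain_quot
  refine IsDiscreteValuationRing.ofHasUnitMulPowIrreducibleFactorization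
    ⟨Ideal.Quotient.mk _ c, ?_, fun {z} hz => ?_⟩
  · refine IsDiscreteValuationRing.irreducible_of_span_eq_maximalIdeal _ (fun h0 => ?_)
      h.maximalIdeal_quot
    rw [Ideal.Quotient.eq_zero_iff_mem, Ideal.mem_span_singleton] at h0
    exact h.npow 1 (by rwa [pow_one])
  · obtain ⟨k, u, e⟩ := h.exists_eq_pow_mul z hz
    exact ⟨k, u, e⟩

/-- The first parameter is prime. -/
theorem Reg2.prime : Prime x := by
  have := h.isDomain_quot
  exact (Ideal.span_singleton_prime h.ne_zero).mp
    ((Ideal.Quotient.isDomain_iff_prime _).mp inferInstance)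

/-- The ring is a domain. -/
theorem Reg2.isDomain : IsDomain R :=
  isDomain_of_regular_prime h.reg h.not_isUnit fun _ _ => h.prime.dvd_or_dvd

/-- A prime not containing `x` is principal. -/
theorem Reg2.principal_of_notMem {P : Ideal R} (hP : P.IsPrime) (hx : x ∉ P) :
    ∃ f, P = Ideal.span {f} :=
  have := h.isDomain_quot
  have := h.isDVR_quot
  principal_of_notMem_of_surjective (f := Ideal.Quotient.mk (Ideal.span {x}))
    Ideal.Quotient.mk_surjective h.not_isUnit
    (fun _ hz => Ideal.Quotient.eq_zero_iff_dvd _ _ |>.mp hz) hP hx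

/-- The ring is factorial. -/
theorem Reg2.ufm : haveI := h.isDomain; UniqueFactorizationMonoid R := by
  have := h.isDomain
  refine UniqueFactorizationMonoid.iff_exists_prime_mem_of_isPrime.mpr fun P hP0 hP => ?_
  by_cases hx : x ∈ P
  · exact ⟨x, hx, h.prime⟩
  obtain ⟨f, rfl⟩ := h.principal_of_notMem hP hx
  refine ⟨f, Ideal.mem_span_singleton_self f, (Ideal.span_singleton_prime ?_).mp hP⟩
  rintro rfl
  exact hP0 (by simp)

/-- The only prime containing a prime element and an element prime to it is the maximal one. -/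
theorem Reg2.eq_max_of_mem {π r : R} (hπ : Prime π) (hr : ¬ π ∣ r) {P : Ideal R} (hP : P.IsPrime)
    (h1 : π ∈ P) (h2 : r ∈ P) : P = maximalIdeal R := by
  have := h.isDomain
  by_cases hx : x ∈ P
  · by_cases hc : c ∈ P
    · refine le_antisymm (IsLocalRing.le_maximalIdeal hP.ne_top) ?_
      rw [h.max, Ideal.span_le]
      rintro _ (rfl | rfl) <;> assumption
    exfalso
    have hsub : ∀ z ∈ P, x ∣ z := by
      intro z hz
      by_contra hno
      obtain ⟨k, u, e⟩ := h.exists_eq_pow_mul (Ideal.Quotient.mk _ z) (by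
        rwa [Ne, Ideal.Quotient.eq_zero_iff_mem, Ideal.mem_span_singleton])
      obtain ⟨u', hu'⟩ := Ideal.Quotient.mk_surjective (u : R ⧸ Ideal.span {x})
      rw [← hu', ← map_pow, ← map_mul, Ideal.Quotient.eq, Ideal.mem_span_singleton] at e
      obtain ⟨w, hw⟩ := e
      have hu : u' ∉ P := fun hmem => by
        have := h.isLocalRing_quot
        have hm : u' ∈ maximalIdeal R := IsLocalRing.le_maximalIdeal hP.ne_top hmem
        have := Ideal.mem_map_of_mem (Ideal.Quotient.mk (Ideal.span {x})) hm
        rw [IsLocalRing.map_maximalIdeal_of_surjective _ Ideal.Quotient.mk_surjective, hu'] at this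
        exact (mem_maximalIdeal _).mp this u.isUnit
      refine (hP.mem_or_mem (show c ^ k * u' ∈ P by
        rw [eq_add_of_sub_eq hw]; exact P.add_mem (P.mul_mem_right _ hx) hz)).elim
        (fun hh => hc (hP.mem_of_pow_mem k hh)) hu
    exact hr ((h.prime.associated_of_dvd hπ (hsub π h1)).symm.dvd.trans (hsub r h2))
  · obtain ⟨f, rfl⟩ := h.principal_of_notMem hP hx
    rw [Ideal.mem_span_singleton] at h1 h2
    have hf0 : f ≠ 0 := by rintro rfl; exact hπ.ne_zero (zero_dvd_iff.mp h1)
    have hfp : Prime f := (Ideal.span_singleton_prime hf0).mp hP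
    exact absurd ((hfp.associated_of_dvd hπ h1).symm.dvd.trans h2) hr

/-- A prime element and one prime to it generate an ideal containing a power of the maximal ideal.
-/
theorem Reg2.exists_pow_max_le {π r : R} (hπ : Prime π) (hr : ¬ π ∣ r) :
    ∃ N, maximalIdeal R ^ N ≤ Ideal.span {π, r} := by
  refine Ideal.exists_pow_le_of_le_radical_of_fg ?_ (IsNoetherian.noetherian _)
  rw [Ideal.radical_eq_sInf]
  refine le_sInf fun P ⟨hle, hP⟩ => ?_
  rw [h.eq_max_of_mem hπ hr hP (hle (Ideal.subset_span (by simp)))
    (hle (Ideal.subset_span (by simp)))]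

end Reg2

/-- In a factorial domain the radical of a principal ideal is detected on its prime factors. -/
theorem mem_radical_of_primes {R : Type} [CommRing R] [UniqueFactorizationMonoid R]
    {a d : R} (ha : a ≠ 0) (hd : ∀ π, Prime π → π ∣ a → π ∣ d) :
    d ∈ (Ideal.span {a}).radical := by
  rw [Ideal.radical_eq_sInf, Submodule.mem_sInf]
  rintro P ⟨hle, hP⟩
  obtain ⟨f, hf, u, hu⟩ := UniqueFactorizationMonoid.exists_prime_factors a ha
  have hmem : f.prod ∈ P := by
    have h1 : a ∈ P := hle (Ideal.mem_span_singleton_self a)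
    rw [← hu] at h1
    exact (hP.mem_or_mem h1).resolve_right
      fun hu' => hP.ne_top (Ideal.eq_top_of_isUnit_mem _ hu' u.isUnit)
  obtain ⟨π, hπf, hπP⟩ := (hP.multiset_prod_mem_iff_exists_mem f).mp hmem
  exact Ideal.mem_of_dvd P (hd π (hf π hπf) ((Multiset.dvd_prod hπf).trans ⟨(u : R), hu.symm⟩)) hπP

/-- Finitely many elements span modulo each power of a maximal ideal with constant residues. -/
theorem exists_finset_span_pow {O B : Type} [CommRing O] [CommRing B] [Algebra O B]
    [IsNoetherianRing B] (m : Ideal B) (hres : ∀ z : B, ∃ c : O, z - algebraMap O B c ∈ m)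
    (N : ℕ) : ∃ s : Finset B, ∀ z : B, ∃ w ∈ Submodule.span O (s : Set B), z - w ∈ m ^ N := by
  classical
  obtain ⟨G, hG⟩ := (IsNoetherian.noetherian m : m.FG)
  induction N with
  | zero => exact ⟨∅, fun z => ⟨0, zero_mem _, by simp⟩⟩
  | succ j ih =>
    obtain ⟨s, hs⟩ := ih
    refine ⟨insert 1 (Finset.image₂ (· * ·) G s), fun z => ?_⟩
    obtain ⟨c, hc⟩ := hres z
    suffices key : ∀ a ∈ Ideal.span (G : Set B), ∀ r : B, ∃ w ∈
        Submodule.span O ((insert 1 (Finset.image₂ (· * ·) G s) : Finset B) : Set B),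
        r * a - w ∈ m ^ (j + 1) by
      obtain ⟨w, hw, hzw⟩ := key (z - algebraMap O B c)
        (show z - algebraMap O B c ∈ Submodule.span B (G : Set B) by rw [hG]; exact hc) 1
      refine ⟨algebraMap O B c + w, add_mem ?_ hw, ?_⟩
      · rw [Algebra.algebraMap_eq_smul_one]
        exact Submodule.smul_mem _ _ (Submodule.subset_span (by simp))
      · rw [one_mul] at hzw
        rwa [← sub_sub]
    intro a ha
    induction ha using Submodule.span_induction with
    | mem g hg =>
      intro r
      obtain ⟨w, hw, hrw⟩ := hs r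
      refine ⟨g * w, ?_, ?_⟩
      · clear hrw
        induction hw using Submodule.span_induction with
        | mem v hv =>
          exact Submodule.subset_span (Finset.mem_coe.mpr (Finset.mem_insert_of_mem
            (Finset.mem_image₂_of_mem hg hv)))
        | zero => rw [mul_zero]; exact zero_mem _
        | add u v _ _ hu hv => rw [mul_add]; exact add_mem hu hv
        | smul o v _ hv => rw [mul_smul_comm]; exact Submodule.smul_mem _ _ hv
      · rw [show r * g - g * w = (r - w) * g by ring, pow_succ]
        exact Ideal.mul_mem_mul hrw (hG.le (Submodule.subset_span hg))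
    | zero => exact fun r => ⟨0, zero_mem _, by simp⟩
    | add u v _ _ hu hv =>
      intro r
      obtain ⟨wu, hwu, hu'⟩ := hu r
      obtain ⟨wv, hwv, hv'⟩ := hv r
      exact ⟨wu + wv, add_mem hwu hwv, by rw [mul_add, add_sub_add_comm]; exact add_mem hu' hv'⟩
    | smul o v _ hv =>
      intro r
      rw [smul_eq_mul, ← mul_assoc]
      exact hv (r * o)

/-- A root of unity of order prime to the residue characteristic comes from the constants. -/
theorem exists_const_root {O S : Type} [CommRing O] [IsLocalRing O]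
    [IsAdicComplete (maximalIdeal O) O] [CommRing S] [IsLocalRing S] (φ : O →+* S)
    [IsLocalHom φ] (hres : ∀ z : S, ∃ c, z - φ c ∈ maximalIdeal S) {n : ℕ} (hn : IsUnit (n : O))
    {z : S} (hz : z ^ n = 1) : ∃ d : O, d ^ n = 1 ∧ φ d = z := by
  have hn0 : n ≠ 0 := by rintro rfl; simp at hn
  obtain ⟨c, hc⟩ := hres z
  have hzc : residue S z = residue S (φ c) := Ideal.Quotient.eq.mpr hc
  have hcu : IsUnit c := by
    refine isUnit_of_map_unit φ _ (isUnit_of_map_unit (residue S) _ ?_)
    rw [← hzc]
    exact (IsUnit.of_pow_eq_one hz hn0).map _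
  have hc1 : residue O 1 = residue O c ^ n := by
    rw [← map_pow, eq_comm, ← sub_eq_zero, ← map_sub, residue_eq_zero_iff]
    by_contra hno
    have hu := (IsLocalRing.notMem_maximalIdeal.mp hno).map φ
    refine (IsLocalRing.notMem_maximalIdeal.mpr hu) ?_
    rw [← residue_eq_zero_iff, map_sub, map_pow, map_one, map_sub, map_pow, map_one, ← hzc,
      ← map_pow, hz, map_one, sub_self]
  obtain ⟨d, hd, hdc⟩ := exists_root_of_residue hn hcu hc1
  have hdu : IsUnit d := IsUnit.of_pow_eq_one hd hn0
  refine ⟨d, hd, eq_of_pow_eq_pow (n := n) (by simpa using hn.map φ) (hdu.map φ)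
    (by rw [← map_pow, hd, map_one, hz]) ?_⟩
  rw [hzc, ← sub_eq_zero, ← map_sub, ← map_sub, residue_eq_zero_iff]
  exact map_nonunit φ _ (by
    rw [← residue_eq_zero_iff, map_sub, hdc, sub_self])

end FermatAgent.BAD.Sq

end
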