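import Fermat.Prelude.Thm_IsAdicComplete_of_module_finite
import Fermat.Agent.BAD.Sq.Reg2
import Fermat.Agent.BAD.Sq.Crit
import Fermat.Agent.BAD.Surject
import Mathlib.RingTheory.MvPowerSeries.Equiv

/-!
# Completions with constant residues, and descent of their height one primes

A completion onto which power series map is local Noetherian; a height one prime not containing
the uniformiser descends to a prime with finite quotient, generating it.
-/

set_option autoImplicit false

open IsLocalRing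

noncomputable section

namespace FermatAgent.BAD.Sq

section Series

variable {σ : Type} [Finite σ] {O : Type} [CommRing O] [IsDomain O] [IsDiscreteValuationRing O]
  {ϖ : O} (hϖ : Irreducible ϖ)
include hϖ

/-- The maximal ideal of a power series ring over a discrete valuation ring. -/
theorem maximalIdeal_mvPowerSeries :
    maximalIdeal (MvPowerSeries σ O) = Ideal.span (Set.range MvPowerSeries.X) ⊔
      Ideal.span {MvPowerSeries.C ϖ} := by
  classical
  set M := maximalIdeal (MvPowerSeries σ O)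
  set J : Ideal (MvPowerSeries σ O) := Ideal.span (Set.range MvPowerSeries.X) ⊔
    Ideal.span {MvPowerSeries.C ϖ}
  have hJM : J ≤ M := by
    refine sup_le (Ideal.span_le.mpr ?_) ((Ideal.span_singleton_le_iff_mem _).mpr ?_)
    · rintro _ ⟨i, rfl⟩
      rw [SetLike.mem_coe, GaloisBasic.mem_maximalIdeal_iff_constantCoeff,
        MvPowerSeries.constantCoeff_X]
      exact zero_mem _
    · rw [GaloisBasic.mem_maximalIdeal_iff_constantCoeff, MvPowerSeries.constantCoeff_C,
        hϖ.maximalIdeal_eq]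
      exact Ideal.mem_span_singleton_self ϖ
  refine le_antisymm ?_ hJM
  have hle : M ≤ J ⊔ M • M := fun F hF => by
    set p := MvPowerSeries.truncTotal 2 F
    have h2 : F - (p : MvPowerSeries σ O) ∈ M • M := by
      rw [smul_eq_mul, ← sq]
      exact GaloisBasic.sub_truncTotal_mem_pow F 2
    have hp0 : p.coeff 0 ∈ Ideal.span {ϖ} := by
      rw [← hϖ.maximalIdeal_eq, MvPowerSeries.coeff_truncTotal _ (by simp),
        MvPowerSeries.coeff_zero_eq_constantCoeff_apply]
      exact (GaloisBasic.mem_maximalIdeal_iff_constantCoeff F).mp hF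
    have hpJ : (p : MvPowerSeries σ O) ∈ J := by
      have h1 : p - MvPolynomial.C (p.coeff 0) ∈ MvPolynomial.idealOfVars σ O := by
        rw [← pow_one (MvPolynomial.idealOfVars σ O), MvPolynomial.mem_pow_idealOfVars_iff]
        intro d hd
        by_contra hlt
        have hd0 : d = 0 := (Finsupp.degree_eq_zero_iff d).mp (by omega)
        rw [MvPolynomial.mem_support_iff, hd0, MvPolynomial.coeff_sub, MvPolynomial.coeff_zero_C,
          sub_self] at hd
        exact hd rfl
      obtain ⟨a, ha⟩ := Ideal.mem_span_singleton'.mp hp0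
      have h3 : ((p - MvPolynomial.C (p.coeff 0) : MvPolynomial σ O) : MvPowerSeries σ O) ∈ J := by
        refine Ideal.mem_sup_left ?_
        have h4 := Ideal.mem_map_of_mem
          (MvPolynomial.coeToMvPowerSeries.ringHom (σ := σ) (R := O)) h1
        rw [MvPolynomial.idealOfVars, Ideal.map_span, ← Set.range_comp,
          show ((MvPolynomial.coeToMvPowerSeries.ringHom : MvPolynomial σ O →+* MvPowerSeries σ O) :
            MvPolynomial σ O → MvPowerSeries σ O) ∘ MvPolynomial.X = MvPowerSeries.X from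
            funext fun i => MvPolynomial.coe_X i] at h4
        exact h4
      have h5 : MvPowerSeries.C (p.coeff 0) ∈ J := by
        rw [← ha, map_mul]
        exact Ideal.mem_sup_right (Ideal.mul_mem_left _ _ (Ideal.mem_span_singleton_self _))
      have := add_mem h3 h5
      rwa [← MvPolynomial.coe_C, ← MvPolynomial.coe_add, sub_add_cancel] at this
    rw [show F = (p : MvPowerSeries σ O) + (F - p) by ring]
    exact add_mem (Ideal.mem_sup_left hpJ) (Ideal.mem_sup_right h2)
  exact Submodule.le_of_le_smul_of_le_jacobson_bot (IsNoetherian.noetherian M)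
    (le_of_eq (jacobson_eq_maximalIdeal ⊥ bot_ne_top).symm) hle

end Series

/-! ### The completion -/

/-- The completion is local and Noetherian, its maximal ideal comes from `𝔪`, and elements of
the ring approximate. -/
structure GoodCompl {A : Type} [CommRing A] (𝔪 : Ideal A) : Prop where
  noeth : IsNoetherianRing (AdicCompletion 𝔪 A)
  loc : IsLocalRing (AdicCompletion 𝔪 A)
  max : maximalIdeal (AdicCompletion 𝔪 A) = 𝔪.map (algebraMap A (AdicCompletion 𝔪 A))
  unit : ∀ a : A, a ∉ 𝔪 → IsUnit (algebraMap A (AdicCompletion 𝔪 A) a)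
  approx : ∀ (b : AdicCompletion 𝔪 A) (k : ℕ), ∃ a : A,
    b - algebraMap A (AdicCompletion 𝔪 A) a ∈
      𝔪.map (algebraMap A (AdicCompletion 𝔪 A)) ^ k

variable {O : Type} [CommRing O] [IsDomain O] [IsDiscreteValuationRing O]
  [IsAdicComplete (maximalIdeal O) O] {ϖ : O} (hϖ : Irreducible ϖ)
  {A : Type} [CommRing A] [Algebra O A] [IsNoetherianRing A] {𝔪 : Ideal A} [h𝔪 : 𝔪.IsMaximal]
  (hϖm : algebraMap O A ϖ ∈ 𝔪)
include hϖ hϖm

/-- Elements generating `𝔪` locally make the completion a quotient of power series. -/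
theorem goodCompl_of_gen {σ : Type} [Finite σ] (x : σ → A) (hx : ∀ i, x i ∈ 𝔪)
    (hgen : ∀ g : A, ∃ s ∉ 𝔪, ∃ c : O, s * (g - algebraMap O A c) ∈
      Ideal.span (Set.range x) ⊔ Ideal.span {algebraMap O A ϖ}) :
    ∃ h : GoodCompl 𝔪, haveI := h.loc;
      maximalIdeal (AdicCompletion 𝔪 A) =
        Ideal.span (Set.range (algebraMap A (AdicCompletion 𝔪 A) ∘ x)) ⊔
          Ideal.span {algebraMap A (AdicCompletion 𝔪 A) (algebraMap O A ϖ)} := by
  classical
  set f := algebraMap A (AdicCompletion 𝔪 A)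
  set Φ := complHom (O := O) 𝔪 x hx
  have hsurj : Function.Surjective Φ := complHom_surjective 𝔪 hϖ x hx hgen hϖm
  have : Nontrivial (AdicCompletion 𝔪 A) :=
    ⟨⟨1, 0, fun h10 => h𝔪.ne_top ((Ideal.eq_top_iff_one _).mpr (by
      have h := memLoc_of_completion (m := 𝔪) (I := 𝔪) (x := 1)
        (by rw [map_one, h10]; exact zero_mem _)
      obtain ⟨s, hs, hs1⟩ := h
      exact absurd (by rwa [mul_one] at hs1) hs))⟩⟩
  have hloc : IsLocalRing (AdicCompletion 𝔪 A) := IsLocalRing.of_surjective' Φ hsurj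
  have hnoe : IsNoetherianRing (AdicCompletion 𝔪 A) := isNoetherianRing_of_surjective _ _ Φ hsurj
  have hmax : maximalIdeal (AdicCompletion 𝔪 A) =
      Ideal.span (Set.range (f ∘ x)) ⊔ Ideal.span {f (algebraMap O A ϖ)} := by
    rw [← IsLocalRing.map_maximalIdeal_of_surjective Φ hsurj, maximalIdeal_mvPowerSeries hϖ,
      Ideal.map_sup, Ideal.map_span, Ideal.map_span, ← Set.range_comp, Set.image_singleton,
      complHom_C]
    congr 3
    funext i
    exact complHom_X 𝔪 x hx i
  have hle : maximalIdeal (AdicCompletion 𝔪 A) ≤ 𝔪.map f := by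
    rw [hmax]
    refine sup_le (Ideal.span_le.mpr ?_) ((Ideal.span_singleton_le_iff_mem _).mpr
      (Ideal.mem_map_of_mem f hϖm))
    rintro _ ⟨i, rfl⟩
    exact Ideal.mem_map_of_mem f (hx i)
  have hunit : ∀ a : A, a ∉ 𝔪 → IsUnit (f a) := fun a ha => by
    by_contra hno
    obtain ⟨s, hs, hsa⟩ := memLoc_of_completion (hle ((mem_maximalIdeal _).mpr hno))
    exact (h𝔪.isPrime.mem_or_mem hsa).elim hs ha
  have hge : 𝔪.map f ≤ maximalIdeal (AdicCompletion 𝔪 A) := by
    refine IsLocalRing.le_maximalIdeal fun h1 => ?_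
    obtain ⟨s, hs, hs1⟩ := memLoc_of_completion (m := 𝔪) (I := 𝔪) (x := 1)
      (by rw [h1]; exact Submodule.mem_top)
    exact hs (by rwa [mul_one] at hs1)
  have heq := le_antisymm hle hge
  refine ⟨⟨hnoe, hloc, heq, hunit, fun b k => ?_⟩, hmax⟩
  obtain ⟨F, rfl⟩ := hsurj b
  refine ⟨MvPolynomial.aeval x (MvPowerSeries.truncTotal k F), ?_⟩
  rw [← complHom_coe 𝔪 x hx, ← map_sub, ← heq,
    ← IsLocalRing.map_maximalIdeal_of_surjective Φ hsurj, ← Ideal.map_pow]
  exact Ideal.mem_map_of_mem _ (GaloisBasic.sub_truncTotal_mem_pow F k)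

/-- **A point of one component**: two parameters. -/
theorem reg2_of_gen [IsDomain A] {x T : A} (hx : x ∈ 𝔪) (hT : T ∈ 𝔪) (hx0 : x ≠ 0)
    (hgen : ∀ g : A, ∃ s ∉ 𝔪, ∃ c : O, s * (g - algebraMap O A c) ∈ Ideal.span {x, T})
    (hϖx : ∃ s ∉ 𝔪, s * algebraMap O A ϖ ∈ Ideal.span {x, T})
    (hpow : ∀ N : ℕ, ∀ s ∉ 𝔪, s * T ^ N ∉ Ideal.span {x}) :
    ∃ h : GoodCompl 𝔪, haveI := h.noeth; haveI := h.loc;
      Reg2 (algebraMap A (AdicCompletion 𝔪 A) x) (algebraMap A (AdicCompletion 𝔪 A) T) := by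
  set f := algebraMap A (AdicCompletion 𝔪 A)
  have hr : Set.range ![x, T] = {x, T} := by simp [Set.pair_comm]
  obtain ⟨h, hmax⟩ := goodCompl_of_gen hϖ hϖm ![x, T]
    (by rw [Fin.forall_fin_two]; exact ⟨hx, hT⟩) fun g => by
      obtain ⟨s, hs, c, hsc⟩ := hgen g
      exact ⟨s, hs, c, Ideal.mem_sup_left (hr.symm ▸ hsc)⟩
  refine ⟨h, ?_⟩
  have := h.noeth
  have := h.loc
  have : Module.Flat A (AdicCompletion 𝔪 A) := AdicCompletion.flat_of_isNoetherian 𝔪
  refine ⟨fun z hz => regular_map (fun a ha => (mul_eq_zero.mp ha).resolve_left hx0) z hz, ?_,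
    fun N hN => ?_⟩
  · rw [hmax, Set.range_comp, hr, Set.image_pair, sup_eq_left,
      Ideal.span_singleton_le_iff_mem]
    obtain ⟨s, hs, hsϖ⟩ := hϖx
    have h1 := Ideal.mem_map_of_mem f hsϖ
    rwa [map_mul, Ideal.map_span, Set.image_pair,
      Ideal.unit_mul_mem_iff_mem _ (h.unit s hs)] at h1
  · obtain ⟨s, hs, hsT⟩ := memLoc_of_completion (m := 𝔪) (I := Ideal.span {x}) (x := T ^ N) (by
      rw [Ideal.map_span, Set.image_singleton, Ideal.mem_span_singleton, map_pow]; exact hN)
    exact hpow N s hs hsT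

omit [IsAdicComplete (maximalIdeal O) O] [IsNoetherianRing A] h𝔪 in
/-- A proper quotient of the completion is separated for the powers of the maximal ideal of `O`. -/
private theorem isHausdorff_quotient (hG : GoodCompl 𝔪) {I : Ideal (AdicCompletion 𝔪 A)}
    (hI : I ≠ ⊤) : IsHausdorff (maximalIdeal O) (AdicCompletion 𝔪 A ⧸ I) := by
  have := hG.noeth
  have := hG.loc
  have : Nontrivial (AdicCompletion 𝔪 A ⧸ I) := Ideal.Quotient.nontrivial_iff.mpr hI
  have : IsLocalRing (AdicCompletion 𝔪 A ⧸ I) :=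
    IsLocalRing.of_surjective' (Ideal.Quotient.mk I) Ideal.Quotient.mk_surjective
  refine ⟨fun z hz => ?_⟩
  have hz' : ∀ k, z ∈ maximalIdeal (AdicCompletion 𝔪 A ⧸ I) ^ k := fun k => by
    have h1 := hz k
    rw [SModEq.zero] at h1
    refine Submodule.smul_induction_on h1 (fun r hr w _ => ?_) fun a b ha hb => add_mem ha hb
    rw [Algebra.smul_def]
    refine Ideal.mul_mem_right _ _ ?_
    rw [hϖ.maximalIdeal_eq, Ideal.span_singleton_pow, Ideal.mem_span_singleton] at hr
    refine Ideal.mem_of_dvd _ (map_dvd (algebraMap O (AdicCompletion 𝔪 A ⧸ I)) hr) ?_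
    rw [map_pow]
    refine Ideal.pow_mem_pow ?_ k
    rw [← IsLocalRing.map_maximalIdeal_of_surjective (Ideal.Quotient.mk I)
      Ideal.Quotient.mk_surjective]
    exact Ideal.mem_map_of_mem (Ideal.Quotient.mk I)
      (show algebraMap A _ (algebraMap O A ϖ) ∈ maximalIdeal (AdicCompletion 𝔪 A) by
        rw [hG.max]; exact Ideal.mem_map_of_mem _ hϖm)
  rw [← Ideal.mem_bot, ← Ideal.iInf_pow_eq_bot_of_isLocalRing
    (maximalIdeal (AdicCompletion 𝔪 A ⧸ I)) (IsLocalRing.maximalIdeal.isMaximal _).ne_top]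
  exact Submodule.mem_iInf _ |>.mpr hz'

omit h𝔪 in
/-- If a power of the maximal ideal lies in `I + (ϖ)`, finitely many elements of `A` span the
quotient of the completion by `I` over `O`. -/
private theorem exists_span_quotient (hG : GoodCompl 𝔪)
    (hres : ∀ z : A, ∃ c : O, z - algebraMap O A c ∈ 𝔪) {I : Ideal (AdicCompletion 𝔪 A)}
    (hI : I ≠ ⊤) {N : ℕ}
    (hN : haveI := hG.loc; maximalIdeal (AdicCompletion 𝔪 A) ^ N ≤
      I ⊔ Ideal.span {algebraMap A (AdicCompletion 𝔪 A) (algebraMap O A ϖ)}) :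
    ∃ S : Finset A, Function.Surjective (Fintype.linearCombination O fun i : S =>
      Ideal.Quotient.mk I (algebraMap A (AdicCompletion 𝔪 A) i)) := by
  classical
  have := hG.loc
  set f := algebraMap A (AdicCompletion 𝔪 A)
  let g : A →ₐ[O] AdicCompletion 𝔪 A ⧸ I :=
    (Ideal.Quotient.mkₐ O I).comp (IsScalarTower.toAlgHom O A (AdicCompletion 𝔪 A))
  obtain ⟨S, hS⟩ := exists_finset_span_pow (O := O) 𝔪 hres N
  refine ⟨S, ?_⟩
  have := isHausdorff_quotient hϖ hϖm hG hI
  have := (IsAdicComplete.of_module_finite (maximalIdeal O) (S → O)).toIsPrecomplete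
  refine surjective_of_mkQ_comp_surjective (I := maximalIdeal O) fun z => ?_
  obtain ⟨z, rfl⟩ := Submodule.Quotient.mk_surjective _ z
  obtain ⟨b, rfl⟩ := Ideal.Quotient.mk_surjective z
  obtain ⟨a, ha⟩ := hG.approx b N
  obtain ⟨w, hw, haw⟩ := hS a
  obtain ⟨v, hv⟩ : g w ∈
      LinearMap.range (Fintype.linearCombination O fun i : S => Ideal.Quotient.mk I (f i)) := by
    rw [Fintype.range_linearCombination]
    have h := Submodule.apply_mem_span_image_of_mem_span g.toLinearMap hw
    rwa [Set.image_eq_range] at h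
  refine ⟨v, ?_⟩
  rw [LinearMap.comp_apply, hv, Submodule.mkQ_apply, Submodule.Quotient.eq]
  have h1 : b - f w ∈ I ⊔ Ideal.span {f (algebraMap O A ϖ)} := by
    refine hN ?_
    rw [hG.max, show b - f w = b - f a + f (a - w) by rw [map_sub]; ring, ← Ideal.map_pow]
    exact add_mem (Ideal.map_pow f 𝔪 N ▸ ha) (Ideal.mem_map_of_mem f haw)
  obtain ⟨i, hi, y, hy, hu⟩ := Submodule.mem_sup.mp h1
  obtain ⟨u, rfl⟩ := Ideal.mem_span_singleton'.mp hy
  have h2 : g w - Ideal.Quotient.mk I b = ϖ • -Ideal.Quotient.mk I u := by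
    rw [Algebra.smul_def]
    show Ideal.Quotient.mk I (f w) - Ideal.Quotient.mk I b =
      Ideal.Quotient.mk I (f (algebraMap O A ϖ)) * -Ideal.Quotient.mk I u
    rw [← map_neg, ← map_mul, ← map_sub, Ideal.Quotient.eq]
    convert neg_mem hi using 1
    linear_combination hu
  rw [h2]
  exact Submodule.smul_mem_smul (hϖ.maximalIdeal_eq ▸ Ideal.mem_span_singleton_self ϖ) trivial

omit hϖ [IsDomain O] [IsDiscreteValuationRing O] [IsAdicComplete (maximalIdeal O) O]
  [Algebra O A] [IsNoetherianRing A] h𝔪 hϖm in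
/-- An ideal of the completion onto whose quotient `A` maps is extended from `A`. -/
private theorem mem_map_comap (hG : GoodCompl 𝔪) {I : Ideal (AdicCompletion 𝔪 A)}
    (hsurj : Function.Surjective
      ((Ideal.Quotient.mk I).comp (algebraMap A (AdicCompletion 𝔪 A))))
    {π : AdicCompletion 𝔪 A} (hπ : π ∈ I) :
    π ∈ (I.comap (algebraMap A (AdicCompletion 𝔪 A))).map
      (algebraMap A (AdicCompletion 𝔪 A)) := by
  have := hG.noeth
  have := hG.loc
  set f := algebraMap A (AdicCompletion 𝔪 A)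
  set g := (Ideal.Quotient.mk I).comp f
  have key : ∀ k, π ∈ (I.comap f).map f ⊔ maximalIdeal (AdicCompletion 𝔪 A) ^ k := fun k => by
    obtain ⟨a, ha⟩ := hG.approx π k
    have h1 : g a ∈ (𝔪 ^ k).map g := by
      rw [← Ideal.map_map, Ideal.map_pow f]
      have h2 := Ideal.mem_map_of_mem (Ideal.Quotient.mk I) ha
      rwa [map_sub, Ideal.Quotient.eq_zero_iff_mem.mpr hπ, zero_sub, neg_mem_iff] at h2
    obtain ⟨a', ha', he⟩ := (Ideal.mem_map_iff_of_surjective g hsurj).mp h1
    have hap : a - a' ∈ I.comap f := by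
      show f (a - a') ∈ I
      rw [map_sub, ← Ideal.Quotient.eq]
      exact he.symm
    rw [show π = f (a - a') + (π - f a + f a') by rw [map_sub]; ring]
    refine add_mem (Ideal.mem_sup_left (Ideal.mem_map_of_mem f hap))
      (Ideal.mem_sup_right (add_mem ?_ ?_))
    · rw [hG.max]; exact ha
    · rw [hG.max, ← Ideal.map_pow]; exact Ideal.mem_map_of_mem f ha'
  obtain ⟨s, hs, hsπ⟩ := memLoc_of_forall_pow key
  exact (Ideal.unit_mul_mem_iff_mem _ (IsLocalRing.notMem_maximalIdeal.mp hs)).mp hsπ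

omit hϖ [IsDomain O] [IsDiscreteValuationRing O] [IsAdicComplete (maximalIdeal O) O]
  [Algebra O A] [IsNoetherianRing A] h𝔪 hϖm in
/-- A prime element which lies in the extension of its contraction is generated by an element of
`A`. -/
private theorem exists_associated_of_mem_map (hG : GoodCompl 𝔪)
    [IsDomain (AdicCompletion 𝔪 A)] {π : AdicCompletion 𝔪 A} (hπ : π ≠ 0)
    (h : π ∈ ((Ideal.span {π}).comap (algebraMap A (AdicCompletion 𝔪 A))).map
      (algebraMap A (AdicCompletion 𝔪 A))) :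
    ∃ a ∈ (Ideal.span {π}).comap (algebraMap A (AdicCompletion 𝔪 A)),
      Associated (algebraMap A (AdicCompletion 𝔪 A) a) π := by
  have := hG.loc
  set f := algebraMap A (AdicCompletion 𝔪 A)
  by_contra hne
  push Not at hne
  have hle : ((Ideal.span {π}).comap f).map f ≤
      Ideal.span {π} * maximalIdeal (AdicCompletion 𝔪 A) :=
    Ideal.map_le_iff_le_comap.mpr fun a ha => by
      obtain ⟨w, hw⟩ := Ideal.mem_span_singleton.mp (show f a ∈ Ideal.span {π} from ha)
      show f a ∈ Ideal.span {π} * maximalIdeal (AdicCompletion 𝔪 A)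
      rw [hw]
      refine Ideal.mul_mem_mul (Ideal.mem_span_singleton_self π)
        ((mem_maximalIdeal _).mpr fun hu => ?_)
      exact hne a ha ⟨hu.unit⁻¹, by rw [hw, mul_assoc, IsUnit.mul_val_inv, mul_one]⟩
  obtain ⟨μ, hμ, e⟩ := Ideal.mem_span_singleton_mul.mp (hle h)
  have h1 : μ = 1 := mul_left_cancel₀ hπ (e.trans (mul_one π).symm)
  exact (mem_maximalIdeal _).mp hμ (h1 ▸ isUnit_one)

/-- **Descent.** A height one prime of a regular completion not containing `ϖ` comes from a
prime with finite quotient, which it generates. -/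
theorem exists_descent (hG : GoodCompl 𝔪) (hres : ∀ z : A, ∃ c : O, z - algebraMap O A c ∈ 𝔪)
    {x c : AdicCompletion 𝔪 A} (hR : haveI := hG.noeth; haveI := hG.loc; Reg2 x c)
    {π : AdicCompletion 𝔪 A} (hπ : Prime π)
    (hπϖ : ¬ π ∣ algebraMap A (AdicCompletion 𝔪 A) (algebraMap O A ϖ)) :
    ∃ (p : Ideal A) (g : A), p.IsPrime ∧ p ≤ 𝔪 ∧ Module.Finite O (A ⧸ p) ∧
      (∀ r : O, algebraMap O A r ∈ p → r = 0) ∧ g ∈ p ∧
      Associated (algebraMap A (AdicCompletion 𝔪 A) g) π ∧
      ∀ a ∈ p, ∃ s ∉ 𝔪, g ∣ s * a := by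
  classical
  have := hG.noeth
  have := hG.loc
  have := hR.isDomain
  set f := algebraMap A (AdicCompletion 𝔪 A)
  have hπP : (Ideal.span {π}).IsPrime := (Ideal.span_singleton_prime hπ.ne_zero).mpr hπ
  set p := (Ideal.span {π}).comap f
  have hp : p.IsPrime := Ideal.comap_isPrime _ _
  have hple : p ≤ 𝔪 := fun a ha => by
    by_contra hno
    exact hπ.not_isUnit (isUnit_of_dvd_unit (Ideal.mem_span_singleton.mp ha) (hG.unit a hno))
  -- finiteness
  obtain ⟨N, hN⟩ := hR.exists_pow_max_le hπ hπϖ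
  obtain ⟨S, hS⟩ := exists_span_quotient hϖ hϖm hG hres hπP.ne_top
    (hN.trans_eq (Ideal.span_insert _ _))
  let g : A →ₐ[O] AdicCompletion 𝔪 A ⧸ Ideal.span {π} :=
    (Ideal.Quotient.mkₐ O _).comp (IsScalarTower.toAlgHom O A (AdicCompletion 𝔪 A))
  have hgsurj : Function.Surjective g := fun z => by
    obtain ⟨v, rfl⟩ := hS z
    exact ⟨∑ i : S, v i • (i : A), by simp [g, Fintype.linearCombination_apply]⟩
  have hfin : Module.Finite O (A ⧸ p) := by
    have hker : RingHom.ker g = p := Ideal.ext fun a => Ideal.Quotient.eq_zero_iff_mem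
    have := Module.Finite.of_surjective _ hS
    exact hker ▸
      Module.Finite.equiv (Ideal.quotientKerAlgEquivOfSurjective hgsurj).symm.toLinearEquiv
  have hinj : ∀ r : O, algebraMap O A r ∈ p → r = 0 := fun r hr => by
    by_contra h0
    obtain ⟨j, u, rfl⟩ := IsDiscreteValuationRing.eq_unit_mul_pow_irreducible h0 hϖ
    rw [map_mul, map_pow] at hr
    rcases hp.mem_or_mem hr with h1 | h1
    · exact hp.ne_top (Ideal.eq_top_of_isUnit_mem _ h1 (u.isUnit.map _))
    · exact hπϖ (Ideal.mem_span_singleton.mp (hp.mem_of_pow_mem _ h1))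
  -- `p` generates
  obtain ⟨a0, ha0, hass⟩ := exists_associated_of_mem_map hG hπ.ne_zero
    (mem_map_comap hG hgsurj (Ideal.mem_span_singleton_self π))
  refine ⟨p, a0, hp, hple, hfin, hinj, ha0, hass, fun a ha => ?_⟩
  obtain ⟨s, hs, hsa⟩ := memLoc_of_completion (m := 𝔪) (I := Ideal.span {a0}) (x := a) (by
    rw [Ideal.map_span, Set.image_singleton, Ideal.mem_span_singleton]
    exact hass.dvd.trans (Ideal.mem_span_singleton.mp ha))
  exact ⟨s, hs, Ideal.mem_span_singleton.mp hsa⟩

omit hϖ [IsDomain O] [IsDiscreteValuationRing O] [IsAdicComplete (maximalIdeal O) O]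
  [Algebra O A] hϖm in
/-- **A global power.** If the multiplicity of `y` at each height one prime of the completion is a
multiple of `n` and that prime is generated by a global element, `y` is an `n`-th power up to
elements invertible at `𝔪`. -/
theorem exists_global_pow [IsDomain A] (hG : GoodCompl 𝔪) {x c : AdicCompletion 𝔪 A}
    (hR : haveI := hG.noeth; haveI := hG.loc; Reg2 x c) {n : ℕ} {y : A} (hy : y ≠ 0)
    (H : ∀ π, Prime π → π ∣ algebraMap A (AdicCompletion 𝔪 A) y →
      ∃ g : A, Associated (algebraMap A (AdicCompletion 𝔪 A) g) π ∧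
        ∀ (k : ℕ) (s r : A), s ∉ 𝔪 → s * y = g ^ k * r →
          ¬ π ∣ algebraMap A (AdicCompletion 𝔪 A) r → n ∣ k) :
    ∃ s g v : A, s ∉ 𝔪 ∧ v ∉ 𝔪 ∧ y * s = g ^ n * v := by
  classical
  have := hG.noeth
  have := hG.loc
  have := hR.isDomain
  have := hR.ufm
  set f := algebraMap A (AdicCompletion 𝔪 A)
  have : Module.Flat A (AdicCompletion 𝔪 A) := AdicCompletion.flat_of_isNoetherian 𝔪
  have hne : ∀ {a : A}, a ≠ 0 → f a ≠ 0 := fun {a} ha h0 => one_ne_zero
    (regular_map (S := AdicCompletion 𝔪 A) (fun z hz => (mul_eq_zero.mp hz).resolve_left ha) 1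
      (by rw [mul_one]; exact h0))
  suffices key : ∀ b : AdicCompletion 𝔪 A, ∀ r : A, r ≠ 0 → f r = b →
      (∀ π, Prime π → π ∣ f r → ∃ g : A, Associated (f g) π ∧
        ∀ (k : ℕ) (s r' : A), s ∉ 𝔪 → s * r = g ^ k * r' → ¬ π ∣ f r' → n ∣ k) →
      ∃ s g v : A, s ∉ 𝔪 ∧ v ∉ 𝔪 ∧ r * s = g ^ n * v from key _ y hy rfl H
  intro b
  induction b using (wellFounded_dvdNotUnit (α := AdicCompletion 𝔪 A)).induction with
  | _ b ih =>
    intro r hr hrb hH
    by_cases hu : r ∈ 𝔪
    swap
    · exact ⟨1, 1, r, fun h => h𝔪.ne_top ((Ideal.eq_top_iff_one _).mpr h), hu, by simp⟩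
    have hnu : ¬ IsUnit (f r) := fun h => by
      have h1 : f r ∈ maximalIdeal (AdicCompletion 𝔪 A) := by
        rw [hG.max]; exact Ideal.mem_map_of_mem f hu
      exact (mem_maximalIdeal _).mp h1 h
    obtain ⟨π, hπi, hπr⟩ := WfDvdMonoid.exists_irreducible_factor hnu (hne hr)
    have hπ := UniqueFactorizationMonoid.irreducible_iff_prime.mp hπi
    obtain ⟨g, ⟨u, hgπ⟩, hg⟩ := hH π hπ hπr
    obtain ⟨k, w, hw, hfac⟩ := WfDvdMonoid.max_power_factor (hne hr) hπi
    obtain ⟨s, hs, hsr⟩ := memLoc_of_completion (m := 𝔪) (I := Ideal.span {g ^ k}) (x := r) (by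
      rw [Ideal.map_span, Set.image_singleton, Ideal.mem_span_singleton, map_pow]
      refine ⟨((u ^ k : (AdicCompletion 𝔪 A)ˣ) : AdicCompletion 𝔪 A) * w, ?_⟩
      show f r = _
      rw [hfac, ← hgπ, mul_pow, Units.val_pow_eq_pow_val, mul_assoc])
    obtain ⟨r', hr'⟩ := Ideal.mem_span_singleton.mp hsr
    obtain ⟨us, hus⟩ := hG.unit s hs
    have hfr' : f r' = (us : AdicCompletion 𝔪 A) * (u : AdicCompletion 𝔪 A) ^ k * w := by
      have h1 := congrArg f hr'
      rw [map_mul, map_mul, map_pow, hfac, ← hgπ, ← hus] at h1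
      have hg0 : f g ≠ 0 := fun h0 => hπ.ne_zero (by rw [← hgπ, h0, zero_mul])
      refine mul_left_cancel₀ (pow_ne_zero k hg0) ?_
      rw [← h1, mul_pow]; ring
    have hwdvd : ∀ π', π' ∣ f r' → π' ∣ w := fun π' h' => by
      rw [hfr', ← Units.val_pow_eq_pow_val, ← Units.val_mul] at h'
      exact (Units.dvd_mul_left).mp h'
    have hnk : n ∣ k := hg k s r' hs hr' fun h => hw (hwdvd π h)
    have hr'0 : r' ≠ 0 := by
      rintro rfl
      rw [mul_zero] at hr'
      exact (mul_ne_zero (fun h => hs (by rw [h]; exact zero_mem _)) hr) hr'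
    have hk0 : k ≠ 0 := by
      rintro rfl
      exact hw (by rwa [hfac, pow_zero, one_mul] at hπr)
    obtain ⟨s', g', v', hs', hv', e⟩ := ih (f r') ⟨hne hr'0,
        ⟨f g ^ k * (↑us⁻¹ : AdicCompletion 𝔪 A), fun h => hπ.not_isUnit (by
          have h1 : IsUnit (f g) := (isUnit_pow_iff hk0).mp (isUnit_of_mul_isUnit_left h)
          rw [← hgπ]; exact h1.mul u.isUnit), by
          have h1 := congrArg f hr'
          rw [map_mul, map_mul, map_pow, ← hus] at h1
          rw [← hrb, ← Units.inv_mul_cancel_left us (f r), h1]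
          ring⟩⟩ r' hr'0 rfl
      fun π' hπ' hd => by
        have hndvd : ¬ π' ∣ f g := fun hh => hw
          ((hπ'.associated_of_dvd hπ
              (hh.trans (by rw [← hgπ]; exact dvd_mul_right _ _))).symm.dvd.trans
            (hwdvd π' hd))
        obtain ⟨g'', hg'', hmult⟩ := hH π' hπ' ((hwdvd π' hd).trans ⟨π ^ k, by rw [hfac]; ring⟩)
        refine ⟨g'', hg'', fun j s'' r'' hs'' e hnd => hmult j (s'' * s) (g ^ k * r'') ?_ ?_ ?_⟩
        · exact fun h => (h𝔪.isPrime.mem_or_mem h).elim hs'' hs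
        · rw [mul_assoc, hr', mul_left_comm, e]; ring
        · rw [map_mul, map_pow]
          exact fun h => (hπ'.dvd_or_dvd h).elim (fun h => hndvd (hπ'.dvd_of_dvd_pow h)) hnd
    obtain ⟨i, rfl⟩ := hnk
    refine ⟨s * s', g ^ i * g', v', fun h => (h𝔪.isPrime.mem_or_mem h).elim hs hs', hv', ?_⟩
    rw [show r * (s * s') = s * r * s' by ring, hr', mul_assoc, e, mul_pow, ← pow_mul, mul_comm i n]
    ring

end FermatAgent.BAD.Sq

end
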