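import Fermat.Agent.BAD.Sq.Mid
import Fermat.Agent.BAD.Sq.Compl

/-!
# The points of one component only

There the completion of the model is regular with the component as a principal prime.
-/

set_option autoImplicit false

open UpperHalfPlane CongruenceSubgroup IsLocalRing
open scoped MatrixGroups

noncomputable section

namespace FermatAgent.BAD.Sq

open FermatAgent.ES (BSub BRing SerIn HasLExp lexp lexp_eq hasLExp_lexp lexp_act act zetaC AuxLevel
  CPlace GoodPoint modMat liftSer cuspSer)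

variable {q M m : ℕ} [hq : Fact q.Prime] [NeZero M] {P : CPlace q}

/-- The model is an algebra over the unramified ring. -/
instance algA0 (C : Coef M P) : Algebra C.O0 (A0 C) := (constA C).toAlgebra

theorem algA0_apply (C : Coef M P) (c : C.O0) : algebraMap C.O0 (A0 C) c = constA C c := rfl

instance isDomain_A0 (C : Coef M P) : IsDomain (A0 C) :=
  (serA_injective C 1).isDomain

instance isDVR_coef0 (C : Coef M P) : IsDiscreteValuationRing C.O0 := C.cdvr0.dvr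

instance complete_coef0 (C : Coef M P) : IsAdicComplete (maximalIdeal C.O0) C.O0 :=
  C.cdvr0.complete

variable (C : Coef M P) (haux : AuxLevel M m) (hM : M.Coprime q) (hqm : q ≠ m)

/-- `q` as a constant of the model. -/
theorem algQ : algebraMap C.O0 (A0 C) (q : C.O0) = (q : A0 C) := map_natCast _ _

/-- The parameter has a unit coefficient at `∞`. -/
theorem unitCoeff_tPar {τ : ℍ} (hg : GoodPoint haux C.O τ) (hM : M.Coprime q) :
    P.UnitCoeff (lexp M 1 (tPar haux C.root hg : ℍ → ℂ)) := by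
  have h := ES.unitCoeff_tSub P haux hM ⟨_, C.cdvr.le hg.val.mem⟩
  rw [ES.infExp_apply] at h
  exact h

/-- Good parameters vanish at `𝔪`. -/
def GoodAt (𝔪 : Ideal (A0 C)) : Prop :=
  (pI C hM ≤ nOf C 𝔪 → GoodI C haux (nOf C 𝔪)) ∧
    (pZ C hM ≤ nOf C 𝔪 → GoodZ C haux hM (nOf C 𝔪))

/-- At `𝔪` the component of type `t` is the locus of the prime `x` of the completion. -/
structure SmoothPt (𝔪 : Ideal (A0 C)) (t : Typ) : Prop where
  good : GoodCompl 𝔪
  res : ∀ z : A0 C, ∃ c : C.O0, z - constA C c ∈ 𝔪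
  data : haveI := good.noeth; haveI := good.loc;
    ∃ x c : AdicCompletion 𝔪 (A0 C), Reg2 x c ∧
      (∀ z ∈ PT C hM t, x ∣ algebraMap (A0 C) (AdicCompletion 𝔪 (A0 C)) z) ∧
      ∃ e : ℕ, algebraMap (A0 C) (AdicCompletion 𝔪 (A0 C)) (q : A0 C) ∣ x ^ e

include haux hM in
theorem smoothPt_of_data {𝔪 : Ideal (A0 C)} (h𝔪 : 𝔪.IsMaximal) {t : Typ}
    (hle : PT C hM t ≤ 𝔪) {x T : A0 C} (hx : x ∈ PT C hM t) (hx0 : x ≠ 0) (hT : T ∈ 𝔪)
    (hTn : T ∉ PT C hM t) (hP : ∀ z ∈ PT C hM t, ∃ s ∉ 𝔪, s * z ∈ Ideal.span {x})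
    (hgen : ∀ z : A0 C, ∃ s ∉ 𝔪, ∃ c : C.O0,
      s * (z - constA C c) ∈ Ideal.span {T} ⊔ PT C hM t)
    (he : ∃ e, ∃ s ∉ 𝔪, (q : A0 C) ∣ s * x ^ e) : SmoothPt C hM 𝔪 t := by
  have := isNoetherianRing_A0 C haux
  set f := algebraMap (A0 C) (AdicCompletion 𝔪 (A0 C))
  have hq𝔪 : (q : A0 C) ∈ 𝔪 := hle (q_mem_PT C hM t)
  have hgen' : ∀ z : A0 C, ∃ s ∉ 𝔪, ∃ c : C.O0,
      s * (z - algebraMap C.O0 (A0 C) c) ∈ Ideal.span {x, T} := fun z => by
    obtain ⟨s, hs, c, hsc⟩ := hgen z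
    obtain ⟨a, ha, b, hb, e⟩ := Submodule.mem_sup.mp hsc
    obtain ⟨s', hs', hsb⟩ := hP b hb
    refine ⟨s' * s, fun h => (h𝔪.isPrime.mem_or_mem h).elim hs' hs, c, ?_⟩
    rw [algA0_apply, mul_assoc, ← e, mul_add]
    refine add_mem (Ideal.mul_mem_left _ _ (Ideal.span_mono (by simp) ha)) ?_
    exact Ideal.span_mono (by simp) hsb
  obtain ⟨hG, hR⟩ := reg2_of_gen (O := C.O0) (ϖ := (q : C.O0)) C.unif (𝔪 := 𝔪)
    (by rw [algQ]; exact hq𝔪) (hle hx) hT hx0 hgen' (by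
      obtain ⟨s, hs, hsq⟩ := hP _ (q_mem_PT C hM t)
      exact ⟨s, hs, by rw [algQ]; exact Ideal.span_mono (by simp) hsq⟩)
    (fun N s hs h => by
      have := PT_isPrime C hM t
      rcases (PT_isPrime C hM t).mem_or_mem
          ((Ideal.span_singleton_le_iff_mem _).mpr hx h) with h1 | h1
      · exact hs (hle h1)
      · exact hTn ((PT_isPrime C hM t).mem_of_pow_mem _ h1))
  refine ⟨hG, fun z => ?_, f x, f T, hR, fun z hz => ?_, ?_⟩
  · obtain ⟨s, hs, c, hsc⟩ := hgen z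
    refine ⟨c, (h𝔪.isPrime.mem_or_mem ?_).resolve_left hs⟩
    exact sup_le ((Ideal.span_singleton_le_iff_mem _).mpr hT) hle hsc
  · obtain ⟨s, hs, hsz⟩ := hP z hz
    obtain ⟨d, hd⟩ := Ideal.mem_span_singleton.mp hsz
    exact ((hG.unit s hs).dvd_mul_left).mp ⟨f d, by rw [← map_mul, hd, map_mul]⟩
  · obtain ⟨e, s, hs, hse⟩ := he
    refine ⟨e, ((hG.unit s hs).dvd_mul_left).mp ?_⟩
    rw [← map_pow, ← map_mul]
    exact map_dvd f hse

include hqm in
/-- The parameter on a component other than `∞`. -/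
theorem gen_mid_zero {𝔪 : Ideal (A0 C)} (h𝔪 : 𝔪.IsMaximal) {t : Typ} (ht : t ≠ .inf)
    (hle : PT C hM t ≤ 𝔪) (hG : GoodZ C haux hM (nOf C 𝔪))
    (hv : ∀ z : A0 C, ∃ v u : L0 C, v ∉ nOf C 𝔪 ∧ inclL C v * z - inclL C u ∈ PT C hM t) :
    ∃ T : A0 C, T ∈ 𝔪 ∧ T ∉ PT C hM t ∧ ∀ z : A0 C, ∃ s ∉ 𝔪, ∃ c : C.O0,
      s * (z - constA C c) ∈ Ideal.span {T} ⊔ PT C hM t := by
  have hn := nOf_isMaximal C hM h𝔪
  set n := nOf C 𝔪
  have hqn : (q : L0 C) ∈ n := q_mem_nOf C (hle (q_mem_PT C hM t))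
  have hZ : pZ C hM ≤ n := PT_le_imp_pZ C haux hM hqm ht hle
  obtain ⟨τ, hg, hT⟩ := hG
  set T0 := avgL C haux (dilL hM C.zeta (tPar haux C.root hg))
  refine ⟨inclL C T0, hT, fun h => ?_, fun z => ?_⟩
  · rw [mem_PT_iff C haux hM hqm 1, rho_inclL C haux hM ht, rho_zero_one C haux hM,
      resA_inclL_avgL C haux hM, show dilL hM C.zeta (tPar haux C.root hg) =
        (atkinEquiv hM C.zeta).symm (raiseL M (tPar haux C.root hg)) from ?_,
      resSer_atkin_symm C hM] at h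
    · exact resCusp_ne_zero C.cdvr (unitCoeff_tPar C haux hg hM) h
    rw [eq_comm, RingEquiv.symm_apply_eq]
    refine Subtype.ext ?_
    show (tPar haux C.root hg : ℍ → ℂ) = atkin hM (dilFun q (tPar haux C.root hg : ℍ → ℂ))
    rw [coe_tPar, ES.hauptSub, map_sub, map_sub, atkin_dilFun_haupt hM haux hqm]
    rfl
  obtain ⟨v, u, hv', huv⟩ := hv z
  obtain ⟨s1, hs1, c1, x1, h1⟩ := gen_pZ C haux hM hqm hqn hg hT hZ u
  obtain ⟨s2, hs2, c2, x2, h2⟩ := gen_pZ C haux hM hqm hqn hg hT hZ v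
  have hc2 : IsUnit c2 := by
    by_contra hnu
    have hd : (q : C.O0) ∣ c2 := by
      rw [← Ideal.mem_span_singleton, ← C.unif.maximalIdeal_eq]
      exact (mem_maximalIdeal _).mpr hnu
    have h3 := add_mem (add_mem (hZ h2) (n.mul_mem_right x2 hT))
      (n.mul_mem_left s2 (constL0_mem_of_dvd C n hqn hd))
    rw [sub_add_cancel, ← mul_add, sub_add_cancel] at h3
    exact (hn.isPrime.mem_or_mem h3).elim hs2 hv'
  obtain ⟨d, hd⟩ := hc2.exists_right_inv
  refine ⟨inclL C s1 * inclL C s2 * inclL C v,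
    fun h => (h𝔪.isPrime.mem_or_mem h).elim (fun h => (h𝔪.isPrime.mem_or_mem h).elim hs1 hs2) hv',
    c1 * d, ?_⟩
  have hP : ∀ {a : L0 C}, a ∈ pZ C hM → inclL C a ∈ PT C hM t := fun {a} ha => by
    cases t with
    | inf => exact absurd rfl ht
    | zero => exact ha
    | mid => exact (mem_pZ_iff_mid C haux hM hqm).mp ha
  have hcd : constA C (c1 * d) * constA C c2 = constA C c1 := by
    rw [← map_mul, mul_assoc, mul_comm d, hd, mul_one]
  have e : inclL C s1 * inclL C s2 * inclL C v * (z - constA C (c1 * d)) =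
      inclL C T0 * (inclL C s2 * inclL C x1 - inclL C s1 * constA C (c1 * d) * inclL C x2) +
      (inclL C s1 * inclL C s2 * (inclL C v * z - inclL C u) +
        inclL C s2 * inclL C (s1 * (u - constL0 C c1) - T0 * x1) -
        inclL C s1 * constA C (c1 * d) * inclL C (s2 * (v - constL0 C c2) - T0 * x2)) := by
    simp only [map_sub, map_mul (inclL C), inclL_constL0]
    linear_combination -(inclL C s1 * inclL C s2) * hcd
  rw [e]
  exact add_mem (Ideal.mem_sup_left (Ideal.mul_mem_right _ _ (Ideal.mem_span_singleton_self _)))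
    (Ideal.mem_sup_right (sub_mem (add_mem (Ideal.mul_mem_left _ _ huv)
      (Ideal.mul_mem_left _ _ (hP h1))) (Ideal.mul_mem_left _ _ (hP h2))))

include haux hqm in
/-- The parameter and the annihilator at a point of the component `zero` only. -/
theorem exists_zero_data {𝔪 : Ideal (A0 C)} (h𝔪 : 𝔪.IsMaximal) (hle : PT C hM .zero ≤ 𝔪)
    (hI : ¬ PT C hM .inf ≤ 𝔪) (hMd : ¬ PT C hM .mid ≤ 𝔪) (hG : GoodAt C haux hM 𝔪) :
    ∃ T p : A0 C, T ∈ 𝔪 ∧ T ∉ PT C hM .zero ∧ p ∉ 𝔪 ∧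
      (∀ z ∈ PT C hM .zero, (q : A0 C) ∣ z * p) ∧
      ∀ z : A0 C, ∃ s ∉ 𝔪, ∃ c : C.O0,
        s * (z - constA C c) ∈ Ideal.span {T} ⊔ PT C hM .zero := by
  obtain ⟨e, heM, he⟩ := SetLike.not_le_iff_exists.mp hMd
  obtain ⟨p1, hp1, hp1'⟩ := SetLike.not_le_iff_exists.mp hI
  obtain ⟨T, hT, hTn, hgen⟩ := gen_mid_zero C haux hM hqm h𝔪 (t := .zero) (by decide) hle
    (hG.2 (PT_le_imp_pZ C haux hM hqm (t := .zero) (by decide) hle)) fun z => by
    refine ⟨traceA C hM e, traceA C hM (z * e), fun h => he ?_, ?_⟩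
    · have h1 : inclL C (traceA C hM e) - e ∈ PT C hM .zero := by
        rw [mem_PT_iff C haux hM hqm 1, map_sub, rho_trace C haux hM (t := .zero) (by decide),
          (mem_PT_iff C haux hM hqm 1).mp heM, sub_zero, sub_self]
      have h2 := sub_mem (show inclL C (traceA C hM e) ∈ 𝔪 from h) (hle h1)
      rwa [sub_sub_cancel] at h2
    · rw [mem_PT_iff C haux hM hqm 1, map_sub, map_mul,
        rho_trace C haux hM (t := .zero) (by decide), rho_trace C haux hM (t := .zero) (by decide),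
        map_mul, map_mul, (mem_PT_iff C haux hM hqm 1).mp heM]
      ring
  have hp : p1 * e ∉ 𝔪 := fun h => (h𝔪.isPrime.mem_or_mem h).elim hp1' he
  exact ⟨T, (p1 * e) ^ (q - 1), hT, hTn, fun h => hp (h𝔪.isPrime.mem_of_pow_mem _ h),
    fun z hz => q_dvd_zero C haux hM hqm (Ideal.mul_mem_right _ _ hp1) (Ideal.mul_mem_left _ _ heM)
      hz, hgen⟩

include haux hqm in
/-- A point of the component `zero` only. -/
theorem smoothPt_zero {𝔪 : Ideal (A0 C)} (h𝔪 : 𝔪.IsMaximal) (hle : PT C hM .zero ≤ 𝔪)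
    (hI : ¬ PT C hM .inf ≤ 𝔪) (hMd : ¬ PT C hM .mid ≤ 𝔪) (hG : GoodAt C haux hM 𝔪) :
    SmoothPt C hM 𝔪 .zero := by
  obtain ⟨T, p, hT, hTn, hp, hdvd, hgen⟩ := exists_zero_data C haux hM hqm h𝔪 hle hI hMd hG
  refine smoothPt_of_data C haux hM h𝔪 hle (x := (q : A0 C)) (q_mem_PT C hM _) ?_ hT hTn
    (fun z hz => ⟨p, hp, ?_⟩) hgen ⟨1, 1, ?_, by simp⟩
  · intro h0
    have := congrArg (fun w : A0 C => (w : ℍ → ℂ) UpperHalfPlane.I) h0
    simp [hq.out.ne_zero] at this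
  · rw [Ideal.mem_span_singleton, mul_comm]
    exact hdvd z hz
  · exact fun h => h𝔪.ne_top ((Ideal.eq_top_iff_one _).mpr h)

include haux hqm in
/-- A point of the component `mid` only. -/
theorem smoothPt_mid {𝔪 : Ideal (A0 C)} (h𝔪 : 𝔪.IsMaximal) (hle : PT C hM .mid ≤ 𝔪)
    (hI : ¬ PT C hM .inf ≤ 𝔪) (hZ : ¬ PT C hM .zero ≤ 𝔪) (hG : GoodAt C haux hM 𝔪) :
    SmoothPt C hM 𝔪 .mid := by
  obtain ⟨e, heZ, he⟩ := SetLike.not_le_iff_exists.mp hZ
  obtain ⟨p1, hp1, hp1'⟩ := SetLike.not_le_iff_exists.mp hI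
  obtain ⟨T, hT, hTn, hgen⟩ := gen_mid_zero C haux hM hqm h𝔪 (t := .mid) (by decide) hle
    (hG.2 (PT_le_imp_pZ C haux hM hqm (t := .mid) (by decide) hle)) fun z => by
    refine ⟨traceA C hM e, traceA C hM (z * e), fun h => he ?_, ?_⟩
    · have h1 : inclL C (traceA C hM e) + e ∈ PT C hM .mid := by
        rw [mem_PT_iff C haux hM hqm 1, map_add, rho_trace C haux hM (t := .mid) (by decide),
          (mem_PT_iff C haux hM hqm 1).mp heZ, zero_sub, neg_add_cancel]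
      have h2 := sub_mem (hle h1) (show inclL C (traceA C hM e) ∈ 𝔪 from h)
      rwa [add_sub_cancel_left] at h2
    · rw [mem_PT_iff C haux hM hqm 1, map_sub, map_mul,
        rho_trace C haux hM (t := .mid) (by decide), rho_trace C haux hM (t := .mid) (by decide),
        map_mul, map_mul, (mem_PT_iff C haux hM hqm 1).mp heZ]
      ring
  set p := p1 * e
  have hp : p ∉ 𝔪 := fun h => (h𝔪.isPrime.mem_or_mem h).elim hp1' he
  have hpI : p ∈ PT C hM .inf := Ideal.mul_mem_right _ _ hp1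
  have hpZ : p ∈ PT C hM .zero := Ideal.mul_mem_left _ _ heZ
  obtain ⟨Z, hZn, hZe⟩ := mid_key C haux hM hqm h𝔪 (hle (q_mem_PT C hM _)) hle hpI hpZ hp
  set x := xMid C haux hM
  refine smoothPt_of_data C haux hM h𝔪 hle (x := x) (xMid_mem C haux hM hqm)
    (xMid_ne_zero C haux hM hqm) hT hTn (fun z hz => ⟨Z, hZn, ?_⟩) hgen
    ⟨q - 1, p, hp, ⟨Z, by rw [mul_comm]; exact hZe.symm⟩⟩
  obtain ⟨w, hw⟩ := q_dvd_mid C haux hM hqm hpI hpZ (xMid_mem C haux hM hqm) hz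
  refine Ideal.mem_span_singleton.mpr ⟨w, ?_⟩
  refine mul_left_cancel₀ (a := (q : A0 C)) (fun h0 => ?_) ?_
  · have := congrArg (fun w : A0 C => (w : ℍ → ℂ) UpperHalfPlane.I) h0
    simp [hq.out.ne_zero] at this
  obtain ⟨k, hk⟩ : ∃ k, q = k + 2 := ⟨q - 2, by have := hq.out.two_le; omega⟩
  have h1 : x ^ (q - 1) = x * x ^ (q - 2) := by
    rw [← pow_succ']; congr 1; omega
  rw [h1] at hZe
  linear_combination z * hZe + x * hw

include haux hqm in
/-- A point of the component `∞` only. -/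
theorem smoothPt_inf {𝔪 : Ideal (A0 C)} (h𝔪 : 𝔪.IsMaximal) (hle : PT C hM .inf ≤ 𝔪)
    (hZ : ¬ PT C hM .zero ≤ 𝔪) (hMd : ¬ PT C hM .mid ≤ 𝔪)
    (hG : GoodAt C haux hM (𝔪.comap (sigA C haux hM))) :
    SmoothPt C hM 𝔪 .inf := by
  set σ := sigA C haux hM
  set 𝔪' := 𝔪.comap σ
  have h𝔪' := isMaximal_comap_sigA C haux hM h𝔪
  have hσσ : ∀ z, σ (σ z) = z := sigA_sigA C haux hM
  have hσc : ∀ c, σ (constA C c) = constA C c := fun c => A0_ext C rfl
  have hle' : PT C hM .zero ≤ 𝔪' := PT_le_comap_sigA C haux hM hqm (t := .zero) hle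
  have hI' : ¬ PT C hM .inf ≤ 𝔪' := fun h =>
    hZ (PT_le_of_comap_sigA C haux hM hqm (t := .zero) h)
  have hM' : ¬ PT C hM .mid ≤ 𝔪' := fun h =>
    hMd (PT_le_of_comap_sigA C haux hM hqm (t := .mid) h)
  obtain ⟨T, p, hT, hTn, hp, hdvd, hgen⟩ := exists_zero_data C haux hM hqm h𝔪' hle' hI' hM' hG
  have hswap : ∀ {z}, z ∈ PT C hM .inf → σ z ∈ PT C hM .zero := fun hz =>
    (sigA_mem_PT_iff C haux hM hqm).mpr hz
  have hswap' : ∀ {z}, z ∈ PT C hM .zero → σ z ∈ PT C hM .inf := fun hz =>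
    (sigA_mem_PT_iff C haux hM hqm).mpr hz
  refine smoothPt_of_data C haux hM h𝔪 hle (x := (q : A0 C)) (T := σ T) (q_mem_PT C hM _) ?_ hT
    (fun h => hTn (by have := hswap h; rwa [hσσ] at this))
    (fun z hz => ⟨σ p, hp, ?_⟩) (fun z => ?_) ⟨1, 1, ?_, by simp⟩
  · intro h0
    have := congrArg (fun w : A0 C => (w : ℍ → ℂ) UpperHalfPlane.I) h0
    simp [hq.out.ne_zero] at this
  · obtain ⟨d, hd⟩ := hdvd _ (hswap hz)
    refine Ideal.mem_span_singleton.mpr ⟨σ d, ?_⟩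
    have := congrArg σ hd
    rw [map_mul, map_mul, hσσ, map_natCast] at this
    rw [mul_comm]
    exact this
  · obtain ⟨s, hs, c, hsc⟩ := hgen (σ z)
    refine ⟨σ s, hs, c, ?_⟩
    obtain ⟨a, ha, b, hb, e'⟩ := Submodule.mem_sup.mp hsc
    obtain ⟨a', rfl⟩ := Ideal.mem_span_singleton.mp ha
    rw [show σ s * (z - constA C c) = σ (s * (σ z - constA C c)) by
      rw [map_mul, map_sub, hσσ, hσc], ← e', map_add, map_mul]
    exact add_mem (Ideal.mem_sup_left (Ideal.mul_mem_right _ _ (Ideal.mem_span_singleton_self _)))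
      (Ideal.mem_sup_right (hswap' hb))
  · exact fun h => h𝔪.ne_top ((Ideal.eq_top_iff_one _).mpr h)

end FermatAgent.BAD.Sq

end
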