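import Fermat.Agent.BAD.Sq.Glue
import Fermat.Agent.BAD.Sq.Smooth
import Fermat.Agent.BAD.Sq.Pt
import Fermat.Agent.BAD.PSFactor

/-!
# Height one primes of the completion, and multiplicities of `y`

A prime of the completion containing `q` cuts out a component.  Any other prime is generated by a
global function with simple zeros at a point of the model, so the multiplicity of `y = h ^ n` there
is a multiple of `n`.
-/

set_option autoImplicit false

open UpperHalfPlane CongruenceSubgroup IsLocalRing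
open scoped MatrixGroups Manifold

noncomputable section

namespace FermatAgent.BAD.Sq

open FermatAgent.ES (BSub BRing SerIn HasLExp lexp act zetaC AuxLevel CPlace GoodPoint vanishOrd)

variable {q M m : ℕ} [hq : Fact q.Prime] [NeZero M] {P : CPlace q}
variable (C : Coef M P) (haux : AuxLevel M m) (hM : M.Coprime q) (hqm : q ≠ m)
  {𝔪 : Ideal (A0 C)} [h𝔪 : 𝔪.IsMaximal]

omit h𝔪 in
include haux in
theorem algebraMap_compl_q_ne (hGC : GoodCompl 𝔪) :
    algebraMap (A0 C) (AdicCompletion 𝔪 (A0 C)) (q : A0 C) ≠ 0 := by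
  have := isNoetherianRing_A0 C haux
  have := hGC.loc
  have : Module.Flat (A0 C) (AdicCompletion 𝔪 (A0 C)) := AdicCompletion.flat_of_isNoetherian 𝔪
  intro h
  exact one_ne_zero (regular_map (S := AdicCompletion 𝔪 (A0 C)) (q_regular C) 1
    (by rw [h, zero_mul]))

omit h𝔪 in
include haux hqm in
/-- **The primes of the completion containing `q` are the components.** -/
theorem prime_comap_eq_PT (hGC : GoodCompl 𝔪) {x c : AdicCompletion 𝔪 (A0 C)}
    (hR : haveI := hGC.noeth; haveI := hGC.loc; Reg2 x c)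
    {π : AdicCompletion 𝔪 (A0 C)} (hπ : Prime π)
    (hπq : π ∣ algebraMap (A0 C) (AdicCompletion 𝔪 (A0 C)) (q : A0 C)) :
    ∃ t, PT C hM t ≤ 𝔪 ∧
      ∀ z, π ∣ algebraMap (A0 C) (AdicCompletion 𝔪 (A0 C)) z ↔ z ∈ PT C hM t := by
  have := isNoetherianRing_A0 C haux
  have := hGC.noeth
  have := hGC.loc
  have := hR.isDomain
  have := hR.ufm
  have : Module.Flat (A0 C) (AdicCompletion 𝔪 (A0 C)) := AdicCompletion.flat_of_isNoetherian 𝔪
  set f := algebraMap (A0 C) (AdicCompletion 𝔪 (A0 C))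
  have hπP : (Ideal.span {π}).IsPrime := (Ideal.span_singleton_prime hπ.ne_zero).mpr hπ
  obtain ⟨t, ht⟩ := exists_PT_le C haux hM hqm (Ideal.comap_isPrime f (Ideal.span {π}))
    (Ideal.mem_span_singleton.mpr hπq)
  have := PT_isPrime C hM t
  obtain ⟨Q, hQle, hQ, hQt⟩ := Ideal.exists_ideal_le_liesOver_of_le (Ideal.span {π})
    (p := PT C hM t) (q := (Ideal.span {π}).under (A0 C)) ht
  have hQ0 : Q ≠ ⊥ := fun h0 => algebraMap_compl_q_ne C haux hGC (by
    have h1 : f (q : A0 C) ∈ Q := (Ideal.mem_of_liesOver Q (PT C hM t) _).mp (q_mem_PT C hM t)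
    rwa [h0, Ideal.mem_bot] at h1)
  obtain ⟨π', hπ'Q, hπ'⟩ := UniqueFactorizationMonoid.iff_exists_prime_mem_of_isPrime.mp
    inferInstance Q hQ0 hQ
  have hass := hπ.associated_of_dvd hπ' (Ideal.mem_span_singleton.mp (hQle hπ'Q))
  have hQeq : Q = Ideal.span {π} := le_antisymm hQle
    ((Ideal.span_singleton_le_iff_mem Q).mpr (Ideal.mem_of_dvd Q hass.symm.dvd hπ'Q))
  refine ⟨t, fun z hz => ?_, fun z => ?_⟩
  · by_contra hno
    exact hπ.not_isUnit
      (isUnit_of_dvd_unit (Ideal.mem_span_singleton.mp (ht hz)) (hGC.unit z hno))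
  · rw [← Ideal.mem_span_singleton, ← hQeq]
    exact (Ideal.mem_of_liesOver Q (PT C hM t) z).symm

include hM in
theorem mdiff_h {n : ℕ} (E : Elt P hM n) : MDiff E.h := by
  have : NeZero q := ⟨hq.out.ne_zero⟩
  have h := (E.hasLExp 1).mdifferentiable
  rwa [ES.act_one] at h

theorem mdiff_A0 (f : A0 C) : MDiff (f : ℍ → ℂ) := by
  have : NeZero q := ⟨hq.out.ne_zero⟩
  exact ES.mdifferentiable_of_mem f.2.1.1.1

include haux hqm in
/-- **At a regular point `y` is an `n`-th power up to units.** -/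
theorem exists_yA_pow
    (hq𝔪 : (q : A0 C) ∈ 𝔪) (hGC : GoodCompl 𝔪) {x c : AdicCompletion 𝔪 (A0 C)}
    (hR : haveI := hGC.noeth; haveI := hGC.loc; Reg2 x c)
    {n : ℕ} [NeZero n] (E : Elt P hM n) (hE : E.Over C)
    (hres : ∀ z : A0 C, ∃ c : C.O0, z - constA C c ∈ 𝔪) :
    ∃ s g v : A0 C, s ∉ 𝔪 ∧ v ∉ 𝔪 ∧ yA C hM E hE * s = g ^ n * v := by
  have := isNoetherianRing_A0 C haux
  have := hGC.noeth
  have := hGC.loc
  have := hR.isDomain
  set f := algebraMap (A0 C) (AdicCompletion 𝔪 (A0 C))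
  have hy : yA C hM E hE ≠ 0 := fun h => rho_yA_ne C hM E hE .inf 1 (by rw [h, map_zero])
  have hqm' : algebraMap C.O0 (A0 C) (q : C.O0) ∈ 𝔪 := by rw [algQ]; exact hq𝔪
  refine exists_global_pow hGC hR hy fun π hπ hπy => ?_
  have hπq : ¬ π ∣ f (algebraMap C.O0 (A0 C) (q : C.O0)) := fun h => by
    rw [algQ] at h
    obtain ⟨t, -, ht⟩ := prime_comap_eq_PT C haux hM hqm hGC hR hπ h
    exact rho_yA_ne C hM E hE t 1 ((ht _).mp hπy)
  obtain ⟨p, g, hp, hple, hfin, hinj, hg, hass, hgen⟩ :=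
    exists_descent C.unif hqm' hGC hres hR hπ hπq
  have := hp
  have := hfin
  obtain ⟨ψ, hψc, hψp⟩ := exists_point_of_finite (I := p) hinj C.O0.subtype Subtype.val_injective
  obtain ⟨τ, hτ⟩ := exists_point_A0 C haux hM ψ hψc
  have hmem : ∀ z, z ∈ p ↔ (z : ℍ → ℂ) τ = 0 := fun z => by rw [← hψp, hτ]
  obtain ⟨f0, hf0⟩ := exists_simple_zero C haux τ (by
    have : Algebra.IsIntegral C.O0 (A0 C ⧸ p) := Algebra.IsIntegral.of_finite _ _
    set t0 : A0 C := inclL C (raise0 C (tRing haux C.root0))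
    obtain ⟨F, hF, hF0⟩ := Algebra.IsIntegral.isIntegral (R := C.O0) (Ideal.Quotient.mk p t0)
    refine ⟨F, hF, ?_⟩
    have h0 : ψ (Polynomial.eval₂ (algebraMap C.O0 (A0 C)) t0 F) = 0 := by
      rw [hψp, ← Ideal.Quotient.eq_zero_iff_mem, Polynomial.hom_eval₂]
      exact hF0
    rw [Polynomial.hom_eval₂, hτ t0] at h0
    rw [Polynomial.eval_map]
    convert h0 using 2
    · exact RingHom.ext fun r => (hψc r).symm
    · rfl)
  have hf0p : f0 ∈ p := (hmem f0).mpr (by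
    by_contra h0
    rw [(ES.vanishOrd_eq_zero (mdiff_A0 C f0)).mpr h0] at hf0
    exact zero_ne_one hf0)
  have hne : ∀ z, z ∉ p → vanishOrd (z : ℍ → ℂ) τ = 0 := fun z hz =>
    (ES.vanishOrd_eq_zero (mdiff_A0 C z)).mpr fun h => hz ((hmem z).mpr h)
  have hmul : ∀ a b : A0 C, vanishOrd ((a * b : A0 C) : ℍ → ℂ) τ =
      vanishOrd (a : ℍ → ℂ) τ + vanishOrd (b : ℍ → ℂ) τ := fun a b =>
    ES.vanishOrd_mul (mdiff_A0 C a) (mdiff_A0 C b) τ
  have hg1 : vanishOrd (g : ℍ → ℂ) τ = 1 := by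
    obtain ⟨s, hs, a, ha⟩ := hgen f0 hf0p
    have h := hmul g a
    rw [← ha, hmul, hne s (fun h => hs (hple h)), zero_add, hf0] at h
    have h0 : vanishOrd (g : ℍ → ℂ) τ ≠ 0 := fun h0 =>
      (ES.vanishOrd_eq_zero (mdiff_A0 C g)).mp h0 ((hmem g).mp hg)
    refine le_antisymm ?_ (Order.one_le_iff_pos.mpr (pos_iff_ne_zero.mpr h0))
    rw [h]
    exact le_self_add
  refine ⟨g, hass, fun k s r hs e hr => ?_⟩
  have hrp : r ∉ p := fun hrp => by
    obtain ⟨s', hs', hdvd⟩ := hgen r hrp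
    obtain ⟨us, hus⟩ := hGC.unit s' hs'
    have h1 := map_dvd f hdvd
    rw [map_mul, ← hus, Units.dvd_mul_left] at h1
    exact hr (hass.symm.dvd.trans h1)
  have hord := congrArg (fun z : A0 C => vanishOrd (z : ℍ → ℂ) τ) e
  simp only [hmul, hne s (fun h => hs (hple h)), hne r hrp, zero_add, add_zero] at hord
  rw [SubmonoidClass.coe_pow, ES.vanishOrd_pow (mdiff_A0 C g), hg1, nsmul_one,
    coe_yA, ES.vanishOrd_pow (mdiff_h hM E)] at hord
  rcases eq_or_ne (vanishOrd E.h τ) ⊤ with htop | htop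
  · rw [htop, nsmul_eq_mul, ENat.mul_top (by simpa using NeZero.ne n)] at hord
    exact absurd hord.symm (ENat.natCast_ne_top k)
  · obtain ⟨i, hi⟩ := ENat.ne_top_iff_exists.mp htop
    rw [← hi, nsmul_eq_mul] at hord
    exact ⟨i, by exact_mod_cast hord.symm⟩

end FermatAgent.BAD.Sq

end
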