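import Fermat.Agent.ES.Hecke.Commute

/-!
# Characters of `Γ₀(L q²)` fixed by inertia at `q` with trivial transfers

Triviality of a transfer in terms of representatives (`KillsTransfer`) and the representatives of
the two transfers from `Γ₀(L q²)` to `Γ₀(L q)`; `sqKill` shows that parabolic characters of order
prime to `q`, fixed by inertia at `q`, with both transfers trivial are killed by a fixed exponent.
-/

set_option autoImplicit false

noncomputable section

open scoped MatrixGroups
open CongruenceSubgroup

namespace FermatAgent.BAD.Sq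

open FermatAgent.ES (parGroup galChar goodLevel_Gamma0)

/-- Representatives for the trace from `Γ₀(L q²)` to `Γ₀(L q)`. -/
def lowRep (L q : ℕ) (j : Fin q) : Matrix (Fin 2) (Fin 2) ℤ :=
  !![1, 0; ((L * q * (j : ℕ) : ℕ) : ℤ), 1]

/-- Representatives for the transfer from `Γ₀(L q²)` to `Γ₀(L q)` through `τ ↦ τ / q`. -/
def upRep (q : ℕ) (j : Fin q) : Matrix (Fin 2) (Fin 2) ℤ :=
  !![1, ((j : ℕ) : ℤ); 0, (q : ℤ)]

/-- The transfer of `φ` along a family of representatives is trivial: whenever right
multiplication by `γ` permutes the family, the product of the factors is killed by `φ`. -/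
def KillsTransfer {G : Type*} [CommGroup G] (N N' : ℕ) {ι : Type*} [Fintype ι]
    (rep : ι → Matrix (Fin 2) (Fin 2) ℤ) (φ : Gamma0 N →* G) : Prop :=
  ∀ (γ : Gamma0 N') (π : Equiv.Perm ι) (el : ι → Gamma0 N),
    (∀ i, rep i * ((γ : SL(2, ℤ)) : Matrix (Fin 2) (Fin 2) ℤ) =
      ((el i : SL(2, ℤ)) : Matrix (Fin 2) (Fin 2) ℤ) * rep (π i)) →
    ∏ i, φ (el i) = 1

end FermatAgent.BAD.Sq

end
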