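import Fermat.Agent.BAD.Sq.Sep
import Fermat.Agent.BAD.Sq.Def
import Fermat.Agent.BAD.Toric.SerFactor
import Fermat.Agent.BAD.Toric.InertFix

/-!
# Roots of functions on `Γ₀(q) ∩ Γ⁰(q) ∩ Γ(M)` with invariant norms

`Elt` records a function `h` whose `n`-th power is a function on the model, normed at every cusp,
whose two norms are invariant under `Γ₀(q) ∩ Γ(M)`.
-/

set_option autoImplicit false

open UpperHalfPlane CongruenceSubgroup
open scoped MatrixGroups

noncomputable section

namespace FermatAgent.BAD.Sq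

open FermatAgent.ES (BSub BRing HasLExp lexp act CPlace AuxLevel mapSer parGroup galChar
  goodLevel_Gamma0)

variable (q : ℕ) [hq : Fact q.Prime] (M : ℕ) [NeZero M]

/-- The product of the translates by `T ^ (M j)`. -/
def trProd (h : ℍ → ℂ) : ℍ → ℂ := ∏ j : ZMod q, act (ModularGroup.T ^ (M * j.val)) h

variable {q M}

/-- An `n`-th root of a function on the model, with invariant norms. -/
structure Elt (P : CPlace q) (hM : M.Coprime q) (n : ℕ) where
  /-- The root. -/
  h : ℍ → ℂ
  /-- Its expansions. -/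
  ser : SL(2, ℤ) → LaurentSeries ℂ
  hasLExp : ∀ γ, HasLExp (q * M) (act γ h) (ser γ)
  normed : ∀ γ, Toric.Normed P (ser γ)
  pow_mem : h ^ n ∈ InvRing q M P.ring (lamD q M)
  fixed : ∀ σ : ℂ ≃+* ℂ, Toric.IsSmall P σ →
    mapSer (σ : ℂ →+* ℂ) (lexp (q * M) 1 (h ^ n)) = lexp (q * M) 1 (h ^ n)
  inv_beta : ∀ γ ∈ lam q M, act γ (trProd q M h) = trProd q M h
  inv_alpha : ∀ γ ∈ lam q M,
    act γ (trProd q M (act (atkinMat hM) h)) = trProd q M (act (atkinMat hM) h)

/-- A coefficient datum which is large enough for a root. -/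
def Elt.Over {P : CPlace q} {hM : M.Coprime q} {n : ℕ} (E : Elt P hM n) (C : Coef M P) : Prop :=
  E.h ^ n ∈ A0 C ∧ trProd q M E.h ∈ L0 C ∧ trProd q M (act (atkinMat hM) E.h) ∈ L0 C

variable (q M)

end FermatAgent.BAD.Sq

end
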