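import Fermat.Agent.BAD.Sq.Smooth
import Fermat.Agent.BAD.Sq.Elt

/-!
# The function congruent to the root on the three components

With `V`, `U` the norms of `h` and `h ∘ α`, `x_V`, `x_U` their images at level `M` and `ξ` the
root of unity with `U ^ q x_U ≡ ξ V ^ q x_V` on the component `mid`, the function `gA` satisfies
`gA ^ n ≡ y ^ (q (q² - 1)) (Δ x_V ^ (q + 1)) ^ n` modulo the radical of `q`.
-/

set_option autoImplicit false

open UpperHalfPlane CongruenceSubgroup IsLocalRing
open scoped MatrixGroups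

noncomputable section

namespace FermatAgent.BAD.Sq

open FermatAgent.ES (BSub BRing SerIn HasLExp lexp lexp_eq hasLExp_lexp lexp_act act zetaC AuxLevel
  CPlace modMat liftSer cuspSer)

/-- A root of unity among Laurent series is a constant. -/
theorem laurent_root_of_unity {k : Type} [Field k] {n : ℕ} (hn : (n : k) ≠ 0) {s : LaurentSeries k}
    (h : s ^ n = 1) : ∃ c, c ^ n = 1 ∧ s = HahnSeries.C c := by
  have hn0 : n ≠ 0 := by rintro rfl; simp at hn
  have ho : s.order = 0 := by
    have h1 := congrArg HahnSeries.order h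
    rw [HahnSeries.order_pow, HahnSeries.order_one, nsmul_eq_mul, mul_eq_zero] at h1
    exact h1.resolve_left (by exact_mod_cast hn0)
  have hs : HahnSeries.ofPowerSeries ℤ k s.powerSeriesPart = s := by
    rw [LaurentSeries.ofPowerSeries_powerSeriesPart, ho, neg_zero,
      HahnSeries.single_zero_one, one_mul]
  have hp : s.powerSeriesPart ^ n = 1 ^ n :=
    HahnSeries.ofPowerSeries_injective (Γ := ℤ) (R := k) (by
    rw [map_pow, hs, h, one_pow, map_one])
  obtain ⟨c, hc, e⟩ := exists_C_mul_of_pow_eq (isUnit_iff_ne_zero.mpr hn) one_ne_zero hp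
  exact ⟨c, hc, by rw [← hs, e, mul_one, HahnSeries.ofPowerSeries_C]⟩

variable {q M m : ℕ} [hq : Fact q.Prime] [NeZero M] {P : CPlace q}
variable (C : Coef M P) (haux : AuxLevel M m) (hM : M.Coprime q) (hqm : q ≠ m)

/-! ### Constants -/

theorem resA_constA (γ : SL(2, ℤ)) (c : C.O0) :
    resA C γ (constA C c) = HahnSeries.C (residue C.O ⟨(c : ℂ), C.le c.2⟩) := by
  show liftSer _ (serOI M C.O (lamD q M) q γ (inclS C (constA C c))) = _
  rw [show serOI M C.O (lamD q M) q γ (inclS C (constA C c)) =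
    HahnSeries.C (⟨(c : ℂ), C.le c.2⟩ : C.O) from ES.liftSer_injective C.O.subtype_injective (by
      rw [liftSer_serOI, liftSer_C]
      exact serA_constA C γ c), liftSer_C]

theorem rho_constA (t : Typ) (η : SL(2, ℤ)) (c : C.O0) :
    rho C hM t η (constA C c) = HahnSeries.C (residue C.O ⟨(c : ℂ), C.le c.2⟩) :=
  resA_constA C _ c

section

omit [NeZero M]

/-- Every residue is the residue of an unramified constant. -/
theorem exists_coef0_residue (r : ResidueField C.O) :
    ∃ c : C.O0, residue C.O ⟨(c : ℂ), C.le c.2⟩ = r := by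
  obtain ⟨z, rfl⟩ := residue_surjective r
  refine ⟨⟨_, C.avg_mem z.2⟩, ?_⟩
  rw [← sub_eq_zero, ← map_sub, residue_eq_zero_iff, C.cdvr.mem_maximalIdeal_iff]
  exact C.abv_avg_sub z.2

theorem mem_maximal_coef0_iff (c : C.O0) :
    c ∈ maximalIdeal C.O0 ↔ residue C.O ⟨(c : ℂ), C.le c.2⟩ = 0 := by
  rw [residue_eq_zero_iff, C.cdvr.mem_maximalIdeal_iff, C.cdvr0.mem_maximalIdeal_iff]

/-- Integers prime to `q` are units of the smaller ring. -/
theorem isUnit_natCast_coef0 {n : ℕ} (hn : n.Coprime q) : IsUnit (n : C.O0) :=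
  (C.cdvr0.isUnit_iff _).mpr (by simpa using P.abv_natCast_eq_one hn)

end

/-! ### Level `M` -/

/-- The residual expansion of `η` at a cusp of level `M`. -/
def wBar (η : SL(2, ℤ)) : LaurentSeries (ResidueField C.O) :=
  expandL q (resCusp M C.O η (eta haux hM C.root C.zeta))

/-- `η` on the model. -/
def wA : A0 C := inclL C (avgL C haux (raiseL M (eta haux hM C.root C.zeta)))

/-- The residual expansions of `η`. -/
theorem rho_wA (t : Typ) (η : SL(2, ℤ)) : rho C hM t η (wA C haux hM) = wBar C haux hM η :=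
  rho_avgL_raiseL C haux hM t η _

theorem expandL_resCusp (u : BRing M C.O) (η : SL(2, ℤ)) :
    expandL q (resCusp M C.O η u) = resSer M C.O q (cusp hM .inf η) (raiseL M u) := by
  rw [resSer_raiseL, resCusp_congr C (modMat_cusp hM .inf η)]

include hqm in
/-- The residual expansion of `η` is not zero. -/
theorem wBar_ne_zero (η : SL(2, ℤ)) : wBar C haux hM η ≠ 0 := by
  rw [wBar, expandL_resCusp C hM]
  intro h0
  refine not_unitCoeff_of_residue (P := P) C.cdvr h0 ?_
  rw [liftSer_serO]
  exact eta_unitInf C.cdvr.le haux hM C.root C.zeta hqm _ (cusp_mem_Gamma0 hM η)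

/-- An element of `L0`, multiplied by `η` modulo the component `∞`, at level `M`. -/
def lop (z : L0 C) : A0 C :=
  inclL C (avgL C haux (raiseL M (trB (hasseL haux hM C.root C.zeta * toL C z))))

/-- The residual expansion of the trace of `hasseL z`. -/
theorem expandL_resCusp_trB (z : LRing q M C.O) (η : SL(2, ℤ)) :
    expandL q (resCusp M C.O η (trB (hasseL haux hM C.root C.zeta * z))) =
      wBar C haux hM η * resSer M C.O q (cusp hM .inf η) z := by
  rw [wBar, expandL_resCusp C hM, expandL_resCusp C hM, eq_comm, ← sub_eq_zero, ← map_mul,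
    ← map_sub]
  exact resSer_eq_zero_of_mem_pInf C.cdvr.le C.cdvr
    (eta_mul_sub_mem_pInf C.cdvr.le haux hM C.root C.zeta z) (cusp_mem_Gamma0 hM η)

/-- The residual expansions of `x_z` on all components. -/
theorem rho_lop (z : L0 C) (t : Typ) (η : SL(2, ℤ)) :
    rho C hM t η (lop C haux hM z) = wBar C haux hM η * rho C hM .inf η (inclL C z) := by
  rw [lop, rho_avgL_raiseL, expandL_resCusp_trB C haux hM]
  rfl

/-! ### The functions from the root -/

variable {n : ℕ} (E : Elt P hM n) (hE : E.Over C)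

/-- `y = h ^ n`. -/
def yA : A0 C := ⟨E.h ^ n, hE.1⟩

/-- The product of the translates of `h`. -/
def vL : L0 C := ⟨trProd q M E.h, hE.2.1⟩

/-- The product of the translates of `h ∘ α`. -/
def uL : L0 C := ⟨trProd q M (act (atkinMat hM) E.h), hE.2.2⟩

/-- `V`. -/
def vA : A0 C := inclL C (vL C hM E hE)

/-- `U`. -/
def uA : A0 C := sigA C haux hM (inclL C (uL C hM E hE))

/-- `y` as a function. -/
theorem coe_yA : (yA C hM E hE : ℍ → ℂ) = E.h ^ n := rfl

theorem coe_vL : (vL C hM E hE : ℍ → ℂ) = trProd q M E.h := rfl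

theorem coe_uL : (uL C hM E hE : ℍ → ℂ) = trProd q M (act (atkinMat hM) E.h) := rfl

/-- The norm is the product of the translates. -/
theorem coe_normA' (z : A0 C) :
    (normA C hM z : ℍ → ℂ) = ∏ j : ZMod q, act (ModularGroup.T ^ (M * j.val)) (z : ℍ → ℂ) := by
  rw [coe_normA, SubmonoidClass.coe_finsetProd]
  rfl

/-- The norm of `y` is `V ^ n`. -/
theorem normA_yA : normA C hM (yA C hM E hE) = vL C hM E hE ^ n := by
  refine L0_ext C ?_
  rw [coe_normA', SubmonoidClass.coe_pow, coe_vL, trProd, ← Finset.prod_pow]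
  exact Finset.prod_congr rfl fun j _ => map_pow (ES.actHom _) _ _

/-- The norm of the transform of `y` is `U ^ n`. -/
theorem normA_sigA_yA : normA C hM (sigA C haux hM (yA C hM E hE)) = uL C hM E hE ^ n := by
  refine L0_ext C ?_
  rw [coe_normA', SubmonoidClass.coe_pow, coe_uL, trProd, ← Finset.prod_pow]
  refine Finset.prod_congr rfl fun j _ => ?_
  rw [coe_sigA, coe_yA, show act (atkinMat hM) (E.h ^ n) = act (atkinMat hM) E.h ^ n from
    map_pow (ES.actHom _) _ _]
  exact map_pow (ES.actHom _) _ _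

/-- The residual expansions of `y` are not zero. -/
theorem rho_yA_ne (t : Typ) (η : SL(2, ℤ)) : rho C hM t η (yA C hM E hE) ≠ 0 := fun h => by
  rw [rho, resA_eq_zero_iff, mem_smA, serA_apply, coe_yA] at h
  refine h.not_unitCoeff ?_
  set γ := cusp hM t η
  rw [lexp_eq (f := E.h ^ n) (γ := γ) (s := E.ser γ ^ n) (by
    rw [show act γ (E.h ^ n) = act γ E.h ^ n from map_pow (ES.actHom _) _ _]
    exact (E.hasLExp γ).pow n)]
  exact ((E.normed γ).pow n).2

include haux in
/-- `V ^ n` and `y ^ q` agree on the component `∞`. -/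
theorem rho_vA_pow_inf (η : SL(2, ℤ)) :
    rho C hM .inf η (vA C hM E hE) ^ n = rho C hM .inf η (yA C hM E hE) ^ q := by
  rw [← map_pow, vA, ← map_pow, ← normA_yA, rho_inf_norm C haux hM]

include haux in
/-- `V ^ n` on the other components. -/
theorem rho_vA_pow {t : Typ} (ht : t ≠ .inf) (η : SL(2, ℤ)) :
    rho C hM t η (vA C hM E hE) ^ n =
      rho C hM .zero η (yA C hM E hE) * rho C hM .mid η (yA C hM E hE) ^ (q - 1) := by
  rw [← map_pow, vA, ← map_pow, ← normA_yA, rho_norm C haux hM ht]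

/-- `U ^ n` and `y ^ q` agree on the component `0`. -/
theorem rho_uA_pow_zero (η : SL(2, ℤ)) :
    rho C hM .zero η (uA C haux hM E hE) ^ n = rho C hM .zero η (yA C hM E hE) ^ q := by
  rw [uA, rho_sigA, ← map_pow, ← map_pow, ← normA_sigA_yA C haux hM,
    show (Typ.zero.swap : Typ) = .inf from rfl, rho_inf_norm C haux hM, rho_sigA]
  rfl

/-- `U ^ n` on the other components. -/
theorem rho_uA_pow {t : Typ} (ht : t ≠ .zero) (η : SL(2, ℤ)) :
    rho C hM t η (uA C haux hM E hE) ^ n =
      rho C hM .inf η (yA C hM E hE) * rho C hM .mid η (yA C hM E hE) ^ (q - 1) := by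
  rw [uA, rho_sigA, ← map_pow, ← map_pow, ← normA_sigA_yA C haux hM,
    rho_norm C haux hM (show t.swap ≠ Typ.inf by cases t <;> simp_all [Typ.swap]), rho_sigA,
    rho_sigA]
  rfl

section

variable [NeZero n]

include haux in
/-- The residual expansions of `V` are not zero. -/
theorem rho_vA_ne (t : Typ) (η : SL(2, ℤ)) : rho C hM t η (vA C hM E hE) ≠ 0 := fun h => by
  have hy := rho_yA_ne C hM E hE
  by_cases ht : t = .inf
  · subst ht
    exact pow_ne_zero q (hy .inf η)
      ((rho_vA_pow_inf C haux hM E hE η).symm.trans (by rw [h, zero_pow (NeZero.ne n)]))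
  · exact mul_ne_zero (hy .zero η) (pow_ne_zero _ (hy .mid η))
      ((rho_vA_pow C haux hM E hE ht η).symm.trans (by rw [h, zero_pow (NeZero.ne n)]))

/-- The residual expansions of `U` are not zero. -/
theorem rho_uA_ne (t : Typ) (η : SL(2, ℤ)) : rho C hM t η (uA C haux hM E hE) ≠ 0 := fun h => by
  have hy := rho_yA_ne C hM E hE
  by_cases ht : t = .zero
  · subst ht
    exact pow_ne_zero q (hy .zero η)
      ((rho_uA_pow_zero C haux hM E hE η).symm.trans (by rw [h, zero_pow (NeZero.ne n)]))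
  · exact mul_ne_zero (hy .inf η) (pow_ne_zero _ (hy .mid η))
      ((rho_uA_pow C haux hM E hE ht η).symm.trans (by rw [h, zero_pow (NeZero.ne n)]))

end

/-- `x_V`. -/
def xV : A0 C := lop C haux hM (vL C hM E hE)

/-- `x_U`. -/
def xU : A0 C := lop C haux hM (uL C hM E hE)

/-- The residual expansions of `x_V`. -/
theorem rho_xV (t : Typ) (η : SL(2, ℤ)) : rho C hM t η (xV C haux hM E hE) =
    wBar C haux hM η * rho C hM .inf η (vA C hM E hE) :=
  rho_lop C haux hM _ t η

/-- The residual expansions of `x_U`. -/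
theorem rho_xU (t : Typ) (η : SL(2, ℤ)) : rho C hM t η (xU C haux hM E hE) =
    wBar C haux hM η * rho C hM .zero η (uA C haux hM E hE) := by
  rw [xU, rho_lop, uA, rho_sigA]
  rfl

/-- `ξ` compares the two sides on the component `mid`. -/
structure IsXi (ξ : C.O0) : Prop where
  pow_eq : ξ ^ n = 1
  congr : uA C haux hM E hE ^ q * xU C haux hM E hE -
    constA C ξ * (vA C hM E hE ^ q * xV C haux hM E hE) ∈ PT C hM .mid

include hqm in
/-- **The root of unity.** -/
theorem exists_xi [NeZero n] (hn : n.Coprime q) : ∃ ξ, IsXi C haux hM E hE ξ := by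
  set a := rho C hM .mid 1 (uA C haux hM E hE ^ q * xU C haux hM E hE)
  set b := rho C hM .mid 1 (vA C hM E hE ^ q * xV C haux hM E hE)
  have hb : b ≠ 0 := by
    simp only [b, map_mul, map_pow, rho_xV]
    exact mul_ne_zero (pow_ne_zero _ (rho_vA_ne C haux hM E hE _ _))
      (mul_ne_zero (wBar_ne_zero C haux hM hqm 1) (rho_vA_ne C haux hM E hE _ _))
  have hab : a ^ n = b ^ n := by
    simp only [a, b, map_mul, map_pow, rho_xV, rho_xU, mul_pow, pow_right_comm _ q n,
      rho_uA_pow C haux hM E hE (t := .mid) (by decide), rho_uA_pow_zero,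
      rho_vA_pow C haux hM E hE (t := .mid) (by decide), rho_vA_pow_inf C haux hM]
    ring
  have hnk : (n : ResidueField C.O) ≠ 0 := by
    rw [← map_natCast (residue C.O), residue_ne_zero_iff_isUnit, C.cdvr.isUnit_iff]
    simpa using P.abv_natCast_eq_one hn
  obtain ⟨r, hr, hs⟩ := laurent_root_of_unity hnk (s := a / b)
    (by rw [div_pow, hab, div_self (pow_ne_zero n hb)])
  obtain ⟨c, hc⟩ := exists_coef0_residue C r
  have hcu : IsUnit c := notMem_maximalIdeal.mp fun h => by
    rw [mem_maximal_coef0_iff, hc] at h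
    rw [h, zero_pow (NeZero.ne n)] at hr
    exact zero_ne_one hr
  obtain ⟨ξ, hξ, hξc⟩ := exists_root_of_residue (isUnit_natCast_coef0 C hn) hcu (u := 1) (by
    rw [← map_pow, ← sub_eq_zero, ← map_sub, residue_eq_zero_iff, mem_maximal_coef0_iff]
    show residue C.O (1 - (⟨(c : ℂ), C.le c.2⟩ : C.O) ^ n) = 0
    rw [map_sub, map_pow, map_one, hc, hr, sub_self])
  refine ⟨ξ, hξ, ?_⟩
  have hξr : residue C.O ⟨(ξ : ℂ), C.le ξ.2⟩ = r := by
    have h := (residue_eq_zero_iff (ξ - c)).mp (by rw [map_sub, hξc, sub_self])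
    rw [mem_maximal_coef0_iff] at h
    rw [← hc, ← sub_eq_zero, ← map_sub]
    exact h
  rw [mem_PT_iff C haux hM hqm 1, map_sub, map_mul (rho C hM .mid 1) (constA C ξ), rho_constA,
    hξr, ← hs, div_mul_cancel₀ _ hb, sub_self]

/-! ### The function -/

/-- `Δ`. -/
def dA : A0 C := eInf C haux hM + eMid C haux hM + eZero C haux hM

/-- `G`. -/
def gA (ξ : C.O0) : A0 C :=
  constA C ξ ^ q * eInf C haux hM * vA C hM E hE ^ (q ^ 2 - 1) * xV C haux hM E hE ^ (q + 1) +
    eMid C haux hM * uA C haux hM E hE ^ (q * (q + 1)) * wA C haux hM ^ (q + 1) +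
    constA C ξ * eZero C haux hM * uA C haux hM E hE ^ (q ^ 2 - 1) * xV C haux hM E hE ^ (q + 1)

/-- The function having the root. -/
def yy : A0 C :=
  yA C hM E hE ^ (q * (q ^ 2 - 1)) * (dA C haux hM * xV C haux hM E hE ^ (q + 1)) ^ n

variable {ξ : C.O0}

include hqm in
/-- The residual expansions of `Δ`. -/
theorem rho_dA (t : Typ) (η : SL(2, ℤ)) : rho C hM t η (dA C haux hM) =
    match t with
    | .inf => rho C hM .inf η (eInf C haux hM)
    | .mid => rho C hM .mid η (eMid C haux hM)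
    | .zero => rho C hM .zero η (eZero C haux hM) := by
  cases t <;>
    simp only [dA, map_add, (rho_eInf C haux hM hqm _ η).mpr (by decide : Typ.mid ≠ .inf),
      (rho_eInf C haux hM hqm _ η).mpr (by decide : Typ.zero ≠ .inf),
      (rho_eZero C haux hM hqm _ η).mpr (by decide : Typ.inf ≠ .zero),
      (rho_eZero C haux hM hqm _ η).mpr (by decide : Typ.mid ≠ .zero),
      (rho_eMid C haux hM hqm _ η).mpr (by decide : Typ.inf ≠ .mid),
      (rho_eMid C haux hM hqm _ η).mpr (by decide : Typ.zero ≠ .mid), add_zero, zero_add]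

include hqm in
theorem rho_gA (t : Typ) (η : SL(2, ℤ)) : rho C hM t η (gA C haux hM E hE ξ) =
    match t with
    | .inf => HahnSeries.C (residue C.O ⟨(ξ : ℂ), C.le ξ.2⟩) ^ q *
        rho C hM .inf η (eInf C haux hM) * rho C hM .inf η (vA C hM E hE) ^ (q ^ 2 - 1) *
        rho C hM .inf η (xV C haux hM E hE) ^ (q + 1)
    | .mid => rho C hM .mid η (eMid C haux hM) *
        rho C hM .mid η (uA C haux hM E hE) ^ (q * (q + 1)) * wBar C haux hM η ^ (q + 1)
    | .zero => HahnSeries.C (residue C.O ⟨(ξ : ℂ), C.le ξ.2⟩) *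
        rho C hM .zero η (eZero C haux hM) * rho C hM .zero η (uA C haux hM E hE) ^ (q ^ 2 - 1) *
        rho C hM .zero η (xV C haux hM E hE) ^ (q + 1) := by
  cases t <;>
    simp only [gA, map_add, map_mul, map_pow, rho_constA, rho_wA,
      (rho_eInf C haux hM hqm _ η).mpr (by decide : Typ.mid ≠ .inf),
      (rho_eInf C haux hM hqm _ η).mpr (by decide : Typ.zero ≠ .inf),
      (rho_eZero C haux hM hqm _ η).mpr (by decide : Typ.inf ≠ .zero),
      (rho_eZero C haux hM hqm _ η).mpr (by decide : Typ.mid ≠ .zero),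
      (rho_eMid C haux hM hqm _ η).mpr (by decide : Typ.inf ≠ .mid),
      (rho_eMid C haux hM hqm _ η).mpr (by decide : Typ.zero ≠ .mid), mul_zero, zero_mul,
      add_zero, zero_add]

omit [NeZero M] in
theorem residue_xi_pow (hξ : ξ ^ n = 1) :
    (HahnSeries.C (residue C.O ⟨(ξ : ℂ), C.le ξ.2⟩) : LaurentSeries (ResidueField C.O))
      ^ n = 1 := by
  rw [← map_pow, ← map_pow, show (⟨(ξ : ℂ), C.le ξ.2⟩ : C.O) ^ n = 1 from Subtype.ext (by
    simpa using congrArg (fun z : C.O0 => (z : ℂ)) hξ), map_one, map_one]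

include hqm in
/-- The residual expansions of `G` are not zero. -/
theorem rho_gA_ne [NeZero n] (hξ : ξ ^ n = 1) (t : Typ) (η : SL(2, ℤ)) :
    rho C hM t η (gA C haux hM E hE ξ) ≠ 0 := by
  have hr : (HahnSeries.C (residue C.O ⟨(ξ : ℂ), C.le ξ.2⟩) :
      LaurentSeries (ResidueField C.O)) ≠ 0 := fun h0 => zero_ne_one (α := LaurentSeries
        (ResidueField C.O)) (by rw [← residue_xi_pow C hξ, h0, zero_pow (NeZero.ne n)])
  have hw := wBar_ne_zero C haux hM hqm η
  have hv := rho_vA_ne C haux hM E hE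
  have hu := rho_uA_ne C haux hM E hE
  have hx : ∀ t, rho C hM t η (xV C haux hM E hE) ≠ 0 := fun t => by
    rw [rho_xV]; exact mul_ne_zero hw (hv _ _)
  have hI : rho C hM .inf η (eInf C haux hM) ≠ 0 := fun h =>
    (rho_eInf C haux hM hqm _ η).mp h rfl
  have hMd : rho C hM .mid η (eMid C haux hM) ≠ 0 := fun h =>
    (rho_eMid C haux hM hqm _ η).mp h rfl
  have hZ : rho C hM .zero η (eZero C haux hM) ≠ 0 := fun h =>
    (rho_eZero C haux hM hqm _ η).mp h rfl
  rw [rho_gA C haux hM hqm]
  cases t <;>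
    simp only [mul_ne_zero_iff] <;> exact ⟨by aesop, by aesop⟩

include hqm in
/-- `G` lies in none of the component ideals. -/
theorem gA_not_mem_PT [NeZero n] (hξ : ξ ^ n = 1) (t : Typ) :
    gA C haux hM E hE ξ ∉ PT C hM t :=
  rho_gA_ne C haux hM hqm E hE hξ t 1

include hqm in
/-- **The congruence modulo the radical.** -/
theorem yy_sub_pow_mem (hξ : ξ ^ n = 1) :
    yy C haux hM E hE - gA C haux hM E hE ξ ^ n ∈ (Ideal.span {(q : A0 C)}).radical := by
  rw [mem_radical_iff C haux hM hqm]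
  intro t
  have hr := residue_xi_pow C hξ
  have hee : q ^ 2 - 1 = (q - 1) * (q + 1) := by
    have h2 := Nat.sq_sub_sq q 1
    rw [one_pow] at h2
    rw [h2, mul_comm]
  rw [mem_PT_iff C haux hM hqm 1, map_sub, sub_eq_zero, map_pow, rho_gA C haux hM hqm, yy, map_mul,
    map_pow, map_pow, map_mul, map_pow, rho_dA C haux hM hqm]
  cases t with
  | inf =>
    simp only [mul_pow, pow_right_comm _ q n, pow_right_comm _ (q ^ 2 - 1) n, hr, one_pow,
      rho_vA_pow_inf C haux hM]
    ring
  | zero =>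
    simp only [mul_pow, pow_right_comm _ (q ^ 2 - 1) n, hr, rho_uA_pow_zero]
    ring
  | mid =>
    simp only [rho_xV, mul_pow, pow_right_comm _ (q * (q + 1)) n, pow_right_comm _ (q + 1) n,
      rho_uA_pow C haux hM E hE (t := .mid) (by decide), rho_vA_pow_inf C haux hM]
    rw [hee]
    ring

include hqm in
/-- `G` is regular modulo `q`. -/
theorem regMod_gA [NeZero n] (hξ : ξ ^ n = 1) : RegMod (q : A0 C) (gA C haux hM E hE ξ) := by
  intro x hx
  refine q_dvd_of_serLE C haux fun γ => ?_
  obtain ⟨w, hw⟩ := hx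
  obtain ⟨t, ht⟩ := exists_isTyp (q := q) γ
  set G := gA C haux hM E hE ξ
  have hu : P.UnitCoeff (serA C γ G) := by
    refine unitCoeff_of_not_serLT (fun i => C.cdvr.le (serIn_serA C γ G i)) fun h => ?_
    have h1 := (resA_eq_zero_iff C).mpr ((mem_smA C).mpr h)
    rw [resA_eq_rho C haux hM ht rfl] at h1
    exact rho_gA_ne C haux hM hqm E hE hξ t γ h1
  refine CPlace.SerLE.of_mul_unitCoeff (P.abv.nonneg _) (fun i => C.cdvr.le (serIn_serA C γ G i))
    hu ?_ (P.serLE_one_iff.mpr fun i => C.cdvr.le (serIn_serA C γ x i))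
  rw [← map_mul, mul_comm, hw, map_mul, map_natCast (serA C γ),
    ← map_natCast (HahnSeries.C : ℂ →+* LaurentSeries ℂ)]
  exact CPlace.SerLE.C_mul le_rfl fun i => C.cdvr.le (serIn_serA C γ w i)


/-- Multiplication by `q` is injective on the model. -/
theorem q_regular (x : A0 C) (h : (q : A0 C) * x = 0) : x = 0 :=
  q_mul_inj C (h.trans (mul_zero _).symm)

end FermatAgent.BAD.Sq

end
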