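import Fermat.Agent.BAD.Sq.Compl
import Mathlib.RingTheory.AdicCompletion.LocalRing

/-!
# Roots in complete regular local rings

At a smooth point of a complete regular local ring an element congruent to an `n`-th power modulo
the component has an `n`-th root congruent to the given one; units with `n`-th power residues have
roots.
-/

set_option autoImplicit false

open IsLocalRing

noncomputable section

namespace FermatAgent.BAD.Sq

/-- The completion at a good point is complete for its maximal ideal. -/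
theorem GoodCompl.isAdicComplete {A : Type} [CommRing A] [IsNoetherianRing A] {𝔪 : Ideal A}
    (h : GoodCompl 𝔪) : haveI := h.loc;
      IsAdicComplete (maximalIdeal (AdicCompletion 𝔪 A)) (AdicCompletion 𝔪 A) := by
  have := h.loc
  rw [h.max]
  exact AdicCompletion.isAdicComplete_self 𝔪 (IsNoetherian.noetherian 𝔪)

section Smooth

variable {B : Type} [CommRing B] [IsNoetherianRing B] [IsLocalRing B]
  [IsAdicComplete (maximalIdeal B) B]

/-- **The root at a smooth point.** -/
theorem exists_root_smooth {x c : B} (hR : Reg2 x c) {n : ℕ} (hn : IsUnit (n : B)) {u Γ G : B}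
    (hu : IsUnit u) (hG : ¬ x ∣ G) (h : x ∣ u * Γ ^ n - G ^ n) :
    ∃ L, L ^ n = u * Γ ^ n ∧ x ∣ L - G := by
  have hn0 : n ≠ 0 := by rintro rfl; simp at hn
  have := hR.isDomain_quot
  have := hR.isLocalRing_quot
  have := hR.isDVR_quot
  set mk := Ideal.Quotient.mk (Ideal.span {x}) with hmk
  have hmk0 : ∀ z, mk z = 0 ↔ x ∣ z := fun z => by
    rw [hmk, Ideal.Quotient.eq_zero_iff_mem, Ideal.mem_span_singleton]
  have h1 : mk u * mk Γ ^ n = mk G ^ n := by
    rw [← map_pow, ← map_mul, ← map_pow, ← sub_eq_zero, ← map_sub, hmk0]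
    exact h
  have hG' : mk G ≠ 0 := by rwa [Ne, hmk0]
  have hΓ : mk Γ ≠ 0 := fun h0 => pow_ne_zero n hG' (by rw [← h1, h0, zero_pow hn0, mul_zero])
  obtain ⟨w', hw'⟩ := (IsIntegrallyClosed.pow_dvd_pow_iff hn0).mp (Dvd.intro_left _ h1)
  obtain ⟨w, rfl⟩ := Ideal.Quotient.mk_surjective w'
  have hw : mk w ^ n = mk u :=
    mul_right_cancel₀ (pow_ne_zero n hΓ) (by rw [h1, hw', mul_pow, mul_comm])
  have hwu : IsUnit (mk w) := (isUnit_pow_iff hn0).mp (hw ▸ hu.map mk)
  have hwu' : IsUnit w := IsLocalRing.notMem_maximalIdeal.mp fun hm => by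
    have h2 := Ideal.mem_map_of_mem mk hm
    rw [IsLocalRing.map_maximalIdeal_of_surjective mk Ideal.Quotient.mk_surjective] at h2
    exact (mem_maximalIdeal _).mp h2 hwu
  obtain ⟨α, hα, hαw⟩ := exists_root_of_residue hn hwu' (u := u) (by
    rw [← map_pow, ← sub_eq_zero, ← map_sub, residue_eq_zero_iff]
    refine IsLocalRing.le_maximalIdeal hR.span_ne_top ?_
    rw [← Ideal.Quotient.eq_zero_iff_mem, ← hmk, map_sub, map_pow, hw, sub_self])
  have hαw' : mk α = mk w := by
    refine eq_of_pow_eq_pow (n := n) (by simpa using hn.map mk)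
      ((IsUnit.of_mul_eq_one (α ^ (n - 1) * (hu.unit⁻¹ : Bˣ)) ?_).map mk) ?_ ?_
    · rw [← mul_assoc, ← pow_succ', Nat.sub_add_cancel (Nat.pos_of_ne_zero hn0), hα,
        IsUnit.mul_val_inv]
    · rw [← map_pow, hα, hw]
    · rw [← sub_eq_zero, ← map_sub, ← map_sub, residue_eq_zero_iff]
      rw [← IsLocalRing.map_maximalIdeal_of_surjective mk Ideal.Quotient.mk_surjective]
      exact Ideal.mem_map_of_mem mk ((residue_eq_zero_iff _).mp (by rw [map_sub, hαw, sub_self]))
  refine ⟨α * Γ, by rw [mul_pow, hα], ?_⟩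
  rw [← hmk0, map_sub, map_mul, hαw', hw', mul_comm, sub_self]

omit [IsNoetherianRing B] in
/-- A unit whose residue becomes an `n`-th power after raising it to a power prime to `n`. -/
theorem exists_nth_root {n a : ℕ} (hn : IsUnit (n : B)) (ha : a.Coprime n) {u w : B}
    (hu : IsUnit u) (hw : IsUnit w) (h : residue B u ^ a = residue B w ^ n) :
    ∃ r, r ^ n = u ∧ IsUnit r := by
  have hn0 : n ≠ 0 := by rintro rfl; simp at hn
  set ρ := residue B u
  set r1 := residue B w
  have hρ : ρ ≠ 0 := (hu.map (residue B)).ne_zero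
  have hr1 : r1 ≠ 0 := (hw.map (residue B)).ne_zero
  have hbez : (a : ℤ) * Nat.gcdA a n + (n : ℤ) * Nat.gcdB a n = 1 := by
    rw [← Nat.gcd_eq_gcd_ab, ha]; rfl
  set R := r1 ^ Nat.gcdA a n * ρ ^ Nat.gcdB a n
  have hR : R ^ n = ρ := by
    calc R ^ n = (r1 ^ n) ^ Nat.gcdA a n * ρ ^ ((n : ℤ) * Nat.gcdB a n) := by
          simp only [R]
          rw [← zpow_natCast _ n, mul_zpow, ← zpow_natCast r1 n, ← zpow_mul, ← zpow_mul, ← zpow_mul,
            mul_comm (Nat.gcdA a n) (n : ℤ), mul_comm (Nat.gcdB a n) (n : ℤ)]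
      _ = ρ := by
          rw [← h, ← zpow_natCast, ← zpow_mul, ← zpow_add₀ hρ, hbez, zpow_one]
  obtain ⟨r0, hr0⟩ := residue_surjective R
  have hr0u : IsUnit r0 := (residue_ne_zero_iff_isUnit r0).mp (by
    rw [hr0]; intro h0; rw [h0, zero_pow hn0] at hR; exact hρ hR.symm)
  obtain ⟨r, hr, -⟩ := exists_root_of_residue hn hr0u (u := u) (by rw [hr0, hR])
  exact ⟨r, hr, (isUnit_pow_iff hn0).mp (hr ▸ hu)⟩

end Smooth

section Prime

variable {B : Type} [CommRing B] [IsLocalRing B] [IsDomain B] {π : B} (hπ : Prime π)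
include hπ

omit [IsDomain B] in
/-- Modulo a prime, a factor which is a root of unity is determined by its residue. -/
theorem dvd_sub_mul_of_pow {n : ℕ} (hn : IsUnit (n : B)) {a b Z d : B} (hb : ¬ π ∣ b)
    (hab : π ∣ a - Z * b) (hpow : π ∣ a ^ n - b ^ n) (hd : d ^ n = 1)
    (hres : residue B Z = residue B d) : π ∣ a - d * b := by
  have hn0 : n ≠ 0 := by rintro rfl; simp at hn
  have : (Ideal.span {π}).IsPrime := (Ideal.span_singleton_prime hπ.ne_zero).mpr hπ
  have : Nontrivial (B ⧸ Ideal.span {π}) :=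
    Ideal.Quotient.nontrivial_iff.mpr (Ideal.IsPrime.ne_top inferInstance)
  have : IsLocalRing (B ⧸ Ideal.span {π}) :=
    IsLocalRing.of_surjective' (Ideal.Quotient.mk _) Ideal.Quotient.mk_surjective
  set mk := Ideal.Quotient.mk (Ideal.span {π}) with hmk
  have hmk0 : ∀ z, mk z = 0 ↔ π ∣ z := fun z => by
    rw [hmk, Ideal.Quotient.eq_zero_iff_mem, Ideal.mem_span_singleton]
  rw [← hmk0, map_sub, map_mul, sub_eq_zero] at hab ⊢
  rw [← hmk0, map_sub, sub_eq_zero, map_pow, map_pow, hab, mul_pow] at hpow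
  have hZ : mk Z ^ n = 1 :=
    mul_right_cancel₀ (pow_ne_zero n (by rwa [Ne, hmk0])) (hpow.trans (one_mul _).symm)
  rw [hab]
  congr 1
  refine eq_of_pow_eq_pow (n := n) (by simpa using hn.map mk) (IsUnit.of_pow_eq_one hZ hn0)
    (by rw [hZ, ← map_pow, hd, map_one]) ?_
  rw [← sub_eq_zero, ← map_sub, ← map_sub, residue_eq_zero_iff,
    ← IsLocalRing.map_maximalIdeal_of_surjective mk Ideal.Quotient.mk_surjective]
  exact Ideal.mem_map_of_mem mk ((residue_eq_zero_iff _).mp (by rw [map_sub, hres, sub_self]))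

omit [IsLocalRing B] [IsDomain B] in
/-- Modulo a prime over `p`, `p`-th roots are unique. -/
theorem dvd_sub_of_pow_prime {p : ℕ} [hp : Fact p.Prime] (hπp : π ∣ (p : B)) {a b : B}
    (h : π ∣ a ^ p - b ^ p) : π ∣ a - b := by
  have : (Ideal.span {π}).IsPrime := (Ideal.span_singleton_prime hπ.ne_zero).mpr hπ
  set mk := Ideal.Quotient.mk (Ideal.span {π}) with hmk
  have hmk0 : ∀ z, mk z = 0 ↔ π ∣ z := fun z => by
    rw [hmk, Ideal.Quotient.eq_zero_iff_mem, Ideal.mem_span_singleton]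
  have : CharP (B ⧸ Ideal.span {π}) p := (CharP.charP_iff_prime_eq_zero hp.out).mpr (by
    rw [← map_natCast mk, hmk0]; exact hπp)
  rw [← hmk0, map_sub, map_pow, map_pow, ← sub_pow_char, pow_eq_zero_iff hp.out.ne_zero,
    ← map_sub, hmk0] at h
  exact h

end Prime

end FermatAgent.BAD.Sq

end
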