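import Fermat.Agent.BAD.Sq.Cross
import Fermat.Agent.BAD.Sq.Glue
import Fermat.Agent.BAD.Sq.RootAlg

/-!
# The local root at a crossing point

With `y s = g ^ n v` the element `H = g (v / s) ^ (1 / n)` of the completion is an `n`-th root of
`y`; modulo a prime over `q` its powers are constant multiples of `U`, `V`, the constants being
roots of unity compatible with `ξ`.
-/

set_option autoImplicit false

open UpperHalfPlane CongruenceSubgroup IsLocalRing
open scoped MatrixGroups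

noncomputable section

namespace FermatAgent.BAD.Sq

open FermatAgent.ES (AuxLevel CPlace)

variable {q M m : ℕ} [hq : Fact q.Prime] [NeZero M] {P : CPlace q}
variable (C : Coef M P) (haux : AuxLevel M m) (hM : M.Coprime q) (hqm : q ≠ m)

theorem sigA_constA (c : C.O0) : sigA C haux hM (constA C c) = constA C c := A0_ext C rfl

include hqm in
/-- A relation `X s = r Z` seen at level `M`. -/
theorem exists_levelM_ratio {𝔪 : Ideal (A0 C)} (h𝔪 : 𝔪.IsMaximal) (hq𝔪 : (q : A0 C) ∈ 𝔪)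
    (hI : PT C hM .inf ≤ 𝔪) (hG : GoodI C haux (nOf C 𝔪)) (X Z : L0 C) {r s : A0 C}
    (hs : s ∉ 𝔪) (e : inclL C X * s = r * inclL C Z) :
    ∃ a b : A0 C, b ∉ 𝔪 ∧ (∀ t, lop C haux hM X ^ q * b - lop C haux hM Z ^ q * a ∈ PT C hM t) ∧
      a * s ^ q - b * r ^ q ∈ 𝔪 := by
  have hn := nOf_isMaximal C hM h𝔪
  have hqn := q_mem_nOf C hq𝔪
  have hIn := PT_le_imp_pI C hM hI
  obtain ⟨w1, u1, hw1, h1⟩ := levelM_pI C haux hM hqm hqn hG hIn (normA C hM r)
  obtain ⟨w2, u2, hw2, h2⟩ := levelM_pI C haux hM hqm hqn hG hIn (normA C hM s)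
  set E1 := inclL C (avgL C haux (raiseL M w1)) with hE1
  set U1 := inclL C (avgL C haux (raiseL M u1)) with hU1
  set E2 := inclL C (avgL C haux (raiseL M w2)) with hE2
  set U2 := inclL C (avgL C haux (raiseL M u2)) with hU2
  have h1' : E1 * inclL C (normA C hM r) - U1 ∈ PT C hM .inf := by
    rw [← map_mul, ← map_sub]; exact h1
  have h2' : E2 * inclL C (normA C hM s) - U2 ∈ PT C hM .inf := by
    rw [← map_mul, ← map_sub]; exact h2
  have hr : r ^ q - inclL C (normA C hM r) ∈ PT C hM .inf := pow_q_sub_normA_mem C haux hM hqm r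
  have hs' : s ^ q - inclL C (normA C hM s) ∈ PT C hM .inf := pow_q_sub_normA_mem C haux hM hqm s
  have hU1r : U1 - E1 * r ^ q ∈ 𝔪 := by
    rw [show U1 - E1 * r ^ q = -(E1 * inclL C (normA C hM r) - U1) -
      E1 * (r ^ q - inclL C (normA C hM r)) by ring]
    exact sub_mem (neg_mem (hI h1')) (𝔪.mul_mem_left _ (hI hr))
  have hU2s : U2 - E2 * s ^ q ∈ 𝔪 := by
    rw [show U2 - E2 * s ^ q = -(E2 * inclL C (normA C hM s) - U2) -
      E2 * (s ^ q - inclL C (normA C hM s)) by ring]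
    exact sub_mem (neg_mem (hI h2')) (𝔪.mul_mem_left _ (hI hs'))
  refine ⟨E2 * U1, E1 * U2, fun h => ?_, fun t => ?_, ?_⟩
  · rcases h𝔪.isPrime.mem_or_mem h with h | h
    · exact hw1 h
    · have h3 := sub_mem h hU2s
      rw [sub_sub_cancel] at h3
      rcases h𝔪.isPrime.mem_or_mem h3 with h4 | h4
      · exact hw2 h4
      · exact hs (h𝔪.isPrime.mem_of_pow_mem q h4)
  · have e1 := (mem_PT_iff C haux hM hqm 1).mp h1'
    have e2 := (mem_PT_iff C haux hM hqm 1).mp h2'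
    have e3 := congrArg (rho C hM .inf 1) e
    rw [map_sub, map_mul, rho_inf_norm C haux hM, sub_eq_zero] at e1 e2
    rw [map_mul, map_mul] at e3
    rw [mem_PT_iff C haux hM hqm 1]
    simp only [hE1, hU1, hE2, hU2, map_sub, map_mul, map_pow, rho_lop, rho_avgL_raiseL] at e1 e2 ⊢
    rw [← e1, ← e2]
    calc _ = wBar C haux hM 1 ^ q * expandL q (resCusp M C.O 1 w1) *
          expandL q (resCusp M C.O 1 w2) *
          ((rho C hM .inf 1 (inclL C X) * rho C hM .inf 1 s) ^ q -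
            (rho C hM .inf 1 r * rho C hM .inf 1 (inclL C Z)) ^ q) := by ring
      _ = 0 := by rw [e3, sub_self, mul_zero]
  · rw [show E2 * U1 * s ^ q - E1 * U2 * r ^ q =
      E2 * (U1 - E1 * r ^ q) * s ^ q - E1 * (U2 - E2 * s ^ q) * r ^ q by ring]
    exact sub_mem (𝔪.mul_mem_right _ (𝔪.mul_mem_left _ hU1r))
      (𝔪.mul_mem_right _ (𝔪.mul_mem_left _ hU2s))

include hqm in
/-- The congruences on the component `mid` between `V`, `U` and their images at level `M`. -/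
theorem mid_congr (g : A0 C) :
    inclL C (normA C hM g) ^ q * wA C haux hM -
        lop C haux hM (normA C hM (sigA C haux hM g)) * g ^ (q * (q - 1)) ∈ PT C hM .mid ∧
      sigA C haux hM (inclL C (normA C hM (sigA C haux hM g))) ^ q * wA C haux hM -
        lop C haux hM (normA C hM g) * g ^ (q * (q - 1)) ∈ PT C hM .mid := by
  constructor <;>
    rw [mem_PT_iff C haux hM hqm 1] <;>
    simp only [map_sub, map_mul, map_pow, rho_lop, rho_wA, rho_inf_norm C haux hM, rho_sigA,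
      rho_norm C haux hM (t := .mid) (by decide : Typ.mid ≠ .inf),
      show (Typ.mid.swap : Typ) = .mid from rfl, show (Typ.zero.swap : Typ) = .inf from rfl,
      show (Typ.inf.swap : Typ) = .zero from rfl] <;>
    ring

include hqm in
/-- The congruences on the component `mid` between the `n`-th powers. -/
theorem mid_pow_congr {n : ℕ} (E : Elt P hM n) (hE : E.Over C) :
    xU C haux hM E hE ^ n * yA C hM E hE ^ (q * (q - 1)) -
        (vA C hM E hE ^ q * wA C haux hM) ^ n ∈ PT C hM .mid ∧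
      xV C haux hM E hE ^ n * yA C hM E hE ^ (q * (q - 1)) -
        (uA C haux hM E hE ^ q * wA C haux hM) ^ n ∈ PT C hM .mid := by
  constructor
  · rw [mem_PT_iff C haux hM hqm 1]
    simp only [RingHom.map_sub, map_mul, map_pow, rho_xU, rho_wA, mul_pow, pow_right_comm _ q n,
      rho_vA_pow C haux hM E hE (t := .mid) (by decide), rho_uA_pow_zero]
    ring
  · rw [mem_PT_iff C haux hM hqm 1]
    simp only [RingHom.map_sub, map_mul, map_pow, rho_xV, rho_wA, mul_pow, pow_right_comm _ q n,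
      rho_uA_pow C haux hM E hE (t := .mid) (by decide), rho_vA_pow_inf C haux hM]
    ring

include hqm in
theorem pow_q_sub_sigA_norm_mem (z : A0 C) :
    z ^ q - sigA C haux hM (inclL C (normA C hM (sigA C haux hM z))) ∈ PT C hM .zero := by
  have h := (sigA_mem_PT_iff C haux hM hqm (t := .zero)).mpr
    (pow_q_sub_normA_mem C haux hM hqm (sigA C haux hM z))
  rwa [map_sub, map_pow, sigA_sigA] at h

section Algebra

variable {A S O : Type} [CommRing A] [CommRing S] [CommRing O] (f : A →+* S) (φ : O →+* S)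
  {J : Ideal A} {π : S}

/-- An `n`-th power dividing an `n`-th power, up to units. -/
theorem cross_key [IsDomain S] [UniqueFactorizationMonoid S] [IsLocalRing S] {n : ℕ} (hn : n ≠ 0)
    {X G' v' s' : A} (hX : f X ≠ 0) (hv : IsUnit (f v')) (hs : IsUnit (f s'))
    (h : G' ^ n * v' = X ^ n * s') :
    ∃ w : Sˣ, f X = (w : S) * f G' ∧
      residue S (w : S) ^ n * residue S (f s') = residue S (f v') := by
  obtain ⟨us, hus⟩ := hs
  have h1 := congrArg f h
  rw [map_mul, map_mul, map_pow, map_pow, ← hus] at h1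
  obtain ⟨w, hw⟩ := (IsIntegrallyClosed.pow_dvd_pow_iff hn).mp
    (⟨f v' * (↑us⁻¹ : S), by
      rw [← mul_assoc, h1, Units.mul_inv_cancel_right]⟩ : f G' ^ n ∣ f X ^ n)
  have hG0 : f G' ≠ 0 := fun h0 => hX (by rw [hw, h0, zero_mul])
  have h2 : f v' = w ^ n * us := mul_left_cancel₀ (pow_ne_zero n hG0) (by
    rw [h1, hw, mul_pow, mul_assoc])
  have hwu : IsUnit w := (isUnit_pow_iff hn).mp (isUnit_of_mul_isUnit_left (h2 ▸ hv))
  exact ⟨hwu.unit, by rw [IsUnit.unit_spec, mul_comm, hw], by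
    rw [IsUnit.unit_spec, ← hus, h2, map_mul, map_pow]⟩

/-- A ratio seen in the completion. -/
theorem cross_ratio [IsDomain S] [IsLocalRing S] {X G' r s : A} {w : Sˣ} (hX : f X = (w : S) * f G')
    (hG : f G' ≠ 0) (h : s * X = G' * r) :
    residue S (f r) = residue S (f s) * residue S (w : S) := by
  have h1 := congrArg f h
  rw [map_mul, map_mul, hX] at h1
  rw [← map_mul]
  exact congrArg (residue S) (mul_left_cancel₀ hG (by rw [← h1]; ring))

/-- A flat map sends regular elements to nonzero elements. -/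
theorem cross_map_ne {B T : Type} [CommRing B] [NoZeroDivisors B] [CommRing T] [Nontrivial T]
    [Algebra B T] [Module.Flat B T] {z : B} (hz : z ≠ 0) : algebraMap B T z ≠ 0 := fun h0 =>
  one_ne_zero (regular_map (S := T) (fun _ ha => (mul_eq_zero.mp ha).resolve_left hz) 1
    (by rw [mul_one]; exact h0))

/-- The congruence at an end component. -/
theorem cross_end [IsLocalRing S] (hπ : Prime π) (hπt : ∀ z, π ∣ f z ↔ z ∈ J)
    {n q : ℕ} (hn : IsUnit (n : S)) {V g G' y : A} {H w0 d : S} {w : Sˣ}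
    (hV : f V = (w : S) * f G') (hVJ : V ∉ J) (hg : g ^ q - G' ∈ J) (hH : H = f g * w0)
    (hHn : H ^ n = f y) (hpw : y ^ q - V ^ n ∈ J) (hd : d ^ n = 1)
    (hres : residue S d = residue S w0 ^ q * (residue S (w : S))⁻¹) : π ∣ H ^ q - d * f V := by
  refine dvd_sub_mul_of_pow hπ hn (Z := w0 ^ q * (↑w⁻¹ : S))
    (fun h => hVJ ((hπt V).mp h)) ?_ ?_ hd ?_
  · rw [show H ^ q - w0 ^ q * (↑w⁻¹ : S) * f V = w0 ^ q * f (g ^ q - G') by
      rw [hV, mul_assoc, Units.inv_mul_cancel_left, map_sub, map_pow, hH, mul_pow]; ring]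
    exact ((hπt _).mpr hg).mul_left _
  · rw [pow_right_comm, hHn, ← map_pow, ← map_pow, ← map_sub]
    exact (hπt _).mpr hpw
  · rw [map_mul, map_pow, map_units_inv]
    exact hres.symm

/-- The congruence on the middle component. -/
theorem cross_side [IsLocalRing S] (hπ : Prime π) (hJ : J.IsPrime)
    (hπt : ∀ z, π ∣ f z ↔ z ∈ J) {n q Q : ℕ} [Fact q.Prime] (hqJ : (q : A) ∈ J)
    (hn : IsUnit (n : S)) {lX lZ G' g Y w y a b rr ss : A} {wa wb : Sˣ} {H w0 d : S}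
    (hd : d ^ n = 1) (hY : Y ∉ J) (hw : w ∉ J) (hYG : f Y = (wb : S) * f G')
    (hc : G' ^ q * w - lZ * g ^ Q ∈ J) (hpw : lX ^ n * y ^ Q - (Y ^ q * w) ^ n ∈ J)
    (hb : IsUnit (f b)) (hab : lX ^ q * b - lZ ^ q * a ∈ J)
    (habm : residue S (f (a * ss ^ q - b * rr ^ q)) = 0) (hss : residue S (f ss) ≠ 0)
    (hrr : residue S (f rr) = residue S (f ss) * residue S (wa : S))
    (hH : H = f g * w0) (hHn : H ^ n = f y)
    (hrd : residue S d ^ q * residue S (wb : S) ^ (q * q) =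
      residue S (wa : S) ^ q * residue S w0 ^ (Q * q)) :
    π ∣ f lX * H ^ Q - d * f (Y ^ q * w) := by
  have hq' : π ∣ (q : S) := by rw [← map_natCast f]; exact (hπt _).mpr hqJ
  refine dvd_sub_of_pow_prime hπ (p := q) hq' ?_
  rw [mul_pow d (f (Y ^ q * w)) q]
  obtain ⟨ub, hub⟩ := hb
  refine dvd_sub_mul_of_pow hπ hn
    (Z := f a * (↑ub⁻¹ : S) * (↑wb⁻¹ : S) ^ (q * q) * w0 ^ (Q * q)) (fun h => ?_) ?_ ?_
    (by rw [pow_right_comm, hd, one_pow]) ?_
  · rcases hJ.mem_or_mem ((hπt _).mp (hπ.dvd_of_dvd_pow h)) with h3 | h3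
    · exact hY (hJ.mem_of_pow_mem _ h3)
    · exact hw h3
  · obtain ⟨k1, hk1⟩ := (hπt _).mpr hab
    obtain ⟨k2, hk2⟩ := (hπt _).mpr hc
    obtain ⟨k3, hk3⟩ : π ∣ (f G' ^ q * f w) ^ q - (f lZ * f g ^ Q) ^ q := by
      refine dvd_trans ?_ (sub_dvd_pow_sub_pow _ _ q)
      exact ⟨k2, by rw [← hk2]; simp only [map_sub, map_mul, map_pow]⟩
    simp only [map_sub, map_mul, map_pow] at hk1
    have eY : (↑wb⁻¹ : S) ^ (q * q) * f (Y ^ q * w) ^ q = (f G' ^ q * f w) ^ q := by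
      rw [map_mul, map_pow, hYG, mul_pow, mul_pow, mul_pow, mul_pow, ← pow_mul, ← pow_mul,
        ← mul_assoc, ← mul_assoc, ← mul_pow, Units.inv_mul, one_pow, one_mul]
    refine ⟨(↑ub⁻¹ : S) * k1 * H ^ (Q * q) - f a * (↑ub⁻¹ : S) * w0 ^ (Q * q) * k3, ?_⟩
    have e1 : (f lX * H ^ Q) ^ q - f lZ ^ q * f a * (↑ub⁻¹ : S) * H ^ (Q * q) =
        π * ((↑ub⁻¹ : S) * k1 * H ^ (Q * q)) := by
      rw [← hub] at hk1
      simp only [mul_pow, ← pow_mul]
      linear_combination (↑ub⁻¹ : S) * H ^ (Q * q) * hk1 - f lX ^ q * H ^ (Q * q) * ub.inv_mul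
    have eH : H ^ (Q * q) = (f g ^ Q) ^ q * w0 ^ (Q * q) := by rw [hH, mul_pow, pow_mul]
    calc (f lX * H ^ Q) ^ q -
          f a * (↑ub⁻¹ : S) * (↑wb⁻¹ : S) ^ (q * q) * w0 ^ (Q * q) * f (Y ^ q * w) ^ q
        = ((f lX * H ^ Q) ^ q - f lZ ^ q * f a * (↑ub⁻¹ : S) * H ^ (Q * q)) -
            f a * (↑ub⁻¹ : S) * w0 ^ (Q * q) *
            ((↑wb⁻¹ : S) ^ (q * q) * f (Y ^ q * w) ^ q - (f lZ * f g ^ Q) ^ q) := by rw [eH]; ring
      _ = _ := by rw [e1, eY, hk3]; ring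
  · rw [pow_right_comm (f lX * H ^ Q), pow_right_comm (f (Y ^ q * w))]
    refine dvd_trans ?_ (sub_dvd_pow_sub_pow _ _ q)
    rw [mul_pow, pow_right_comm H, hHn, ← map_pow, ← map_pow, ← map_mul, ← map_pow, ← map_sub]
    exact (hπt _).mpr hpw
  · have hK : residue S (f a) * residue S (↑ub⁻¹ : S) = residue S (wa : S) ^ q := by
      refine mul_right_cancel₀ (pow_ne_zero q hss) ?_
      simp only [map_sub, map_mul, map_pow, sub_eq_zero, hrr] at habm
      rw [mul_right_comm, habm, mul_pow, mul_right_comm, ← mul_assoc, ← map_mul, ← hub,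
        Units.mul_inv, map_one, one_mul, mul_comm]
    have hwb : residue S (wb : S) ^ (q * q) ≠ 0 := pow_ne_zero _ (wb.isUnit.map (residue S)).ne_zero
    refine mul_right_cancel₀ hwb ?_
    simp only [map_mul, map_pow]
    rw [hrd, hK]
    calc residue S (wa : S) ^ q * residue S (↑wb⁻¹ : S) ^ (q * q) * residue S w0 ^ (Q * q) *
          residue S (wb : S) ^ (q * q)
        = residue S (wa : S) ^ q * residue S w0 ^ (Q * q) *
            (residue S ((↑wb⁻¹ : S) * (wb : S))) ^ (q * q) := by rw [map_mul]; ring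
      _ = _ := by rw [Units.inv_mul, map_one, one_pow, mul_one]

/-- The relation between the two constants of the middle component. -/
theorem cross_xi [IsLocalRing S] (hπ : Prime π) (hJ : J.IsPrime) (hπt : ∀ z, π ∣ f z ↔ z ∈ J)
    {q Q : ℕ} {U V w xU xV ξA : A} {H : S} {ξ θ θ' : O} (hξA : f ξA = φ ξ) (hU : U ∉ J)
    (hV : V ∉ J) (hw : w ∉ J) (h1 : U ^ q * xU - ξA * (V ^ q * xV) ∈ J)
    (hmU : π ∣ f xU * H ^ Q - φ θ * f (V ^ q * w))
    (hmV : π ∣ f xV * H ^ Q - φ θ' * f (U ^ q * w)) :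
    residue S (φ (θ - ξ * θ')) = 0 := by
  have h1' := (hπt _).mpr h1
  rw [map_sub, map_mul, map_mul, map_mul, map_pow, map_pow, hξA] at h1'
  rw [map_mul, map_pow] at hmU hmV
  have h3 : π ∣ (φ θ - φ ξ * φ θ') * (f V ^ q * f U ^ q * f w) := by
    have e : (φ θ - φ ξ * φ θ') * (f V ^ q * f U ^ q * f w) =
        (f U ^ q * f xU - φ ξ * (f V ^ q * f xV)) *
            H ^ Q - f U ^ q * (f xU * H ^ Q - φ θ * (f V ^ q * f w)) +
          φ ξ * f V ^ q * (f xV * H ^ Q - φ θ' * (f U ^ q * f w)) := by ring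
    rw [e]
    exact dvd_add (dvd_sub (h1'.mul_right _) (hmU.mul_left _)) (hmV.mul_left _)
  have h4 : π ∣ φ θ - φ ξ * φ θ' := by
    refine (hπ.dvd_or_dvd h3).resolve_right fun h => ?_
    rw [← map_pow, ← map_pow, ← map_mul, ← map_mul, hπt] at h
    rcases hJ.mem_or_mem h with h | h
    · rcases hJ.mem_or_mem h with h | h
      · exact hV (hJ.mem_of_pow_mem _ h)
      · exact hU (hJ.mem_of_pow_mem _ h)
    · exact hw h
  rw [map_sub, map_mul, residue_eq_zero_iff]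
  exact Ideal.mem_of_dvd _ h4 ((mem_maximalIdeal _).mpr hπ.not_isUnit)

/-- The product of the constants. -/
theorem cross_const {n q : ℕ} (hn : n ≠ 0) (hq : 1 ≤ q) {ξ ζ ζ' : O} (hξ : ξ ^ n = 1)
    (hζ : ζ ^ n = 1) (hζ' : ζ' ^ n = 1)
    (hξθ : ζ ^ q * ζ' ^ (n - 1) = ξ * (ζ' ^ q * ζ ^ (n - 1))) :
    ∃ c : O, c ^ n = 1 ∧ c * ζ ^ (q ^ 2 - 1) = ξ ^ q ∧ c * ζ' ^ (q ^ 2 - 1) = ξ ∧
      c * (ζ' ^ q * ζ ^ (n - 1)) ^ (q + 1) = 1 ∧ q * (q ^ 2 - 1) = q * (q - 1) * (q + 1) := by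
  have hn1 : ∀ {z : O}, z ^ n = 1 → z ^ (n - 1) * z = 1 := fun {z} hz => by
    rw [← pow_succ, Nat.sub_add_cancel (Nat.pos_of_ne_zero hn), hz]
  have hξζ : ξ * ζ' ^ (q + 1) = ζ ^ (q + 1) := by
    have h1 := congrArg (· * (ζ * ζ')) hξθ
    calc ξ * ζ' ^ (q + 1) = ξ * (ζ' ^ q * ζ ^ (n - 1)) * (ζ * ζ') := by
          linear_combination -(ξ * ζ' ^ (q + 1)) * hn1 hζ
      _ = ζ ^ q * ζ' ^ (n - 1) * (ζ * ζ') := h1.symm
      _ = ζ ^ (q + 1) := by linear_combination ζ ^ (q + 1) * hn1 hζ'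
  set e' := q + 1 with he'
  set e := q ^ 2 - 1 with he
  have hee : e = (q - 1) * e' := by
    rw [he, he', mul_comm, show q ^ 2 - 1 = q ^ 2 - 1 ^ 2 by rw [one_pow], Nat.sq_sub_sq]
  have hq1 : q - 1 + 1 = q := Nat.sub_add_cancel hq
  refine ⟨ξ ^ q * (ζ ^ (n - 1)) ^ e, ?_, ?_, ?_, ?_, by rw [hee, mul_assoc]⟩
  · rw [mul_pow, pow_right_comm ξ, hξ, one_pow, one_mul,
      pow_right_comm (ζ ^ (n - 1)) e n, pow_right_comm ζ (n - 1) n, hζ, one_pow, one_pow]
  · rw [mul_assoc, ← mul_pow, hn1 hζ, one_pow, mul_one]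
  · have h1 : ξ ^ (q - 1) * ζ' ^ e = ζ ^ e := by rw [hee, pow_mul', pow_mul', ← mul_pow, hξζ]
    calc ξ ^ q * (ζ ^ (n - 1)) ^ e * ζ' ^ e
        = ξ * (ξ ^ (q - 1) * ζ' ^ e) * (ζ ^ (n - 1)) ^ e := by
          rw [show ξ ^ q = ξ * ξ ^ (q - 1) by rw [← pow_succ', hq1]]; ring
      _ = ξ := by rw [h1, mul_assoc, ← mul_pow, mul_comm ζ, hn1 hζ, one_pow, mul_one]
  · have h2 : e + e' = q * e' := by rw [hee, ← add_one_mul, hq1]
    calc ξ ^ q * (ζ ^ (n - 1)) ^ e * (ζ' ^ q * ζ ^ (n - 1)) ^ e'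
        = (ξ * ζ' ^ e') ^ q * (ζ ^ (n - 1)) ^ (e + e') := by
          rw [mul_pow, mul_pow, pow_add, ← pow_mul ζ' e' q, mul_comm e' q, pow_mul ζ' q e']
          ring
      _ = 1 := by rw [hξζ, h2, ← pow_mul, mul_comm e' q, ← mul_pow, mul_comm ζ, hn1 hζ, one_pow]

/-- The root of `y`, raised to the `n`-th power. -/
theorem cross_root_pow {y s g v : A} {us : Sˣ} {w0 : S} {n : ℕ}
    (h : y * s = g ^ n * v) (hus : (us : S) = f s) (hw0 : w0 ^ n = f v * (↑us⁻¹ : S)) :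
    (f g * w0) ^ n = f y := by
  have h1 := congrArg f h
  rw [map_mul, map_mul, map_pow, ← hus] at h1
  rw [mul_pow, hw0, ← mul_assoc, ← h1, Units.mul_inv_cancel_right]

/-- The `n`-th power of the root. -/
theorem cross_root_eq {y d : A} {H c' : S} {n a : ℕ} (hH : H ^ n = f y) (hc : c' ^ n = 1) :
    (c' * H ^ a * f d) ^ n = f (y ^ a * d ^ n) := by
  rw [map_mul, map_pow, map_pow, mul_pow, mul_pow, hc, one_mul, pow_right_comm H, hH]

/-- The residues of the constants on the component `mid`. -/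
theorem cross_theta {K : Type} [Field K] (χ : O →+* K) {n q : ℕ} (hn : n ≠ 0) (hq : 1 ≤ q)
    {r a b : K} (hr : r ≠ 0) (ha : a ≠ 0) (hb : b ≠ 0) {ζ ζ' : O} (hζ' : ζ' ^ n = 1)
    (h1 : χ ζ = r ^ q * a⁻¹) (h2 : χ ζ' = r ^ q * b⁻¹) :
    χ (ζ ^ q * ζ' ^ (n - 1)) ^ q * a ^ (q * q) = b ^ q * r ^ (q * (q - 1) * q) := by
  obtain ⟨k, rfl⟩ : ∃ k, q = k + 1 := ⟨q - 1, (Nat.sub_add_cancel hq).symm⟩
  have hinv : χ (ζ' ^ (n - 1)) = (χ ζ')⁻¹ := by
    refine eq_inv_of_mul_eq_one_left ?_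
    rw [← map_mul, ← pow_succ, Nat.sub_add_cancel (Nat.pos_of_ne_zero hn), hζ', map_one]
  rw [map_mul, map_pow, hinv, h1, h2]
  simp only [Nat.add_sub_cancel, mul_pow, inv_pow, mul_inv, inv_inv, ← pow_mul]
  field_simp [pow_ne_zero, hr, ha, hb]
  ring

variable {eI eM eZ U V xV w ξA : A} {H : S} {c ξ : O} {q Q e e' : ℕ}

/-- The root on the component `inf`. -/
theorem cross_root_inf (hπt : ∀ z, π ∣ f z ↔ z ∈ J) (hξA : f ξA = φ ξ) (hM : eM ∈ J) (hZ : eZ ∈ J)
    {ζ : O} (hH : π ∣ H ^ q - φ ζ * f V) (hc : c * ζ ^ e = ξ ^ q) :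
    π ∣ φ c * H ^ (q * e) * f ((eI + eM + eZ) * xV ^ e') -
      f (ξA ^ q * eI * V ^ e * xV ^ e' + eM * U ^ (q * e') * w ^ e' +
        ξA * eZ * U ^ e * xV ^ e') := by
  set mk := Ideal.Quotient.mk (Ideal.span {π}) with hmk
  have hmk0 : ∀ z, mk z = 0 ↔ π ∣ z := fun z => by
    rw [hmk, Ideal.Quotient.eq_zero_iff_mem, Ideal.mem_span_singleton]
  have e1 := (hmk0 _).mpr ((hπt _).mpr hM)
  have e2 := (hmk0 _).mpr ((hπt _).mpr hZ)
  rw [← hmk0] at hH ⊢
  rw [map_sub, sub_eq_zero, map_pow, map_mul] at hH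
  simp only [map_sub, map_mul, map_add, map_pow, e1, e2, mul_zero, zero_mul, add_zero, pow_mul, hH,
    mul_pow, hξA]
  rw [show mk (φ ξ) ^ q = mk (φ c) * mk (φ ζ) ^ e by
    rw [← map_pow mk, ← map_pow mk, ← map_mul mk, ← map_pow φ, ← map_pow φ, ← map_mul φ, hc]]
  ring

/-- The root on the component `zero`. -/
theorem cross_root_zero (hπt : ∀ z, π ∣ f z ↔ z ∈ J) (hξA : f ξA = φ ξ) (hM : eM ∈ J)
    (hI : eI ∈ J) {ζ : O} (hH : π ∣ H ^ q - φ ζ * f U) (hc : c * ζ ^ e = ξ) :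
    π ∣ φ c * H ^ (q * e) * f ((eI + eM + eZ) * xV ^ e') -
      f (ξA ^ q * eI * V ^ e * xV ^ e' + eM * U ^ (q * e') * w ^ e' +
        ξA * eZ * U ^ e * xV ^ e') := by
  set mk := Ideal.Quotient.mk (Ideal.span {π}) with hmk
  have hmk0 : ∀ z, mk z = 0 ↔ π ∣ z := fun z => by
    rw [hmk, Ideal.Quotient.eq_zero_iff_mem, Ideal.mem_span_singleton]
  have e1 := (hmk0 _).mpr ((hπt _).mpr hM)
  have e2 := (hmk0 _).mpr ((hπt _).mpr hI)
  rw [← hmk0] at hH ⊢
  rw [map_sub, sub_eq_zero, map_pow, map_mul] at hH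
  simp only [map_sub, map_mul, map_add, map_pow, e1, e2, mul_zero, zero_mul, add_zero, zero_add,
    pow_mul, hH, mul_pow, hξA]
  rw [show mk (φ ξ) = mk (φ c) * mk (φ ζ) ^ e by
    rw [← map_pow mk, ← map_mul mk, ← map_pow φ, ← map_mul φ, hc]]
  ring

/-- The root on the component `mid`. -/
theorem cross_root_mid (hπt : ∀ z, π ∣ f z ↔ z ∈ J) (hI : eI ∈ J) (hZ : eZ ∈ J) {θ : O}
    (hH : π ∣ f xV * H ^ Q - φ θ * f (U ^ q * w)) (hc : c * θ ^ e' = 1)
    (hQ : q * e = Q * e') :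
    π ∣ φ c * H ^ (q * e) * f ((eI + eM + eZ) * xV ^ e') -
      f (ξA ^ q * eI * V ^ e * xV ^ e' + eM * U ^ (q * e') * w ^ e' +
        ξA * eZ * U ^ e * xV ^ e') := by
  set mk := Ideal.Quotient.mk (Ideal.span {π}) with hmk
  have hmk0 : ∀ z, mk z = 0 ↔ π ∣ z := fun z => by
    rw [hmk, Ideal.Quotient.eq_zero_iff_mem, Ideal.mem_span_singleton]
  have e1 := (hmk0 _).mpr ((hπt _).mpr hI)
  have e2 := (hmk0 _).mpr ((hπt _).mpr hZ)
  rw [← hmk0] at hH ⊢
  simp only [map_sub, map_mul, map_pow, sub_eq_zero] at hH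
  simp only [map_sub, map_mul, map_add, map_pow, e1, e2, mul_zero, zero_mul, add_zero, zero_add]
  have h1 : mk (φ c) * mk (φ θ) ^ e' = 1 := by
    rw [← map_pow mk, ← map_mul mk, ← map_pow φ, ← map_mul φ, hc, map_one, map_one]
  rw [hQ, pow_mul]
  calc _ = mk (φ c) * mk (f eM) * (mk (f xV) * mk H ^ Q) ^ e' -
        mk (f eM) * mk (f U) ^ (q * e') * mk (f w) ^ e' := by ring
    _ = (mk (φ c) * mk (φ θ) ^ e' - 1) * (mk (f eM) * mk (f U) ^ (q * e') * mk (f w) ^ e') := by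
      rw [hH]; ring
    _ = 0 := by rw [h1, sub_self, zero_mul]

end Algebra

include haux hqm in
/-- Some prime over `q` lies on the component `mid`. -/
theorem exists_prime_mid {𝔪 : Ideal (A0 C)} (hCP : CrossPt C 𝔪) (h𝔪 : 𝔪.IsMaximal)
    (hfq : algebraMap (A0 C) (AdicCompletion 𝔪 (A0 C)) (q : A0 C) ≠ 0)
    (hall : ∀ t, PT C hM t ≤ 𝔪)
    (hprime : ∀ π : AdicCompletion 𝔪 (A0 C), Prime π →
      π ∣ algebraMap (A0 C) (AdicCompletion 𝔪 (A0 C)) (q : A0 C) →
      ∃ t, ∀ z, π ∣ algebraMap (A0 C) (AdicCompletion 𝔪 (A0 C)) z ↔ z ∈ PT C hM t) :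
    ∃ π, Prime π ∧ π ∣ algebraMap (A0 C) (AdicCompletion 𝔪 (A0 C)) (q : A0 C) ∧
      ∀ z, π ∣ algebraMap (A0 C) (AdicCompletion 𝔪 (A0 C)) z ↔ z ∈ PT C hM .mid := by
  have := isNoetherianRing_A0 C haux
  have := hCP.good.noeth
  have := hCP.good.loc
  obtain ⟨x, c, hR⟩ := hCP.data
  have := hR.isDomain
  have := hR.ufm
  set f := algebraMap (A0 C) (AdicCompletion 𝔪 (A0 C))
  by_contra hno
  push Not at hno
  have h1 : f (eMid C haux hM) ∈ (Ideal.span {f (q : A0 C)}).radical := by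
    refine mem_radical_of_primes hfq fun π hπ hπq => ?_
    obtain ⟨t, ht⟩ := hprime π hπ hπq
    refine (ht _).mpr ((eMid_mem_PT_iff C haux hM hqm t).mpr fun e => ?_)
    subst e
    obtain ⟨z, hz⟩ := hno π hπ hπq
    rcases hz with ⟨h1, h2⟩ | ⟨h1, h2⟩
    · exact h2 ((ht z).mp h1)
    · exact h1 ((ht z).mpr h2)
  obtain ⟨e, he⟩ := h1
  obtain ⟨s', hs', hs''⟩ := memLoc_of_completion (m := 𝔪) (I := Ideal.span {(q : A0 C)})
    (x := eMid C haux hM ^ e) (by rw [Ideal.map_span, Set.image_singleton, map_pow]; exact he)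
  have := PT_isPrime C hM .mid
  rcases (PT_isPrime C hM .mid).mem_or_mem
      ((Ideal.span_singleton_le_iff_mem _).mpr (q_mem_PT C hM .mid) hs'') with h | h
  · exact hs' (hall .mid h)
  · exact (eMid_mem_PT_iff C haux hM hqm .mid).mp ((PT_isPrime C hM .mid).mem_of_pow_mem _ h) rfl

section Cross

variable {𝔪 : Ideal (A0 C)} {S : Type} [CommRing S] [IsLocalRing S] {f : A0 C →+* S}
  (hmem : ∀ z ∈ 𝔪, residue S (f z) = 0) (hunit : ∀ z ∉ 𝔪, IsUnit (f z))

include hmem in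
/-- Congruent functions have the same residue. -/
private lemma residue_congr {a b : A0 C} (h : a - b ∈ 𝔪) :
    residue S (f a) = residue S (f b) := by
  rw [← sub_eq_zero, ← RingHom.map_sub, ← RingHom.map_sub]
  exact hmem _ h

include hmem hunit in
/-- A function whose residue is a power of a nonzero one is nonzero at the point. -/
private lemma notMem_of_residue_eq_pow {z w : A0 C} {k : ℕ} (hz : z ∉ 𝔪)
    (h : residue S (f w) = residue S (f z) ^ k) : w ∉ 𝔪 := fun hw =>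
  pow_ne_zero k ((hunit z hz).map (residue S)).ne_zero (h.symm.trans (hmem w hw))

variable (h𝔪 : 𝔪.IsMaximal) (hq𝔪 : (q : A0 C) ∈ 𝔪) (hall : ∀ t, PT C hM t ≤ 𝔪)
  (hG : GoodI C haux (nOf C 𝔪))
  (hres : ∀ z : A0 C, ∃ c, z - constA C c ∈ 𝔪)

include haux hqm hall hmem in
/-- The norm is the `q`-th power on residues. -/
private lemma residue_normA (z : A0 C) :
    residue S (f (inclL C (normA C hM z))) = residue S (f z) ^ q := by
  rw [← map_pow, ← map_pow]
  exact (residue_congr C hmem (hall .inf (pow_q_sub_normA_mem C haux hM hqm z))).symm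

include hqm h𝔪 hq𝔪 hall hG hres hmem in
/-- The involution fixes residues. -/
private lemma residue_sigA (z : A0 C) : residue S (f (sigA C haux hM z)) = residue S (f z) := by
  obtain ⟨c, hc⟩ := hres z
  have h1 : sigA C haux hM (z - constA C c) ∈ 𝔪 := by
    rw [← comap_sigA_eq C haux hM hqm h𝔪 hq𝔪 hall hG] at hc; exact hc
  rw [RingHom.map_sub, sigA_constA] at h1
  rw [residue_congr C hmem h1, residue_congr C hmem hc]

include hqm h𝔪 hq𝔪 hall hG hres hmem in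
/-- The conjugate norm is the `q`-th power on residues. -/
private lemma residue_sigA_normA (z : A0 C) :
    residue S (f (sigA C haux hM (inclL C (normA C hM (sigA C haux hM z))))) =
      residue S (f z) ^ q := by
  rw [residue_sigA C haux hM hqm hmem h𝔪 hq𝔪 hall hG hres, residue_normA C haux hM hqm hmem hall,
    residue_sigA C haux hM hqm hmem h𝔪 hq𝔪 hall hG hres]

variable (hf0 : ∀ z ≠ 0, f z ≠ 0) {n : ℕ} [NeZero n] (E : Elt P hM n) (hE : E.Over C) {s g v : A0 C}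

include hqm h𝔪 hq𝔪 hall hG hres hmem hunit hf0 in
/-- `V` and `U` are units times the norm of `g` and its conjugate. -/
private lemma exists_cross_units [IsDomain S] [UniqueFactorizationMonoid S]
    (hs : s ∉ 𝔪) (hv : v ∉ 𝔪)
    (hy : yA C hM E hE * s = g ^ n * v) :
    ∃ w₁ w₂ : Sˣ,
      f (vA C hM E hE) = w₁ * f (inclL C (normA C hM g)) ∧
      f (uA C haux hM E hE) =
        w₂ * f (sigA C haux hM (inclL C (normA C hM (sigA C haux hM g)))) ∧
      residue S (w₁ : S) ^ n * residue S (f s) ^ q = residue S (f v) ^ q ∧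
      residue S (w₂ : S) ^ n * residue S (f s) ^ q = residue S (f v) ^ q := by
  have key : ∀ {X G' v' s' : A0 C}, X ≠ 0 → v' ∉ 𝔪 → s' ∉ 𝔪 → G' ^ n * v' = X ^ n * s' →
      ∃ w : Sˣ, f X = w * f G' ∧
        residue S (w : S) ^ n * residue S (f s') = residue S (f v') :=
    fun hX hv' hs' h =>
      cross_key _ (NeZero.ne n) (hf0 _ hX) (hunit _ hv') (hunit _ hs') h
  have hN := residue_normA C haux hM hqm hmem hall
  have hS := residue_sigA_normA C haux hM hqm hmem h𝔪 hq𝔪 hall hG hres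
  have hN' : ∀ {z : A0 C}, z ∉ 𝔪 → inclL C (normA C hM z) ∉ 𝔪 := fun hz =>
    notMem_of_residue_eq_pow C hmem hunit hz (hN _)
  have hS' : ∀ {z : A0 C}, z ∉ 𝔪 →
      sigA C haux hM (inclL C (normA C hM (sigA C haux hM z))) ∉ 𝔪 := fun hz =>
    notMem_of_residue_eq_pow C hmem hunit hz (hS _)
  obtain ⟨w1, hw1, hw1r⟩ := key (G' := inclL C (normA C hM g)) (X := vA C hM E hE)
    (fun h => rho_vA_ne C haux hM E hE .inf 1 (by rw [h, map_zero])) (hN' hv) (hN' hs) (by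
      have h := congrArg (fun z => inclL C (normA C hM z)) hy
      simp only [map_mul, map_pow, normA_yA] at h
      rw [vA]
      exact h.symm)
  obtain ⟨w2, hw2, hw2r⟩ :=
    key (G' := sigA C haux hM (inclL C (normA C hM (sigA C haux hM g)))) (X := uA C haux hM E hE)
      (fun h => rho_uA_ne C haux hM E hE .inf 1 (by rw [h, map_zero])) (hS' hv) (hS' hs) (by
        have h := congrArg (fun z => sigA C haux hM (inclL C (normA C hM (sigA C haux hM z)))) hy
        simp only [map_mul, map_pow, normA_sigA_yA C haux hM] at h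
        rw [uA]
        exact h.symm)
  rw [hN, hN] at hw1r
  rw [hS, hS] at hw2r
  exact ⟨w1, w2, hw1, hw2, hw1r, hw2r⟩

include hq𝔪 hmem hres in
/-- The residue map of the constants is local and onto. -/
private lemma residue_const_local (happrox : ∀ b, ∃ a, residue S b = residue S (f a)) :
    IsLocalHom (RingHom.comp (residue S) (RingHom.comp f (constA C))) ∧
      ∀ z : ResidueField S, ∃ c,
        z - RingHom.comp (residue S) (RingHom.comp f (constA C)) c ∈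
          maximalIdeal (ResidueField S) := by
  have hq0 : RingHom.comp (residue S) (RingHom.comp f (constA C)) (q : C.O0) = 0 := by
    rw [map_natCast, ← map_natCast (RingHom.comp (residue S) f), RingHom.comp_apply]
    exact hmem _ hq𝔪
  refine ⟨⟨fun c hc => ?_⟩, fun z => ?_⟩
  · by_contra hnu
    obtain ⟨d, rfl⟩ : (q : C.O0) ∣ c := by
      rw [← Ideal.mem_span_singleton, ← C.unif.maximalIdeal_eq]
      exact (mem_maximalIdeal _).mpr hnu
    rw [map_mul, hq0, zero_mul] at hc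
    exact not_isUnit_zero hc
  · obtain ⟨b, rfl⟩ := residue_surjective z
    obtain ⟨a, h1⟩ := happrox b
    obtain ⟨c, hc⟩ := hres a
    refine ⟨c, ?_⟩
    rw [RingHom.comp_apply, RingHom.comp_apply, h1, residue_congr C hmem hc, sub_self]
    exact zero_mem _

omit [NeZero n] in
include hq𝔪 hmem hunit hres in
/-- The root `g w₀` of `y`, with the roots of unity comparing `w₀ ^ q` with `w₁` and `w₂`. -/
private lemma exists_root_consts [IsAdicComplete (maximalIdeal S) S]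
    (happrox : ∀ b, ∃ a, residue S b = residue S (f a)) (hn : n.Coprime q)
    (hs : s ∉ 𝔪) (hv : v ∉ 𝔪) {y : A0 C}
    (hy : y * s = g ^ n * v) {w₁ w₂ : Sˣ}
    (h₁ : residue S (w₁ : S) ^ n * residue S (f s) ^ q = residue S (f v) ^ q)
    (h₂ : residue S (w₂ : S) ^ n * residue S (f s) ^ q = residue S (f v) ^ q) :
    ∃ w₀ : S, IsUnit w₀ ∧ (f g * w₀) ^ n = f y ∧
      ∃ ζ ζ' : C.O0, ζ ^ n = 1 ∧ ζ' ^ n = 1 ∧
        residue S (f (constA C ζ)) = residue S w₀ ^ q * (residue S (w₁ : S))⁻¹ ∧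
        residue S (f (constA C ζ')) = residue S w₀ ^ q * (residue S (w₂ : S))⁻¹ := by
  obtain ⟨us, hus⟩ := hunit s hs
  set u0 := f v * (↑us⁻¹ : S)
  have hu0 : IsUnit u0 := (hunit v hv).mul us⁻¹.isUnit
  have hu0s : residue S u0 * residue S (f s) = residue S (f v) := by
    rw [← map_mul, ← hus, Units.inv_mul_cancel_right]
  have hu0w : ∀ {w : Sˣ},
      residue S (w : S) ^ n * residue S (f s) ^ q = residue S (f v) ^ q →
      residue S u0 ^ q = residue S (w : S) ^ n := fun {w} h =>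
    mul_right_cancel₀ (pow_ne_zero q (((hunit s hs).map (residue S)).ne_zero))
      (by rw [← mul_pow, hu0s, h])
  have hnB : IsUnit (n : S) := by
    rw [← map_natCast (RingHom.comp f (constA C))]; exact (isUnit_natCast_coef0 C hn).map _
  obtain ⟨w0, hw0, hw0u⟩ :=
    exists_nth_root hnB (Nat.Coprime.symm hn) hu0 w₁.isUnit (hu0w h₁)
  refine ⟨w0, hw0u, cross_root_pow _ hy hus hw0, ?_⟩
  obtain ⟨_, hkres⟩ := residue_const_local C hmem hq𝔪 hres happrox
  have hr : ∀ w : Sˣ,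
      residue S u0 ^ q = residue S (w : S) ^ n →
      ∃ d : C.O0, d ^ n = 1 ∧
        residue S (f (constA C d)) = residue S w0 ^ q * (residue S (w : S))⁻¹ :=
    fun w hh => exists_const_root _ hkres (isUnit_natCast_coef0 C hn) (by
      rw [mul_pow, pow_right_comm, ← map_pow (residue S) w0, hw0, inv_pow, hh,
        mul_inv_cancel₀ (pow_ne_zero n (w.isUnit.map (residue S)).ne_zero)])
  obtain ⟨ζ, hζ, hζr⟩ := hr w₁ (hu0w h₁)
  obtain ⟨ζ', hζ', hζ'r⟩ := hr w₂ (hu0w h₂)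
  exact ⟨ζ, ζ', hζ, hζ', hζr, hζ'r⟩

include hf0 in
/-- A ratio in the completion comes from a ratio of functions. -/
private lemma exists_ratio [IsDomain S]
    (hdesc : ∀ G X, f G ∣ f X → ∃ s ∉ 𝔪, G ∣ s * X) {X G' : A0 C} (hX : X ≠ 0) {w : Sˣ}
    (h : f X = w * f G') :
    ∃ r s' : A0 C, s' ∉ 𝔪 ∧ s' * X = G' * r ∧
      residue S (f r) = residue S (f s') * residue S (w : S) := by
  obtain ⟨s', hs', r, hr⟩ := hdesc G' X (h ▸ dvd_mul_left _ _)
  exact ⟨r, s', hs', hr, cross_ratio _ h (fun h0 => hf0 X hX (by rw [h, h0, mul_zero])) hr⟩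

variable {w₀ : S} {w₁ w₂ : Sˣ} {ζ ζ' : C.O0}

include hqm h𝔪 hq𝔪 hall hG hres hmem hunit hf0 in
/-- The congruences on the component `mid`. -/
private lemma dvd_cross_mid [IsDomain S] (hdesc : ∀ G X, f G ∣ f X → ∃ s ∉ 𝔪, G ∣ s * X)
    (hn : n.Coprime q)
    (hw₁ : f (vA C hM E hE) = w₁ * f (inclL C (normA C hM g)))
    (hw₂ : f (uA C haux hM E hE) =
      w₂ * f (sigA C haux hM (inclL C (normA C hM (sigA C haux hM g)))))
    (hw₀ : IsUnit w₀) (hH : (f g * w₀) ^ n = f (yA C hM E hE)) (hζ : ζ ^ n = 1)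
    (hζ' : ζ' ^ n = 1)
    (hζr : residue S (f (constA C ζ)) = residue S w₀ ^ q * (residue S (w₁ : S))⁻¹)
    (hζ'r : residue S (f (constA C ζ')) = residue S w₀ ^ q * (residue S (w₂ : S))⁻¹)
    {π : S} (hπ : Prime π)
    (hπt : ∀ z, π ∣ f z ↔ z ∈ PT C hM .mid) :
    π ∣ f (xU C haux hM E hE) * (f g * w₀) ^ (q * (q - 1)) -
        f (constA C (ζ ^ q * ζ' ^ (n - 1))) * f (vA C hM E hE ^ q * wA C haux hM) ∧
      π ∣ f (xV C haux hM E hE) * (f g * w₀) ^ (q * (q - 1)) -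
        f (constA C (ζ' ^ q * ζ ^ (n - 1))) * f (uA C haux hM E hE ^ q * wA C haux hM) := by
  have hnB : IsUnit (n : S) := by
    rw [← map_natCast (RingHom.comp f (constA C))]; exact (isUnit_natCast_coef0 C hn).map _
  have hσres := residue_sigA C haux hM hqm hmem h𝔪 hq𝔪 hall hG hres
  have hσn : ∀ {z : A0 C}, z ∉ 𝔪 → sigA C haux hM z ∉ 𝔪 := fun {z} hz =>
    notMem_of_residue_eq_pow C hmem hunit hz ((hσres z).trans (pow_one _).symm)
  have h0 : ∀ {z : A0 C}, z ∈ 𝔪 → residue S (f z) = 0 := fun {z} hz => hmem z hz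
  obtain ⟨rU, sU, hsU, hrU, hrUr⟩ := exists_ratio C hf0 hdesc (fun h =>
    rho_uA_ne C haux hM E hE .inf 1 (by rw [h, map_zero])) hw₂
  obtain ⟨rV, sV, hsV, hrV, hrVr⟩ := exists_ratio C hf0 hdesc (fun h =>
    rho_vA_ne C haux hM E hE .inf 1 (by rw [h, map_zero])) hw₁
  obtain ⟨aU, bU, hbU, habU, habU'⟩ := exists_levelM_ratio C haux hM hqm h𝔪 hq𝔪 (hall .inf) hG
    (uL C hM E hE) (normA C hM (sigA C haux hM g)) (r := sigA C haux hM rU) (hσn hsU) (by
      have h := congrArg (sigA C haux hM) hrU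
      rw [map_mul, map_mul, uA] at h
      simp only [sigA_sigA] at h ⊢
      rw [mul_comm, h, mul_comm])
  obtain ⟨aV, bV, hbV, habV, habV'⟩ := exists_levelM_ratio C haux hM hqm h𝔪 hq𝔪 (hall .inf) hG
    (vL C hM E hE) (normA C hM g) (r := rV) hsV (by
      show vA C hM E hE * sV = rV * inclL C (normA C hM g)
      rw [mul_comm, hrV, mul_comm])
  obtain ⟨hcU, hcV⟩ := mid_congr C haux hM hqm g
  obtain ⟨hp1, hp2⟩ := mid_pow_congr C haux hM hqm E hE
  have hw : wA C haux hM ∉ PT C hM .mid := fun h => by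
    rw [mem_PT_iff C haux hM hqm 1, rho_wA] at h
    exact wBar_ne_zero C haux hM hqm 1 h
  have hpow : ∀ {a b : C.O0}, a ^ n = 1 → b ^ n = 1 →
      f (constA C (a ^ q * b ^ (n - 1))) ^ n = 1 := fun {a b} ha hb => by
    rw [← map_pow, ← map_pow, mul_pow, pow_right_comm, ha, one_pow, pow_right_comm, hb, one_pow,
      one_mul, map_one, map_one]
  set φk := RingHom.comp (residue S) (RingHom.comp f (constA C))
  have hne : ∀ w : Sˣ, residue S (w : S) ≠ 0 :=
    fun w => (w.isUnit.map (residue S)).ne_zero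
  exact ⟨cross_side _ (n := n) hπ (PT_isPrime C hM .mid) hπt (q_mem_PT C hM _) hnB
      (wa := w₂) (wb := w₁) (hpow hζ hζ')
      (fun h => rho_vA_ne C haux hM E hE .mid 1 h) hw hw₁ hcU hp1 (hunit bU hbU)
      (habU _) (h0 habU') ((hunit _ (hσn hsU)).map (residue S)).ne_zero
      (by rw [hσres, hσres, hrUr]) rfl hH
      (cross_theta φk (NeZero.ne n) hq.out.one_le (hw₀.map (residue S)).ne_zero (hne w₁) (hne w₂)
        hζ' hζr hζ'r),
    cross_side _ (n := n) hπ (PT_isPrime C hM .mid) hπt (q_mem_PT C hM _) hnB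
      (wa := w₁) (wb := w₂) (hpow hζ' hζ)
      (fun h => rho_uA_ne C haux hM E hE .mid 1 h) hw hw₂ hcV hp2 (hunit bV hbV)
      (habV _) (h0 habV') ((hunit _ hsV).map (residue S)).ne_zero hrVr rfl hH
      (cross_theta φk (NeZero.ne n) hq.out.one_le (hw₀.map (residue S)).ne_zero (hne w₂) (hne w₁)
        hζ hζ'r hζr)⟩

include hqm hq𝔪 hmem hres in
/-- Seen at a prime on `mid`, the constants differ by `ξ`. -/
private lemma theta_eq_xi_mul (happrox : ∀ b, ∃ a, residue S b = residue S (f a))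
    (hn : n.Coprime q) {ξ θ θ' : C.O0}
    (hξ : IsXi C haux hM E hE ξ) (hθ : θ ^ n = 1) (hθ' : θ' ^ n = 1)
    {π H : S} {Q : ℕ} (hπ : Prime π)
    (hπt : ∀ z, π ∣ f z ↔ z ∈ PT C hM .mid)
    (hmU : π ∣ f (xU C haux hM E hE) * H ^ Q -
      f (constA C θ) * f (vA C hM E hE ^ q * wA C haux hM))
    (hmV : π ∣ f (xV C haux hM E hE) * H ^ Q -
      f (constA C θ') * f (uA C haux hM E hE ^ q * wA C haux hM)) : θ = ξ * θ' := by
  have h5 := cross_xi _ (RingHom.comp f (constA C)) (ξA := constA C ξ) hπ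
    (PT_isPrime C hM .mid) hπt rfl (fun h => rho_uA_ne C haux hM E hE .mid 1 h)
    (fun h => rho_vA_ne C haux hM E hE .mid 1 h)
    (fun h => by
      rw [mem_PT_iff C haux hM hqm 1, rho_wA] at h
      exact wBar_ne_zero C haux hM hqm 1 h)
    hξ.congr hmU hmV
  refine eq_of_pow_eq_pow (isUnit_natCast_coef0 C hn) (IsUnit.of_pow_eq_one hθ (NeZero.ne n))
    (by rw [hθ, mul_pow, hξ.pow_eq, hθ', one_mul]) ?_
  rw [← sub_eq_zero, ← RingHom.map_sub, residue_eq_zero_iff, mem_maximalIdeal]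
  have := (residue_const_local C hmem hq𝔪 hres happrox).1
  exact fun hu => (hu.map (RingHom.comp (residue S) (RingHom.comp f (constA C)))).ne_zero h5

end Cross

include haux hqm in
/-- **The root at a crossing point.** -/
theorem localRoot_cross {𝔪 : Ideal (A0 C)} (h𝔪 : 𝔪.IsMaximal) (hq𝔪 : (q : A0 C) ∈ 𝔪)
    (hall : ∀ t, PT C hM t ≤ 𝔪) (hG : GoodAt C haux hM 𝔪) (hCP : CrossPt C 𝔪) {n : ℕ} [NeZero n]
    (hn : n.Coprime q) (E : Elt P hM n) (hE : E.Over C) {ξ : C.O0}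
    (hξ : IsXi C haux hM E hE ξ)
    (hpow : ∃ s g v : A0 C, s ∉ 𝔪 ∧ v ∉ 𝔪 ∧ yA C hM E hE * s = g ^ n * v)
    (hprime : ∀ π : AdicCompletion 𝔪 (A0 C), Prime π →
      π ∣ algebraMap (A0 C) (AdicCompletion 𝔪 (A0 C)) (q : A0 C) →
      ∃ t, ∀ z, π ∣ algebraMap (A0 C) (AdicCompletion 𝔪 (A0 C)) z ↔ z ∈ PT C hM t) :
    LocalRootNil 𝔪 (q : A0 C) (yy C haux hM E hE) (gA C haux hM E hE ξ) n := by
  have := isNoetherianRing_A0 C haux
  have := hCP.good.noeth
  have := hCP.good.loc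
  have := hCP.good.isAdicComplete
  obtain ⟨x, c0, hR⟩ := hCP.data
  have := hR.isDomain
  have := hR.ufm
  have : Module.Flat (A0 C) (AdicCompletion 𝔪 (A0 C)) := AdicCompletion.flat_of_isNoetherian 𝔪
  have : Nontrivial (AdicCompletion 𝔪 (A0 C)) := hR.isDomain.toNontrivial
  obtain ⟨s, g, v, hs, hv, hy⟩ := hpow
  set f := algebraMap (A0 C) (AdicCompletion 𝔪 (A0 C))
  set φ := f.comp (constA C)
  have hnB : IsUnit (n : AdicCompletion 𝔪 (A0 C)) := by
    rw [← map_natCast φ]; exact (isUnit_natCast_coef0 C hn).map φ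
  have hGI := hG.1 (PT_le_imp_pI C hM (hall .inf))
  have hunit : ∀ z ∉ 𝔪, IsUnit (f z) := hCP.good.unit
  have hf0 : ∀ z ≠ 0, f z ≠ 0 := fun z hz => cross_map_ne hz
  have hmem : ∀ z ∈ 𝔪, residue _ (f z) = 0 := fun z hz => by
    rw [residue_eq_zero_iff, hCP.good.max]; exact Ideal.mem_map_of_mem f hz
  have happrox : ∀ b, ∃ a, residue (AdicCompletion 𝔪 (A0 C)) b = residue _ (f a) := fun b => by
    obtain ⟨a, ha⟩ := hCP.good.approx b 1
    refine ⟨a, ?_⟩
    rw [← sub_eq_zero, ← RingHom.map_sub, residue_eq_zero_iff, hCP.good.max]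
    simpa using ha
  have hdesc : ∀ G X, f G ∣ f X → ∃ s ∉ 𝔪, G ∣ s * X := fun G X h => by
    obtain ⟨s', hs', hX⟩ := memLoc_of_completion (m := 𝔪) (I := Ideal.span {G}) (x := X) (by
      rwa [Ideal.map_span, Set.image_singleton, Ideal.mem_span_singleton])
    exact ⟨s', hs', Ideal.mem_span_singleton.mp hX⟩
  obtain ⟨w1, w2, hw1, hw2, hw1r, hw2r⟩ :=
    exists_cross_units C haux hM hqm hmem hunit h𝔪 hq𝔪 hall hGI hCP.res hf0 E hE hs hv hy
  obtain ⟨w0, hw0, hHn, ζ, ζ', hζ, hζ', hζr, hζ'r⟩ :=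
    exists_root_consts C hmem hunit hq𝔪 hCP.res happrox hn hs hv hy hw1r hw2r
  set H := f g * w0 with hH
  -- congruences at the primes over `q`
  have hinf : ∀ π, Prime π → (∀ z, π ∣ f z ↔ z ∈ PT C hM .inf) →
      π ∣ H ^ q - φ ζ * f (vA C hM E hE) := fun π hπ hπt =>
    cross_end f hπ hπt hnB hw1
      (fun h => rho_vA_ne C haux hM E hE .inf 1 h) (pow_q_sub_normA_mem C haux hM hqm g) hH hHn
      (by rw [mem_PT_iff C haux hM hqm 1, RingHom.map_sub, map_pow, map_pow,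
        rho_vA_pow_inf C haux hM, sub_self])
      (by rw [← map_pow, hζ, map_one]) hζr
  have hzero : ∀ π, Prime π → (∀ z, π ∣ f z ↔ z ∈ PT C hM .zero) →
      π ∣ H ^ q - φ ζ' * f (uA C haux hM E hE) := fun π hπ hπt =>
    cross_end f hπ hπt hnB hw2
      (fun h => rho_uA_ne C haux hM E hE .zero 1 h) (pow_q_sub_sigA_norm_mem C haux hM hqm g) hH hHn
      (by rw [mem_PT_iff C haux hM hqm 1, RingHom.map_sub, map_pow, map_pow, rho_uA_pow_zero,
        sub_self])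
      (by rw [← map_pow, hζ', map_one]) hζ'r
  have hmid := fun π (hπ : Prime π) (hπt : ∀ z, π ∣ f z ↔ z ∈ PT C hM .mid) =>
    dvd_cross_mid C haux hM hqm hmem hunit h𝔪 hq𝔪 hall hGI hCP.res hf0 E hE hdesc hn hw1 hw2 hw0
      hHn hζ hζ' hζr hζ'r hπ hπt
  -- the compatibility with `ξ`
  have hfq : f (q : A0 C) ≠ 0 :=
    cross_map_ne fun h => one_ne_zero (q_regular C (1 : A0 C) (by rw [h, zero_mul]))
  have hθn : ∀ {a b : C.O0}, a ^ n = 1 → b ^ n = 1 → (a ^ q * b ^ (n - 1)) ^ n = 1 :=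
    fun {a b} ha hb => by
      rw [mul_pow, pow_right_comm, ha, one_pow, pow_right_comm, hb, one_pow, one_mul]
  have hξθ : ζ ^ q * ζ' ^ (n - 1) = ξ * (ζ' ^ q * ζ ^ (n - 1)) := by
    obtain ⟨π, hπ, -, hπm⟩ := exists_prime_mid C haux hM hqm hCP h𝔪 hfq hall hprime
    exact theta_eq_xi_mul C haux hM hqm hmem hq𝔪 hCP.res E hE happrox hn hξ (hθn hζ hζ')
      (hθn hζ' hζ) hπ hπm
      (hmid π hπ hπm).1 (hmid π hπ hπm).2
  -- the root
  obtain ⟨c, hcn, hc1, hc2, hc3, hQe⟩ :=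
    cross_const (NeZero.ne n) hq.out.one_le hξ.pow_eq hζ hζ' hξθ
  refine ⟨φ c * H ^ (q * (q ^ 2 - 1)) * f (dA C haux hM * xV C haux hM E hE ^ (q + 1)), ?_, ?_⟩
  · exact cross_root_eq f hHn (by rw [← map_pow, hcn, map_one])
  refine mem_radical_of_primes hfq fun π hπ hπq => ?_
  obtain ⟨t, ht⟩ := hprime π hπ hπq
  rw [dA, gA]
  cases t with
  | inf =>
    exact cross_root_inf f φ ht rfl
      ((eMid_mem_PT_iff C haux hM hqm .inf).mpr (by decide))
      ((eZero_mem_PT_iff C haux hM hqm .inf).mpr (by decide)) (hinf π hπ ht) hc1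
  | zero =>
    exact cross_root_zero f φ ht rfl
      ((eMid_mem_PT_iff C haux hM hqm .zero).mpr (by decide))
      ((eInf_mem_PT_iff C haux hM hqm .zero).mpr (by decide)) (hzero π hπ ht) hc2
  | mid =>
    exact cross_root_mid f φ ht
      ((eInf_mem_PT_iff C haux hM hqm .mid).mpr (by decide))
      ((eZero_mem_PT_iff C haux hM hqm .mid).mpr (by decide)) (hmid π hπ ht).2 hc3 hQe

end FermatAgent.BAD.Sq

end
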