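import Fermat.Agent.BAD.Sq.Glue
import Fermat.Agent.BAD.Sq.RootAlg

/-!
# The local root at a point of one component only

There the element `yy` has, in the completion, an `n`-th root congruent to the glued function
modulo the radical of `q`.
-/

set_option autoImplicit false

open UpperHalfPlane CongruenceSubgroup IsLocalRing
open scoped MatrixGroups

noncomputable section

namespace FermatAgent.BAD.Sq

open FermatAgent.ES (AuxLevel CPlace)

variable {q M m : ℕ} [hq : Fact q.Prime] [NeZero M] {P : CPlace q}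
variable (C : Coef M P) (haux : AuxLevel M m) (hM : M.Coprime q) (hqm : q ≠ m)

theorem isUnit_natCast_compl {n : ℕ} (hn : n.Coprime q) (𝔪 : Ideal (A0 C)) :
    IsUnit (n : AdicCompletion 𝔪 (A0 C)) := by
  simpa using (isUnit_natCast_coef0 C hn).map
    ((algebraMap (A0 C) (AdicCompletion 𝔪 (A0 C))).comp (constA C))

include haux hqm in
/-- **The root at a smooth point.** -/
theorem localRoot_smooth {𝔪 : Ideal (A0 C)} (h𝔪 : 𝔪.IsMaximal) {t : Typ}
    (hle : PT C hM t ≤ 𝔪) (hS : SmoothPt C hM 𝔪 t) {n : ℕ} [NeZero n] (hn : n.Coprime q)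
    (E : Elt P hM n) (hE : E.Over C) {ξ : C.O0} (hξ : ξ ^ n = 1)
    (hpow : ∃ s g v : A0 C, s ∉ 𝔪 ∧ v ∉ 𝔪 ∧ yA C hM E hE * s = g ^ n * v) :
    LocalRootNil 𝔪 (q : A0 C) (yy C haux hM E hE) (gA C haux hM E hE ξ) n := by
  have := isNoetherianRing_A0 C haux
  have := hS.good.noeth
  have := hS.good.loc
  have := hS.good.isAdicComplete
  obtain ⟨x, c, hR, hxP, e, hxe⟩ := hS.data
  obtain ⟨s, g, v, hs, hv, hy⟩ := hpow
  set f := algebraMap (A0 C) (AdicCompletion 𝔪 (A0 C))
  set G := gA C haux hM E hE ξ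
  obtain ⟨us, hus⟩ := hS.good.unit s hs
  set u := f v * (↑us⁻¹ : AdicCompletion 𝔪 (A0 C))
  have hu : IsUnit u := (hS.good.unit v hv).mul us⁻¹.isUnit
  have hfy : f (yA C hM E hE) = u * f g ^ n := by
    have h1 := congrArg f hy
    rw [map_mul, map_mul, map_pow, ← hus] at h1
    simp only [u]
    rw [mul_right_comm, mul_comm (f v), ← h1, Units.mul_inv_cancel_right]
  set Γ := f g ^ (q * (q ^ 2 - 1)) * f (dA C haux hM * xV C haux hM E hE ^ (q + 1))
  have hyy : f (yy C haux hM E hE) = u ^ (q * (q ^ 2 - 1)) * Γ ^ n := by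
    rw [yy, map_mul, map_pow, map_pow, hfy]
    ring
  have hG : ¬ x ∣ f G := by
    intro hd
    have h1 : f (q : A0 C) ∣ f (G ^ e) := by
      rw [map_pow]
      exact hxe.trans (pow_dvd_pow_of_dvd hd e)
    obtain ⟨s', hs', hs''⟩ := memLoc_of_completion (m := 𝔪) (I := Ideal.span {(q : A0 C)})
      (x := G ^ e) (by rwa [Ideal.map_span, Set.image_singleton, Ideal.mem_span_singleton])
    have := PT_isPrime C hM t
    have h2 := (Ideal.span_singleton_le_iff_mem _).mpr (q_mem_PT C hM t) hs''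
    rcases (PT_isPrime C hM t).mem_or_mem h2 with h3 | h3
    · exact hs' (hle h3)
    · exact gA_not_mem_PT C haux hM hqm E hE hξ t ((PT_isPrime C hM t).mem_of_pow_mem _ h3)
  obtain ⟨L, hL, hLG⟩ := exists_root_smooth hR (isUnit_natCast_compl C hn 𝔪) (Γ := Γ)
    (hu.pow (q * (q ^ 2 - 1))) hG (by
      rw [← hyy, ← map_pow, ← map_sub]
      exact hxP _ ((mem_radical_iff C haux hM hqm _).mp (yy_sub_pow_mem C haux hM hqm E hE hξ) t))
  refine ⟨L, by rw [hL, hyy], ?_⟩
  refine Ideal.mem_of_dvd _ hLG ⟨e, ?_⟩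
  rw [Ideal.mem_span_singleton]
  exact hxe

end FermatAgent.BAD.Sq

end
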