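import Fermat.Agent.BAD.Sq.Params2
import Fermat.Agent.BAD.Sq.Local
import Fermat.Agent.BAD.Sq.RootSmooth
import Fermat.Agent.BAD.Sq.RootCross
import Fermat.Agent.BAD.Sq.Kill
import Fermat.Agent.BAD.Sq.GoodT
import Fermat.Agent.BAD.Sq.Elem.Main
import Fermat.Agent.ES.Cong.Normalize

/-!
# Characters fixed by inertia with trivial transfers are killed

After enlarging the unramified coefficients every point of the special fibre where the glued
function vanishes has good parameters, so it carries a local root; hence a power of the root of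
the character is invariant.
-/

set_option autoImplicit false

open UpperHalfPlane CongruenceSubgroup IsLocalRing
open scoped MatrixGroups

noncomputable section

namespace FermatAgent.BAD.Sq

open FermatAgent.ES (BRing lexp act zetaC AuxLevel CPlace)

variable {q M m : ℕ} [hq : Fact q.Prime] [NeZero M] {P : CPlace q}

section Points

variable (C : Coef M P) (haux : AuxLevel M m) (hM : M.Coprime q) (hqm : q ≠ m) {n : ℕ} [NeZero n]
  (E : Elt P hM n) (hE : E.Over C) {ξ : C.O0}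

include hqm in
/-- The local roots at all points where good parameters exist. -/
theorem localRoot_of_goodFor (hn : n.Coprime q) (hξ : IsXi C haux hM E hE ξ)
    (h1 : GoodFor haux C.O q (fI C haux hM (gA C haux hM E hE ξ) : ℍ → ℂ))
    (h2 : GoodFor haux C.O q (fZ C haux hM (gA C haux hM E hE ξ) : ℍ → ℂ))
    (h3 : GoodFor haux C.O q (fZ C haux hM (sigA C haux hM (gA C haux hM E hE ξ)) : ℍ → ℂ))
    {𝔪 : Ideal (A0 C)} (h𝔪 : 𝔪.IsMaximal) (hq𝔪 : (q : A0 C) ∈ 𝔪)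
    (hG : gA C haux hM E hE ξ ∈ 𝔪) :
    LocalRootNil 𝔪 (q : A0 C) (yy C haux hM E hE) (gA C haux hM E hE ξ) n := by
  have := h𝔪
  have hgood : GoodAt C haux hM 𝔪 :=
    ⟨goodI_of_goodFor C haux hM hqm h1 h𝔪 hq𝔪 hG, goodZ_of_goodFor C haux hM hqm h2 h𝔪 hq𝔪 hG⟩
  by_cases hall : ∀ t, PT C hM t ≤ 𝔪
  · have hCP := crossPt C haux hM hqm h𝔪 hq𝔪 hall hgood
    have := hCP.good.noeth
    have := hCP.good.loc
    obtain ⟨x, c, hR⟩ := hCP.data
    refine localRoot_cross C haux hM hqm h𝔪 hq𝔪 hall hgood hCP hn E hE hξ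
      (exists_yA_pow C haux hM hqm hq𝔪 hCP.good hR E hE hCP.res) fun π hπ hπq => ?_
    obtain ⟨t, -, ht⟩ := prime_comap_eq_PT C haux hM hqm hCP.good hR hπ hπq
    exact ⟨t, ht⟩
  obtain ⟨t, ht⟩ := exists_PT_le C haux hM hqm h𝔪.isPrime hq𝔪
  have honly : ∀ s, s ≠ t → ¬ PT C hM s ≤ 𝔪 := fun s hs h =>
    hall fun u => PT_le_of_two C haux hM hqm h𝔪 hs h ht u
  have hS : SmoothPt C hM 𝔪 t := by
    cases t with
    | zero =>
      exact smoothPt_zero C haux hM hqm h𝔪 ht (honly _ (by decide)) (honly _ (by decide)) hgood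
    | mid =>
      exact smoothPt_mid C haux hM hqm h𝔪 ht (honly _ (by decide)) (honly _ (by decide)) hgood
    | inf =>
      refine smoothPt_inf C haux hM hqm h𝔪 ht (honly _ (by decide)) (honly _ (by decide))
        ⟨fun hI => absurd ?_ (honly .zero (by decide)), ?_⟩
      · exact PT_le_of_comap_sigA C haux hM hqm (t := .zero)
          (PT_inf_le C haux hM (isMaximal_comap_sigA C haux hM h𝔪).isPrime hI)
      · refine goodZ_of_goodFor C haux hM hqm h3 (isMaximal_comap_sigA C haux hM h𝔪)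
          (Ideal.mem_comap.mpr ?_) (Ideal.mem_comap.mpr ?_)
        · rw [map_natCast]; exact hq𝔪
        · rw [sigA_sigA]; exact hG
  have := hS.good.noeth
  have := hS.good.loc
  obtain ⟨x, c, hR, -⟩ := hS.data
  exact localRoot_smooth C haux hM hqm h𝔪 ht hS hn E hE hξ.pow_eq
    (exists_yA_pow C haux hM hqm hq𝔪 hS.good hR E hE hS.res)

end Points

variable (Φ : ℂ ≃+* PadicAlgCl q)

/-- **A power of the root is invariant.** -/
theorem act_pow_eq (haux : AuxLevel M m) (hM : M.Coprime q)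
    (hqm : q ≠ m) {n : ℕ} [NeZero n] (hn : n.Coprime q) (E : Elt (CPlace.ofEquiv Φ) hM n)
    {N₀ : ℕ} (hN₀ : N₀ ≠ 0)
    (hover : ∀ N : ℕ, N₀ ∣ N → ∀ [NeZero N], ∀ C : Coef M (CPlace.ofEquiv Φ),
      C.O = lRing Φ N → C.O0 = uRing Φ N → (∀ a, (C.D a).σ = conjC Φ (fixG Φ a)) → E.Over C)
    {δ : SL(2, ℤ)} (hδ : δ ∈ lamD q M) :
    act δ (E.h ^ (q * (q ^ 2 - 1))) = E.h ^ (q * (q ^ 2 - 1)) := by
  obtain ⟨n0, hn0, -, hlev⟩ := AtP.exists_levelExp (q := q) hM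
  set N2 := N₀ * n0
  have : NeZero N2 := ⟨mul_ne_zero hN₀ hn0.ne'⟩
  have hlev2 : M ∣ q ^ N2 - 1 := hlev N2 (dvd_mul_left _ _)
  obtain ⟨C1, hO, hO0, hσ⟩ := exists_coef Φ hM hlev2
  have hE1 := hover N2 (dvd_mul_right _ _) C1 hO hO0 hσ
  obtain ⟨ξ1, hξ1⟩ := exists_xi C1 haux hM hqm E hE1 hn
  set G1 := gA C1 haux hM E hE1 ξ1
  have hG1 := fun t => gA_not_mem_PT C1 haux hM hqm E hE1 hξ1.pow_eq t
  have hσG : ∀ t, sigA C1 haux hM G1 ∉ PT C1 hM t := fun t h =>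
    hG1 t.swap ((sigA_mem_PT_iff C1 haux hM hqm).mp h)
  obtain ⟨Na, hNa, hga⟩ := exists_goodT Φ hM haux hlev2 (hO ▸ (fI C1 haux hM G1).2)
    (unitCoeff_fI C1 haux hM hqm (hG1 .inf))
  obtain ⟨Nb, hNb, hgb⟩ := exists_goodT Φ hM haux hlev2 (hO ▸ (fZ C1 haux hM G1).2)
    (unitCoeff_fZ C1 haux hM hqm (hG1 .zero) (hG1 .mid))
  obtain ⟨Nc, hNc, hgc⟩ := exists_goodT Φ hM haux hlev2
    (hO ▸ (fZ C1 haux hM (sigA C1 haux hM G1)).2)
    (unitCoeff_fZ C1 haux hM hqm (hσG .zero) (hσG .mid))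
  set N := N2 * (Na * Nb * Nc)
  have : NeZero N :=
    ⟨mul_ne_zero (NeZero.ne N2) (mul_ne_zero (mul_ne_zero hNa hNb) hNc)⟩
  have h2N : N2 ∣ N := dvd_mul_right _ _
  obtain ⟨C, hCO, hCO0, hCσ⟩ := exists_coef Φ hM (hlev N ((dvd_mul_left _ _).trans h2N))
  have hE := hover N ((dvd_mul_right _ _).trans h2N) C hCO hCO0 hCσ
  have hσσ : ∀ a, (C1.D a).σ = (C.D a).σ := fun a => by rw [hσ, hCσ]
  set ξ : C.O0 := ⟨(ξ1 : ℂ), hCO0 ▸ uRing_mono Φ h2N (hO0 ▸ ξ1.2)⟩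
  have hξ : IsXi C haux hM E hE ξ :=
    isXi_congr C1 haux hM C hσσ E hE1 hE rfl hξ1
  have hGG : (G1 : ℍ → ℂ) = gA C haux hM E hE ξ := coe_gA_congr C1 haux hM C hσσ E hE1 hE rfl
  have hgood : ∀ f : ℍ → ℂ, GoodFor haux (lRing Φ N) q f → GoodFor haux C.O q f := fun f h => by
    rw [hCO]; exact h
  have ha := hgood _ (hga N (dvd_trans ⟨Nb * Nc, by ring⟩ (dvd_mul_left _ N2)))
  have hb := hgood _ (hgb N (dvd_trans ⟨Na * Nc, by ring⟩ (dvd_mul_left _ N2)))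
  have hc := hgood _ (hgc N (dvd_trans ⟨Na * Nb, by ring⟩ (dvd_mul_left _ N2)))
  rw [coe_fI_congr C1 haux hM C hGG] at ha
  rw [coe_fZ_congr C1 haux hM C hGG] at hb
  rw [coe_fZ_congr C1 haux hM C (show (sigA C1 haux hM G1 : ℍ → ℂ) =
    sigA C haux hM (gA C haux hM E hE ξ) by rw [coe_sigA, coe_sigA, hGG])] at hc
  exact act_pow_eq_of_localRoot C haux hM hqm (E := E) (hE := hE) (hn := hn) (ξ := ξ) hξ
    (fun 𝔪 h𝔪 hq𝔪 hG => localRoot_of_goodFor C haux hM hqm E hE hn hξ ha hb hc h𝔪 hq𝔪 hG) hδ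

/-- **No toric part at `q²`.** For `q ∤ L` a fixed exponent kills the parabolic characters of
`Γ₀(L q²)` of order prime to `q` that are fixed by inertia at `q` and have both transfers to
`Γ₀(L q)` trivial. -/
theorem sqKill (L q : ℕ) [NeZero L] [Fact q.Prime] (hqL : ¬ q ∣ L) : ∃ e : ℕ, e ≠ 0 ∧
    ∀ (n : ℕ) [NeZero n], n.Coprime q → ∀ φ : ES.parGroup (Gamma0 (L * q ^ 2)) n,
      KillsTransfer (L * q ^ 2) (L * q) (lowRep L q) φ.1 →
      KillsTransfer (L * q ^ 2) (L * q) (upRep q) φ.1 →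
      ∀ A : ValuationSubring (AlgebraicClosure ℚ), A.LiesOverPrime q →
        (∀ s ∈ A.inertiaSubgroupIn ℚ,
          ES.galChar (ES.goodLevel_Gamma0 (L * q ^ 2)) n s φ = φ) →
        φ ^ e = 1 := by
  obtain ⟨M, m, r, haux, hM, hLM, -, -⟩ :=
    ES.exists_auxLevel_coprime (Fact.out : q.Prime) hqL
  have : NeZero M := ⟨by have := haux.three_le; omega⟩
  have : NeZero q := ⟨(Fact.out : q.Prime).ne_zero⟩
  have hqm : q ≠ m := by
    rintro rfl
    exact (Fact.out : q.Prime).not_dvd_one (hM ▸ Nat.dvd_gcd haux.dvd dvd_rfl)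
  obtain ⟨a, ha, h⟩ := eltExists q M L m hLM haux hM hqm
  have hq1 : 1 < q ^ 2 := Nat.one_lt_pow two_ne_zero (Fact.out : q.Prime).one_lt
  refine ⟨a * (q * (q ^ 2 - 1)), mul_ne_zero ha (mul_ne_zero (NeZero.ne q) (by omega)),
    fun n _ hn φ hlow hup A hA hfix => ?_⟩
  obtain ⟨Φ, hΦ⟩ := ES.exists_padicEquiv_compat hA
  obtain ⟨E, ⟨N₀, hN₀, hover⟩, hrec⟩ := h Φ n hn φ hlow hup (hΦ ▸ hfix)
  exact hrec _ fun γ hγ =>
    act_pow_eq Φ haux hM hqm hn E hN₀ hover hγ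

end FermatAgent.BAD.Sq

end
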