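import Fermat.Agent.BAD.AtP.Level.Good

/-!
# The coefficient rings `ℤ_q[μ']` and `ℤ_q[μ', ζ_q]` and the Galois averaging

They form a pair (`Coef`) of complete discrete valuation rings in `ℂ` with Galois group `(ℤ/q)ˣ`;
averaging over it retracts the larger ring onto the smaller modulo the maximal ideal.
-/

set_option autoImplicit false

open IntermediateField
open scoped MatrixGroups

noncomputable section

namespace FermatAgent.BAD.Sq

open FermatAgent.BAD.TwoP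
open FermatAgent.ES (zetaC CPlace GoodRoot padicSubring isCDVR_padicSubring)
open CFT.Local (unramRoot botF Gal' ramIdx)

variable {q : ℕ} [hq : Fact q.Prime]

variable (q) in
/-- `ℚ_q(μ_(q ^ n - 1))`. -/
def uField (n : ℕ) [NeZero n] : IntermediateField ℚ_[q] (PadicAlgCl q) :=
  ℚ_[q]⟮unramRoot (botF q) n⟯

instance (n : ℕ) [NeZero n] : FiniteDimensional ℚ_[q] (uField q n) :=
  adjoin.finiteDimensional (Algebra.IsIntegral.isIntegral _)

theorem unramRoot_mem_uField (n : ℕ) [NeZero n] : unramRoot (botF q) n ∈ uField q n :=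
  mem_adjoin_simple_self _ _

theorem ramIdx_uField (n : ℕ) [NeZero n] : ramIdx (uField q n) = 1 := by
  have h := finrank_adjoin_unramRoot (q := q) n
  rw [show ℚ_[q]⟮unramRoot (botF q) n⟯ = uField q n from rfl, CFT.Local.finrank_eq] at h
  have hf := le_inertiaDeg n (F := uField q n) (unramRoot_mem_uField n)
  have hn : 0 < n := Nat.pos_of_ne_zero (NeZero.ne n)
  have h1 : ramIdx (uField q n) * n ≤ 1 * n := by
    rw [one_mul]; exact (Nat.mul_le_mul_left _ hf).trans h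
  refine le_antisymm (Nat.le_of_mul_le_mul_right h1 hn) ?_
  by_contra h0
  have h2 := CFT.Local.finrank_eq (uField q n)
  rw [show ramIdx (uField q n) = 0 by omega, zero_mul] at h2
  exact Module.finrank_pos.ne' h2

/-- The absolute values on `ℚ_q(μ_(q ^ n - 1))` are powers of that of `q`. -/
theorem exists_norm_eq_zpow {n : ℕ} [NeZero n] {x : PadicAlgCl q} (hx : x ∈ uField q n)
    (h0 : x ≠ 0) : ∃ k : ℤ, ‖x‖ = ‖(q : PadicAlgCl q)‖ ^ k := by
  refine ⟨CFT.Local.ord (uField q n) x, ?_⟩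
  have hq1 := CFT.Local.ord_q (uField q n)
  rw [ramIdx_uField, Nat.cast_one] at hq1
  conv_rhs => rw [CFT.Local.norm_eq_zpow_ord (uField q n) (CFT.Local.q_mem (uField q n))
    CFT.Local.q_ne_zero, hq1, zpow_one]
  exact CFT.Local.norm_eq_zpow_ord (uField q n) hx h0

/-- An element of the maximal unramified field lies in `ℚ_q(μ_(q ^ n - 1))` for all divisible `n`.
-/
theorem exists_mem_uField {x : PadicAlgCl q} (hx : x ∈ adjoin ℚ_[q] (primeToRoots q)) :
    ∃ N : ℕ, 0 < N ∧ ∀ n, N ∣ n → ∀ [NeZero n], x ∈ uField q n := by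
  classical
  obtain ⟨S, hS, hxS⟩ := exists_finset_of_mem_adjoin hx
  have hT : ∀ t ∈ S, ∃ d, 0 < d ∧ t ^ (q ^ d - 1) = 1 := fun t ht => hS (Finset.mem_coe.mpr ht)
  choose! d hd0 hd using hT
  refine ⟨∏ t ∈ S, d t, Finset.prod_pos hd0, fun n hn _ => ?_⟩
  refine adjoin_le_iff.mpr (fun t ht => ?_) hxS
  obtain ⟨i, hi⟩ := CFT.Local.exists_pow_eq (botF q) n (ω := t) (by
    rw [unramOrder_bot]
    exact pow_sub_one_eq_one_of_dvd ((Finset.dvd_prod_of_mem d ht).trans hn) (hd t ht))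
  rw [← hi]
  exact pow_mem (unramRoot_mem_uField n) i

theorem pow_val_mul {ζ : PadicAlgCl q} (hζ : IsPrimitiveRoot ζ q) (c h : (ZMod q)ˣ) :
    (ζ ^ (c : ZMod q).val) ^ (h : ZMod q).val = ζ ^ ((c * h : (ZMod q)ˣ) : ZMod q).val := by
  rw [← pow_mul, Units.val_mul, ZMod.val_mul, ← pow_eq_pow_mod _ hζ.pow_eq_one]

/-- An automorphism fixing the roots of unity of order prime to `q` with prescribed effect on
`ζ_q`. -/
theorem exists_fix_apply {ζ : PadicAlgCl q} (hζ : IsPrimitiveRoot ζ q) (a : (ZMod q)ˣ) :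
    ∃ s : Gal' q, (∀ t ∈ primeToRoots q, s t = t) ∧ s ζ = ζ ^ (a : ZMod q).val := by
  classical
  set H : Finset (ZMod q)ˣ := Finset.univ.filter fun a =>
    ∃ s : Gal' q, (∀ t ∈ primeToRoots q, s t = t) ∧ s ζ = ζ ^ (a : ZMod q).val
  suffices hH : H = Finset.univ by
    have := Finset.mem_univ a
    rw [← hH] at this
    exact (Finset.mem_filter.mp this).2
  set x := ∏ h ∈ H, (1 - ζ ^ (h : ZMod q).val)
  have h1H : (1 : (ZMod q)ˣ) ∈ H := Finset.mem_filter.mpr ⟨Finset.mem_univ _, 1, fun t _ => rfl,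
    by rw [Units.val_one, ZMod.val_one, pow_one]; rfl⟩
  have hxmem : x ∈ adjoin ℚ_[q] (primeToRoots q) :=
    CFT.Local.exists_apply_eq_of_mem _ fun s hs => by
    have hR : ∀ t ∈ primeToRoots q, s t = t := fun t ht =>
      (mem_fixingSubgroup_iff _ s).mp hs t (subset_adjoin _ _ ht)
    have : NeZero q := ⟨hq.out.ne_zero⟩
    obtain ⟨i, hi, hsi⟩ := hζ.eq_pow_of_pow_eq_one (ξ := s ζ)
      (by rw [← map_pow, hζ.pow_eq_one, map_one])
    have hi0 : (i : ZMod q) ≠ 0 := fun h => by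
      rw [ZMod.natCast_eq_zero_iff] at h
      rw [Nat.eq_zero_of_dvd_of_lt h hi, pow_zero] at hsi
      exact hζ.ne_one hq.out.one_lt (s.injective (by rw [← hsi, map_one]))
    set c : (ZMod q)ˣ := Units.mk0 _ hi0
    have hc : s ζ = ζ ^ (c : ZMod q).val := by
      rw [Units.val_mk0, ZMod.val_natCast, Nat.mod_eq_of_lt hi, hsi]
    have hcH : ∀ h ∈ H, c * h ∈ H := fun h hh => by
      obtain ⟨t, ht, htζ⟩ := (Finset.mem_filter.mp hh).2
      refine Finset.mem_filter.mpr ⟨Finset.mem_univ _, s * t, fun r hr => ?_, ?_⟩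
      · rw [AlgEquiv.mul_apply, ht r hr, hR r hr]
      · rw [AlgEquiv.mul_apply, htζ, map_pow, hc, pow_val_mul hζ]
    have himg : H.image (fun h => c * h) = H :=
      Finset.eq_of_subset_of_card_le (fun y hy => by
        obtain ⟨h, hh, rfl⟩ := Finset.mem_image.mp hy
        exact hcH h hh) (Finset.card_image_of_injective H (mul_right_injective c)).ge
    show s x = x
    rw [map_prod]
    conv_rhs => rw [show x = ∏ h ∈ H.image (fun h => c * h), (1 - ζ ^ (h : ZMod q).val) by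
      rw [himg], Finset.prod_image (fun y _ z _ h => mul_right_injective c h)]
    refine Finset.prod_congr rfl fun h _ => ?_
    rw [map_sub, map_one, map_pow, hc, pow_val_mul hζ]
  obtain ⟨N, hN, hxN⟩ := exists_mem_uField hxmem
  have : NeZero N := ⟨hN.ne'⟩
  have : NeZero (q - 1) := ⟨(Nat.sub_pos_of_lt hq.out.one_lt).ne'⟩
  have hterm : ∀ h : (ZMod q)ˣ, ‖1 - ζ ^ (h : ZMod q).val‖ = ‖ζ - 1‖ := fun h => by
    rw [CFT.Local.norm_one_sub_zeta_pow hζ, ← norm_neg, neg_sub]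
    intro hd
    exact h.ne_zero ((ZMod.val_eq_zero _).mp (Nat.eq_zero_of_dvd_of_lt hd (ZMod.val_lt _)))
  have hxnorm : ‖x‖ = ‖ζ - 1‖ ^ H.card := by
    rw [norm_prod]; simp only [hterm, Finset.prod_const]
  have hz : (0 : ℝ) < ‖ζ - 1‖ := norm_pos_iff.mpr (sub_ne_zero.mpr (hζ.ne_one hq.out.one_lt))
  have hx0 : x ≠ 0 := norm_pos_iff.mp (by rw [hxnorm]; exact pow_pos hz _)
  obtain ⟨k, hk⟩ := exists_norm_eq_zpow (hxN N dvd_rfl) hx0
  have e : ‖(q : PadicAlgCl q)‖ ^ (H.card : ℤ) =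
      ‖(q : PadicAlgCl q)‖ ^ (k * (q - 1 : ℕ)) := by
    rw [zpow_mul, ← hk, hxnorm, zpow_natCast, zpow_natCast, ← norm_zeta_sub_one_pow hζ, ← pow_mul,
      ← pow_mul, mul_comm]
  have e2 := zpow_right_injective₀ (CFT.Local.norm_q_pos (q := q))
    CFT.Local.norm_q_lt_one.ne e
  refine Finset.eq_univ_of_card H (le_antisymm (Finset.card_le_univ H) ?_)
  rw [ZMod.card_units q]
  have hpos : 0 < H.card := Finset.card_pos.mpr ⟨1, h1H⟩
  have h2 : (q - 1 : ℕ) ∣ H.card := Int.natCast_dvd_natCast.mp ⟨k, by rw [e2, mul_comm]⟩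
  exact Nat.le_of_dvd hpos h2

/-! ### The rings in `ℂ` -/

variable (Φ : ℂ ≃+* PadicAlgCl q)

/-- The integers of `ℚ_q(μ_(q ^ n - 1))` in `ℂ`. -/
def uRing (n : ℕ) [NeZero n] : Subring ℂ := padicSubring Φ (Φ.symm '' {unramRoot (botF q) n})

/-- The integers of `ℚ_q(ζ_q, μ_(q ^ n - 1))` in `ℂ`. -/
def lRing (n : ℕ) [NeZero n] : Subring ℂ :=
  padicSubring Φ (Φ.symm '' {zetaP Φ, unramRoot (botF q) n})

/-- Membership in the integers of `ℚ_q(μ_(q ^ n - 1))`. -/
theorem mem_uRing {n : ℕ} [NeZero n] {z : ℂ} :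
    z ∈ uRing Φ n ↔ Φ z ∈ uField q n ∧ ‖Φ z‖ ≤ 1 := by
  have e : adjoin ℚ_[q] (Φ '' (Φ.symm '' {unramRoot (botF q) n})) = uField q n := by
    rw [← Set.image_comp, show (⇑Φ ∘ ⇑Φ.symm) = id from funext Φ.apply_symm_apply, Set.image_id,
      uField]
  rw [← e]
  exact Iff.rfl

/-- Membership in the integers of `ℚ_q(ζ_q, μ_(q ^ n - 1))`. -/
theorem mem_lRing {n : ℕ} [NeZero n] {z : ℂ} :
    z ∈ lRing Φ n ↔ Φ z ∈ lField q (zetaP Φ) n ∧ ‖Φ z‖ ≤ 1 := by
  have e : adjoin ℚ_[q] (Φ '' (Φ.symm '' {zetaP Φ, unramRoot (botF q) n})) =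
      lField q (zetaP Φ) n := by
    rw [← Set.image_comp, show (⇑Φ ∘ ⇑Φ.symm) = id from funext Φ.apply_symm_apply, Set.image_id,
      lField, ← adjoin_union]
    rfl
  rw [← e]
  exact Iff.rfl

theorem isCDVR_uRing (n : ℕ) [NeZero n] : (CPlace.ofEquiv Φ).IsCDVR (uRing Φ n) :=
  isCDVR_padicSubring Φ ((Set.toFinite _).image _)

/-- The integers of `ℚ_q(ζ_q, μ_(q ^ n - 1))` form a complete discrete valuation ring. -/
theorem isCDVR_lRing (n : ℕ) [NeZero n] : (CPlace.ofEquiv Φ).IsCDVR (lRing Φ n) :=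
  isCDVR_padicSubring Φ ((Set.toFinite _).image _)

theorem uField_le_lField (n : ℕ) [NeZero n] : uField q n ≤ lField q (zetaP Φ) n := le_sup_right

theorem uRing_le_lRing (n : ℕ) [NeZero n] : uRing Φ n ≤ lRing Φ n := fun z hz => by
  rw [mem_uRing] at hz
  rw [mem_lRing]
  exact ⟨uField_le_lField Φ n hz.1, hz.2⟩

theorem uField_mono {n N : ℕ} [NeZero n] [NeZero N] (h : n ∣ N) : uField q n ≤ uField q N := by
  refine adjoin_simple_le_iff.mpr ?_
  obtain ⟨i, hi⟩ := CFT.Local.exists_pow_eq (botF q) N (ω := unramRoot (botF q) n) (by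
    rw [unramOrder_bot]
    refine pow_sub_one_eq_one_of_dvd h ?_
    rw [← unramOrder_bot]
    exact (CFT.Local.unramRoot_spec (botF q) n).pow_eq_one)
  rw [← hi]
  exact pow_mem (unramRoot_mem_uField N) i

/-- The unramified rings grow with `n`. -/
theorem uRing_mono {n N : ℕ} [NeZero n] [NeZero N] (h : n ∣ N) : uRing Φ n ≤ uRing Φ N :=
  fun z hz => by
    rw [mem_uRing] at hz ⊢
    exact ⟨uField_mono h hz.1, hz.2⟩

/-- The rings with `ζ_q` grow with `n`. -/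
theorem lRing_mono {n N : ℕ} [NeZero n] [NeZero N] (h : n ∣ N) : lRing Φ n ≤ lRing Φ N :=
  fun z hz => by
    rw [mem_lRing] at hz ⊢
    exact ⟨lField_mono Φ h hz.1, hz.2⟩

variable {M : ℕ} [NeZero M]

theorem zetaC_level_mem (hM : M.Coprime q) {n : ℕ} [NeZero n] (hn : M ∣ q ^ n - 1) :
    zetaC (q * M) ∈ lRing Φ n ∧ zetaC M ∈ uRing Φ n := by
  refine ⟨(mem_lRing Φ).mpr ⟨(AtP.zetaC_mem_oRingM Φ hM hn).2.2,
    (CFT.Local.norm_eq_one_of_pow_eq_one (NeZero.ne (q * M)) ?_).le⟩, (mem_uRing Φ).mpr ⟨?_,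
    (CFT.Local.norm_eq_one_of_pow_eq_one (NeZero.ne M) ?_).le⟩⟩
  · rw [← map_pow, (ES.zetaC_isPrimitiveRoot (q * M)).pow_eq_one, map_one]
  · obtain ⟨r, hr⟩ := hn
    obtain ⟨i, hi⟩ := CFT.Local.exists_pow_eq (botF q) n (ω := Φ (zetaC M)) (by
      rw [unramOrder_bot, hr, pow_mul, ← map_pow, (ES.zetaC_isPrimitiveRoot M).pow_eq_one, map_one,
        one_pow])
    rw [← hi]
    exact pow_mem (unramRoot_mem_uField n) i
  · rw [← map_pow, (ES.zetaC_isPrimitiveRoot M).pow_eq_one, map_one]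

/-- The unramified ring has good roots of level `M`. -/
theorem goodRoot_uRing (hM : M.Coprime q) {n : ℕ} [NeZero n] (hn : M ∣ q ^ n - 1) :
    GoodRoot M (uRing Φ n) (zetaC M) :=
  (isCDVR_uRing Φ n).goodRoot ((CPlace.ofEquiv Φ).goodRoot hM) (zetaC_level_mem Φ hM hn).2

/-- The ring with `ζ_q` has good roots of level `M`. -/
theorem goodRoot_lRing (hM : M.Coprime q) {n : ℕ} [NeZero n] (hn : M ∣ q ^ n - 1) :
    GoodRoot M (lRing Φ n) (zetaC M) :=
  (isCDVR_lRing Φ n).goodRoot ((CPlace.ofEquiv Φ).goodRoot hM)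
    (uRing_le_lRing Φ n (zetaC_level_mem Φ hM hn).2)

theorem irreducible_q (n : ℕ) [NeZero n] : Irreducible (q : uRing Φ n) := by
  have hO := isCDVR_uRing Φ n
  have := hO.dvr
  obtain ⟨π, hπ⟩ := IsDiscreteValuationRing.exists_irreducible (uRing Φ n)
  have hq0 : (q : uRing Φ n) ≠ 0 := fun h => by
    have := congrArg (fun z : uRing Φ n => (z : ℂ)) h
    simp [hq.out.ne_zero] at this
  obtain ⟨k, u, hk⟩ := IsDiscreteValuationRing.eq_unit_mul_pow_irreducible hq0 hπ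
  have hu : ‖Φ ((u : uRing Φ n) : ℂ)‖ = 1 := by
    have := (hO.isUnit_iff u).mp u.isUnit
    rwa [CPlace.ofEquiv_abv] at this
  have hqn : ‖(q : PadicAlgCl q)‖ = ‖Φ (π : ℂ)‖ ^ k := by
    have h1 := congrArg (fun z : uRing Φ n => ‖Φ (z : ℂ)‖) hk
    simpa [hu] using h1
  have hπ0 : (π : ℂ) ≠ 0 := fun h => hπ.ne_zero (Subtype.ext h)
  obtain ⟨j, hj⟩ := exists_norm_eq_zpow ((mem_uRing Φ).mp π.2).1 (by simpa using hπ0)
  rw [hj, ← zpow_natCast, ← zpow_mul] at hqn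
  have h2 := zpow_right_injective₀ (CFT.Local.norm_q_pos (q := q)) CFT.Local.norm_q_lt_one.ne
    (show ‖(q : PadicAlgCl q)‖ ^ (1 : ℤ) = _ by rw [zpow_one]; exact hqn)
  have hk1 : k = 1 := by
    have h3 : k ∣ 1 := Int.natCast_dvd_natCast.mp ⟨j, by rw [Nat.cast_one, h2, mul_comm]⟩
    exact Nat.dvd_one.mp h3
  rw [hk, hk1, pow_one]
  exact (irreducible_units_mul u).mpr hπ

/-- The chosen automorphisms. -/
def fixG (a : (ZMod q)ˣ) : Gal' q := (exists_fix_apply (zetaP_spec Φ) a).choose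

theorem fixG_spec (a : (ZMod q)ˣ) : (∀ t ∈ primeToRoots q, fixG Φ a t = t) ∧
    fixG Φ a (zetaP Φ) = zetaP Φ ^ (a : ZMod q).val :=
  (exists_fix_apply (zetaP_spec Φ) a).choose_spec

theorem apply_eq_on_lField {n : ℕ} [NeZero n] {s t : Gal' q}
    (h1 : s (zetaP Φ) = t (zetaP Φ)) (h2 : s (unramRoot (botF q) n) = t (unramRoot (botF q) n))
    {x : PadicAlgCl q} (hx : x ∈ lField q (zetaP Φ) n) : s x = t x := by
  have hle : lField q (zetaP Φ) n ≤ fixedField (Subgroup.zpowers (t⁻¹ * s)) := by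
    refine sup_le ?_ ?_ <;>
      rw [adjoin_simple_le_iff, mem_fixedField_iff] <;> intro f hf
    · exact (Subgroup.zpowers_le.mpr
        (show t⁻¹ * s ∈ MulAction.stabilizer (Gal' q) (zetaP Φ) by
          show (t⁻¹ * s) (zetaP Φ) = zetaP Φ
          rw [AlgEquiv.mul_apply, h1, ← AlgEquiv.mul_apply, inv_mul_cancel]; rfl)) hf
    · exact (Subgroup.zpowers_le.mpr
        (show t⁻¹ * s ∈ MulAction.stabilizer (Gal' q) (unramRoot (botF q) n) by
          show (t⁻¹ * s) (unramRoot (botF q) n) = unramRoot (botF q) n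
          rw [AlgEquiv.mul_apply, h2, ← AlgEquiv.mul_apply, inv_mul_cancel]; rfl)) hf
  have h3 := (mem_fixedField_iff _ x).mp (hle hx) _ (Subgroup.mem_zpowers _)
  have h4 := congrArg t h3
  rwa [← AlgEquiv.mul_apply, mul_inv_cancel_left] at h4

theorem fixG_mem_lField (a : (ZMod q)ˣ) {n : ℕ} [NeZero n] {x : PadicAlgCl q}
    (hx : x ∈ lField q (zetaP Φ) n) : fixG Φ a x ∈ lField q (zetaP Φ) n := by
  have hle : lField q (zetaP Φ) n ≤
      IntermediateField.comap (fixG Φ a).toAlgHom (lField q (zetaP Φ) n) := by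
    refine sup_le ?_ ?_ <;> rw [adjoin_simple_le_iff] <;>
      show fixG Φ a _ ∈ lField q (zetaP Φ) n
    · rw [(fixG_spec Φ a).2]; exact pow_mem (zeta_mem_lField n) _
    · rw [(fixG_spec Φ a).1 _ (unramRoot_mem_primeToRoots n)]
      exact unramRoot_mem_lField n
  exact hle hx

theorem fixG_mem_lRing (a : (ZMod q)ˣ) {n : ℕ} [NeZero n] {z : ℂ} (hz : z ∈ lRing Φ n) :
    conjC Φ (fixG Φ a) z ∈ lRing Φ n := by
  rw [mem_lRing] at hz ⊢
  rw [map_conjC]
  exact ⟨fixG_mem_lField Φ a hz.1, by rw [CFT.Local.norm_apply]; exact hz.2⟩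

/-- The chosen automorphisms move integers by less than one. -/
theorem small_fixG (a : (ZMod q)ˣ) (z : ℂ) (hz : (CPlace.ofEquiv Φ).abv z ≤ 1) :
    (CPlace.ofEquiv Φ).abv (conjC Φ (fixG Φ a) z - z) < 1 := by
  rw [CPlace.ofEquiv_abv] at hz ⊢
  rw [map_sub, map_conjC]
  exact norm_apply_sub_lt (fixG_spec Φ a).1 hz

theorem fixG_mul (a b : (ZMod q)ˣ) {n : ℕ} [NeZero n] {z : ℂ} (hz : z ∈ lRing Φ n) :
    conjC Φ (fixG Φ a) (conjC Φ (fixG Φ b) z) = conjC Φ (fixG Φ (a * b)) z := by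
  refine Φ.injective ?_
  simp only [map_conjC]
  rw [← AlgEquiv.mul_apply]
  refine apply_eq_on_lField Φ (n := n) ?_ ?_ ((mem_lRing Φ).mp hz).1
  · rw [AlgEquiv.mul_apply, (fixG_spec Φ b).2, map_pow, (fixG_spec Φ a).2,
      (fixG_spec Φ (a * b)).2, pow_val_mul (zetaP_spec Φ)]
  · have h := unramRoot_mem_primeToRoots (q := q) n
    rw [AlgEquiv.mul_apply, (fixG_spec Φ b).1 _ h, (fixG_spec Φ a).1 _ h,
      (fixG_spec Φ (a * b)).1 _ h]

/-- The unramified ring is the fixed ring of the chosen automorphisms. -/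
theorem mem_uRing_iff_fixed {n : ℕ} [NeZero n] {z : ℂ} :
    z ∈ uRing Φ n ↔ z ∈ lRing Φ n ∧ ∀ a, conjC Φ (fixG Φ a) z = z := by
  refine ⟨fun h => ⟨uRing_le_lRing Φ n h, fun a => Φ.injective ?_⟩, fun ⟨h, hfix⟩ => ?_⟩
  · rw [map_conjC]
    have hle : uField q n ≤ fixedField (Subgroup.zpowers (fixG Φ a)) := by
      rw [uField, adjoin_simple_le_iff, mem_fixedField_iff]
      exact fun f hf => (Subgroup.zpowers_le.mpr
        (show fixG Φ a ∈ MulAction.stabilizer (Gal' q) (unramRoot (botF q) n) from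
          (fixG_spec Φ a).1 _ (unramRoot_mem_primeToRoots n))) hf
    exact (mem_fixedField_iff _ _).mp (hle ((mem_uRing Φ).mp h).1) _ (Subgroup.mem_zpowers _)
  · obtain ⟨hz, hn1⟩ := (mem_lRing Φ).mp h
    refine (mem_uRing Φ).mpr ⟨CFT.Local.exists_apply_eq_of_mem _ fun s hs => ?_, hn1⟩
    have hu : s (unramRoot (botF q) n) = unramRoot (botF q) n :=
      (mem_fixingSubgroup_iff _ s).mp hs _ (unramRoot_mem_uField n)
    have : NeZero q := ⟨hq.out.ne_zero⟩
    obtain ⟨i, hi, hsi⟩ := (zetaP_spec Φ).eq_pow_of_pow_eq_one (ξ := s (zetaP Φ))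
      (by rw [← map_pow, (zetaP_spec Φ).pow_eq_one, map_one])
    have hi0 : (i : ZMod q) ≠ 0 := fun h0 => by
      rw [ZMod.natCast_eq_zero_iff] at h0
      rw [Nat.eq_zero_of_dvd_of_lt h0 hi, pow_zero] at hsi
      exact (zetaP_spec Φ).ne_one hq.out.one_lt (s.injective (by rw [← hsi, map_one]))
    have h1 := congrArg Φ (hfix (Units.mk0 _ hi0))
    rw [map_conjC] at h1
    refine Eq.trans (apply_eq_on_lField Φ (n := n) ?_ ?_ hz) h1
    · rw [(fixG_spec Φ _).2, Units.val_mk0, ZMod.val_natCast, Nat.mod_eq_of_lt hi, hsi]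
    · rw [(fixG_spec Φ _).1 _ (unramRoot_mem_primeToRoots n), hu]

/-! ### The data -/

/-- A pair of coefficient rings with its Galois group `(ℤ/q)ˣ`. -/
structure Coef (M : ℕ) (P : CPlace q) where
  /-- The ring containing `ζ_q`. -/
  O : Subring ℂ
  /-- The unramified ring. -/
  O0 : Subring ℂ
  cdvr : P.IsCDVR O
  cdvr0 : P.IsCDVR O0
  root0 : GoodRoot M O0 (zetaC M)
  zeta : zetaC (q * M) ∈ O
  unif : Irreducible (q : O0)
  /-- The automorphisms. -/
  D : (ZMod q)ˣ → InertData M P O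
  D_a : ∀ a, ((D a).a : ZMod q) = a
  D_mul : ∀ a b, ∀ z ∈ O, (D a).σ ((D b).σ z) = (D (a * b)).σ z
  mem_iff : ∀ z, z ∈ O0 ↔ z ∈ O ∧ ∀ a, (D a).σ z = z

/-- **The pair `ℤ_q[μ']`, `ℤ_q[μ', ζ_q]` with its Galois group.** -/
theorem exists_coef (hM : M.Coprime q) {n : ℕ} [NeZero n] (hn : M ∣ q ^ n - 1) :
    ∃ C : Coef M (CPlace.ofEquiv Φ), C.O = lRing Φ n ∧ C.O0 = uRing Φ n ∧
      ∀ a, (C.D a).σ = conjC Φ (fixG Φ a) := by
  choose D hD using fun a => exists_inertData (M := M) (P := CPlace.ofEquiv Φ) (O := lRing Φ n)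
    (conjC Φ (fixG Φ a)) (small_fixG Φ a) fun z hz => fixG_mem_lRing Φ a hz
  refine ⟨⟨lRing Φ n, uRing Φ n, isCDVR_lRing Φ n, isCDVR_uRing Φ n, goodRoot_uRing Φ hM hn,
    (zetaC_level_mem Φ hM hn).1, irreducible_q Φ n, D, fun a => ?_, fun a b z hz => ?_,
    fun z => ?_⟩, rfl, rfl, hD⟩
  · have : NeZero q := ⟨hq.out.ne_zero⟩
    have hzq : zetaC q = zetaC (q * M) ^ M := by
      rw [zetaC, zetaC, ← Complex.exp_nat_mul]
      congr 1
      have hMc : (M : ℂ) ≠ 0 := Nat.cast_ne_zero.mpr (NeZero.ne M)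
      push_cast
      field_simp
    have h1 : (D a).σ (zetaC q) = zetaC q ^ (D a).a := by
      rw [hzq, map_pow, (D a).zeta, ← pow_mul, ← pow_mul, Nat.mul_comm (D a).a]
    have h2 : (D a).σ (zetaC q) = zetaC q ^ (a : ZMod q).val := Φ.injective (by
      rw [hD, map_conjC, map_pow]; exact (fixG_spec Φ a).2)
    rw [h1] at h2
    have hp := ES.zetaC_isPrimitiveRoot q
    rw [← pow_mod_orderOf, ← hp.eq_orderOf,
      ← pow_mod_orderOf (zetaC q) (a : ZMod q).val, ← hp.eq_orderOf] at h2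
    have h3 := hp.pow_inj (Nat.mod_lt _ hq.out.pos) (Nat.mod_lt _ hq.out.pos) h2
    rw [← ZMod.natCast_mod, h3, ZMod.natCast_mod, ZMod.natCast_zmod_val]
  · rw [hD, hD, hD]; exact fixG_mul Φ a b hz
  · simp only [hD]; exact mem_uRing_iff_fixed Φ

namespace Coef

variable {P : CPlace q} (C : Coef M P)

section

omit [NeZero M]

/-- The smaller ring is contained in the larger one. -/
theorem le : C.O0 ≤ C.O := fun z hz => ((C.mem_iff z).mp hz).1

/-- The larger ring has good roots of level `M`. -/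
theorem root : GoodRoot M C.O (zetaC M) :=
  ⟨C.root0.prim, C.le C.root0.mem, fun i hi =>
    ⟨(C.root0.unit_one_sub i hi).1, C.le (C.root0.unit_one_sub i hi).2.1,
      C.le (C.root0.unit_one_sub i hi).2.2⟩⟩

/-- The automorphisms fix the smaller ring. -/
theorem apply_of_mem {z : ℂ} (hz : z ∈ C.O0) (a : (ZMod q)ˣ) : (C.D a).σ z = z :=
  ((C.mem_iff z).mp hz).2 a

end

theorem abv_pred : P.abv ((q - 1 : ℕ) : ℂ) = 1 := by
  refine P.abv_natCast_eq_one ?_
  exact (hq.out.coprime_iff_not_dvd.mpr fun h => by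
    have := Nat.le_of_dvd (Nat.sub_pos_of_lt hq.out.one_lt) h
    have := hq.out.pos
    omega).symm

omit [NeZero M]

/-- `q - 1` is invertible in the smaller ring. -/
theorem inv_pred_mem : ((q - 1 : ℕ) : ℂ)⁻¹ ∈ C.O0 := by
  have hu : IsUnit ((q - 1 : ℕ) : C.O0) :=
    (C.cdvr0.isUnit_iff _).mpr (by simpa using abv_pred (P := P))
  obtain ⟨u, hu⟩ := hu
  have h1 : (((u⁻¹ : (C.O0)ˣ) : C.O0) : ℂ) * ((q - 1 : ℕ) : ℂ) = 1 := by
    have h2 := congrArg (fun z : C.O0 => (z : ℂ))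
      (show ((u⁻¹ : (C.O0)ˣ) : C.O0) * ((q - 1 : ℕ) : C.O0) = 1 by rw [← hu, u.inv_mul])
    simpa using h2
  rw [← eq_inv_of_mul_eq_one_left h1]
  exact SetLike.coe_mem _

/-- The average over the automorphisms. -/
def avg : ℂ →+ ℂ where
  toFun z := ((q - 1 : ℕ) : ℂ)⁻¹ * ∑ a, (C.D a).σ z
  map_zero' := by simp
  map_add' x y := by simp [Finset.sum_add_distrib, mul_add]

/-- The average fixes the smaller ring. -/
theorem avg_self {z : ℂ} (hz : z ∈ C.O0) : C.avg z = z := by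
  have h0 : ((q - 1 : ℕ) : ℂ) ≠ 0 := fun h => by
    have := abv_pred (P := P)
    rw [h, map_zero] at this
    exact zero_ne_one this
  show _ * _ = z
  simp only [C.apply_of_mem hz, Finset.sum_const, Finset.card_univ, ZMod.card_units q,
    nsmul_eq_mul]
  rw [inv_mul_cancel_left₀ h0]

/-- The average of the larger ring lies in the smaller one. -/
theorem avg_mem {z : ℂ} (hz : z ∈ C.O) : C.avg z ∈ C.O0 := by
  refine (C.mem_iff _).mpr ⟨C.O.mul_mem (C.le C.inv_pred_mem)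
    (sum_mem fun a _ => (C.D a).stable z hz), fun b => ?_⟩
  show (C.D b).σ (_ * _) = _ * _
  rw [map_mul, C.apply_of_mem C.inv_pred_mem, map_sum]
  congr 1
  refine Fintype.sum_equiv (Equiv.mulLeft b) _ _ fun a => ?_
  exact C.D_mul b a z hz

/-- The average is congruent to the identity. -/
theorem abv_avg_sub {z : ℂ} (hz : z ∈ C.O) : P.abv (C.avg z - z) < 1 := by
  have h0 : ((q - 1 : ℕ) : ℂ) ≠ 0 := fun h => by
    have := abv_pred (P := P)
    rw [h, map_zero] at this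
    exact zero_ne_one this
  have e : C.avg z - z = ((q - 1 : ℕ) : ℂ)⁻¹ * ∑ a, ((C.D a).σ z - z) := by
    show _ * _ - z = _
    rw [Finset.sum_sub_distrib, mul_sub, Finset.sum_const, Finset.card_univ, ZMod.card_units q,
      nsmul_eq_mul, inv_mul_cancel_left₀ h0]
  rw [e, map_mul, map_inv₀, abv_pred, inv_one, one_mul]
  exact P.maxBall.sum_mem fun a _ => (C.D a).small z (C.cdvr.le hz)

end Coef

end FermatAgent.BAD.Sq

end
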