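import Fermat.Agent.BAD.Sq.Def
import Fermat.Agent.HM.H1.TrivialChar

/-!
# The two transfers from `Γ₀(L q²)` to `Γ₀(L q)`

They preserve parabolic homomorphisms and commute with the Hecke operators at the primes not
dividing `L q`.
-/

set_option autoImplicit false

noncomputable section

open scoped MatrixGroups OnePoint
open CongruenceSubgroup

namespace FermatAgent.BAD.Sq

open FermatAgent.HM

variable {L q : ℕ}

theorem mem_sigma0_one (A : Mat2) : A ∈ sigma0 1 1 :=
  ⟨one_dvd _, isCoprime_one_right, isCoprime_one_right⟩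

theorem lowRep_mem_det (j : Fin q) : (lowRep L q j).det = 1 := by
  simp [lowRep, Matrix.det_fin_two_of]

theorem upRep_det (j : Fin q) : (upRep q j).det = (q : ℤ) := by
  simp [upRep, Matrix.det_fin_two_of]

/-- A low representative in `Γ₀(L q)`. -/
def lowSL (L q : ℕ) (j : Fin q) : Gamma0 (L * q) :=
  ⟨⟨lowRep L q j, lowRep_mem_det j⟩, Gamma0_mem.mpr (by
      rw [ZMod.intCast_zmod_eq_zero_iff_dvd]
      exact ⟨(j : ℕ), by simp [lowRep]⟩)⟩

theorem coe_lowSL (j : Fin q) : ((lowSL L q j : SL(2, ℤ)) : Mat2) = lowRep L q j := rfl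

/-- Every element of `Γ₀(L q)` is an element of `Γ₀(L q²)` times a representative. -/
theorem exists_low [Fact q.Prime] (g : Gamma0 (L * q)) : ∃ (el : Gamma0 (L * q ^ 2)) (j : Fin q),
    ((g : SL(2, ℤ)) : Mat2) = ((el : SL(2, ℤ)) : Mat2) * lowRep L q j := by
  have hq0 : q ≠ 0 := (Fact.out : q.Prime).ne_zero
  have : NeZero q := ⟨hq0⟩
  obtain ⟨c, hc⟩ := (ZMod.intCast_zmod_eq_zero_iff_dvd _ _).mp (Gamma0_mem.mp g.2)
  have hdet := (g : SL(2, ℤ)).det_coe
  rw [Matrix.det_fin_two, hc] at hdet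
  have hd : ((g.1 1 1 : ℤ) : ZMod q) ≠ 0 := fun h => by
    have h1 := congrArg (Int.cast : ℤ → ZMod q) hdet
    push_cast at h1
    rw [h, ZMod.natCast_self] at h1
    simp at h1
  set t : ZMod q := (c : ZMod q) / (g.1 1 1 : ℤ)
  have hdvd : (q : ℤ) ∣ c - g.1 1 1 * (t.val : ℤ) := by
    rw [← ZMod.intCast_zmod_eq_zero_iff_dvd]
    push_cast
    rw [ZMod.natCast_zmod_val, mul_div_cancel₀ _ hd, sub_self]
  set j : Fin q := ⟨t.val, ZMod.val_lt t⟩
  refine ⟨⟨g.1 * (lowSL L q j).1⁻¹, Gamma0_mem.mpr ?_⟩, j, ?_⟩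
  · rw [ZMod.intCast_zmod_eq_zero_iff_dvd]
    obtain ⟨d, hd'⟩ := hdvd
    refine ⟨d, ?_⟩
    rw [Matrix.SpecialLinearGroup.coe_mul, Matrix.SpecialLinearGroup.coe_inv, coe_lowSL,
      Matrix.mul_apply, Fin.sum_univ_two, lowRep, Matrix.adjugate_fin_two_of, hc]
    simp only [Matrix.of_apply, Matrix.cons_val', Matrix.cons_val_zero, Matrix.cons_val_one,
      Matrix.cons_val_fin_one]
    push_cast
    linear_combination (L : ℤ) * q * hd'
  · exact (congrArg Subtype.val (inv_mul_cancel_right g.1 (lowSL L q j).1)).symm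

/-- The low representatives are in distinct cosets. -/
theorem low_unique [NeZero L] [Fact q.Prime] {i j : Fin q} {el : Gamma0 (L * q ^ 2)}
    (h : lowRep L q i = ((el : SL(2, ℤ)) : Mat2) * lowRep L q j) : i = j := by
  have h1 : (lowSL L q i).1 = el.1 * (lowSL L q j).1 := Subtype.ext h
  have h2 : (lowSL L q i).1 * (lowSL L q j).1⁻¹ ∈ Gamma0 (L * q ^ 2) := by
    rw [h1, mul_inv_cancel_right]; exact el.2
  rw [Gamma0_mem, ZMod.intCast_zmod_eq_zero_iff_dvd, Matrix.SpecialLinearGroup.coe_mul,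
    Matrix.SpecialLinearGroup.coe_inv, coe_lowSL, coe_lowSL, Matrix.mul_apply, Fin.sum_univ_two,
    lowRep, lowRep, Matrix.adjugate_fin_two_of] at h2
  simp only [Matrix.of_apply, Matrix.cons_val', Matrix.cons_val_zero, Matrix.cons_val_one,
    Matrix.cons_val_fin_one, mul_one, one_mul] at h2
  push_cast at h2
  have h3 : ((L : ℤ) * q) * q ∣ ((L : ℤ) * q) * ((i : ℕ) - (j : ℕ) : ℤ) := by
    convert h2 using 1 <;> ring
  have h4 := (mul_dvd_mul_iff_left (mul_ne_zero (Int.natCast_ne_zero.2 (NeZero.ne L))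
    (Int.natCast_ne_zero.2 (Fact.out : q.Prime).ne_zero))).1 h3
  have h5 := Int.eq_zero_of_abs_lt_dvd h4 (by
    have := i.2; have := j.2
    rw [abs_lt]; omega)
  exact Fin.ext (by omega)

/-- The transfer along `lowRep`. -/
def lowCorr (L q : ℕ) [NeZero L] [Fact q.Prime] :
    Corr (sigma0 1 1) (Gamma0 (L * q)) (Gamma0 (L * q ^ 2)) (Fin q) :=
  Corr.ofSystem (lowRep L q) (fun _ _ _ h => low_unique h)
    (fun γ i => by
      obtain ⟨el, j, h⟩ := exists_low (lowSL L q i * γ)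
      exact ⟨j, el, by rwa [Subgroup.coe_mul, Matrix.SpecialLinearGroup.coe_mul, coe_lowSL] at h⟩)
    (fun i => by rw [lowRep_mem_det]; exact one_ne_zero) fun _ => mem_sigma0_one _

/-- The upper representatives are in distinct cosets. -/
theorem up_unique [Fact q.Prime] {i j : Fin q} {el : Gamma0 (L * q ^ 2)}
    (h : upRep q i = ((el : SL(2, ℤ)) : Mat2) * upRep q j) : i = j := by
  have h00 := congrFun (congrFun h 0) 0
  have h01 := congrFun (congrFun h 0) 1
  simp [upRep, Matrix.mul_apply, Fin.sum_univ_two] at h00 h01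
  rw [← h00, one_mul] at h01
  have h5 := Int.eq_zero_of_abs_lt_dvd (m := (q : ℤ)) (x := ((i : ℕ) - (j : ℕ) : ℤ))
    ⟨el.1 0 1, by linear_combination h01⟩ (by
      have := i.2; have := j.2
      rw [abs_lt]; omega)
  exact Fin.ext (by omega)

theorem exists_hRep_eq_upRep [Fact q.Prime] (i : Fin q) :
    ∃ x : HIdx (L * q ^ 2) q, hRep (L * q ^ 2) q x = upRep q i :=
  ⟨⟨((i : ℕ) : ZMod q), fun h => absurd h (OnePoint.coe_ne_infty _)⟩, by
    simp [hRep, upRep, ZMod.val_natCast, Nat.mod_eq_of_lt i.2]⟩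

theorem exists_upRep_eq_hRep [Fact q.Prime] (x : HIdx (L * q ^ 2) q) :
    ∃ i, upRep q i = hRep (L * q ^ 2) q x := by
  have : NeZero q := ⟨(Fact.out : q.Prime).ne_zero⟩
  obtain ⟨x, hx⟩ := x
  induction x using OnePoint.rec with
  | infty => exact absurd ((dvd_pow_self q two_ne_zero).mul_left L) (hx rfl)
  | coe j => exact ⟨⟨j.val, ZMod.val_lt j⟩, by simp [hRep, upRep]⟩

/-- The transfer along `upRep`. -/
def upCorr (L q : ℕ) [Fact q.Prime] :
    Corr (sigma0 1 1) (Gamma0 (L * q)) (Gamma0 (L * q ^ 2)) (Fin q) :=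
  Corr.ofSystem (upRep q) (fun _ _ _ h => up_unique h)
    (fun γ i => by
      obtain ⟨c, hc⟩ := (ZMod.intCast_zmod_eq_zero_iff_dvd _ _).mp (Gamma0_mem.mp γ.2)
      have hdet := (γ : SL(2, ℤ)).det_coe
      rw [Matrix.det_fin_two, hc] at hdet
      push_cast at hc hdet
      obtain ⟨el, x, hx⟩ := exists_eq_coe_mul_hRep (p := q) (M := L * q ^ 2)
        (upRep q i * ((γ : SL(2, ℤ)) : Mat2))
        (by rw [Matrix.det_mul, upRep_det, Matrix.SpecialLinearGroup.det_coe, mul_one])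
        (by simp [upRep, Matrix.mul_apply, Fin.sum_univ_two, hc]; exact ⟨c, by ring⟩)
        (by
          have h : IsCoprime ((γ : SL(2, ℤ)) 0 0 + (i : ℕ) * (L * q * c)) ((L : ℤ) * q) := by
            rw [show ((i : ℕ) : ℤ) * (L * q * c) = (L * q : ℤ) * ((i : ℕ) * c) by ring]
            exact IsCoprime.add_mul_left_left ⟨(γ : SL(2, ℤ)) 1 1,
              -((γ : SL(2, ℤ)) 0 1 * c), by linear_combination hdet⟩ _
          simp [upRep, Matrix.mul_apply, Fin.sum_univ_two, hc]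
          rw [show (L : ℤ) * q ^ 2 = L * q * q by ring]
          exact h.mul_right h.of_mul_right_right)
      obtain ⟨j, hj⟩ := exists_upRep_eq_hRep x
      exact ⟨j, el, hj ▸ hx⟩)
    (fun i => by rw [upRep_det]; exact_mod_cast (Fact.out : q.Prime).ne_zero)
    fun _ => mem_sigma0_one _

@[simp] theorem upCorr_rep [Fact q.Prime] (i : Fin q) :
    (upCorr L q).rep i = upRep q i := rfl

variable [NeZero L] [Fact q.Prime] {ℓ : ℕ} [hℓ : Fact ℓ.Prime]

omit [NeZero L] [Fact (Nat.Prime q)] in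
theorem not_dvd_sq (hℓN : ¬ ℓ ∣ L * q) : ¬ ℓ ∣ L * q ^ 2 := fun h =>
  hℓN (((Nat.Prime.dvd_mul hℓ.out).mp h).elim (·.mul_right q)
    fun h => (hℓ.out.dvd_of_dvd_pow h).mul_left L)

/-- The first transfer commutes with the Hecke operators away from `L q`. -/
theorem lowCorr_comm (hℓN : ¬ ℓ ∣ L * q) {K : Type*} [CommRing K]
    (φ : Additive (Gamma0 (L * q ^ 2)) →+ K) :
    Period.heckeOp K (L * q) hℓ.out ((lowCorr L q).homOp φ) =
      (lowCorr L q).homOp (Period.heckeOp K (L * q ^ 2) hℓ.out φ) := by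
  rw [← homOp_heckeCorr_eq (L := 1) (S := K) (Nat.coprime_one_right ℓ) hℓN,
    ← homOp_heckeCorr_eq (L := 1) (S := K) (Nat.coprime_one_right ℓ) (not_dvd_sq hℓN),
    ← Corr.homOp_comp, ← Corr.homOp_comp]
  obtain ⟨e⟩ := exists_related_trace (p := ℓ) (show L * q ^ 2 = L * q * q by ring)
    ((Nat.Prime.coprime_iff_not_dvd hℓ.out).mpr fun h => hℓN (h.mul_left L)) (one_dvd _)
    (one_dvd _) (Nat.coprime_one_right ℓ) (T := lowCorr L q) (fun i => ⟨lowSL L q i, rfl⟩)
    exists_low fun _ _ _ h => low_unique h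
  exact (e.homOp_eq φ).symm

/-- The second transfer commutes with the Hecke operators away from `L q`. -/
theorem upCorr_comm (hℓN : ¬ ℓ ∣ L * q) {K : Type*} [CommRing K]
    (φ : Additive (Gamma0 (L * q ^ 2)) →+ K) :
    Period.heckeOp K (L * q) hℓ.out ((upCorr L q).homOp φ) =
      (upCorr L q).homOp (Period.heckeOp K (L * q ^ 2) hℓ.out φ) := by
  classical
  have hqℓ : q ≠ ℓ := fun h => hℓN (h ▸ dvd_mul_left q L)
  rw [← homOp_heckeCorr_eq (L := 1) (S := K) (Nat.coprime_one_right ℓ) hℓN,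
    ← homOp_heckeCorr_eq (L := 1) (S := K) (Nat.coprime_one_right ℓ) (not_dvd_sq hℓN),
    ← Corr.homOp_comp, ← Corr.homOp_comp]
  -- at level `L q²` the representatives are those of `T_ℓ U_q = U_q T_ℓ`
  obtain ⟨e₀⟩ := heckeCorr_comm_related hqℓ (one_dvd (L * q ^ 2)) (Nat.coprime_one_right q)
    (Nat.coprime_one_right ℓ)
  obtain ⟨e⟩ := Corr.exists_related
    ((upCorr L q).comp (heckeCorr (N := 1) (L := 1) (p := ℓ) (one_dvd (L * q))
      (Nat.coprime_one_right ℓ)))
    (D' := (heckeCorr (N := 1) (L := 1) (p := ℓ) (one_dvd (L * q ^ 2))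
      (Nat.coprime_one_right ℓ)).comp (upCorr L q))
    (isIrredundant_comp_heckeCorr (fun _ _ _ h => up_unique h) (fun i => by
      rw [upCorr_rep, upRep_det]
      exact Nat.isCoprime_iff_coprime.mpr ((Nat.coprime_primes Fact.out hℓ.out).mpr hqℓ))
      (one_dvd _) (Nat.coprime_one_right ℓ))
    (fun k k' el h => by
      obtain ⟨a, ha⟩ := exists_hRep_eq_upRep (L := L) k.1
      obtain ⟨a', ha'⟩ := exists_hRep_eq_upRep (L := L) k'.1
      obtain ⟨e₁, e₂⟩ := Prod.ext_iff.mp (isIrredundant_heckeCorr_comp hqℓ.symm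
        (one_dvd (L * q ^ 2)) (Nat.coprime_one_right ℓ) (Nat.coprime_one_right q) (a, k.2)
        (a', k'.2) el (by simpa only [Corr.comp, heckeCorr_rep, upCorr_rep, ha, ha'] using h))
      refine Prod.ext (up_unique (L := L) (el := 1) ?_) e₂
      rw [← ha, ← ha', show a = a' from e₁, OneMemClass.coe_one, Matrix.SpecialLinearGroup.coe_one,
        one_mul])
    (fun k => by
      obtain ⟨a, ha⟩ := exists_hRep_eq_upRep (L := L) k.1
      have h := e₀.rep_eq (a, k.2)
      obtain ⟨i, hi⟩ := exists_upRep_eq_hRep (e₀.idx (a, k.2)).2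
      refine ⟨(⟨(e₀.idx (a, k.2)).1.1, fun _ => hℓN⟩, i), e₀.shift (a, k.2), ?_⟩
      simp only [Corr.comp, heckeCorr_rep, upCorr_rep] at h ⊢
      rw [ha] at h
      rw [h, hi]
      rfl)
    (by rw [Fintype.card_prod, Fintype.card_prod, card_hIdx hℓN, card_hIdx (not_dvd_sq hℓN),
      mul_comm])
  exact (e.homOp_eq φ).symm

end FermatAgent.BAD.Sq

end
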