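import Fermat.Agent.BAD.Sq.CrossAlg

/-!
# The crossing points

Where all components meet, the model is regular with parameters `σ c - c` and `c - c₀`,
`c = t(q τ)`: the image of the series in `σ c`, `t`, `c` is regular, hence normal, hence everything.
-/

set_option autoImplicit false

open UpperHalfPlane CongruenceSubgroup IsLocalRing
open scoped MatrixGroups

noncomputable section

namespace FermatAgent.BAD.Sq

open FermatAgent.ES (BSub BRing SerIn HasLExp lexp lexp_eq hasLExp_lexp lexp_act act zetaC AuxLevel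
  CPlace GoodPoint modMat liftSer cuspSer)

variable {q M m : ℕ} [hq : Fact q.Prime] [NeZero M] {P : CPlace q}
variable (C : Coef M P) (haux : AuxLevel M m) (hM : M.Coprime q) (hqm : q ≠ m)

/-- At `𝔪` the completion is regular. -/
structure CrossPt (𝔪 : Ideal (A0 C)) : Prop where
  good : GoodCompl 𝔪
  res : ∀ z : A0 C, ∃ c : C.O0, z - constA C c ∈ 𝔪
  data : haveI := good.noeth; haveI := good.loc;
    ∃ x c : AdicCompletion 𝔪 (A0 C), Reg2 x c

/-- The parameters at a crossing point. -/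
def crossVar (b c : C.O0) : Fin 3 → A0 C :=
  ![aA C haux hM - constA C c, inclL C (bA C haux - constL0 C b),
    inclL C (cA C haux hM - constL0 C c)]

section Coe

variable {B S : Type} [CommRing B] [CommRing S] (f : B →+* S) {R : Subring S} {a b g c d : R}
  {u v w w' uc ua : B}

theorem cross_coe_sub (ha : (a : S) = f u) (hb : (b : S) = f v) :
    ((a - b : R) : S) = f (u - v) := by
  rw [map_sub, ← ha, ← hb]; rfl

theorem cross_coe_sub_pow (ha : (a : S) = f u) (hb : (b : S) = f v) {k : ℕ} :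
    ((a - b ^ k : R) : S) = f (u - v ^ k) := by
  rw [map_sub, map_pow, ← ha, ← hb]; rfl

theorem cross_coe_pow_sub (ha : (a : S) = f u) (hb : (b : S) = f v) {k : ℕ} :
    ((a ^ k - b : R) : S) = f (u ^ k - v) := by
  rw [map_sub, map_pow, ← ha, ← hb]; rfl

theorem cross_coe_natCast_mul (ha : (a : S) = f u) {k : ℕ} :
    (((k : R) * a : R) : S) = f ((k : B) * u) := by
  rw [map_mul, map_natCast, ← ha]
  rfl

theorem cross_coe_rel (ha : (a : S) = f u) (hb : (b : S) = f v) (hg : (g : S) = f w) {k : ℕ}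
    (h : u * v = -((k : B) * w)) : a * b = -((k : R) * g) := Subtype.ext (by
  show (a : S) * b = -((k : S) * g)
  rw [ha, hb, hg, ← map_mul, h, map_neg, map_mul, map_natCast])

theorem cross_coe_dd (hg : (g : S) = f w) (hc : (c : S) = f uc) (ha : (a : S) = f ua)
    (hd : f (w - w') = f (uc - ua) * (d : S)) : ((g - (c - a) * d : R) : S) = f w' := by
  show (g : S) - ((c : S) - a) * d = _
  rw [hg, hc, ha, ← map_sub f uc, ← hd, map_sub, sub_sub_cancel]

theorem cross_coe_dd' (hg : (g : S) = f w) (hb : (b : S) = f w') (hc : (c : S) = f uc)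
    (ha : (a : S) = f ua) (hd : f (w - w') = f (uc - ua) * (d : S)) : g - b = (c - a) * d :=
  Subtype.ext (by
    show (g : S) - b = ((c : S) - a) * d
    rw [hg, hb, hc, ha, ← map_sub, ← map_sub]
    exact hd)

end Coe

/-- The maximal ideal of the range is generated by two elements. -/
theorem cross_max {R : Type} [CommRing R] [IsLocalRing R] [IsNoetherianRing R] {q : ℕ}
    {rb rc ra rbQ rcQ raQ rG kb kc kd δ h : R} (hreg : ∀ z, (ra - rc) * z = 0 → z = 0)
    (hXY : (rb - rcQ ^ q) * (rc - rbQ ^ q) = -((q : R) * rG))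
    (hσXY : (rb - raQ ^ q) * (ra - rbQ ^ q) = -((q : R) * (rG - (rc - ra) * h)))
    (hcQ : rcQ - raQ = (rc - ra) * δ) (hq : (q : R) ∈ maximalIdeal R)
    (hX : rb - rcQ ^ q ∈ maximalIdeal R) (hY : rc - rbQ ^ q ∈ maximalIdeal R)
    (hσY : ra - rbQ ^ q ∈ maximalIdeal R) (hG : IsUnit rG) (hd : rcQ - kd ∈ maximalIdeal R)
    (hd' : raQ - kd ∈ maximalIdeal R) (hb : rb - kb ∈ maximalIdeal R)
    (hbd : kd ^ q - kb ∈ maximalIdeal R → kd ^ q - kb ∈ Ideal.span {(q : R)})
    (ha : ra - kc ∈ maximalIdeal R) (hc : rc - kc ∈ maximalIdeal R)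
    (hgen : maximalIdeal R ≤ Ideal.span {ra - kc, rb - kb, rc - kc} ⊔ Ideal.span {(q : R)}) :
    maximalIdeal R = Ideal.span {ra - rc, rc - kc} := by
  set MR := maximalIdeal R
  set D : R := (∑ i ∈ Finset.range q, rcQ ^ i * raQ ^ (q - 1 - i)) * δ
  have hD : rcQ ^ q - raQ ^ q = (rc - ra) * D := by
    rw [← geom_sum₂_mul rcQ raQ q, hcQ]
    simp only [D]; ring
  have hE : rb - rcQ ^ q - (ra - rbQ ^ q) * D = -((q : R) * h) := by
    refine eq_neg_of_add_eq_zero_left (hreg _ ?_)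
    linear_combination -(hXY - hσXY + (ra - rbQ ^ q) * hD)
  have hq2 : (q : R) ∈ MR ^ 2 := by
    obtain ⟨u, hu⟩ := hG.exists_right_inv
    rw [show (q : R) = (rb - rcQ ^ q) * (-(rc - rbQ ^ q) * u) by
      linear_combination u * hXY - (q : R) * hu, sq]
    exact Ideal.mul_mem_mul hX (Ideal.mul_mem_right _ _ (neg_mem hY))
  have hDM : D ∈ MR := by
    refine Ideal.mul_mem_right _ _ ?_
    rw [← Ideal.Quotient.eq_zero_iff_mem, map_sum, Finset.sum_eq_card_nsmul
      (b := Ideal.Quotient.mk MR kd ^ (q - 1)) fun i hi => by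
        rw [map_mul, map_pow, map_pow, Ideal.Quotient.eq.mpr hd, Ideal.Quotient.eq.mpr hd',
          ← pow_add, Nat.add_sub_cancel' (by have := Finset.mem_range.mp hi; omega)]]
    rw [Finset.card_range, nsmul_eq_mul, ← map_natCast (Ideal.Quotient.mk MR),
      Ideal.Quotient.eq_zero_iff_mem.mpr hq, zero_mul]
  have hX2 : rb - rcQ ^ q ∈ MR ^ 2 := by
    rw [eq_add_of_sub_eq hE]
    refine add_mem (neg_mem (Ideal.mul_mem_right _ _ hq2)) ?_
    rw [sq]
    exact Ideal.mul_mem_mul hσY hDM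
  have hb2 : rb - kb ∈ MR ^ 2 := by
    have h1 : rcQ ^ q - kd ^ q ∈ MR ^ 2 := pow_sub_pow_mem_sq MR hd hq
    have h2 : kd ^ q - kb ∈ MR ^ 2 := by
      refine (Ideal.span_singleton_le_iff_mem _).mpr hq2 (hbd ?_)
      rw [show kd ^ q - kb = (rb - kb) - (rb - rcQ ^ q) - (rcQ ^ q - kd ^ q) by ring]
      exact sub_mem (sub_mem hb hX) (Ideal.pow_le_self two_ne_zero h1)
    rw [show rb - kb = (rb - rcQ ^ q) + (rcQ ^ q - kd ^ q) + (kd ^ q - kb) by ring]
    exact add_mem (add_mem hX2 h1) h2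
  set J : Ideal R := Ideal.span {ra - rc, rc - kc}
  have hxJ : ra - rc ∈ J := Ideal.subset_span (Set.mem_insert _ _)
  have htJ : rc - kc ∈ J := Ideal.subset_span (Set.mem_insert_of_mem _ rfl)
  have hJM : J ≤ MR := Ideal.span_le.mpr (by
    rintro _ (rfl | rfl)
    · rw [SetLike.mem_coe, show ra - rc = (ra - kc) - (rc - kc) by ring]
      exact sub_mem ha hc
    · exact hc)
  have hle : MR ≤ J ⊔ MR • MR := by
    refine hgen.trans ?_
    rw [smul_eq_mul, ← sq, sup_le_iff, Ideal.span_le, Ideal.span_singleton_le_iff_mem]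
    refine ⟨?_, Ideal.mem_sup_right hq2⟩
    rintro _ (rfl | rfl | rfl)
    · rw [SetLike.mem_coe, show ra - kc = (ra - rc) + (rc - kc) by ring]
      exact Ideal.mem_sup_left (add_mem hxJ htJ)
    · exact Ideal.mem_sup_right hb2
    · exact Ideal.mem_sup_left htJ
  exact le_antisymm (Submodule.le_of_le_smul_of_le_jacobson_bot
    (IsNoetherian.noetherian MR) (le_of_eq (jacobson_eq_maximalIdeal ⊥ bot_ne_top).symm) hle) hJM

/-- An element of the fraction field that is integral lies in the ring. -/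
theorem cross_exists_quot {R S : Type} [CommRing R] [IsDomain R] [IsIntegrallyClosed R] [CommRing S]
    (ι : R →+* S) (hι : Function.Injective ι) {p : Polynomial R} (hp : p.Monic) {r1 r2 : R}
    (hr1 : r1 ≠ 0) {z : S} (hz : ι r2 = ι r1 * z) (hev : Polynomial.eval₂ ι z p = 0) :
    ∃ u, r2 = r1 * u := by
  have hs : (Polynomial.scaleRoots p r1).eval r2 = 0 := by
    refine hι ?_
    rw [← Polynomial.eval₂_at_apply, hz, Polynomial.scaleRoots_eval₂_mul, hev, mul_zero, map_zero]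
  have hne : algebraMap R (FractionRing R) r1 ≠ 0 := fun h =>
    hr1 ((IsFractionRing.injective R (FractionRing R)) (by rw [h, map_zero]))
  have hk : IsIntegral R
      (algebraMap R (FractionRing R) r2 / algebraMap R (FractionRing R) r1) := by
    refine ⟨p, hp, ?_⟩
    have h1 := congrArg (algebraMap R (FractionRing R)) hs
    rw [map_zero, ← Polynomial.eval₂_at_apply,
      show algebraMap R (FractionRing R) r2 = algebraMap R (FractionRing R) r1 *
          (algebraMap R (FractionRing R) r2 / algebraMap R (FractionRing R) r1) by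
        rw [mul_div_cancel₀ _ hne], Polynomial.scaleRoots_eval₂_mul] at h1
    exact (mul_eq_zero.mp h1).resolve_left (pow_ne_zero _ hne)
  obtain ⟨u, hu⟩ := IsIntegrallyClosed.isIntegral_iff.mp hk
  refine ⟨u, IsFractionRing.injective R (FractionRing R) ?_⟩
  rw [map_mul, hu, mul_div_cancel₀ _ hne]

include hqm in
/-- The functions at a crossing point and their images under `σ`. -/
theorem crossX_eqs :
    inclL C (X0 C haux hM) = inclL C (bA C haux) - inclL C (cQ C haux hM) ^ q ∧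
      inclL C (Y0 C haux hM) = inclL C (cA C haux hM) - inclL C (bQ C haux hM) ^ q ∧
      sigA C haux hM (inclL C (Y0 C haux hM)) = aA C haux hM - inclL C (bQ C haux hM) ^ q ∧
      (inclL C (bA C haux) - inclL C (cQ C haux hM) ^ q) *
          (inclL C (cA C haux hM) - inclL C (bQ C haux hM) ^ q) =
        -((q : A0 C) * inclL C (G0 C haux hM hqm)) ∧
      (inclL C (bA C haux) - sigA C haux hM (inclL C (cQ C haux hM)) ^ q) *
          (aA C haux hM - inclL C (bQ C haux hM) ^ q) =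
        -((q : A0 C) * sigA C haux hM (inclL C (G0 C haux hM hqm))) := by
  have e1 : inclL C (X0 C haux hM) = inclL C (bA C haux) - inclL C (cQ C haux hM) ^ q := by
    rw [X0, RingHom.map_sub, map_pow]
  have e2 : inclL C (Y0 C haux hM) = inclL C (cA C haux hM) - inclL C (bQ C haux hM) ^ q := by
    rw [Y0, RingHom.map_sub, map_pow]
  have e3 : sigA C haux hM (inclL C (Y0 C haux hM)) =
      aA C haux hM - inclL C (bQ C haux hM) ^ q := by
    rw [e2, RingHom.map_sub, map_pow, sigA_bQ]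
    rfl
  have e4 : inclL C (X0 C haux hM) * inclL C (Y0 C haux hM) =
      -((q : A0 C) * inclL C (G0 C haux hM hqm)) := by
    rw [← map_mul, X0_mul_Y0 C haux hM hqm, RingHom.map_neg, map_mul, map_natCast]
  have e5 := congrArg (sigA C haux hM) e4
  rw [map_mul, e3, RingHom.map_neg, map_mul, map_natCast, e1, RingHom.map_sub, map_pow,
    sigA_bA] at e5
  rw [e1, e2] at e4
  exact ⟨e1, e2, e3, e4, e5⟩

theorem crossX_sub (z : L0 C) (d : C.O0) :
    inclL C (z - constL0 C d) = inclL C z - constA C d ∧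
      sigA C haux hM (inclL C (z - constL0 C d)) = sigA C haux hM (inclL C z) - constA C d := by
  have h : inclL C (z - constL0 C d) = inclL C z - constA C d := RingHom.map_sub _ _ _
  refine ⟨h, ?_⟩
  rw [h, RingHom.map_sub, show sigA C haux hM (constA C d) = constA C d from A0_ext C rfl]

include hqm in
/-- The second parameter is not nilpotent modulo the first. -/
theorem crossX_not_mem {𝔪 : Ideal (A0 C)} (hall : ∀ t, PT C hM t ≤ 𝔪) {c : C.O0} {s : A0 C}
    (hs : s ∉ 𝔪) (N : ℕ) :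
    s * inclL C (cA C haux hM - constL0 C c) ^ N ∉
      Ideal.span {aA C haux hM - inclL C (cA C haux hM)} := fun hsT => by
  have hxP : aA C haux hM - inclL C (cA C haux hM) ∈ PT C hM .mid := xMid_mem C haux hM hqm
  have h1 := (Ideal.span_singleton_le_iff_mem _).mpr hxP hsT
  rcases (PT_isPrime C hM .mid).mem_or_mem h1 with h2 | h2
  · exact hs (hall .mid h2)
  have h3 := (PT_isPrime C hM .mid).mem_of_pow_mem _ h2
  rw [mem_PT_iff C haux hM hqm 1, RingHom.map_sub, RingHom.map_sub,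
    rho_inclL C haux hM (t := .mid) (by decide),
    rho_zero_cA C haux hM hqm, sub_eq_zero, inclL_constL0] at h3
  refine thetaSer_tBar_ne_zero C haux hM hqm ?_
  rw [h3]
  rw [rho, ← inclL_constL0, resA_inclL]
  show thetaSer (liftSer _ (serO M C.O q _ (toL C (constL0 C c)))) = 0
  rw [serO_ext (t := HahnSeries.C (⟨(c : ℂ), C.le c.2⟩ : C.O)) (by
    rw [liftSer_C, toL_constL0]
    exact serA_constA C _ c), liftSer_C, thetaSer_C]

section Cross

variable {𝔪 : Ideal (A0 C)} [h𝔪 : 𝔪.IsMaximal] (hq𝔪 : (q : A0 C) ∈ 𝔪)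
  (hall : ∀ t, PT C hM t ≤ 𝔪) (hG : GoodAt C haux hM 𝔪) {b c : C.O0}
  (hb : bA C haux - constL0 C b ∈ nOf C 𝔪) (hc : cA C haux hM - constL0 C c ∈ nOf C 𝔪)
include hqm hq𝔪 hall hG hb hc

omit hb hc in
theorem comap_sigA_cross : 𝔪.comap (sigA C haux hM) = 𝔪 :=
  comap_sigA_eq C haux hM hqm h𝔪 hq𝔪 hall (hG.1 (PT_le_imp_pI C hM (hall .inf)))

omit hb hc in
theorem sigA_mem_cross {z : A0 C} (hz : z ∈ 𝔪) : sigA C haux hM z ∈ 𝔪 := by
  rw [← comap_sigA_cross C haux hM hqm hq𝔪 hall hG] at hz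
  exact hz

theorem crossVar_mem : ∀ i, crossVar C haux hM b c i ∈ 𝔪 := by
  intro i
  fin_cases i
  · have h := sigA_mem_cross C haux hM hqm hq𝔪 hall hG
      (show inclL C (cA C haux hM - constL0 C c) ∈ 𝔪 from hc)
    rw [map_sub, map_sub, inclL_constL0, show sigA C haux hM (constA C c) = constA C c from
      A0_ext C rfl] at h
    exact h
  · exact hb
  · exact hc

/-- The series in the parameters. -/
def crossHom : MvPowerSeries (Fin 3) C.O0 →+* AdicCompletion 𝔪 (A0 C) :=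
  complHom (O := C.O0) 𝔪 (crossVar C haux hM b c)
    (crossVar_mem C haux hM hqm hq𝔪 hall hG hb hc)

/-- A function of `L0` is a series in the last two parameters at a crossing point. -/
theorem exists_series (z : L0 C) : ∃ F : MvPowerSeries (Fin 2) C.O0,
    crossHom C haux hM hqm hq𝔪 hall hG hb hc
      (MvPowerSeries.rename (R := C.O0) (![1, 2] : Fin 2 → Fin 3) F) =
        algebraMap (A0 C) (AdicCompletion 𝔪 (A0 C)) (inclL C z) ∧
    crossHom C haux hM hqm hq𝔪 hall hG hb hc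
      (MvPowerSeries.rename (R := C.O0) (![1, 0] : Fin 2 → Fin 3) F) =
        algebraMap (A0 C) (AdicCompletion 𝔪 (A0 C)) (sigA C haux hM (inclL C z)) := by
  have := isNoetherianRing_A0 C haux
  have := isNoetherianRing_L0 C haux
  set n := nOf C 𝔪
  have hn : n.IsMaximal := nOf_isMaximal C hM h𝔪
  have hqn : (q : L0 C) ∈ n := q_mem_nOf C hq𝔪
  have hI := PT_le_imp_pI C hM (hall .inf)
  have hZ := PT_le_imp_pZ C haux hM hqm (t := .zero) (by decide) (hall .zero)
  set y : Fin 2 → L0 C := ![bA C haux - constL0 C b, cA C haux hM - constL0 C c]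
  have hy : ∀ i, y i ∈ n := by rw [Fin.forall_fin_two]; exact ⟨hb, hc⟩
  have hqO : algebraMap C.O0 (L0 C) (q : C.O0) = (q : L0 C) := map_natCast _ _
  obtain ⟨s, hs, hgen⟩ := exists_gen_cross C haux hM hqm hqn hI hZ (hG.1 hI) (hG.2 hZ) hb hc
  obtain ⟨F, hF⟩ := complHom_surjective (O := C.O0) (ϖ := (q : C.O0)) n C.unif y hy (fun g => by
    obtain ⟨d, hd⟩ := exists_residue C haux hM hqm hqn hI (hG.1 hI) g
    refine ⟨s, hs, d, ?_⟩
    have h1 := hgen _ hd
    refine Ideal.span_le.mpr ?_ h1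
    rw [hqO]
    rintro w (rfl | rfl | rfl)
    · exact Ideal.mem_sup_left (Ideal.subset_span ⟨0, rfl⟩)
    · exact Ideal.mem_sup_left (Ideal.subset_span ⟨1, rfl⟩)
    · exact Ideal.mem_sup_right (Ideal.mem_span_singleton_self _))
    (by rw [hqO]; exact hqn) (algebraMap (L0 C) (AdicCompletion n (L0 C)) z)
  refine ⟨F, ?_, ?_⟩
  · exact complHom_rename (ϖ := (q : C.O0)) C.unif 𝔪 n (inclAlg C) le_rfl _ _ y hy _
      (by rw [Fin.forall_fin_two]; exact ⟨rfl, rfl⟩) (by rw [algQ]; exact hq𝔪)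
      (by rw [hqO]; exact hqn) hF
  · refine complHom_rename (ϖ := (q : C.O0)) C.unif 𝔪 n (sigAlg C haux hM) (fun w hw => ?_) _ _ y hy
      _ ?_ (by rw [algQ]; exact hq𝔪) (by rw [hqO]; exact hqn) hF
    · exact sigA_mem_cross C haux hM hqm hq𝔪 hall hG (show inclL C w ∈ 𝔪 from hw)
    · rw [Fin.forall_fin_two]
      refine ⟨?_, ?_⟩
      · show sigA C haux hM (inclL C (bA C haux - constL0 C b)) = inclL C (bA C haux - constL0 C b)
        rw [map_sub, map_sub, sigA_bA, inclL_constL0]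
        congr 1
      · show sigA C haux hM (inclL C (cA C haux hM - constL0 C c)) = aA C haux hM - constA C c
        rw [map_sub, map_sub, inclL_constL0]
        congr 1

theorem mem_range_incl (z : L0 C) :
    algebraMap (A0 C) (AdicCompletion 𝔪 (A0 C)) (inclL C z) ∈
      (crossHom C haux hM hqm hq𝔪 hall hG hb hc).range := by
  obtain ⟨F, hF, -⟩ := exists_series C haux hM hqm hq𝔪 hall hG hb hc z
  exact ⟨_, hF⟩

theorem mem_range_sig (z : L0 C) :
    algebraMap (A0 C) (AdicCompletion 𝔪 (A0 C)) (sigA C haux hM (inclL C z)) ∈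
      (crossHom C haux hM hqm hq𝔪 hall hG hb hc).range := by
  obtain ⟨F, -, hF⟩ := exists_series C haux hM hqm hq𝔪 hall hG hb hc z
  exact ⟨_, hF⟩

theorem exists_dd (z : L0 C) : ∃ ψ : MvPowerSeries (Fin 3) C.O0,
    algebraMap (A0 C) (AdicCompletion 𝔪 (A0 C)) (inclL C z - sigA C haux hM (inclL C z)) =
      algebraMap (A0 C) (AdicCompletion 𝔪 (A0 C)) (inclL C (cA C haux hM) - aA C haux hM) *
        crossHom C haux hM hqm hq𝔪 hall hG hb hc ψ := by
  obtain ⟨F, hF1, hF2⟩ := exists_series C haux hM hqm hq𝔪 hall hG hb hc z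
  obtain ⟨ψ, hψ⟩ := Ideal.mem_span_singleton'.mp (rename_sub_rename_mem (O := C.O0)
    (![1, 2] : Fin 2 → Fin 3) ![1, 0]
    (Ideal.span {(MvPowerSeries.X 2 - MvPowerSeries.X 0 : MvPowerSeries (Fin 3) C.O0)}) (by
      rw [Fin.forall_fin_two]
      exact ⟨by simp, Ideal.mem_span_singleton_self _⟩) F)
  refine ⟨ψ, ?_⟩
  have h := congrArg (crossHom C haux hM hqm hq𝔪 hall hG hb hc) hψ
  rw [map_mul, map_sub, map_sub, hF1, hF2, crossHom, complHom_X, complHom_X] at h
  rw [map_sub, ← h, mul_comm]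
  congr 1
  rw [← map_sub]
  congr 1
  show inclL C (cA C haux hM - constL0 C c) - (aA C haux hM - constA C c) =
    inclL C (cA C haux hM) - aA C haux hM
  rw [map_sub, inclL_constL0]
  ring

theorem not_maximal_of_not_mem {F : MvPowerSeries (Fin 3) C.O0} {z : A0 C}
    (hF : crossHom C haux hM hqm hq𝔪 hall hG hb hc F =
      algebraMap (A0 C) (AdicCompletion 𝔪 (A0 C)) z) :
    F ∈ maximalIdeal (MvPowerSeries (Fin 3) C.O0) ↔ z ∈ 𝔪 := by
  have := isNoetherianRing_A0 C haux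
  have hfwd : ∀ {F : MvPowerSeries (Fin 3) C.O0} {z : A0 C},
      crossHom C haux hM hqm hq𝔪 hall hG hb hc F =
        algebraMap (A0 C) (AdicCompletion 𝔪 (A0 C)) z →
      F ∈ maximalIdeal (MvPowerSeries (Fin 3) C.O0) → z ∈ 𝔪 := by
    intro F z hF h
    have h1 := complHom_mem_pow (ϖ := (q : C.O0)) C.unif 𝔪 _
      (crossVar_mem C haux hM hqm hq𝔪 hall hG hb hc) (by rw [algQ]; exact hq𝔪) (k := 1)
      (by rwa [pow_one])
    rw [crossHom] at hF
    rw [hF, pow_one] at h1
    obtain ⟨s, hs, hsz⟩ := memLoc_of_completion h1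
    exact (h𝔪.isPrime.mem_or_mem hsz).resolve_left hs
  refine ⟨hfwd hF, fun hz => ?_⟩
  by_contra hu
  obtain ⟨u, rfl⟩ : IsUnit F := by
    by_contra hno
    exact hu ((mem_maximalIdeal F).mpr hno)
  have h1 : (1 : AdicCompletion 𝔪 (A0 C)) ∈ 𝔪.map (algebraMap (A0 C) _) := by
    have h2 := Ideal.mul_mem_left _ (crossHom C haux hM hqm hq𝔪 hall hG hb hc ↑u⁻¹)
      (Ideal.mem_map_of_mem (algebraMap (A0 C) (AdicCompletion 𝔪 (A0 C))) hz)
    rwa [← hF, ← map_mul, Units.inv_mul, map_one] at h2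
  obtain ⟨s, hs, hs1⟩ := memLoc_of_completion (m := 𝔪) (I := 𝔪) (x := 1) (by rwa [map_one])
  exact hs (by rwa [mul_one] at hs1)

/-- The maximal ideal of the range of the series lies over `𝔪`. -/
theorem mem_maximalIdeal_range_iff [IsLocalRing (crossHom C haux hM hqm hq𝔪 hall hG hb hc).range]
    {r : (crossHom C haux hM hqm hq𝔪 hall hG hb hc).range} {z : A0 C}
    (h : (r : AdicCompletion 𝔪 (A0 C)) = algebraMap (A0 C) (AdicCompletion 𝔪 (A0 C)) z) :
    r ∈ maximalIdeal (crossHom C haux hM hqm hq𝔪 hall hG hb hc).range ↔ z ∈ 𝔪 := by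
  obtain ⟨F, rfl⟩ := (crossHom C haux hM hqm hq𝔪 hall hG hb hc).rangeRestrict_surjective r
  rw [← not_maximal_of_not_mem C haux hM hqm hq𝔪 hall hG hb hc h]
  refine ⟨fun h1 => ?_, fun h1 => ?_⟩
  · by_contra hu
    exact (mem_maximalIdeal _).mp h1 ((IsLocalRing.notMem_maximalIdeal.mp hu).map _)
  · rw [← IsLocalRing.map_maximalIdeal_of_surjective _
      (crossHom C haux hM hqm hq𝔪 hall hG hb hc).rangeRestrict_surjective]
    exact Ideal.mem_map_of_mem _ h1

/-- The range of the series is regular. -/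
theorem reg2_range :
    ∃ (_ : IsLocalRing (crossHom C haux hM hqm hq𝔪 hall hG hb hc).range)
      (_ : IsNoetherianRing (crossHom C haux hM hqm hq𝔪 hall hG hb hc).range)
      (x t : (crossHom C haux hM hqm hq𝔪 hall hG hb hc).range),
      Reg2 x t ∧
        (x : AdicCompletion 𝔪 (A0 C)) = algebraMap (A0 C) (AdicCompletion 𝔪 (A0 C))
          (aA C haux hM - inclL C (cA C haux hM)) ∧
        (t : AdicCompletion 𝔪 (A0 C)) = algebraMap (A0 C) (AdicCompletion 𝔪 (A0 C))
          (inclL C (cA C haux hM - constL0 C c)) := by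
  have := isNoetherianRing_A0 C haux
  have : Module.Flat (A0 C) (AdicCompletion 𝔪 (A0 C)) := AdicCompletion.flat_of_isNoetherian 𝔪
  set Φ := crossHom C haux hM hqm hq𝔪 hall hG hb hc with hΦdef
  set f := algebraMap (A0 C) (AdicCompletion 𝔪 (A0 C))
  have : Nontrivial (AdicCompletion 𝔪 (A0 C)) :=
    ⟨⟨1, 0, fun h10 => h𝔪.ne_top ((Ideal.eq_top_iff_one _).mpr (by
      obtain ⟨s, hs, hs1⟩ := memLoc_of_completion (m := 𝔪) (I := 𝔪) (x := 1)
        (by rw [map_one, h10]; exact zero_mem _)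
      exact absurd (by rwa [mul_one] at hs1) hs))⟩⟩
  have hloc : IsLocalRing Φ.range :=
    IsLocalRing.of_surjective' Φ.rangeRestrict Φ.rangeRestrict_surjective
  have hnoe : IsNoetherianRing Φ.range :=
    isNoetherianRing_of_surjective _ _ Φ.rangeRestrict Φ.rangeRestrict_surjective
  have hmemM : ∀ (r : Φ.range) (z : A0 C), (r : AdicCompletion 𝔪 (A0 C)) = f z →
      (r ∈ maximalIdeal Φ.range ↔ z ∈ 𝔪) :=
    fun _ _ h => mem_maximalIdeal_range_iff C haux hM hqm hq𝔪 hall hG hb hc h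
  -- elements of the range
  have hI : ∀ z : L0 C, ∃ r : Φ.range, (r : AdicCompletion 𝔪 (A0 C)) = f (inclL C z) := fun z =>
    ⟨⟨_, mem_range_incl C haux hM hqm hq𝔪 hall hG hb hc z⟩, rfl⟩
  have hS : ∀ z : L0 C, ∃ r : Φ.range,
      (r : AdicCompletion 𝔪 (A0 C)) = f (sigA C haux hM (inclL C z)) :=
    fun z => ⟨⟨_, mem_range_sig C haux hM hqm hq𝔪 hall hG hb hc z⟩, rfl⟩
  have hK : ∀ d : C.O0, ∃ r : Φ.range, (r : AdicCompletion 𝔪 (A0 C)) = f (constA C d) := fun d =>
    hI (constL0 C d)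
  obtain ⟨rb, hrb⟩ := hI (bA C haux)
  obtain ⟨rc, hrc⟩ := hI (cA C haux hM)
  obtain ⟨ra, hra⟩ := hS (cA C haux hM)
  obtain ⟨rbQ, hrbQ⟩ := hI (bQ C haux hM)
  obtain ⟨rcQ, hrcQ⟩ := hI (cQ C haux hM)
  obtain ⟨raQ, hraQ⟩ := hS (cQ C haux hM)
  obtain ⟨rG, hrG⟩ := hI (G0 C haux hM hqm)
  obtain ⟨kb, hkb⟩ := hK b
  obtain ⟨kc, hkc⟩ := hK c
  obtain ⟨ψG, hψG⟩ := exists_dd C haux hM hqm hq𝔪 hall hG hb hc (G0 C haux hM hqm)
  obtain ⟨ψQ, hψQ⟩ := exists_dd C haux hM hqm hq𝔪 hall hG hb hc (cQ C haux hM)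
  obtain ⟨eX, eY, eσY, eXY, eσXY⟩ := crossX_eqs C haux hM hqm
  have hxf : ((ra - rc : Φ.range) : AdicCompletion 𝔪 (A0 C)) =
      f (aA C haux hM - inclL C (cA C haux hM)) := cross_coe_sub f hra hrc
  have htf : ((rc - kc : Φ.range) : AdicCompletion 𝔪 (A0 C)) =
      f (inclL C (cA C haux hM - constL0 C c)) :=
    (cross_coe_sub f hrc hkc).trans (congrArg f (crossX_sub C haux hM _ c).1.symm)
  have hxreg : ∀ z : Φ.range, (ra - rc) * z = 0 → z = 0 := fun z hz =>
    Subtype.ext (regular_map (fun y hy =>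
      (mul_eq_zero.mp hy).resolve_left (xMid_ne_zero C haux hM hqm)) _
      (((congrArg (· * (z : AdicCompletion 𝔪 (A0 C))) hxf).symm).trans (congrArg Subtype.val hz)))
  -- the maximal ideal
  have hn := nOf_isMaximal C hM h𝔪
  have hqn : (q : L0 C) ∈ nOf C 𝔪 := q_mem_nOf C hq𝔪
  have hIn := PT_le_imp_pI C hM (hall .inf)
  have hZn := PT_le_imp_pZ C haux hM hqm (t := .zero) (by decide) (hall .zero)
  have hsig := fun {w : A0 C} (h : w ∈ 𝔪) => sigA_mem_cross C haux hM hqm hq𝔪 hall hG h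
  obtain ⟨d, hd⟩ := exists_residue C haux hM hqm hqn hIn (hG.1 hIn) (cQ C haux hM)
  obtain ⟨kd, hkd⟩ := hK d
  have hXY := cross_coe_rel f (cross_coe_sub_pow f hrb hrcQ) (cross_coe_sub_pow f hrc hrbQ) hrG eXY
  have hσXY := cross_coe_rel f (cross_coe_sub_pow f hrb hraQ) (cross_coe_sub_pow f hra hrbQ)
    (cross_coe_dd f (d := Φ.rangeRestrict ψG) hrG hrc hra hψG) eσXY
  have hcQ := cross_coe_dd' f (d := Φ.rangeRestrict ψQ) hrcQ hraQ hrc hra hψQ
  have hbd : kd ^ q - kb ∈ maximalIdeal Φ.range → kd ^ q - kb ∈ Ideal.span {(q : Φ.range)} := by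
    intro h
    have e : constA C (d ^ q - b) = constA C d ^ q - constA C b := by
      rw [RingHom.map_sub, map_pow]
    have h3 : constA C (d ^ q - b) ∈ 𝔪 :=
      (hmemM _ _ ((cross_coe_pow_sub f hkd hkb).trans (congrArg f e.symm))).mp h
    obtain ⟨w, hw⟩ : (q : C.O0) ∣ d ^ q - b := q_dvd_of_constL0_mem C hn.ne_top h3
    obtain ⟨kw, hkw⟩ := hK w
    refine Ideal.mem_span_singleton.mpr ⟨kw, Subtype.ext ?_⟩
    rw [cross_coe_natCast_mul f hkw, cross_coe_pow_sub f hkd hkb, ← e, hw, map_mul (constA C),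
      map_natCast (constA C)]
  have hgen : maximalIdeal Φ.range ≤
      Ideal.span {ra - kc, rb - kb, rc - kc} ⊔ Ideal.span {(q : Φ.range)} := by
    have e := (IsLocalRing.map_maximalIdeal_of_surjective _ Φ.rangeRestrict_surjective).symm
    rw [maximalIdeal_mvPowerSeries (ϖ := (q : C.O0)) C.unif, Ideal.map_sup, Ideal.map_span,
      Ideal.map_span, ← Set.range_comp, Set.image_singleton, map_natCast, map_natCast] at e
    refine (le_of_eq e).trans (sup_le_sup_right (Ideal.span_mono ?_) _)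
    rintro _ ⟨i, rfl⟩
    have hi : (Φ.rangeRestrict (MvPowerSeries.X i) : AdicCompletion 𝔪 (A0 C)) =
        f (crossVar C haux hM b c i) := complHom_X 𝔪 _ _ i
    fin_cases i
    · exact Or.inl (Subtype.ext (hi.trans (cross_coe_sub f hra hkc).symm))
    · exact Or.inr (Or.inl (Subtype.ext (hi.trans ((cross_coe_sub f hrb hkb).trans
        (congrArg f (crossX_sub C haux hM _ b).1.symm)).symm)))
    · exact Or.inr (Or.inr (Subtype.ext (hi.trans htf.symm)))
  have hmax := cross_max hxreg hXY hσXY hcQ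
    ((hmemM _ (q : A0 C) ((map_natCast Φ.range.subtype q).trans (map_natCast f q).symm)).mpr hq𝔪)
    ((hmemM _ _ ((cross_coe_sub_pow f hrb hrcQ).trans (congrArg f eX.symm))).mpr
      (hZn (X0_mem_pZ C haux hM hqm)))
    ((hmemM _ _ ((cross_coe_sub_pow f hrc hrbQ).trans (congrArg f eY.symm))).mpr
      (hIn (Y0_mem_pI C haux hM hqm)))
    ((hmemM _ _ ((cross_coe_sub_pow f hra hrbQ).trans (congrArg f eσY.symm))).mpr
      (hsig (hIn (Y0_mem_pI C haux hM hqm))))
    (IsLocalRing.notMem_maximalIdeal.mp fun hm =>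
      G0_not_mem C haux hM hqm hqn hIn hZn (hG.1 hIn) ((hmemM _ _ hrG).mp hm))
    ((hmemM _ _ ((cross_coe_sub f hrcQ hkd).trans
      (congrArg f (crossX_sub C haux hM _ d).1.symm))).mpr hd)
    ((hmemM _ _ ((cross_coe_sub f hraQ hkd).trans
      (congrArg f (crossX_sub C haux hM _ d).2.symm))).mpr (hsig hd))
    ((hmemM _ _ ((cross_coe_sub f hrb hkb).trans
      (congrArg f (crossX_sub C haux hM _ b).1.symm))).mpr hb)
    hbd
    ((hmemM _ _ ((cross_coe_sub f hra hkc).trans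
      (congrArg f (crossX_sub C haux hM _ c).2.symm))).mpr (hsig hc))
    ((hmemM _ _ htf).mpr hc) hgen
  refine ⟨hloc, hnoe, ra - rc, rc - kc, ⟨hxreg, hmax, fun N hN => ?_⟩, hxf, htf⟩
  obtain ⟨w, hw⟩ := hN
  obtain ⟨s, hs, hsT⟩ := memLoc_of_completion (m := 𝔪)
    (I := Ideal.span {aA C haux hM - inclL C (cA C haux hM)})
    (x := inclL C (cA C haux hM - constL0 C c) ^ N) (by
      rw [Ideal.map_span, Set.image_singleton, Ideal.mem_span_singleton, map_pow]
      exact ⟨w, by rw [← htf, ← hxf]; exact congrArg Subtype.val hw⟩)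
  exact crossX_not_mem C haux hM hqm hall hs N hsT

/-- **Normality**: every function lies in the range. -/
theorem mem_range_all (z : A0 C) : algebraMap (A0 C) (AdicCompletion 𝔪 (A0 C)) z ∈
    (crossHom C haux hM hqm hq𝔪 hall hG hb hc).range := by
  classical
  have := isNoetherianRing_A0 C haux
  have : Module.Flat (A0 C) (AdicCompletion 𝔪 (A0 C)) := AdicCompletion.flat_of_isNoetherian 𝔪
  obtain ⟨hloc, hnoe, x, t, hR, -, -⟩ := reg2_range C haux hM hqm hq𝔪 hall hG hb hc
  set R := (crossHom C haux hM hqm hq𝔪 hall hG hb hc).range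
  have := hR.isDomain
  have := hR.ufm
  set f := algebraMap (A0 C) (AdicCompletion 𝔪 (A0 C))
  obtain ⟨r, hr0, ⟨w0, hw0⟩, hr⟩ := exists_euler C haux hM hqm
  obtain ⟨w, hw⟩ := hr z
  have hmem : ∀ w : ℕ → L0 C,
      f (∑ l ∈ Finset.range q, inclL C (w l) * aA C haux hM ^ l) ∈ R := fun w => by
    rw [map_sum]
    refine sum_mem fun l _ => ?_
    rw [map_mul, map_pow]
    exact mul_mem (mem_range_incl C haux hM hqm hq𝔪 hall hG hb hc _)
      (pow_mem (mem_range_sig C haux hM hqm hq𝔪 hall hG hb hc _) _)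
  set r1 : R := ⟨f r, hw0 ▸ hmem w0⟩
  set r2 : R := ⟨f (r * z), hw ▸ hmem w⟩
  -- the polynomial of `z` over the range
  set g : L0 C →+* R := (f.comp (inclL C)).codRestrict R fun l =>
    mem_range_incl C haux hM hqm hq𝔪 hall hG hb hc l
  set p := (polA C hM z).map g
  have hp : p.Monic := (polA_monic C hM z).map g
  have hev : Polynomial.eval₂ R.subtype (f z) p = 0 := by
    rw [Polynomial.eval₂_map, show R.subtype.comp g = f.comp (inclL C) from rfl,
      ← Polynomial.hom_eval₂, eval_polA, map_zero]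
  have hr1 : r1 ≠ 0 := fun h => by
    have h1 : f r = 0 := congrArg Subtype.val h
    exact one_ne_zero (α := R) (Subtype.ext (regular_map (S := AdicCompletion 𝔪 (A0 C))
      (fun y hy => (mul_eq_zero.mp hy).resolve_left hr0) 1 (by rw [mul_one]; exact h1)))
  obtain ⟨u, hu'⟩ := cross_exists_quot R.subtype Subtype.val_injective hp (r2 := r2) hr1
    (map_mul f r z) hev
  have h2 : f r * (f z - (u : AdicCompletion 𝔪 (A0 C))) = 0 := by
    rw [mul_sub, ← map_mul]
    show ((r2 : R) : AdicCompletion 𝔪 (A0 C)) - (r1 : AdicCompletion 𝔪 (A0 C)) * u = 0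
    rw [hu', Subring.coe_mul, sub_self]
  rw [sub_eq_zero.mp (regular_map (fun y hy => (mul_eq_zero.mp hy).resolve_left hr0) _ h2)]
  exact u.2

end Cross

include haux hqm in
/-- **The crossing points.** -/
theorem crossPt {𝔪 : Ideal (A0 C)} (h𝔪 : 𝔪.IsMaximal) (hq𝔪 : (q : A0 C) ∈ 𝔪)
    (hall : ∀ t, PT C hM t ≤ 𝔪) (hG : GoodAt C haux hM 𝔪) : CrossPt C 𝔪 := by
  have := isNoetherianRing_A0 C haux
  have := nOf_isMaximal C hM h𝔪
  have : Module.Flat (A0 C) (AdicCompletion 𝔪 (A0 C)) := AdicCompletion.flat_of_isNoetherian 𝔪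
  set n := nOf C 𝔪
  have hqn : (q : L0 C) ∈ n := q_mem_nOf C hq𝔪
  have hI := PT_le_imp_pI C hM (hall .inf)
  obtain ⟨b, hb⟩ := exists_residue C haux hM hqm hqn hI (hG.1 hI) (bA C haux)
  obtain ⟨c, hc⟩ := exists_residue C haux hM hqm hqn hI (hG.1 hI) (cA C haux hM)
  set xs := crossVar C haux hM b c
  have hxs := crossVar_mem C haux hM hqm hq𝔪 hall hG hb hc
  set Φ := crossHom C haux hM hqm hq𝔪 hall hG hb hc
  set f := algebraMap (A0 C) (AdicCompletion 𝔪 (A0 C))
  have hqm' : algebraMap C.O0 (A0 C) (q : C.O0) ∈ 𝔪 := by rw [algQ]; exact hq𝔪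
  have hgen : ∀ z : A0 C, ∃ s ∉ 𝔪, ∃ d : C.O0, s * (z - algebraMap C.O0 (A0 C) d) ∈
      Ideal.span (Set.range xs) ⊔ Ideal.span {algebraMap C.O0 (A0 C) (q : C.O0)} := by
    intro z
    obtain ⟨F, hF⟩ := mem_range_all C haux hM hqm hq𝔪 hall hG hb hc z
    set d := MvPowerSeries.constantCoeff F
    have hFd : F - MvPowerSeries.C d ∈ maximalIdeal (MvPowerSeries (Fin 3) C.O0) := by
      rw [GaloisBasic.mem_maximalIdeal_iff_constantCoeff, map_sub,
        MvPowerSeries.constantCoeff_C, sub_self]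
      exact zero_mem _
    have h1 := Ideal.mem_map_of_mem Φ hFd
    rw [maximalIdeal_mvPowerSeries (ϖ := (q : C.O0)) C.unif, Ideal.map_sup, Ideal.map_span,
      Ideal.map_span, ← Set.range_comp, Set.image_singleton, map_sub, hF,
      show Φ (MvPowerSeries.C d) = f (algebraMap C.O0 (A0 C) d) from complHom_C 𝔪 _ _ d,
      show Φ (MvPowerSeries.C (q : C.O0)) = f (algebraMap C.O0 (A0 C) (q : C.O0)) from
        complHom_C 𝔪 _ _ _,
      show (Φ : MvPowerSeries (Fin 3) C.O0 → AdicCompletion 𝔪 (A0 C)) ∘ MvPowerSeries.X = f ∘ xs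
        from funext fun i => complHom_X 𝔪 _ _ i, ← map_sub, Set.range_comp, ← Set.image_singleton,
      ← Ideal.map_span, ← Ideal.map_span, ← Ideal.map_sup] at h1
    obtain ⟨s, hs, hsz⟩ := memLoc_of_completion h1
    exact ⟨s, hs, d, hsz⟩
  obtain ⟨hgood, hmax⟩ := goodCompl_of_gen (O := C.O0) (ϖ := (q : C.O0)) C.unif hqm' xs hxs hgen
  refine ⟨hgood, fun z => ?_, ?_⟩
  · obtain ⟨s, hs, d, hsd⟩ := hgen z
    refine ⟨d, (h𝔪.isPrime.mem_or_mem ?_).resolve_left hs⟩
    refine (sup_le (Ideal.span_le.mpr ?_) ((Ideal.span_singleton_le_iff_mem _).mpr hqm')) hsd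
    rintro _ ⟨i, rfl⟩
    exact hxs i
  have := hgood.noeth
  have := hgood.loc
  obtain ⟨hloc, hnoe, x, t, hR, hx, ht⟩ := reg2_range C haux hM hqm hq𝔪 hall hG hb hc
  have hsurj : ∀ v : AdicCompletion 𝔪 (A0 C), ∃ r : Φ.range, (r : AdicCompletion 𝔪 (A0 C)) = v :=
    fun v => ⟨⟨v, complHom_surjective 𝔪 C.unif xs hxs hgen hqm' v⟩, rfl⟩
  let e : Φ.range ≃+* AdicCompletion 𝔪 (A0 C) :=
    RingEquiv.ofBijective Φ.range.subtype ⟨Subtype.val_injective, hsurj⟩
  refine ⟨e x, e t, ⟨fun z hz => ?_, ?_, fun N hN => hR.npow N ?_⟩⟩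
  · obtain ⟨r, rfl⟩ := e.surjective z
    rw [← map_mul] at hz
    rw [hR.reg r (e.injective (by rw [hz, map_zero])), map_zero]
  · rw [← IsLocalRing.map_maximalIdeal_of_surjective e.toRingHom e.surjective, hR.max,
      Ideal.map_span, Set.image_pair]
    rfl
  · have := map_dvd e.symm.toRingHom hN
    rwa [map_pow, RingEquiv.toRingHom_eq_coe, RingEquiv.coe_toRingHom, e.symm_apply_apply,
      e.symm_apply_apply] at this

end FermatAgent.BAD.Sq

end
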