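import Fermat.Agent.BAD.Sq.Smooth
import Mathlib.RingTheory.MvPowerSeries.Rename

/-!
# Auxiliary algebra for the crossing points

Power series maps into completions and changes of variables; the Euler identity expressing every
function through `σ c`.
-/

set_option autoImplicit false

open UpperHalfPlane CongruenceSubgroup IsLocalRing
open scoped MatrixGroups

noncomputable section

namespace FermatAgent.BAD.Sq

open FermatAgent.ES (BSub BRing SerIn HasLExp lexp lexp_eq hasLExp_lexp lexp_act act zetaC AuxLevel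
  CPlace GoodPoint modMat liftSer cuspSer)

section Series

variable {σ τ : Type} [Finite σ] [Finite τ] {O : Type} [CommRing O] [IsDomain O]
  [IsDiscreteValuationRing O] {ϖ : O} (hϖ : Irreducible ϖ)

omit [Finite τ] in
theorem rename_mem_maximal_pow (e : σ → τ) {F : MvPowerSeries σ O} {k : ℕ}
    (h : F ∈ maximalIdeal (MvPowerSeries σ O) ^ k) :
    MvPowerSeries.rename (R := O) e F ∈ maximalIdeal (MvPowerSeries τ O) ^ k := by
  have h1 := Ideal.mem_map_of_mem (MvPowerSeries.rename (R := O) e).toRingHom h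
  rw [Ideal.map_pow] at h1
  refine Ideal.pow_right_mono ?_ k h1
  rw [Ideal.map_le_iff_le_comap]
  intro G hG
  rw [GaloisBasic.mem_maximalIdeal_iff_constantCoeff] at hG
  rw [Ideal.mem_comap, GaloisBasic.mem_maximalIdeal_iff_constantCoeff]
  show MvPowerSeries.constantCoeff (MvPowerSeries.rename e G) ∈ _
  rwa [MvPowerSeries.constantCoeff_rename]

/-- Two changes of variables differ by a multiple of the difference of the variables. -/
theorem rename_sub_rename_mem (e e' : σ → τ) (J : Ideal (MvPowerSeries τ O))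
    (hJ : ∀ i, (MvPowerSeries.X (e i) - MvPowerSeries.X (e' i) : MvPowerSeries τ O) ∈ J)
    (F : MvPowerSeries σ O) :
    MvPowerSeries.rename (R := O) e F - MvPowerSeries.rename (R := O) e' F ∈ J := by
  have hpoly : ∀ p : MvPolynomial σ O,
      MvPowerSeries.rename (R := O) e (p : MvPowerSeries σ O) -
        MvPowerSeries.rename (R := O) e' (p : MvPowerSeries σ O) ∈ J := by
    intro p
    induction p using MvPolynomial.induction_on with
    | C a => simp [MvPowerSeries.rename_C]
    | add p p' hp hp' =>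
      rw [MvPolynomial.coe_add, map_add, map_add, add_sub_add_comm]
      exact add_mem hp hp'
    | mul_X p i hp =>
      rw [MvPolynomial.coe_mul, MvPolynomial.coe_X, map_mul, map_mul, MvPowerSeries.rename_X,
        MvPowerSeries.rename_X]
      rw [show ∀ a b x y : MvPowerSeries τ O, a * x - b * y = (a - b) * x + b * (x - y) from
        fun a b x y => by ring]
      exact add_mem (J.mul_mem_right _ hp) (J.mul_mem_left _ (hJ i))
  have hk : ∀ k, MvPowerSeries.rename (R := O) e F - MvPowerSeries.rename (R := O) e' F ∈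
      J ⊔ maximalIdeal (MvPowerSeries τ O) ^ k := fun k => by
    set p : MvPowerSeries σ O :=
      ((MvPowerSeries.truncTotal k F : MvPolynomial σ O) : MvPowerSeries σ O)
    rw [show MvPowerSeries.rename (R := O) e F - MvPowerSeries.rename (R := O) e' F =
      (MvPowerSeries.rename (R := O) e p - MvPowerSeries.rename (R := O) e' p) +
        (MvPowerSeries.rename (R := O) e (F - p) - MvPowerSeries.rename (R := O) e' (F - p)) by
      rw [map_sub, map_sub]; ring]
    exact add_mem (Ideal.mem_sup_left (hpoly _)) (Ideal.mem_sup_right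
      (sub_mem (rename_mem_maximal_pow e (GaloisBasic.sub_truncTotal_mem_pow F k))
        (rename_mem_maximal_pow e' (GaloisBasic.sub_truncTotal_mem_pow F k))))
  obtain ⟨s, hs, hsF⟩ := memLoc_of_forall_pow hk
  exact (Ideal.unit_mul_mem_iff_mem _ (IsLocalRing.notMem_maximalIdeal.mp hs)).mp hsF

variable {A A' : Type} [CommRing A] [Algebra O A] [IsNoetherianRing A] [CommRing A'] [Algebra O A']
  [IsNoetherianRing A'] (𝔪 : Ideal A) (𝔫 : Ideal A') (φ : A' →ₐ[O] A) (hφ : 𝔫 ≤ 𝔪.comap φ.toRingHom)
  (x : τ → A) (hx : ∀ i, x i ∈ 𝔪) (y : σ → A') (hy : ∀ i, y i ∈ 𝔫) (e : σ → τ)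
  (he : ∀ i, φ (y i) = x (e i)) (hϖm : algebraMap O A ϖ ∈ 𝔪)

omit [IsNoetherianRing A]

include hϖ hϖm in
/-- The series map respects powers of the maximal ideals. -/
theorem complHom_mem_pow {k : ℕ} {F : MvPowerSeries τ O}
    (hF : F ∈ maximalIdeal (MvPowerSeries τ O) ^ k) :
    complHom (O := O) 𝔪 x hx F ∈ 𝔪.map (algebraMap A (AdicCompletion 𝔪 A)) ^ k := by
  have h1 := Ideal.mem_map_of_mem (complHom (O := O) 𝔪 x hx) hF
  rw [Ideal.map_pow] at h1
  refine Ideal.pow_right_mono ?_ k h1
  rw [maximalIdeal_mvPowerSeries hϖ, Ideal.map_sup, Ideal.map_span, Ideal.map_span,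
    Set.image_singleton, complHom_C, sup_le_iff]
  refine ⟨Ideal.span_le.mpr ?_, (Ideal.span_singleton_le_iff_mem _).mpr
    (Ideal.mem_map_of_mem _ hϖm)⟩
  rintro _ ⟨_, ⟨i, rfl⟩, rfl⟩
  rw [complHom_X]
  exact Ideal.mem_map_of_mem _ (hx i)

theorem evalₐ_map_pow {k : ℕ} {b : AdicCompletion 𝔪 A}
    (hb : b ∈ 𝔪.map (algebraMap A (AdicCompletion 𝔪 A)) ^ k) :
    AdicCompletion.evalₐ 𝔪 k b = 0 := by
  rw [← Ideal.map_pow] at hb
  induction hb using Submodule.span_induction with
  | mem z hz =>
    obtain ⟨a, ha, rfl⟩ := hz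
    rw [AlgHom.commutes, Ideal.Quotient.algebraMap_eq]
    exact Ideal.Quotient.eq_zero_iff_mem.mpr ha
  | zero => exact map_zero _
  | add u v _ _ hu hv => rw [map_add, hu, hv, add_zero]
  | smul r u _ hu => rw [smul_eq_mul, map_mul, hu, mul_zero]

omit [IsNoetherianRing A'] in
include hϖ hϖm hφ he in
/-- Power series maps are natural. -/
theorem complHom_rename (hϖn : algebraMap O A' ϖ ∈ 𝔫) {F : MvPowerSeries σ O} {z : A'}
    (h : complHom (O := O) 𝔫 y hy F = algebraMap A' (AdicCompletion 𝔫 A') z) :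
    complHom (O := O) 𝔪 x hx (MvPowerSeries.rename (R := O) e F) =
      algebraMap A (AdicCompletion 𝔪 A) (φ z) := by
  refine AdicCompletion.ext_evalₐ fun k => ?_
  set p := MvPowerSeries.truncTotal k F
  have h1 : z - MvPolynomial.aeval y p ∈ 𝔫 ^ k := by
    have h2 := evalₐ_map_pow 𝔫
      (complHom_mem_pow hϖ 𝔫 y hy hϖn (GaloisBasic.sub_truncTotal_mem_pow F k))
    rwa [map_sub, complHom_coe, h, map_sub, AlgHom.commutes, AlgHom.commutes,
      Ideal.Quotient.algebraMap_eq, ← map_sub, Ideal.Quotient.eq_zero_iff_mem] at h2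
  have h3 := evalₐ_map_pow 𝔪 (complHom_mem_pow hϖ 𝔪 x hx hϖm
    (rename_mem_maximal_pow e (GaloisBasic.sub_truncTotal_mem_pow F k)))
  rw [map_sub, map_sub, map_sub, sub_eq_zero, MvPowerSeries.rename_coe, complHom_coe] at h3
  rw [h3, AlgHom.commutes, AlgHom.commutes, Ideal.Quotient.algebraMap_eq, Ideal.Quotient.eq]
  have e1 : MvPolynomial.aeval x (MvPolynomial.rename e p) = φ (MvPolynomial.aeval y p) := by
    rw [MvPolynomial.aeval_rename, MvPolynomial.comp_aeval_apply, show (x ∘ e) = fun i => φ (y i)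
      from funext fun i => (he i).symm]
  rw [e1, ← neg_sub, ← map_sub]
  refine neg_mem ?_
  have h4 := Ideal.mem_map_of_mem φ.toRingHom h1
  rw [Ideal.map_pow] at h4
  exact Ideal.pow_right_mono (Ideal.map_le_iff_le_comap.mpr hφ) k h4

end Series

variable {q M m : ℕ} [hq : Fact q.Prime] [NeZero M] {P : CPlace q}
variable (C : Coef M P) (haux : AuxLevel M m) (hM : M.Coprime q) (hqm : q ≠ m)

instance algL0C : Algebra C.O0 (L0 C) := (constL0 C).toAlgebra

/-- The inclusion of `L0`, over the constants. -/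
def inclAlg : L0 C →ₐ[C.O0] A0 C := { inclL C with commutes' := fun c => inclL_constL0 C c }

/-- The inclusion followed by the involution, over the constants. -/
def sigAlg : L0 C →ₐ[C.O0] A0 C :=
  { (sigA C haux hM).comp (inclL C) with commutes' := fun _ => A0_ext C rfl }

/-- `σ c`. -/
def aA : A0 C := sigA C haux hM (inclL C (cA C haux hM))

/-- The involution fixes `t`. -/
theorem sigA_bA : sigA C haux hM (inclL C (bA C haux)) = inclL C (bA C haux) :=
  A0_ext C ((t0 C haux).2.1.1 _ (atkinMat_mem hM))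

/-- The involution fixes the function `bQ`. -/
theorem sigA_bQ : sigA C haux hM (inclL C (bQ C haux hM)) = inclL C (bQ C haux hM) :=
  A0_ext C ((Q0 C haux hM).2.1.1 _ (atkinMat_mem hM))

include haux hqm in
theorem tA_aA_ne {j : ZMod q} (hj : j ≠ 0) :
    (tA C j (aA C haux hM) : BRing (q * M) C.O) ≠ tA C 0 (aA C haux hM) := by
  intro h
  set α := atkinMat hM
  have h1 := congrArg (resB C α) h
  rw [resB_tA, resB_tA, ZMod.val_zero, mul_zero, pow_zero, one_mul] at h1
  have hmid : IsTyp q .mid (ModularGroup.T ^ (M * j.val) * α) := by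
    obtain ⟨h00, h10⟩ := ent_T_pow_mul (M := M) j α
    refine ⟨?_, by rw [h10]; exact ent10_atkinMat hM⟩
    rw [h00, show ent q α 0 0 = 0 from isTyp_atkinMat hM, zero_add]
    exact mul_ne_zero (mul_ne_zero (natCast_M_ne_zero hM) hj) (ent10_atkinMat hM)
  rw [resA_eq_rho C haux hM hmid ((modMat_T_pow_mul _ _).trans (modMat_atkinMat hM)),
    ← rho_zero_one C haux hM, aA, rho_sigA, rho_sigA, show Typ.mid.swap = Typ.mid from rfl,
    show Typ.zero.swap = Typ.inf from rfl, rho_inclL C haux hM (t := .mid) (by decide),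
    rho_zero_cA C haux hM hqm,
    ← resA_eq_rho C haux hM (γ := 1) (t := .inf) (isTyp_inf_iff.mpr (one_mem _)) rfl, resA_inclL]
    at h1
  refine thetaSer_tBar_ne_zero C haux hM hqm ?_
  have h2 : tBar C haux = expandL q (expandL q (tBar C haux)) := by
    conv_lhs => rw [h1]
    show liftSer _ (serO M C.O q 1 (toL C (cA C haux hM))) = _
    rw [toL_cA, serO_dilL_one, liftSer_expandL, liftSer_expandL]
    rfl
  rw [h2, thetaSer_expandL, natCast_q_eq_zero C, zero_mul]

include hqm in
/-- **The Euler identity**: a fixed nonzero multiple of each function is a combination of powers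
of `σ c` over `L0`. -/
theorem exists_euler : ∃ r : A0 C, r ≠ 0 ∧ (∃ w : ℕ → L0 C,
    r = ∑ l ∈ Finset.range q, inclL C (w l) * aA C haux hM ^ l) ∧
      ∀ z : A0 C, ∃ w : ℕ → L0 C,
        r * z = ∑ l ∈ Finset.range q, inclL C (w l) * aA C haux hM ^ l := by
  classical
  have : NeZero q := ⟨hq.out.ne_zero⟩
  have : IsDomain (BRing (q * M) C.O) := by
    have hinj : Function.Injective (serB C) := fun f g h => Subtype.ext
      (ES.lexp_injective f.2.1 g.2.1 (γ := 1) h)
    exact hinj.isDomain
  set a := aA C haux hM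
  set aj : ZMod q → BRing (q * M) C.O := fun j => tA C j a
  set f := polA C hM a
  set S : ℕ → ℕ → A0 C → A0 C := fun l k z =>
    inclL C (f.coeff l * traceA C hM (z * a ^ (l - 1 - k))) * a ^ k
  have hdeg : (polB C a).natDegree = q := by
    rw [polB, Polynomial.natDegree_prod_of_monic _ _ fun j _ => Polynomial.monic_X_sub_C _]
    simp
  have hf : ∀ l, toB C (f.coeff l) = (polB C a).coeff l := fun l => by
    rw [← polA_map C hM a, Polynomial.coeff_map]
  -- the divided characteristic polynomial at `a_j`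
  set D : ZMod q → BRing (q * M) C.O := fun j => ∑ l ∈ Finset.range (q + 1),
    (polB C a).coeff l * ∑ k ∈ Finset.range l, aj 0 ^ k * aj j ^ (l - 1 - k)
  have hroot : ∀ j, ∑ l ∈ Finset.range (q + 1), (polB C a).coeff l * aj j ^ l = 0 := fun j => by
    have h1 := Polynomial.eval_eq_sum_range (p := polB C a) (aj j)
    rw [hdeg] at h1
    rw [← h1, polB, Polynomial.eval_prod]
    exact Finset.prod_eq_zero (Finset.mem_univ j) (by simp [aj])
  have hD : ∀ j, j ≠ 0 → D j = 0 := fun j hj => by
    refine (mul_eq_zero.mp ?_).resolve_left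
      (sub_ne_zero.mpr (tA_aA_ne C haux hM hqm hj).symm)
    show (aj 0 - aj j) * D j = 0
    simp only [D, Finset.mul_sum (Finset.range (q + 1))]
    rw [Finset.sum_congr rfl fun l _ => show (aj 0 - aj j) *
      ((polB C a).coeff l * ∑ k ∈ Finset.range l, aj 0 ^ k * aj j ^ (l - 1 - k)) =
      (polB C a).coeff l * aj 0 ^ l - (polB C a).coeff l * aj j ^ l by
        rw [← mul_sub, ← geom_sum₂_mul (aj 0) (aj j) l]; ring, Finset.sum_sub_distrib, hroot,
      hroot, sub_self]
  have hD0 : D 0 ≠ 0 := by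
    set Dp : Polynomial (BRing (q * M) C.O) := ∑ l ∈ Finset.range (q + 1),
      Polynomial.C ((polB C a).coeff l) *
        ∑ k ∈ Finset.range l, Polynomial.X ^ k * Polynomial.C (aj 0) ^ (l - 1 - k)
    set Q := ∏ j ∈ Finset.univ.erase (0 : ZMod q), (Polynomial.X - Polynomial.C (aj j))
    have h1 : (Polynomial.X - Polynomial.C (aj 0)) * Dp = polB C a := by
      simp only [Dp, Finset.mul_sum (Finset.range (q + 1))]
      rw [Finset.sum_congr rfl fun l _ => show (Polynomial.X - Polynomial.C (aj 0)) *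
        (Polynomial.C ((polB C a).coeff l) *
          ∑ k ∈ Finset.range l, Polynomial.X ^ k * Polynomial.C (aj 0) ^ (l - 1 - k)) =
        Polynomial.C ((polB C a).coeff l) * Polynomial.X ^ l -
          Polynomial.C ((polB C a).coeff l * aj 0 ^ l) by
          rw [map_mul, map_pow, ← mul_sub, ← geom_sum₂_mul]; ring, Finset.sum_sub_distrib,
        ← map_sum, hroot, map_zero, sub_zero]
      conv_rhs => rw [(polB C a).as_sum_range_C_mul_X_pow, hdeg]
    have h2 : polB C a = (Polynomial.X - Polynomial.C (aj 0)) * Q :=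
      (Finset.mul_prod_erase _ _ (Finset.mem_univ 0)).symm
    have h3 : Dp = Q := mul_left_cancel₀ (Polynomial.X_sub_C_ne_zero _) (h1.trans h2)
    have h4 : D 0 = Q.eval (aj 0) := by
      rw [← h3]
      simp [Dp, D, Polynomial.eval_finsetSum]
    rw [h4, Polynomial.eval_prod, Finset.prod_ne_zero_iff]
    intro j hj
    rw [Polynomial.eval_sub, Polynomial.eval_X, Polynomial.eval_C]
    exact sub_ne_zero.mpr (tA_aA_ne C haux hM hqm (Finset.ne_of_mem_erase hj)).symm
  -- rewriting the double sums
  have hsum : ∀ (g : ℕ → ℕ → L0 C), ∃ w : ℕ → L0 C,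
      ∑ l ∈ Finset.range (q + 1), ∑ k ∈ Finset.range l, inclL C (g l k) * a ^ k =
        ∑ k ∈ Finset.range q, inclL C (w k) * a ^ k := fun g => by
    refine ⟨fun k => ∑ l ∈ Finset.range (q + 1), if k < l then g l k else 0, ?_⟩
    simp only [map_sum, Finset.sum_mul, apply_ite (inclL C), map_zero, ite_mul, zero_mul]
    rw [Finset.sum_comm (s := Finset.range q)]
    refine Finset.sum_congr rfl fun l hl => ?_
    have hl' : l ≤ q := Nat.lt_succ_iff.mp (Finset.mem_range.mp hl)
    rw [← Finset.sum_filter]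
    refine Finset.sum_congr ?_ fun _ _ => rfl
    ext k
    simp only [Finset.mem_filter, Finset.mem_range]
    omega
  have hB : ∀ z : A0 C, inclB C (∑ l ∈ Finset.range (q + 1), ∑ k ∈ Finset.range l, S l k z) =
      inclB C z * D 0 := fun z => by
    have hb : ∀ g : A0 C, inclB C g = tA C 0 g := fun g => Subtype.ext (tA_zero C g).symm
    have hT : ∀ g : A0 C, toB C (traceA C hM g) = ∑ j, tA C j g := fun g => rfl
    have hL : ∀ g : L0 C, inclB C (inclL C g) = toB C g := fun g => rfl
    have h1 : ∀ l k, inclB C (S l k z) = ∑ j, tA C j z *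
        ((polB C a).coeff l * (aj 0 ^ k * aj j ^ (l - 1 - k))) := fun l k => by
      simp only [S]
      rw [map_mul, hL, map_mul, hT, hf, map_pow, hb, Finset.mul_sum, Finset.sum_mul]
      refine Finset.sum_congr rfl fun j _ => ?_
      rw [map_mul, map_pow]
      ring
    simp only [map_sum, h1]
    rw [Finset.sum_congr rfl fun l _ => Finset.sum_comm, Finset.sum_comm,
      Finset.sum_eq_single (0 : ZMod q)]
    · simp only [D, Finset.mul_sum, hb]
    · intro j _ hj
      have := hD j hj
      simp only [D] at this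
      rw [← mul_zero (tA C j z), ← this]
      simp only [Finset.mul_sum]
    · exact fun h => absurd (Finset.mem_univ _) h
  set r := ∑ l ∈ Finset.range (q + 1), ∑ k ∈ Finset.range l, S l k 1
  have hr : inclB C r = D 0 := by rw [hB, map_one, one_mul]
  refine ⟨r, fun h0 => hD0 (by rw [← hr, h0, map_zero]),
    hsum fun l k => f.coeff l * traceA C hM (1 * a ^ (l - 1 - k)), fun z => ?_⟩
  obtain ⟨w, hw⟩ := hsum fun l k => f.coeff l * traceA C hM (z * a ^ (l - 1 - k))
  refine ⟨w, ?_⟩
  rw [← hw]
  refine inclB_injective C ?_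
  show inclB C (r * z) = inclB C (∑ l ∈ Finset.range (q + 1), ∑ k ∈ Finset.range l, S l k z)
  rw [map_mul, hr, hB]
  exact mul_comm _ _

end FermatAgent.BAD.Sq

end
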