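import Fermat.Agent.BAD.Sq.Maps
import Fermat.Agent.BAD.Normal

/-!
# The three components of the reduction and their separating functions

Three functions are each a unit on one component and small on the two others; an element lies in
the radical of `q` exactly when it is small on all three components.
-/

set_option autoImplicit false

open UpperHalfPlane CongruenceSubgroup IsLocalRing
open scoped MatrixGroups

noncomputable section

namespace FermatAgent.BAD.Sq

open FermatAgent.ES (BSub BRing SerIn HasLExp lexp lexp_eq hasLExp_lexp lexp_act act zetaC AuxLevel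
  CPlace modMat mapSer twistSer liftSer cuspSer)

variable {q M m : ℕ} [hq : Fact q.Prime] [NeZero M] {P : CPlace q}
variable (C : Coef M P) (haux : AuxLevel M m) (hM : M.Coprime q)

/-! ### Functions of `L0` -/

/-- A function of level `q M` on `Γ₀(q)` with unramified expansion at `∞` lies in `L0`. -/
theorem mem_L0 {g : ℍ → ℂ} (hg : g ∈ LRing q M C.O) (h1 : SerIn C.O0 (lexp (q * M) 1 g)) :
    g ∈ L0 C :=
  Subring.mem_inf.mpr ⟨⟨⟨hg.1, fun δ hδ => hg.2.2 δ (lamD_le hδ)⟩, h1⟩, hg⟩

/-- A function of level `M` with unramified coefficients. -/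
def raise0 : BRing M C.O0 →+* L0 C :=
  (BRing M C.O0).subtype.codRestrict _ fun f =>
    mem_L0 C (LRing_mono C.le (mem_LRing_of_BRing f.2)) (by
      show SerIn C.O0 (lexp (q * M) 1 (f : ℍ → ℂ))
      rw [lexp_level f.2.1]; exact expandL_serIn (f.2.2 1))

/-- Its dilation. -/
def dil0 : BRing M C.O0 →+* L0 C :=
  ((dilFun q).comp (BRing M C.O0).subtype).codRestrict _ fun f =>
    mem_L0 C (dilFun_mem_LRing hM C.zeta (ES.BRing_mono C.le f.2)) (by
      show SerIn C.O0 (lexp (q * M) 1 (dilFun q (f : ℍ → ℂ)))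
      rw [lexp_eq (hasLExp_dil_conj q (hasLExp_lexp f.2.1 1) fun τ => by rw [one_smul, one_smul])]
      exact expandL_serIn (expandL_serIn (f.2.2 1)))

/-- The Atkin matrix normalises the level group. -/
theorem isNorm_atkinMat : IsNorm q (atkinMat hM) :=
  Or.inr ⟨(ZMod.intCast_zmod_eq_zero_iff_dvd _ _).mpr (atkinMat_dvd hM).1,
    (ZMod.intCast_zmod_eq_zero_iff_dvd _ _).mpr (atkinMat_dvd hM).2⟩

/-- The Atkin operator on `L0`. -/
def atkin0 : L0 C →+* L0 C :=
  ((atkin hM).comp (L0 C).subtype).codRestrict _ fun f =>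
    mem_L0 C (atkin_mem_LRing hM C.zeta (toL C f).2) (by
      show SerIn C.O0 (lexp (q * M) 1 (atkin hM (f : ℍ → ℂ)))
      have h : HasLExp (q * M) (act 1 (atkin hM (f : ℍ → ℂ)))
          (expandL q (lexp (q * M) (atkinMat hM) (f : ℍ → ℂ))) := by
        refine (hasLExp_dilFun q (hasLExp_lexp f.2.1.1.1.1 (atkinMat hM))).congr_fun fun τ => ?_
        rw [ES.act_one, atkin_apply]
      rw [lexp_eq h]
      exact expandL_serIn (serIn_serA_of_isNorm C haux hM (isNorm_atkinMat hM) (inclL C f)))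

/-- The Atkin operator on `L0` in level `q M`. -/
theorem toL_atkin0 (f : L0 C) :
    toL C (atkin0 C haux hM f) = atkinL hM C.zeta (toL C f) := rfl

/-- `hasseFun` in `L0`. -/
def hasse0 : L0 C :=
  ⟨hasseFun haux q, mem_L0 C (hasse_mem_LRing haux hM C.root C.zeta) (by
    obtain ⟨γ', -, h⟩ := hasLExp_hasse_inf haux (one_mem (Gamma0 q))
    rw [lexp_eq h, ← map_inv₀]
    exact expandL_serIn ((wSer_inv_serIn haux C.root0 1).1.mul
      (expandL_serIn (wSer_inv_serIn haux C.root0 γ').2)))⟩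

theorem toL_hasse0 : toL C (hasse0 C haux hM) = hasseL haux hM C.root C.zeta := rfl

/-! ### The involution -/

/-- The involution exchanging the types `∞` and `0`. -/
def sigA : A0 C →+* A0 C := actA C haux hM (isNorm_atkinMat hM)

/-- The involution as a function. -/
theorem coe_sigA (f : A0 C) : (sigA C haux hM f : ℍ → ℂ) = act (atkinMat hM) (f : ℍ → ℂ) := rfl

/-- The involution is an involution. -/
theorem sigA_sigA (f : A0 C) : sigA C haux hM (sigA C haux hM f) = f := by
  refine Subtype.ext ?_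
  rw [coe_sigA, coe_sigA, ← ES.act_mul]
  refine f.2.1.2 _ (Subgroup.mem_inf.mpr ⟨?_, mul_mem (atkinMat_mem hM) (atkinMat_mem hM)⟩)
  rcases isNorm_atkinMat (M := M) hM with h | ⟨h00, h11⟩
  · exact mul_mem h h
  · constructor
    · rw [ent_mul, h00, h11, mul_zero, zero_mul, add_zero]
    · rw [ent_mul, h00, h11, zero_mul, mul_zero, add_zero]

/-- The action on types. -/
def Typ.swap : Typ → Typ
  | .inf => .zero
  | .mid => .mid
  | .zero => .inf

/-- Exchanging the types twice. -/
theorem Typ.swap_swap (t : Typ) : t.swap.swap = t := by cases t <;> rfl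

/-- The involution exchanges the residual expansions of the types. -/
theorem rho_sigA (t : Typ) (η : SL(2, ℤ)) (f : A0 C) :
    rho C hM t η (sigA C haux hM f) = rho C hM t.swap η f := by
  have e : rho C hM t η (sigA C haux hM f) = resA C (atkinMat hM * cusp hM t η) f := by
    show liftSer _ (cuspSer C.O _ _) = liftSer _ (cuspSer C.O _ _)
    congr 1
    refine ES.liftSer_injective C.O.subtype_injective ?_
    rw [ES.liftSer_cuspSer, ES.liftSer_cuspSer]
    show lexp (q * M) _ (act (atkinMat hM) (f : ℍ → ℂ)) = _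
    rw [lexp_act]
    rfl
  rw [e]
  refine resA_eq_rho C haux hM ?_ ?_ f
  · rcases isNorm_atkinMat (M := M) hM with h | ⟨h00, h11⟩
    · exfalso
      exact atkinMat_not_dvd hM ((ZMod.intCast_zmod_eq_zero_iff_dvd _ _).mp h.1)
    · obtain ⟨k1, k2, k3⟩ := isTyp_antidiag_mul (γ := cusp hM t η) h00 h11
      cases t with
      | inf => exact k2.mpr (isTyp_cusp hM .inf η)
      | mid => exact k3.mpr (isTyp_cusp hM .mid η)
      | zero => exact k1.mpr (isTyp_cusp hM .zero η)
  · rw [ES.modMat_mul, ES.modMat_eq_one_of_mem (atkinMat_mem hM), one_mul, modMat_cusp]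

/-! ### The separating functions -/

variable (hqm : q ≠ m)

theorem rho_eq_zero_iff_serLT {t : Typ} {η : SL(2, ℤ)} {z : L0 C} :
    rho C hM t η (inclL C z) = 0 ↔ P.SerLT (serAt M C.O q (cusp hM t η) (toL C z)) :=
  resA_eq_zero_iff C

/-- A cusp of type `∞` is given by `Γ₀(q)`. -/
theorem cusp_mem_Gamma0 (η : SL(2, ℤ)) : cusp hM .inf η ∈ Gamma0 q :=
  isTyp_inf_iff.mp (isTyp_cusp hM .inf η)

/-- A cusp of another type is not. -/
theorem cusp_not_mem_Gamma0 {t : Typ} (ht : t ≠ .inf) (η : SL(2, ℤ)) :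
    cusp hM t η ∉ Gamma0 q :=
  fun h => ent10_cusp_ne_zero hM ht η (isTyp_inf_iff.mpr h)

/-- Separates the type `∞`. -/
def eInf : A0 C := inclL C (hasse0 C haux hM)

/-- Separates the type `0`. -/
def eZero : A0 C := sigA C haux hM (eInf C haux hM)

/-- Small at the type `∞`, a unit at the others. -/
def hPr : A0 C := inclL C (atkin0 C haux hM (hasse0 C haux hM))

/-- Separates the type `mid`. -/
def eMid : A0 C := hPr C haux hM * sigA C haux hM (hPr C haux hM)

include hqm in
/-- `eInf` is a unit exactly on the component at `∞`. -/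
theorem rho_eInf (t : Typ) (η : SL(2, ℤ)) :
    rho C hM t η (eInf C haux hM) = 0 ↔ t ≠ .inf := by
  rw [eInf, rho_eq_zero_iff_serLT, toL_hasse0]
  refine ⟨fun h ht => ?_, fun ht => hasseL_mem_pZero haux hM C.root C.zeta C.cdvr.le _
    (cusp_not_mem_Gamma0 hM ht η)⟩
  subst ht
  exact h.not_unitCoeff
    (hasseL_unitInf haux hM C.root C.zeta C.cdvr.le hqm _ (cusp_mem_Gamma0 hM η))

include hqm in
/-- `eZero` is a unit exactly on the component `0`. -/
theorem rho_eZero (t : Typ) (η : SL(2, ℤ)) :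
    rho C hM t η (eZero C haux hM) = 0 ↔ t ≠ .zero := by
  rw [eZero, rho_sigA, rho_eInf C haux hM hqm]
  cases t <;> simp [Typ.swap]

include hqm in
theorem rho_hPr (t : Typ) (η : SL(2, ℤ)) :
    rho C hM t η (hPr C haux hM) = 0 ↔ t = .inf := by
  rw [hPr, rho_eq_zero_iff_serLT, toL_atkin0, toL_hasse0]
  refine ⟨fun h => ?_, fun ht => ?_⟩
  · by_contra ht
    exact h.not_unitCoeff (atkinL_unitZero hM C.zeta
      (hasseL_unitInf haux hM C.root C.zeta C.cdvr.le hqm) _ (cusp_not_mem_Gamma0 hM ht η))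
  · subst ht
    exact atkinL_mem_pInf C.cdvr.le hM C.zeta
      (hasseL_mem_pZero haux hM C.root C.zeta C.cdvr.le) _ (cusp_mem_Gamma0 hM η)

include hqm in
/-- `eMid` is a unit exactly on the component `mid`. -/
theorem rho_eMid (t : Typ) (η : SL(2, ℤ)) :
    rho C hM t η (eMid C haux hM) = 0 ↔ t ≠ .mid := by
  rw [eMid, map_mul, mul_eq_zero, rho_hPr C haux hM hqm, rho_sigA, rho_hPr C haux hM hqm]
  cases t <;> simp [Typ.swap]

/-! ### The primes -/

include haux hM hqm in
/-- Smallness on a component is detected at one cusp. -/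
theorem rho_eq_zero_all {t : Typ} {η : SL(2, ℤ)} {z : A0 C} (h : rho C hM t η z = 0)
    (η' : SL(2, ℤ)) : rho C hM t η' z = 0 := by
  have hiff : ∀ (w : L0 C) (t : Typ) (η η' : SL(2, ℤ)), rho C hM t η (inclL C w) = 0 →
      rho C hM t η' (inclL C w) = 0 := fun w t η η' hw => by
    rw [rho_eq_zero_iff_serLT] at hw ⊢
    refine serLT_serAt_iff haux C.root C.cdvr hM C.zeta hqm (toL C w) ?_ hw
    by_cases ht : t = .inf
    · subst ht; exact iff_of_true (cusp_mem_Gamma0 hM η) (cusp_mem_Gamma0 hM η')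
    · exact iff_of_false (cusp_not_mem_Gamma0 hM ht η) (cusp_not_mem_Gamma0 hM ht η')
  have hinf : ∀ (z : A0 C) η η', rho C hM .inf η z = 0 → rho C hM .inf η' z = 0 := by
    intro z η η' hz
    have h1 := hiff (normA C hM z) .inf η η'
      (by rw [rho_inf_norm C haux hM, hz, zero_pow hq.out.ne_zero])
    rw [rho_inf_norm C haux hM] at h1
    exact eq_zero_of_pow_eq_zero h1
  cases t with
  | inf => exact hinf z η η' h
  | zero =>
    have h1 := hinf (sigA C haux hM z) η η' (by rw [rho_sigA]; exact h)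
    rwa [rho_sigA] at h1
  | mid =>
    have h0 : ∀ η, rho C hM .zero η (inclL C (traceA C hM (z * eMid C haux hM))) =
        -(rho C hM .mid η z * rho C hM .mid η (eMid C haux hM)) := fun η => by
      rw [rho_trace C haux hM (t := .zero) (by decide), map_mul, map_mul,
        (rho_eMid C haux hM hqm .zero η).mpr (by decide), mul_zero, zero_sub]
    have h1 := hiff (traceA C hM (z * eMid C haux hM)) .zero η η'
      (by rw [h0, h, zero_mul, neg_zero])
    rw [h0, neg_eq_zero, mul_eq_zero] at h1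
    exact h1.resolve_right fun he => (rho_eMid C haux hM hqm .mid η').mp he rfl

/-- The functions small on the component of type `t`. -/
def PT (t : Typ) : Ideal (A0 C) := RingHom.ker (rho C hM t 1)

include haux hqm in
/-- A component is detected at any cusp of level `M`. -/
theorem mem_PT_iff {t : Typ} {z : A0 C} (η : SL(2, ℤ)) :
    z ∈ PT C hM t ↔ rho C hM t η z = 0 :=
  ⟨fun h => rho_eq_zero_all C haux hM hqm h η, fun h => rho_eq_zero_all C haux hM hqm h 1⟩

/-- The components are prime ideals. -/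
theorem PT_isPrime (t : Typ) : (PT C hM t).IsPrime := RingHom.ker_isPrime _

include haux hqm in
/-- A function of a component is small at the cusps of its type. -/
theorem smA_of_mem_PT {t : Typ} {z : A0 C} (h : z ∈ PT C hM t) {γ : SL(2, ℤ)}
    (hγ : IsTyp q t γ) : z ∈ smA C γ := by
  rw [← resA_eq_zero_iff, resA_eq_rho C haux hM hγ rfl]
  exact (mem_PT_iff C haux hM hqm γ).mp h

include haux hqm in
/-- A function small at one cusp of a type lies in that component. -/
theorem mem_PT_of_smA {t : Typ} {z : A0 C} {γ : SL(2, ℤ)} (hγ : IsTyp q t γ)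
    (h : z ∈ smA C γ) : z ∈ PT C hM t := by
  rw [← resA_eq_zero_iff, resA_eq_rho C haux hM hγ rfl] at h
  exact (mem_PT_iff C haux hM hqm γ).mpr h

include haux hqm in
/-- The involution exchanges the components. -/
theorem sigA_mem_PT_iff {t : Typ} {z : A0 C} :
    sigA C haux hM z ∈ PT C hM t ↔ z ∈ PT C hM t.swap := by
  rw [mem_PT_iff C haux hM hqm 1, mem_PT_iff C haux hM hqm 1, rho_sigA]

include hqm in
/-- `eInf` avoids exactly the component at `∞`. -/
theorem eInf_mem_PT_iff (t : Typ) : eInf C haux hM ∈ PT C hM t ↔ t ≠ .inf :=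
  (mem_PT_iff C haux hM hqm 1).trans (rho_eInf C haux hM hqm t 1)

include hqm in
/-- `eZero` avoids exactly the component `0`. -/
theorem eZero_mem_PT_iff (t : Typ) : eZero C haux hM ∈ PT C hM t ↔ t ≠ .zero :=
  (mem_PT_iff C haux hM hqm 1).trans (rho_eZero C haux hM hqm t 1)

include hqm in
/-- `eMid` avoids exactly the component `mid`. -/
theorem eMid_mem_PT_iff (t : Typ) : eMid C haux hM ∈ PT C hM t ↔ t ≠ .mid :=
  (mem_PT_iff C haux hM hqm 1).trans (rho_eMid C haux hM hqm t 1)

/-! ### Divisibility by `q` -/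

theorem q_mem_smA (γ : SL(2, ℤ)) : (q : A0 C) ∈ smA C γ := by
  intro n
  show P.abv ((serA C γ (q : A0 C)).coeff n) < 1
  rw [show serA C γ (q : A0 C) = (q : LaurentSeries ℂ) from map_natCast _ _,
    ← map_natCast (HahnSeries.C : ℂ →+* LaurentSeries ℂ), HahnSeries.C_apply]
  rcases eq_or_ne n 0 with rfl | hn
  · rw [HahnSeries.coeff_single_same]; simpa using P.lt_one
  · rw [HahnSeries.coeff_single_of_ne hn]; simp

/-- `q` vanishes on every component. -/
theorem q_mem_PT (t : Typ) : (q : A0 C) ∈ PT C hM t := (resA_eq_zero_iff C).mpr (q_mem_smA C _)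

include haux hM hqm in
/-- The radical of `q`. -/
theorem mem_radical_iff (z : A0 C) :
    z ∈ (Ideal.span {(q : A0 C)}).radical ↔ ∀ t, z ∈ PT C hM t := by
  refine ⟨fun h t => ?_, fun h => ?_⟩
  · have := PT_isPrime C hM t
    exact (Ideal.IsPrime.radical_le_iff inferInstance).mpr
      (Ideal.span_le.mpr (Set.singleton_subset_iff.mpr (q_mem_PT C hM t))) h
  obtain ⟨ϖ, hϖ⟩ := IsDiscreteValuationRing.exists_irreducible C.O
  have hq0 : (q : C.O) ≠ 0 := fun h0 => by
    have := congrArg Subtype.val h0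
    simp [hq.out.ne_zero] at this
  obtain ⟨e, u, he⟩ := IsDiscreteValuationRing.eq_unit_mul_pow_irreducible hq0 hϖ
  have hsmall : ∀ γ, inclS C z ∈ smallI M (lamD q M) C.cdvr.le γ := fun γ => by
    obtain ⟨t, ht⟩ := exists_isTyp (q := q) γ
    exact smA_of_mem_PT C haux hM hqm (h t) ht
  obtain ⟨w, hw⟩ := dvd_of_small C.cdvr.le C.cdvr hϖ hsmall
  refine ⟨e, Ideal.mem_span_singleton.mpr
    ⟨avgS C haux (constI ((u⁻¹ : (C.O)ˣ) : C.O) * w ^ e), ?_⟩⟩
  have h1 : inclS C (z ^ e) = inclS C (q : A0 C) * (constI ((u⁻¹ : (C.O)ˣ) : C.O) * w ^ e) := by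
    rw [map_pow, hw, mul_pow, map_natCast, ← mul_assoc, ← map_pow,
      ← map_natCast (constI (q := q) (M := M) (O := C.O) (Λ := lamD q M)), ← map_mul, he,
      mul_right_comm, ← Units.val_mul, mul_inv_cancel, Units.val_one, one_mul]
  rw [← avgS_inclS C haux (z ^ e), h1, avgS_mul]

include haux in
/-- Coefficients of absolute value at most `|q|` everywhere give a multiple of `q`. -/
theorem q_dvd_of_serLE {z : A0 C} (h : ∀ γ, P.SerLE (P.abv q) (serA C γ z)) : (q : A0 C) ∣ z := by
  have hq0 : (q : ℂ) ≠ 0 := Nat.cast_ne_zero.mpr hq.out.ne_zero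
  set g : ℍ → ℂ := (fun _ => (q : ℂ)⁻¹) * (z : ℍ → ℂ) with hg
  have hgser : ∀ γ, lexp (q * M) γ g = HahnSeries.C (q : ℂ)⁻¹ * serA C γ z := fun γ =>
    lexp_eq ((ES.HasLExp.const _).mul (hasLExp_lexp z.2.1.1.1 γ))
  have hmem : g ∈ InvS C := by
    refine ⟨⟨mul_mem ((BSub (q * M)).algebraMap_mem _) z.2.1.1.1, fun γ n => ?_⟩, fun δ hδ => ?_⟩
    · rw [hgser, HahnSeries.C_apply, HahnSeries.coeff_single_zero_mul]
      obtain ⟨w, hw⟩ := dvd_of_abv_le C.cdvr (x := (⟨_, serIn_serA C γ z n⟩ : C.O)) (y := (q : C.O))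
        natCast_q_ne_zero (by simpa using h γ n)
      have hw' : (serA C γ z).coeff n = (q : ℂ) * (w : ℂ) := by
        simpa using congrArg Subtype.val hw
      rw [hw', inv_mul_cancel_left₀ hq0]
      exact w.2
    · rw [hg, ES.act_mulFun, z.2.1.2 δ hδ]; rfl
  have hmul : inclS C (q : A0 C) * (⟨g, hmem⟩ : InvS C) = inclS C z := by
    refine Subtype.ext (funext fun τ => ?_)
    rw [map_natCast]
    show ((q : InvS C) : ℍ → ℂ) τ * ((q : ℂ)⁻¹ * (z : ℍ → ℂ) τ) = (z : ℍ → ℂ) τ
    rw [show ((q : InvS C) : ℍ → ℂ) τ = (q : ℂ) by simp, mul_inv_cancel_left₀ hq0]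
  exact ⟨avgS C haux ⟨g, hmem⟩, by rw [← avgS_mul, hmul, avgS_inclS]⟩

omit [NeZero M] in
/-- A small unramified number has absolute value at most that of `q`. -/
theorem abv_le_q {x : ℂ} (hx : x ∈ C.O0) (h : P.abv x < 1) : P.abv x ≤ P.abv q := by
  obtain ⟨w, hw, e⟩ := exists_eq_unif_mul C.cdvr0 C.unif hx h
  rw [e, map_mul, show (((q : C.O0)) : ℂ) = (q : ℂ) by simp]
  exact mul_le_of_le_one_right (P.abv.nonneg _) (C.cdvr0.le hw)

include haux hM in
/-- At a cusp with a Galois conjugate whose coefficients are unramified. -/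
theorem serLE_q_of_small {t : Typ} (ht : t ≠ .mid) {z : A0 C} {γ : SL(2, ℤ)}
    (hγ : IsTyp q t γ) (h : z ∈ smA C γ) : P.SerLE (P.abv q) (serA C γ z) := by
  obtain ⟨γ0, hγ0, hn, hmod⟩ : ∃ γ0, IsTyp q t γ0 ∧ IsNorm q γ0 ∧ modMat M γ0 = modMat M γ := by
    cases t with
    | mid => exact absurd rfl ht
    | inf =>
      obtain ⟨γ0, h0, hm⟩ :=
        exists_mat (a := (1 : ZMod q)) (b := 0) (c := 0) (d := 1) hM (by ring) γ
      exact ⟨γ0, h0.2.2.1, Or.inl ⟨h0.2.2.1, h0.2.1⟩, hm⟩
    | zero =>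
      obtain ⟨γ0, h0, hm⟩ :=
        exists_mat (a := (0 : ZMod q)) (b := -1) (c := 1) (d := 0) hM (by ring) γ
      exact ⟨γ0, h0.1, Or.inr ⟨h0.1, h0.2.2.2⟩, hm⟩
  obtain ⟨a, ha⟩ := exists_galRel_of_isTyp hM hγ0 hγ hmod.symm
  obtain ⟨γ'', hr⟩ := ES.GalRel.exists_right (C.D a).unit γ0
  obtain ⟨j, δ, hδ, e⟩ := ha _ (C.D_a a) (D_a_mod C hM a) γ'' hr
  have h0 : z ∈ smA C γ0 := by
    rw [← resA_eq_zero_iff] at h ⊢
    rwa [resA_eq_of_isTyp C haux hM hγ hγ0 hmod]
  have hz : P.abv (zetaC (q * M)) = 1 := P.abv_eq_one_of_pow_eq_one (NeZero.ne (q * M))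
    (ES.zetaC_isPrimitiveRoot (q * M)).pow_eq_one
  intro n
  have hc := serIn_serA_of_isNorm C haux hM hn z n
  rw [e, serA_lamD_mul C hδ, serA_mul_T_pow, serA_galRel C haux a z hr, ES.coeff_twistSer,
    ES.coeff_mapSer, RingEquiv.coe_toRingHom, C.apply_of_mem hc, map_mul, map_zpow₀, map_pow, hz,
    one_pow, one_zpow, mul_one]
  exact abv_le_q C hc (h0 n)

include haux hM in
/-- On `L0` a function small on every component is a multiple of `q`. -/
theorem q_dvd_inclL {z : L0 C} (h : ∀ γ, inclL C z ∈ smA C γ) : (q : A0 C) ∣ inclL C z := by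
  refine q_dvd_of_serLE C haux fun γ => ?_
  by_cases hγ : IsTyp q .inf γ
  · exact serLE_q_of_small C haux hM (t := .inf) (by decide) hγ (h γ)
  · have hc : (M : ZMod q) * ent q γ 1 0 ≠ 0 := mul_ne_zero (natCast_M_ne_zero hM) hγ
    set j : ZMod q := -ent q γ 0 0 / ((M : ZMod q) * ent q γ 1 0) with hj
    have h0 : IsTyp q .zero (ModularGroup.T ^ (M * j.val) * γ) := by
      show ent q _ 0 0 = 0
      rw [(ent_T_pow_mul (M := M) j γ).1, hj]
      have hc' : ent q γ 1 0 ≠ 0 := hγ
      field_simp [natCast_M_ne_zero hM]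
      ring
    have e : serA C γ (inclL C z) = serA C (ModularGroup.T ^ (M * j.val) * γ) (inclL C z) := by
      rw [serA_apply, serA_apply, ← lexp_act]
      congr 1
      exact ((toL C z).2.2.2 _ (PSEMI.LevelMp.T_pow_mem_lam j.val)).symm
    rw [e]
    exact serLE_q_of_small C haux hM (t := .zero) (by decide) h0 (h _)

end FermatAgent.BAD.Sq

end
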