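import Fermat.Agent.ES.Tate.EigenRep

/-!
# A group of unipotent two by two matrices fixes a line

If all the elements of a submonoid have characteristic polynomial `(X - 1)²`, so do their products,
hence their nilpotent parts are pairwise orthogonal and have a common kernel.
-/

set_option autoImplicit false

noncomputable section

open Polynomial IsLocalRing
open scoped Matrix

namespace FermatAgent.BAD.Sq

variable {R : Type} [CommRing R] [IsDomain R]

theorem mul_eq_zero_of_nilpotent {a b c a' b' c' : R} (h : a * a + b * c = 0)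
    (h' : a' * a' + b' * c' = 0) (hh : 2 * a * a' + b * c' + c * b' = 0) :
    !![a', b'; c', -a'] * !![a, b; c, -a] = 0 := by
  have e00 : a' * a + b' * c = 0 := pow_eq_zero_iff (n := 2) two_ne_zero |>.mp (by
    linear_combination (a * a) * h' + (b' * c) * hh - b' * c' * h)
  have e01 : a' * b + b' * -a = 0 := pow_eq_zero_iff (n := 2) two_ne_zero |>.mp (by
    linear_combination (b * b) * h' + (b' * b') * h - (b * b') * hh)
  have e10 : c' * a + -a' * c = 0 := pow_eq_zero_iff (n := 2) two_ne_zero |>.mp (by
    linear_combination (c * c) * h' + (c' * c') * h - (c * c') * hh)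
  have e11 : c' * b + -a' * -a = 0 := pow_eq_zero_iff (n := 2) two_ne_zero |>.mp (by
    linear_combination (a * a) * h' + (b * c') * hh - b' * c' * h)
  ext i j
  fin_cases i <;> fin_cases j <;> simp [Matrix.mul_apply, Fin.sum_univ_two] <;>
    first | linear_combination e00 | linear_combination e01 | linear_combination e10 |
      linear_combination e11

/-- A matrix with characteristic polynomial `(X - 1)²` is `1` plus a nilpotent of trace zero. -/
theorem shape_of_charpoly {M : Matrix (Fin 2) (Fin 2) R} (h : M.charpoly = (X - 1) ^ 2) :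
    M.trace = 2 ∧ ∃ a b c : R, M - 1 = !![a, b; c, -a] ∧ a * a + b * c = 0 := by
  rw [Matrix.charpoly_fin_two] at h
  have h1 : M.trace = 2 := by
    have := congrArg (fun p : R[X] => p.coeff 1) h
    simp [sq, sub_mul, mul_sub, coeff_one, coeff_X, coeff_mul_X, coeff_C] at this
    linear_combination -this
  have h2 : M.det = 1 := by
    have := congrArg (fun p : R[X] => p.coeff 0) h
    simpa [sq, sub_mul, mul_sub, coeff_one, coeff_X, coeff_C, coeff_mul_X_zero] using this
  refine ⟨h1, M 0 0 - 1, M 0 1, M 1 0, ?_, ?_⟩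
  · rw [Matrix.trace_fin_two] at h1
    ext i j
    fin_cases i <;> fin_cases j <;> simp
    linear_combination h1
  · rw [Matrix.trace_fin_two] at h1
    rw [Matrix.det_fin_two] at h2
    linear_combination (M 0 0) * h1 - h2

/-- **A common fixed vector** of unipotent matrices whose products are unipotent. -/
theorem exists_fixed_vector (s : Set (Matrix (Fin 2) (Fin 2) R))
    (hu : ∀ M ∈ s, M.charpoly = (X - 1) ^ 2)
    (hm : ∀ M ∈ s, ∀ M' ∈ s, (M * M').trace = 2) :
    ∃ v : Fin 2 → R, v ≠ 0 ∧ ∀ M ∈ s, M *ᵥ v = v := by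
  by_cases h1 : ∀ M ∈ s, M = 1
  · exact ⟨![1, 0], fun h => one_ne_zero (congrFun h 0 : (1 : R) = 0),
      fun M hM => by rw [h1 M hM, Matrix.one_mulVec]⟩
  push Not at h1
  obtain ⟨N, hN, hne⟩ := h1
  obtain ⟨j, hj⟩ : ∃ j, (fun i => (N - 1) i j) ≠ 0 := by
    by_contra! h
    exact hne (sub_eq_zero.mp (Matrix.ext fun i j => congrFun (h j) i))
  refine ⟨fun i => (N - 1) i j, hj, fun M hM => ?_⟩
  have hkey : (M - 1) * (N - 1) = 0 := by
    obtain ⟨hMt, a', b', c', he', h'⟩ := shape_of_charpoly (hu M hM)
    obtain ⟨hNt, a, b, c, he, h⟩ := shape_of_charpoly (hu N hN)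
    rw [he, he']
    refine mul_eq_zero_of_nilpotent h h' ?_
    have ht : ((M - 1) * (N - 1)).trace = 0 := by
      rw [sub_mul, mul_sub, mul_one, one_mul, Matrix.trace_sub, Matrix.trace_sub, Matrix.trace_sub,
        hm M hM N hN, hMt, hNt, Matrix.trace_one, Fintype.card_fin]
      norm_num
    rw [he, he', Matrix.trace_fin_two] at ht
    simp [Matrix.mul_apply, Fin.sum_univ_two] at ht
    linear_combination ht
  refine sub_eq_zero.mp (funext fun i => ?_)
  have h := congrFun (congrFun hkey i) j
  rw [Matrix.mul_apply] at h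
  show (M *ᵥ fun i => (N - 1) i j) i - (N - 1) i j = 0
  rw [show (M *ᵥ fun i => (N - 1) i j) i - (N - 1) i j =
    ((M - 1) *ᵥ fun i => (N - 1) i j) i by rw [Matrix.sub_mulVec, Matrix.one_mulVec, Pi.sub_apply]]
  exact h

end FermatAgent.BAD.Sq
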