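import Fermat.Agent.BAD.Sq.Assembly
import Fermat.Agent.BAD.Sq.Cor
import Fermat.Agent.BAD.Sq.Unip
import Fermat.Agent.BAD.NewRep.Main

/-!
# Inertia is not unipotent at a prime dividing the level of a newform exactly twice

If it were, a vector fixed by inertia would exist; both transfers to `Γ₀(L q)` of its eigen
homomorphism vanish as the eigensystem is new, and `sqKill` kills it.
-/

set_option autoImplicit false

noncomputable section

open scoped MatrixGroups Matrix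
open CongruenceSubgroup IsLocalRing ModularFormClass Polynomial ModularCurve.Period

namespace FermatAgent.BAD.Sq

open Assembly (ZC)
open Lifting (charZC IsSystemOf)
open FermatAgent.Period (parRank parHom parabolicCoords)
open MF.Mult (atPrime)

local notation "GQ" => AlgebraicClosure ℚ ≃ₐ[ℚ] AlgebraicClosure ℚ

/-- A homomorphism killed by the transfer along a correspondence gives characters killed by the
transfer along its representatives. -/
theorem killsTransfer_padChar {p : ℕ} [Fact p.Prime] {N N' : ℕ} {ι : Type} [Fintype ι]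
    {S : Submonoid HM.Mat2} (D : HM.Corr S (Gamma0 N') (Gamma0 N) ι) (hD : D.IsIrredundant)
    (ψ : parabolicHoms ℤ_[p] (Gamma0 N) ℤ_[p])
    (h : ∀ γ, ∑ i, ψ.1 (Additive.ofMul (D.fac γ i)) = 0) (k : ℕ) :
    KillsTransfer N N' D.rep (ES.padChar p k ψ).1 := by
  intro γ π el hel
  have hfac : ∀ i, el i = D.fac γ i := fun i =>
    ((D.perm_fac_of_eq hD (hel i)).2).symm
  simp only [hfac, ES.padChar_apply, ← ES.zU_sum, ← map_sum, h γ, map_zero]
  exact map_one _

variable {p : ℕ} [Fact p.Prime]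

/-- On `ℤ_p`-valued homomorphisms fixed by inertia with both transfers zero, there is nothing. -/
theorem eq_zero_of_padic {L q : ℕ} [NeZero L] [Fact q.Prime] (hqL : ¬ q ∣ L)
    (hqp : q ≠ p) {A : ValuationSubring (AlgebraicClosure ℚ)} (hA : A.LiesOverPrime q)
    (w : Fin (parRank (Gamma0 (L * q ^ 2))) → ℤ_[p])
    (hI : ∀ s ∈ A.inertiaSubgroupIn ℚ, ES.galMat p (L * q ^ 2) s *ᵥ w = w)
    (h₁ : ∀ γ, ∑ i, w i * ∑ x, ((parHom (Gamma0 (L * q ^ 2)) i (Additive.ofMul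
      ((lowCorr L q).fac γ x)) : ℤ) : ℤ_[p]) = 0)
    (h₂ : ∀ γ, ∑ i, w i * ∑ x, ((parHom (Gamma0 (L * q ^ 2)) i (Additive.ofMul
      ((upCorr L q).fac γ x)) : ℤ) : ℤ_[p]) = 0) : w = 0 := by
  obtain ⟨e, he, key⟩ := sqKill L q hqL
  set co := parabolicCoords (Gamma0 (L * q ^ 2)) ℤ_[p] ℤ_[p] with hco
  obtain ⟨ψ, rfl⟩ := co.surjective w
  have hval : ∀ γ : Gamma0 (L * q ^ 2), ψ.1 (Additive.ofMul γ) =
      ∑ i, co ψ i * ((parHom (Gamma0 (L * q ^ 2)) i (Additive.ofMul γ) : ℤ) : ℤ_[p]) := fun γ => by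
    rw [Period.eq_sum_parHom ψ.2]
    refine Finset.sum_congr rfl fun i _ => ?_
    rw [zsmul_eq_mul, mul_comm]
    rfl
  have hsum : ∀ {D : HM.Corr (HM.sigma0 1 1) (Gamma0 (L * q)) (Gamma0 (L * q ^ 2)) (Fin q)},
      (∀ γ, ∑ i, co ψ i * ∑ x, ((parHom (Gamma0 (L * q ^ 2)) i (Additive.ofMul
        (D.fac γ x)) : ℤ) : ℤ_[p]) = 0) → ∀ γ, ∑ x, ψ.1 (Additive.ofMul (D.fac γ x)) = 0 :=
    fun {D} h γ => by
      simp only [hval]
      rw [Finset.sum_comm, ← h γ]
      exact Finset.sum_congr rfl fun i _ => (Finset.mul_sum _ _ _).symm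
  have hfix : ∀ s ∈ A.inertiaSubgroupIn ℚ, ES.galPad p s ψ = ψ := fun s hs =>
    co.injective (by rw [← ES.galMat_mulVec]; exact hI s hs)
  have hzero : e • ψ = 0 • ψ := ES.padChar_ext p fun k => by
    rw [ES.padChar_nsmul, ES.padChar_nsmul, pow_zero]
    refine key (p ^ k) (Nat.Coprime.pow_left k ((Nat.coprime_primes Fact.out
      (Fact.out : q.Prime)).mpr hqp.symm)) _ ?_ ?_ A hA fun s hs => ?_
    · exact killsTransfer_padChar (lowCorr L q) (fun _ _ _ h => low_unique h) ψ (hsum h₁) k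
    · exact killsTransfer_padChar (upCorr L q) (fun _ _ _ h => up_unique h) ψ (hsum h₂) k
    · rw [← ES.padChar_galPad, hfix s hs]
  have h0 : e • co ψ = 0 := by rw [← map_nsmul, hzero, zero_smul, map_zero]
  funext i
  have h1 := congrFun h0 i
  rw [Pi.smul_apply, nsmul_eq_mul] at h1
  exact (mul_eq_zero.mp h1).resolve_left (Nat.cast_ne_zero.mpr he)

variable {B : Type} [CommRing B] [IsDomain B] [IsDiscreteValuationRing B] [CharZero B]

omit [IsDiscreteValuationRing B] in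
/-- Inertia at `q` fixes nothing in the eigenlattice of a newform of level `L q²`. -/
theorem eq_zero_of_fixed {L q : ℕ} [NeZero L] [Fact q.Prime] (hqL : ¬ q ∣ L)
    (hqp : q ≠ p) (ι : ℤ_[p] →+* B) (χ : CuspForm.heckeAlgebra (L * q ^ 2) 2 ∅ →+* B)
    {f : CuspForm (Gamma0 (L * q ^ 2)) 2} (hf : f.IsNewform) (hsys : IsSystemOf hf.1 χ)
    {A : ValuationSubring (AlgebraicClosure ℚ)} (hA : A.LiesOverPrime q) (v : ES.eigLat χ)
    (hI : ∀ g ∈ A.inertiaSubgroupIn ℚ, ES.eigEnd ι χ g v = v) : v = 0 := by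
  classical
  obtain ⟨K, _, _, _, j, σ, hj, hχ⟩ := hsys
  have hq := (Fact.out : q.Prime)
  set t := fun (ℓ : ℕ) (hℓ : ℓ.Prime) => atPrime (L * q ^ 2) ∅ hℓ (Set.notMem_empty ℓ) with ht
  set a : ℕ → ZC := fun ℓ => if h : ℓ.Prime then charZC hf.1 (t ℓ h) else 0 with ha
  have ha' : ∀ (ℓ : ℕ) (hℓ : ℓ.Prime), a ℓ = charZC hf.1 (t ℓ hℓ) := fun ℓ hℓ => by
    rw [ha]; exact dif_pos hℓ
  have haf : ∀ ℓ : ℕ, ℓ.Prime → (a ℓ : ℂ) = qCoeff f ℓ := fun ℓ hℓ => by
    rw [ha' ℓ hℓ]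
    exact ((MF.isEigen_iff_isNormalizedEigenform f).mpr hf.1).char_heckeAt hℓ
      (Set.notMem_empty ℓ)
  set P := (parabolicCoords (Gamma0 (L * q ^ 2)) K K).symm (j ∘ v.1)
  have hP : P ∈ Period.parEigen K (j.comp χ) := by
    rw [← ES.coords_mem_eigLat, LinearEquiv.apply_symm_apply]
    exact ES.map_mem_eigLat χ j v.2
  -- both transfers vanish
  have main : ∀ D : HM.Corr (HM.sigma0 1 1) (Gamma0 (L * q)) (Gamma0 (L * q ^ 2)) (Fin q),
      (∀ (ℓ : ℕ) (hℓ : ℓ.Prime), ¬ ℓ ∣ L * q → ∀ φ : Additive (Gamma0 (L * q ^ 2)) →+ K,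
        Period.heckeOp K (L * q) hℓ (D.homOp φ) =
          D.homOp (Period.heckeOp K (L * q ^ 2) hℓ φ)) →
      D.homOp P.1 = 0 := by
    intro D hcomm
    by_contra h0
    obtain ⟨g, hg, hgc⟩ := Lifting.exists_eigenform_of_hom σ {n | n ∣ (L * q ^ 2)} a
      (D.homOp_parabolic P.2) h0 fun ℓ hℓ hℓN => by
        have h1 := congrArg Subtype.val ((Period.mem_parEigen.mp hP) (t ℓ hℓ))
        rw [Period.parAction_heckeAt K K hℓ (Set.notMem_empty ℓ), RingHom.comp_apply, hχ,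
          ← ha' ℓ hℓ] at h1
        rw [hcomm ℓ hℓ (fun h => hℓN (h.trans ⟨q, by ring⟩)) P.1]
        exact (congrArg D.homOp h1).trans (D.homOp_smul _ _)
    refine hf.2 (L * q) ⟨q, by ring⟩ (fun h => ?_) ⟨g, hg, fun ℓ hℓ hℓN =>
      (hgc ℓ hℓ hℓN).trans (haf ℓ hℓ)⟩
    have := mul_left_cancel₀ (NeZero.ne L) h
    rw [pow_two] at this
    exact hq.one_lt.ne' (mul_right_eq_self₀.mp this.symm |>.resolve_right hq.ne_zero)
  have hz₁ := main (lowCorr L q) fun ℓ hℓ h φ => by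
    have := Fact.mk hℓ
    exact lowCorr_comm h φ
  have hz₂ := main (upCorr L q) fun ℓ hℓ h φ => by
    have := Fact.mk hℓ
    exact upCorr_comm h φ
  have hC := Lifting.mulVec_eq_zero_of_fixed (A.inertiaSubgroupIn ℚ : Set GQ)
    (Sum.elim (fun γ x => (lowCorr L q).fac γ x) fun γ x => (upCorr L q).fac γ x) 1
    (fun w hs hk => by
      rw [Matrix.one_mulVec]
      exact eq_zero_of_padic hqL hqp hA w hs (fun γ => hk (.inl γ)) fun γ => hk (.inr γ))
    ι j (hj.comp (Lifting.injective_of_charZero ι)) v.1 (fun s hs => ?_) ?_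
  · rw [Matrix.map_one _ (map_zero _) (map_one _), Matrix.one_mulVec] at hC
    exact Subtype.ext (hj.comp_left (hC.trans (funext fun _ => (map_zero j).symm)))
  · exact ((ES.coe_eigEnd _ _ _ _).symm.trans (congrArg Subtype.val (hI s hs)))
  · rintro (γ | γ)
    · exact (HM.Corr.homOp_apply _ _ _).symm.trans (DFunLike.congr_fun hz₁ (Additive.ofMul γ))
    · exact (HM.Corr.homOp_apply _ _ _).symm.trans (DFunLike.congr_fun hz₂ (Additive.ofMul γ))

/-- **Inertia at a prime `q ≠ p` dividing the level of a newform exactly twice is not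
unipotent on its eigenlattice.** -/
theorem not_unipotent_eigEnd {N : ℕ} [NeZero N] {q : ℕ} (hq : q.Prime)
    (hfac : N.factorization q = 2) (hqp : q ≠ p) (ι : ℤ_[p] →+* B)
    (χ : CuspForm.heckeAlgebra N 2 ∅ →+* B) {f : CuspForm (Gamma0 N) 2} (hf : f.IsNewform)
    (hχ : IsSystemOf hf.1 χ) :
    ¬ ∀ P : ValuationSubring (AlgebraicClosure ℚ), P.LiesOverPrime q →
      ∀ s ∈ P.inertiaSubgroupIn ℚ, LinearMap.charpoly (ES.eigEnd ι χ s) = (X - 1) ^ 2 := by
  intro hU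
  have := Fact.mk hq
  obtain ⟨L, rfl⟩ : ∃ L, N = L * q ^ 2 := by
    obtain ⟨L, hL⟩ := hfac ▸ Nat.ordProj_dvd N q
    exact ⟨L, hL.trans (mul_comm _ _)⟩
  have : NeZero L := ⟨fun h => NeZero.ne (L * q ^ 2) (by rw [h, zero_mul])⟩
  have hqL : ¬ q ∣ L := fun h => by
    have h3 : q ^ 3 ∣ L * q ^ 2 := by
      rw [pow_succ' q 2]; exact Nat.mul_dvd_mul_right h _
    have := (hq.pow_dvd_iff_le_factorization (NeZero.ne _)).mp h3
    omega
  obtain ⟨A, hA⟩ := GaloisBasic.exists_liesOverPrime hq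
  have hch : ∀ s ∈ A.inertiaSubgroupIn ℚ, (ES.eigMat ι χ s).charpoly = (X - 1) ^ 2 := fun s hs => by
    rw [ES.eigMat_apply, LinearMap.charpoly_toMatrix]; exact hU A hA s hs
  obtain ⟨v, hv, hfix⟩ := exists_fixed_vector
    ((fun s => ES.eigMat ι χ s) '' (A.inertiaSubgroupIn ℚ : Set GQ))
    (by rintro _ ⟨s, hs, rfl⟩; exact hch s hs)
    (by
      rintro _ ⟨s, hs, rfl⟩ _ ⟨s', hs', rfl⟩
      show (ES.eigMat ι χ s * ES.eigMat ι χ s').trace = 2
      rw [← map_mul]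
      exact (shape_of_charpoly (hch _ (mul_mem hs hs'))).1)
  set b := ES.eigBasis χ
  refine hv (funext fun i => ?_)
  have h0 := eq_zero_of_fixed hqL hqp ι χ hf hχ hA (b.equivFun.symm v) fun s hs => by
    apply b.equivFun.injective
    rw [LinearEquiv.apply_symm_apply]
    conv_rhs => rw [← hfix _ ⟨s, hs, rfl⟩]
    dsimp only
    rw [ES.eigMat_apply]
    have h := LinearMap.toMatrix_mulVec_repr b b (ES.eigEnd ι χ s) (b.equivFun.symm v)
    rw [← b.equivFun_apply, ← b.equivFun_apply, LinearEquiv.apply_symm_apply] at h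
    exact h.symm
  have h1 := congrArg b.equivFun h0
  rw [LinearEquiv.apply_symm_apply, map_zero] at h1
  exact congrFun h1 i

end FermatAgent.BAD.Sq

end
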