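import Fermat.Agent.BAD.GaloisConj

/-!
# The group `Γ₀(q) ∩ Γ⁰(q) ∩ Γ(M)` and the three types of cusps

The type of a cusp `γ ∞` (`∞`, `mid` or `0`) is given by the first column of `γ` modulo `q`; cusps
of one type over one cusp of level `M` are conjugate up to the group and translations, and
antidiagonal matrices exchange the types `∞` and `0`.
-/

set_option autoImplicit false

open UpperHalfPlane CongruenceSubgroup
open scoped MatrixGroups

noncomputable section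

namespace FermatAgent.BAD.Sq

open FermatAgent.ES (modMat GalRel)

variable {q M : ℕ} [hq : Fact q.Prime] [NeZero M]

/-- Reduction of an entry modulo `q`. -/
abbrev ent (q : ℕ) (γ : SL(2, ℤ)) (i j : Fin 2) : ZMod q := (γ i j : ZMod q)

/-- The determinant modulo `q`. -/
theorem ent_det (γ : SL(2, ℤ)) :
    ent q γ 0 0 * ent q γ 1 1 - ent q γ 0 1 * ent q γ 1 0 = 1 := by
  have h := congrArg (Int.cast : ℤ → ZMod q) (Matrix.SpecialLinearGroup.det_coe γ)
  rw [Matrix.det_fin_two] at h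
  push_cast at h
  exact h

/-- The entries of a product modulo `q`. -/
theorem ent_mul (γ δ : SL(2, ℤ)) (i j : Fin 2) :
    ent q (γ * δ) i j = ent q γ i 0 * ent q δ 0 j + ent q γ i 1 * ent q δ 1 j := by
  simp [ent, Matrix.SpecialLinearGroup.coe_mul, Matrix.mul_apply, Fin.sum_univ_two]

/-- The entries of an inverse modulo `q`. -/
theorem ent_inv (γ : SL(2, ℤ)) :
    ent q γ⁻¹ 0 0 = ent q γ 1 1 ∧ ent q γ⁻¹ 0 1 = -ent q γ 0 1 ∧
      ent q γ⁻¹ 1 0 = -ent q γ 1 0 ∧ ent q γ⁻¹ 1 1 = ent q γ 0 0 := by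
  simp [ent, Matrix.SpecialLinearGroup.coe_inv, Matrix.adjugate_fin_two]

/-- The entries of the identity modulo `q`. -/
theorem ent_one : ent q (1 : SL(2, ℤ)) 0 0 = 1 ∧ ent q (1 : SL(2, ℤ)) 0 1 = 0 ∧
    ent q (1 : SL(2, ℤ)) 1 0 = 0 ∧ ent q (1 : SL(2, ℤ)) 1 1 = 1 := by
  simp [ent]

/-- The entries of a translation modulo `q`. -/
theorem ent_T_pow (k : ℕ) : ent q (ModularGroup.T ^ k) 0 0 = 1 ∧
    ent q (ModularGroup.T ^ k) 0 1 = k ∧ ent q (ModularGroup.T ^ k) 1 0 = 0 ∧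
    ent q (ModularGroup.T ^ k) 1 1 = 1 := by
  simp only [ent, ES.T_pow_coe]
  simp

/-- The matrices which are diagonal modulo `q`. -/
def diagQ (q : ℕ) : Subgroup SL(2, ℤ) where
  carrier := {γ | ent q γ 1 0 = 0 ∧ ent q γ 0 1 = 0}
  one_mem' := by simp [ent]
  mul_mem' {γ δ} hγ hδ := by
    constructor
    · simp [ent, Matrix.SpecialLinearGroup.coe_mul, Matrix.mul_apply, Fin.sum_univ_two] at hγ hδ ⊢
      simp [hγ, hδ]
    · simp [ent, Matrix.SpecialLinearGroup.coe_mul, Matrix.mul_apply, Fin.sum_univ_two] at hγ hδ ⊢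
      simp [hγ, hδ]
  inv_mem' {γ} hγ := by
    simp [ent, Matrix.SpecialLinearGroup.coe_inv, Matrix.adjugate_fin_two] at hγ ⊢
    simp [hγ]

/-- The level group `Γ₀(q) ∩ Γ⁰(q) ∩ Γ(M)`. -/
def lamD (q M : ℕ) : Subgroup SL(2, ℤ) := diagQ q ⊓ Gamma M

section

omit [NeZero M]

/-- Membership in the level group. -/
theorem mem_lamD {γ : SL(2, ℤ)} :
    γ ∈ lamD q M ↔ (ent q γ 1 0 = 0 ∧ ent q γ 0 1 = 0) ∧ γ ∈ Gamma M := Iff.rfl

omit hq in
/-- The level group lies in `Γ₀(q) ∩ Γ(M)`. -/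
theorem lamD_le : lamD q M ≤ lam q M := fun _ hγ =>
  Subgroup.mem_inf.mpr ⟨Gamma0_mem.mpr hγ.1.1, hγ.2⟩

omit hq in
/-- `Γ(q M)` lies in the level group. -/
theorem gamma_qM_le_lamD : Gamma (q * M) ≤ lamD q M := fun γ hγ => by
  obtain ⟨-, h01, h10, -⟩ := Gamma_mem.mp (ES.gamma_le_of_dvd (dvd_mul_right q M) hγ)
  exact ⟨⟨h10, h01⟩, ES.gamma_le_of_dvd (dvd_mul_left M q) hγ⟩

/-- The translations by multiples of `M` lie in `Γ(M)`. -/
theorem T_pow_mem_Gamma (j : ℕ) : ModularGroup.T ^ (M * j) ∈ Gamma M := by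
  rw [Gamma_mem, ES.T_pow_coe]
  simp

theorem modMat_mul_T_pow (γ : SL(2, ℤ)) (j : ℕ) :
    modMat M (γ * ModularGroup.T ^ (M * j)) = modMat M γ := by
  rw [ES.modMat_mul, ES.modMat_eq_one_of_mem (T_pow_mem_Gamma j), mul_one]

end

/-- A matrix with prescribed reductions modulo `q` and modulo `M`. -/
theorem exists_mat (hM : M.Coprime q) {a b c d : ZMod q} (hdet : a * d - b * c = 1)
    (η : SL(2, ℤ)) :
    ∃ γ : SL(2, ℤ), (ent q γ 0 0 = a ∧ ent q γ 0 1 = b ∧ ent q γ 1 0 = c ∧ ent q γ 1 1 = d) ∧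
      modMat M γ = modMat M η := by
  set e := ZMod.chineseRemainder (Nat.Coprime.symm hM)
  set A := e.symm (a, (η 0 0 : ZMod M))
  set B := e.symm (b, (η 0 1 : ZMod M))
  set C := e.symm (c, (η 1 0 : ZMod M))
  set D := e.symm (d, (η 1 1 : ZMod M))
  have hη : (η 0 0 : ZMod M) * η 1 1 - (η 0 1 : ZMod M) * η 1 0 = 1 := by
    have h := congrArg (Int.cast : ℤ → ZMod M) (Matrix.SpecialLinearGroup.det_coe η)
    rw [Matrix.det_fin_two] at h
    push_cast at h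
    exact h
  have hd : A * D - B * C = 1 := by
    refine e.injective ?_
    simp only [A, B, C, D, map_sub, map_mul, map_one, e.apply_symm_apply, Prod.mk_mul_mk,
      Prod.mk_sub_mk, hdet, hη]
    rfl
  obtain ⟨γ, hγ⟩ := ES.exists_lift_modMat (M := q * M) hd
  have hent : ∀ (i j : Fin 2) (z : ZMod (q * M)), ((γ i j : ℤ) : ZMod (q * M)) = z →
      ((γ i j : ℤ) : ZMod q) = (e z).1 ∧ ((γ i j : ℤ) : ZMod M) = (e z).2 := fun i j z h => by
    rw [← h, map_intCast, Prod.fst_intCast, Prod.snd_intCast]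
    exact ⟨rfl, rfl⟩
  have h00 := hent 0 0 A (by simpa [modMat] using congrFun (congrFun hγ 0) 0)
  have h01 := hent 0 1 B (by simpa [modMat] using congrFun (congrFun hγ 0) 1)
  have h10 := hent 1 0 C (by simpa [modMat] using congrFun (congrFun hγ 1) 0)
  have h11 := hent 1 1 D (by simpa [modMat] using congrFun (congrFun hγ 1) 1)
  simp only [A, B, C, D, e.apply_symm_apply] at h00 h01 h10 h11
  refine ⟨γ, ⟨h00.1, h01.1, h10.1, h11.1⟩, ?_⟩
  ext i j
  fin_cases i <;> fin_cases j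
  exacts [h00.2, h01.2, h10.2, h11.2]

/-! ### The types of cusps -/

/-- The three types of cusps. -/
inductive Typ : Type
  | inf
  | mid
  | zero
  deriving DecidableEq

/-- The cusp `γ ∞` has the given type. -/
def IsTyp (q : ℕ) : Typ → SL(2, ℤ) → Prop
  | .inf => fun γ => ent q γ 1 0 = 0
  | .mid => fun γ => ent q γ 0 0 ≠ 0 ∧ ent q γ 1 0 ≠ 0
  | .zero => fun γ => ent q γ 0 0 = 0

omit hq in
/-- The cusps of type `∞` are those given by `Γ₀(q)`. -/
theorem isTyp_inf_iff {γ : SL(2, ℤ)} : IsTyp q .inf γ ↔ γ ∈ Gamma0 q := Gamma0_mem.symm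

theorem ent_col_ne_zero (γ : SL(2, ℤ)) : ent q γ 0 0 ≠ 0 ∨ ent q γ 1 0 ≠ 0 := by
  by_contra h
  rw [not_or, not_not, not_not] at h
  have h1 := ent_det (q := q) γ
  rw [h.1, h.2, zero_mul, mul_zero, sub_zero] at h1
  exact zero_ne_one h1

/-- Every cusp has a type. -/
theorem exists_isTyp (γ : SL(2, ℤ)) : ∃ t, IsTyp q t γ := by
  by_cases h1 : ent q γ 1 0 = 0
  · exact ⟨.inf, h1⟩
  by_cases h0 : ent q γ 0 0 = 0
  · exact ⟨.zero, h0⟩
  exact ⟨.mid, h0, h1⟩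

/-- The type of a cusp is unique. -/
theorem isTyp_unique {γ : SL(2, ℤ)} {t t' : Typ} (h : IsTyp q t γ) (h' : IsTyp q t' γ) :
    t = t' := by
  rcases t <;> rcases t' <;> simp only [IsTyp] at h h' <;>
    first | rfl | exact absurd h h'.1 | exact absurd h h'.2 | exact absurd h' h.1 |
      exact absurd h' h.2 | exact absurd h ((ent_col_ne_zero γ).resolve_left (not_not.mpr h')) |
      exact absurd h' ((ent_col_ne_zero γ).resolve_left (not_not.mpr h))

section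

omit [NeZero M]

/-- The entries modulo `q` of conjugate cusps. -/
theorem galRel_ent {a : ℕ} {γ γ' : SL(2, ℤ)} (h : GalRel (a : ZMod (q * M)) γ γ') :
    ent q γ' 0 0 = ent q γ 0 0 ∧ (a : ZMod q) * ent q γ' 1 1 = ent q γ 1 1 * a ∧
      ent q γ' 0 1 = ent q γ 0 1 * a ∧ (a : ZMod q) * ent q γ' 1 0 = ent q γ 1 0 :=
  let ⟨h00, h01, h10, h11⟩ := (GalRel.of_dvd (dvd_mul_right q M) h).entries
  ⟨h00, h11, h01, h10⟩

/-- `M` is invertible modulo `q`. -/
theorem natCast_M_ne_zero (hM : M.Coprime q) : (M : ZMod q) ≠ 0 := fun h =>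
  hq.out.not_dvd_one (hM ▸ Nat.dvd_gcd ((ZMod.natCast_eq_zero_iff M q).mp h) dvd_rfl)

/-- Cusps with proportional first columns modulo `q` and equal modulo `M` differ by the group and
a translation. -/
theorem exists_lamD_mul_T_pow (hM : M.Coprime q) {γ γ' : SL(2, ℤ)}
    (hmod : modMat M γ' = modMat M γ) {x : ZMod q} (hx : x ≠ 0)
    (h0 : ent q γ' 0 0 = x * ent q γ 0 0) (h1 : ent q γ' 1 0 = x⁻¹ * ent q γ 1 0) :
    ∃ (j : ℕ) (δ : SL(2, ℤ)), δ ∈ lamD q M ∧ γ' = δ * (γ * ModularGroup.T ^ (M * j)) := by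
  have hM0 := natCast_M_ne_zero hM
  have hdet := ent_det (q := q) γ
  set k : ZMod q := if ent q γ 0 0 = 0 then
      (x * ent q γ' 1 1 - ent q γ 1 1) / ((M : ZMod q) * ent q γ 1 0)
    else (ent q γ' 0 1 - x * ent q γ 0 1) / ((M : ZMod q) * x * ent q γ 0 0) with hk
  obtain ⟨t00, t01, t10, t11⟩ := ent_T_pow (q := q) (M * k.val)
  set γ₁ := γ * ModularGroup.T ^ (M * k.val) with hγ₁
  have e00 : ent q γ₁ 0 0 = ent q γ 0 0 := by rw [ent_mul, t00, t10]; ring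
  have e10 : ent q γ₁ 1 0 = ent q γ 1 0 := by rw [ent_mul, t00, t10]; ring
  have e01 : ent q γ₁ 0 1 = ent q γ 0 0 * ((M : ZMod q) * k) + ent q γ 0 1 := by
    rw [ent_mul, t01, t11, Nat.cast_mul, ZMod.natCast_zmod_val]; ring
  have e11 : ent q γ₁ 1 1 = ent q γ 1 0 * ((M : ZMod q) * k) + ent q γ 1 1 := by
    rw [ent_mul, t01, t11, Nat.cast_mul, ZMod.natCast_zmod_val]; ring
  refine ⟨k.val, γ' * γ₁⁻¹, ⟨?_, ?_⟩, (inv_mul_cancel_right _ _).symm⟩
  · obtain ⟨i00, i01, i10, i11⟩ := ent_inv (q := q) γ₁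
    have hdet' := ent_det (q := q) γ'
    show ent q (γ' * γ₁⁻¹) 1 0 = 0 ∧ ent q (γ' * γ₁⁻¹) 0 1 = 0
    rw [ent_mul, ent_mul, i00, i10, i01, i11, e00, e01, e10, e11]
    rw [h0, h1] at hdet'
    rw [h0, h1]
    by_cases hz : ent q γ 0 0 = 0
    · have hc : ent q γ 1 0 ≠ 0 := (ent_col_ne_zero γ).resolve_left (not_not.mpr hz)
      rw [hk, if_pos hz]
      rw [hz] at hdet hdet' ⊢
      constructor
      · field_simp
        ring
      · have e : ent q γ' 0 1 = x * ent q γ 0 1 := by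
          refine mul_right_cancel₀ (mul_ne_zero (inv_ne_zero hx) hc) ?_
          have : x * x⁻¹ = 1 := mul_inv_cancel₀ hx
          linear_combination hdet - hdet' - ent q γ 0 1 * ent q γ 1 0 * this
        rw [e]
        ring
    · rw [hk, if_neg hz]
      constructor
      · have e : ent q γ' 1 1 = x⁻¹ * (ent q γ 1 0 * ((M : ZMod q) *
            ((ent q γ' 0 1 - x * ent q γ 0 1) / ((M : ZMod q) * x * ent q γ 0 0))) +
              ent q γ 1 1) := by
          refine mul_left_cancel₀ (mul_ne_zero hx hz) ?_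
          field_simp
          field_simp at hdet hdet'
          linear_combination hdet' - x * hdet
        rw [e]
        ring
      · field_simp
        ring
  · refine ES.mem_Gamma_of_modMat ?_
    have h1' : modMat M γ₁ = modMat M γ' := by rw [hγ₁, modMat_mul_T_pow, hmod]
    rw [ES.modMat_mul, ← h1', ← ES.modMat_mul, mul_inv_cancel, ES.modMat_one]

/-- **Cusps of one type over one cusp of level `M`** are conjugate up to the group and
translations. -/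
theorem exists_galRel_of_isTyp (hM : M.Coprime q) {γ γ' : SL(2, ℤ)} {t : Typ}
    (hγ : IsTyp q t γ) (hγ' : IsTyp q t γ') (hmod : modMat M γ' = modMat M γ) :
    ∃ a : (ZMod q)ˣ, ∀ (n : ℕ), (n : ZMod q) = a → (n : ZMod M) = 1 → ∀ γ'' : SL(2, ℤ),
      GalRel (n : ZMod (q * M)) γ γ'' →
        ∃ (j : ℕ) (δ : SL(2, ℤ)), δ ∈ lamD q M ∧ γ' = δ * (γ'' * ModularGroup.T ^ (M * j)) := by
  have key : ∀ (a : (ZMod q)ˣ) (x : ZMod q), x ≠ 0 → ent q γ' 0 0 = x * ent q γ 0 0 →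
      x * (a : ZMod q) * ent q γ' 1 0 = ent q γ 1 0 →
      ∀ (n : ℕ), (n : ZMod q) = a → (n : ZMod M) = 1 → ∀ γ'' : SL(2, ℤ),
      GalRel (n : ZMod (q * M)) γ γ'' →
        ∃ (j : ℕ) (δ : SL(2, ℤ)), δ ∈ lamD q M ∧ γ' = δ * (γ'' * ModularGroup.T ^ (M * j)) := by
    intro a x hx h0 h1 n hn hnM γ'' hr
    obtain ⟨g00, -, -, g10⟩ := galRel_ent hr
    rw [hn] at g10
    have hmod' : modMat M γ'' = modMat M γ := by
      have h := GalRel.of_dvd (dvd_mul_left M q) hr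
      rw [GalRel, hnM, show (!![1, 0; 0, 1] : Matrix (Fin 2) (Fin 2) (ZMod M)) = 1 from
        Matrix.one_fin_two.symm, one_mul, mul_one] at h
      exact h
    refine exists_lamD_mul_T_pow hM (hmod.trans hmod'.symm) hx (by rw [h0, g00]) ?_
    refine mul_left_cancel₀ (mul_ne_zero hx a.ne_zero) ?_
    rw [h1, ← g10]
    field_simp
  cases t with
  | inf =>
    have h0 : ent q γ 0 0 ≠ 0 := (ent_col_ne_zero γ).resolve_right (not_not.mpr hγ)
    have h0' : ent q γ' 0 0 ≠ 0 := (ent_col_ne_zero γ').resolve_right (not_not.mpr hγ')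
    refine ⟨1, key 1 (ent q γ' 0 0 / ent q γ 0 0) (div_ne_zero h0' h0) ?_ ?_⟩
    · rw [div_mul_cancel₀ _ h0]
    · rw [show ent q γ 1 0 = 0 from hγ, show ent q γ' 1 0 = 0 from hγ', mul_zero]
  | zero =>
    have h0 : ent q γ 1 0 ≠ 0 := (ent_col_ne_zero γ).resolve_left (not_not.mpr hγ)
    have h0' : ent q γ' 1 0 ≠ 0 := (ent_col_ne_zero γ').resolve_left (not_not.mpr hγ')
    refine ⟨1, key 1 (ent q γ 1 0 / ent q γ' 1 0) (div_ne_zero h0 h0') ?_ ?_⟩
    · rw [show ent q γ 0 0 = 0 from hγ, show ent q γ' 0 0 = 0 from hγ', mul_zero]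
    · rw [Units.val_one, mul_one, div_mul_cancel₀ _ h0']
  | mid =>
    obtain ⟨h0, h1⟩ := hγ
    obtain ⟨h0', h1'⟩ := hγ'
    refine ⟨Units.mk0 (ent q γ 0 0 * ent q γ 1 0 / (ent q γ' 0 0 * ent q γ' 1 0))
      (div_ne_zero (mul_ne_zero h0 h1) (mul_ne_zero h0' h1')),
      key _ (ent q γ' 0 0 / ent q γ 0 0) (div_ne_zero h0' h0) (by rw [div_mul_cancel₀ _ h0]) ?_⟩
    rw [Units.val_mk0]
    field_simp

/-- Translations `T ^ (M j)` normalise the group acting from the left on `Γ₀(q)`. -/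
theorem exists_eq_lamD_mul_T_pow (hM : M.Coprime q) {γ : SL(2, ℤ)} (hγ : γ ∈ lam q M) :
    ∃ (j : ℕ) (δ : SL(2, ℤ)), δ ∈ lamD q M ∧ γ = δ * ModularGroup.T ^ (M * j) := by
  have h10 : ent q γ 1 0 = 0 := Gamma0_mem.mp hγ.1
  have h00 : ent q γ 0 0 ≠ 0 := (ent_col_ne_zero γ).resolve_right (not_not.mpr h10)
  obtain ⟨o00, -, o10, -⟩ := ent_one (q := q)
  obtain ⟨j, δ, hδ, h⟩ := exists_lamD_mul_T_pow hM (γ := 1) (γ' := γ)
    (by rw [ES.modMat_one, ES.modMat_eq_one_of_mem hγ.2]) h00 (by rw [o00, mul_one])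
    (by rw [o10, h10, mul_zero])
  exact ⟨j, δ, hδ, by rwa [one_mul] at h⟩

omit hq in
theorem conj_mem_lamD {δ γ : SL(2, ℤ)} (hδ : δ ∈ diagQ q) (hγ : γ ∈ lamD q M) :
    δ * γ * δ⁻¹ ∈ lamD q M :=
  Subgroup.mem_inf.mpr ⟨mul_mem (mul_mem hδ hγ.1) (inv_mem hδ), (Gamma_normal M).conj_mem γ hγ.2 δ⟩

/-- The matrices normalising the group. -/
def IsNorm (q : ℕ) (δ : SL(2, ℤ)) : Prop :=
  δ ∈ diagQ q ∨ (ent q δ 0 0 = 0 ∧ ent q δ 1 1 = 0)

/-- The normalising matrices normalise the level group. -/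
theorem conj_mem_lamD_of_isNorm {δ : SL(2, ℤ)} (hδ : IsNorm q δ) :
    ∀ γ ∈ lamD q M, δ * γ * δ⁻¹ ∈ lamD q M := fun γ hγ => by
  rcases hδ with h | ⟨h00, h11⟩
  · exact conj_mem_lamD h hγ
  refine Subgroup.mem_inf.mpr ⟨⟨?_, ?_⟩, (Gamma_normal M).conj_mem γ hγ.2 δ⟩
  all_goals
    obtain ⟨i00, i01, i10, i11⟩ := ent_inv (q := q) δ
    simp only [ent_mul, i00, i01, i10, i11, h00, h11, hγ.1.1, hγ.1.2, mul_zero, zero_mul,
      add_zero, zero_add]

end

/-- Antidiagonal matrices exchange the types `∞` and `0` and keep `mid`. -/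
theorem isTyp_antidiag_mul {δ γ : SL(2, ℤ)} (h00 : ent q δ 0 0 = 0) (h11 : ent q δ 1 1 = 0) :
    (IsTyp q .inf (δ * γ) ↔ IsTyp q .zero γ) ∧ (IsTyp q .zero (δ * γ) ↔ IsTyp q .inf γ) ∧
      (IsTyp q .mid (δ * γ) ↔ IsTyp q .mid γ) := by
  have hd := ent_det (q := q) δ
  rw [h00, zero_mul, zero_sub] at hd
  have h01 : ent q δ 0 1 ≠ 0 := fun h => by simp [h] at hd
  have h10 : ent q δ 1 0 ≠ 0 := fun h => by simp [h] at hd
  simp [IsTyp, ent_mul, h00, h11, h01, h10, and_comm]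

/-- Conjugates of normalising matrices differ by the level group. -/
theorem _root_.FermatAgent.BAD.InertData.mul_inv_mem_lamD {P : ES.CPlace q} {O : Subring ℂ}
    (D : InertData M P O) (hM : M.Coprime q) {δ δ' : SL(2, ℤ)}
    (hr : GalRel (D.a : ZMod (q * M)) δ δ') (hδ : IsNorm q δ) : δ' * δ⁻¹ ∈ lamD q M := by
  refine ⟨?_, ES.mem_Gamma_of_modMat ?_⟩
  · obtain ⟨g00, g11, g01, g10⟩ := galRel_ent hr
    obtain ⟨i00, i01, i10, i11⟩ := ent_inv (q := q) δ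
    have ha : (D.a : ZMod q) ≠ 0 :=
      (ES.isUnit_natCast_of_dvd (dvd_mul_right q M) D.unit).ne_zero
    have g11' : ent q δ' 1 1 = ent q δ 1 1 := by
      refine mul_left_cancel₀ ha ?_
      rw [g11, mul_comm]
    show ent q (δ' * δ⁻¹) 1 0 = 0 ∧ ent q (δ' * δ⁻¹) 0 1 = 0
    rw [ent_mul, ent_mul, i00, i10, i01, i11, g00, g11', g01]
    rcases hδ with ⟨d10, d01⟩ | ⟨d00, d11⟩
    · rw [d10, mul_eq_zero] at g10
      rw [g10.resolve_left ha, d10, d01]
      simp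
    · rw [d00, d11]
      simp
  · rw [ES.modMat_mul, D.modMat_eq_of_galRel hM hr, ← ES.modMat_mul, mul_inv_cancel,
      ES.modMat_one]

end FermatAgent.BAD.Sq

end
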