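import Fermat.Agent.BAD.Sq.Sep

/-!
# The functions on `Γ₀(q) ∩ Γ(M)`: components, and the maximal ideals over a point

The ring `L0` of functions on `Γ₀(q) ∩ Γ(M)` embeds in those of level `q M` (`toL_injective`), and
averaging back is congruent to the identity at every cusp (`serLT_avgLR_sub`). `pI` and `pZ` are
its ideals of the two components, the one at `∞` and the other one. For an ideal `n` containing
`q`, the average gives a ring map to the quotient by `n`, whose kernel `liftN` lies over `n`, is
maximal when `n` is, and contains the component through which `n` passes (`pInf_le_liftN`,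
`pZero_le_liftN`). Contracting extended ideals by the average gives `isNoetherianRing_L0`.
-/

set_option autoImplicit false

open UpperHalfPlane CongruenceSubgroup IsLocalRing
open scoped MatrixGroups

noncomputable section

namespace FermatAgent.BAD.Sq

open FermatAgent.ES (BSub BRing SerIn HasLExp lexp lexp_eq hasLExp_lexp lexp_act act zetaC AuxLevel
  CPlace modMat)

variable {q M m : ℕ} [hq : Fact q.Prime] [NeZero M] {P : CPlace q}
variable (C : Coef M P) (haux : AuxLevel M m) (hM : M.Coprime q) (hqm : q ≠ m)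

/-- Functions of `L0` are determined by their values. -/
theorem L0_ext {f g : L0 C} (h : (f : ℍ → ℂ) = g) : f = g := Subtype.ext h

/-- `L0` embeds in the functions of level `q M`. -/
theorem toL_injective : Function.Injective (toL C) := Subring.inclusion_injective _

theorem coe_toL (z : L0 C) : (toL C z : ℍ → ℂ) = z := rfl

/-- The inclusion as a function. -/
theorem coe_inclL (z : L0 C) : (inclL C z : ℍ → ℂ) = z := rfl

theorem mem_smA_inclL {γ : SL(2, ℤ)} {z : L0 C} :
    inclL C z ∈ smA C γ ↔ P.SerLT (serAt M C.O q γ (toL C z)) := Iff.rfl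

/-- The constants. -/
def constL0 : C.O0 →+* L0 C :=
  RingHom.codRestrict ((A0 C).subtype.comp (constA C)) _ fun c =>
    Subring.mem_inf.mpr ⟨SetLike.coe_mem _, const_mem_LRing (C.le c.2)⟩

/-- The constants of `L0` are those of the model. -/
theorem inclL_constL0 (c : C.O0) : inclL C (constL0 C c) = constA C c := rfl

/-- The constants of `L0` in level `q M`. -/
theorem toL_constL0 (c : C.O0) : toL C (constL0 C c) = constL ⟨(c : ℂ), C.le c.2⟩ := rfl

/-- Multiplication by `q` is injective. -/
theorem q_mul_inj {a b : A0 C} (h : (q : A0 C) * a = (q : A0 C) * b) : a = b := by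
  refine A0_ext C (funext fun τ => ?_)
  have h1 := congrArg (fun z : A0 C => ((z : ℍ → ℂ) τ)) h
  simp only [Subring.coe_mul, Pi.mul_apply, show ((q : A0 C) : ℍ → ℂ) τ = (q : ℂ) by simp] at h1
  exact mul_left_cancel₀ ((Nat.cast_ne_zero (R := ℂ)).mpr hq.out.ne_zero) h1

include haux hM in
/-- A function small at every cusp is a multiple of `q`. -/
theorem exists_eq_q_mul {z : L0 C} (h : ∀ γ, inclL C z ∈ smA C γ) : ∃ w : L0 C, z = q * w := by
  obtain ⟨w, hw⟩ := q_dvd_inclL C haux hM h
  have hinv : ∀ γ ∈ lam q M, act γ (w : ℍ → ℂ) = w := fun γ hγ => by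
    refine funext fun τ => mul_left_cancel₀ ((Nat.cast_ne_zero (R := ℂ)).mpr hq.out.ne_zero) ?_
    have h1 := congrFun ((toL C z).2.2.2 γ hγ) τ
    rw [coe_toL, ← coe_inclL, hw] at h1
    simpa [act] using h1
  refine ⟨⟨(w : ℍ → ℂ), Subring.mem_inf.mpr ⟨w.2, w.2.1.1, w.2.1.1.1, hinv⟩⟩, L0_ext C ?_⟩
  rw [← coe_inclL, hw]
  simp only [Subring.coe_mul]
  congr 1

/-! ### Averaging -/

theorem serLT_of_dvd {ϖ : C.O} (hϖ : Irreducible ϖ) {f : LRing q M C.O} (h : constL ϖ ∣ f)
    (γ : SL(2, ℤ)) : P.SerLT (serAt M C.O q γ f) := by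
  obtain ⟨w, rfl⟩ := h
  have h1 : (constL ϖ * w : LRing q M C.O) ∈ smallAt C.cdvr.le (fun _ => True) :=
    Ideal.mul_mem_right _ _ (constL_unif_mem C.cdvr.le C.cdvr hϖ _)
  exact h1 γ trivial

include haux hM in
/-- The average is congruent to the function at every cusp. -/
theorem serLT_avgLR_sub (f : LRing q M C.O) (γ : SL(2, ℤ)) :
    P.SerLT (serAt M C.O q γ (toL C (avgL C haux f) - f)) := by
  obtain ⟨ϖ, hϖ⟩ := IsDiscreteValuationRing.exists_irreducible C.O
  exact serLT_of_dvd C hϖ (unif_dvd_avgLR_sub C haux hM hϖ f) γ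

include haux hM in
theorem avgL_mul_sub_small (f g : LRing q M C.O) (γ : SL(2, ℤ)) :
    inclL C (avgL C haux (f * g) - avgL C haux f * avgL C haux g) ∈ smA C γ := by
  set a := toL C (avgL C haux f)
  set b := toL C (avgL C haux g)
  set c := toL C (avgL C haux (f * g))
  rw [mem_smA_inclL, map_sub (toL C), map_mul (toL C)]
  have e : serAt M C.O q γ (c - a * b) = serAt M C.O q γ (c - f * g) -
      serAt M C.O q γ (a - f) * serAt M C.O q γ b -
      serAt M C.O q γ (b - g) * serAt M C.O q γ f := by
    simp only [map_sub, map_mul]; ring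
  show P.SerLT (serAt M C.O q γ (c - a * b))
  rw [e, sub_eq_add_neg, sub_eq_add_neg]
  refine ((serLT_avgLR_sub C haux hM _ γ).add ?_).add ?_
  · intro n
    rw [HahnSeries.coeff_neg, AbsoluteValue.map_neg]
    exact (serLT_avgLR_sub C haux hM f γ).mul_serIn (fun i => C.cdvr.le (serIn_serAt γ b i)) n
  · intro n
    rw [HahnSeries.coeff_neg, AbsoluteValue.map_neg]
    exact (serLT_avgLR_sub C haux hM g γ).mul_serIn (fun i => C.cdvr.le (serIn_serAt γ f i)) n

include haux in
theorem avgL_one : avgL C haux 1 = 1 := by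
  rw [← map_one (toL C), avgL_toL]

include haux in
/-- The average of a constant. -/
theorem avgL_constL (c : C.O) :
    avgL C haux (constL c) = constL0 C ⟨C.avg c, C.avg_mem c.2⟩ := by
  refine L0_ext C ?_
  show ((avgLR C haux (constL c) : LRing q M C.O) : ℍ → ℂ) = _
  have e : avgLR C haux (constL c) = constL
      (⟨((q - 1 : ℕ) : ℂ)⁻¹, C.le C.inv_pred_mem⟩ * ∑ a, (C.D a).σO c : C.O) := by
    show constL _ * ∑ a, (C.D a).conjL haux (constL c) = _
    simp only [(C.D _).conjL_constL haux, map_mul, map_sum]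
  rw [e, coe_constL]
  funext τ
  show ((_ * ∑ a, (C.D a).σO c : C.O) : ℂ) = _
  rw [Subring.coe_mul, AddSubmonoidClass.coe_finsetSum]
  rfl

/-! ### The two components -/

/-- The component at `∞`. -/
def pI : Ideal (L0 C) := (PT C hM .inf).comap (inclL C)

/-- The other component. -/
def pZ : Ideal (L0 C) := (PT C hM .zero).comap (inclL C)

theorem mem_pI {z : L0 C} : z ∈ pI C hM ↔ inclL C z ∈ PT C hM .inf := Iff.rfl

/-- Membership in the component other than `∞`. -/
theorem mem_pZ {z : L0 C} : z ∈ pZ C hM ↔ inclL C z ∈ PT C hM .zero := Iff.rfl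

include haux in
/-- On `L0` the residual expansions of the types other than `∞` agree. -/
theorem rho_inclL {t : Typ} (ht : t ≠ .inf) (η : SL(2, ℤ)) (z : L0 C) :
    rho C hM t η (inclL C z) = rho C hM .zero η (inclL C z) := by
  classical
  cases t with
  | inf => exact absurd rfl ht
  | zero => rfl
  | mid =>
    obtain ⟨j0, hj⟩ := translate_not_inf C haux hM (ent10_cusp_ne_zero hM (t := .mid) (by decide) η)
      (modMat_cusp hM .mid η)
    have key : ∀ j : ZMod q, resA C (ModularGroup.T ^ (M * j.val) * cusp hM .mid η) (inclL C z) =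
        rho C hM .mid η (inclL C z) := fun j => by
      rw [rho, ← resB_tA, tA_inclL]
      rfl
    rw [← key j0, hj j0, if_pos rfl]

include haux hqm in
/-- The component other than `∞` is also cut out by the type `mid`. -/
theorem mem_pZ_iff_mid {z : L0 C} : z ∈ pZ C hM ↔ inclL C z ∈ PT C hM .mid := by
  rw [mem_pZ, mem_PT_iff C haux hM hqm 1, mem_PT_iff C haux hM hqm 1,
    rho_inclL C haux hM (t := .mid) (by decide)]

include haux hqm in
/-- The component at `∞` as an ideal of level `q M`. -/
theorem mem_pI_iff {z : L0 C} : z ∈ pI C hM ↔ toL C z ∈ pInf C.cdvr.le := by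
  constructor
  · intro h γ hγ
    have h1 : inclL C z ∈ smA C γ :=
      smA_of_mem_PT C haux hM hqm ((mem_pI C hM).mp h) (isTyp_inf_iff.mpr hγ)
    rw [mem_smA_inclL] at h1
    exact h1
  · intro h
    have h1 : P.SerLT (serAt M C.O q (cusp hM .inf 1) (toL C z)) :=
      h (cusp hM .inf 1) (cusp_mem_Gamma0 hM 1)
    rw [← mem_smA_inclL] at h1
    exact (mem_pI C hM).mpr (mem_PT_of_smA C haux hM hqm (isTyp_cusp hM .inf 1) h1)

include haux hqm in
/-- The other component as an ideal of level `q M`. -/
theorem mem_pZ_iff {z : L0 C} : z ∈ pZ C hM ↔ toL C z ∈ pZero C.cdvr.le := by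
  constructor
  · intro h γ hγ
    obtain ⟨t, ht⟩ := exists_isTyp (q := q) γ
    have h1 : inclL C z ∈ smA C γ := by
      cases t with
      | inf => exact absurd (isTyp_inf_iff.mp ht) hγ
      | zero => exact smA_of_mem_PT C haux hM hqm ((mem_pZ C hM).mp h) ht
      | mid => exact smA_of_mem_PT C haux hM hqm ((mem_pZ_iff_mid C haux hM hqm).mp h) ht
    rw [mem_smA_inclL] at h1
    exact h1
  · intro h
    have h1 : P.SerLT (serAt M C.O q (cusp hM .zero 1) (toL C z)) :=
      h (cusp hM .zero 1) (cusp_not_mem_Gamma0 hM (by decide) 1)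
    rw [← mem_smA_inclL] at h1
    exact (mem_pZ C hM).mpr (mem_PT_of_smA C haux hM hqm (isTyp_cusp hM .zero 1) h1)

include haux hqm in
/-- The average keeps the component at `∞`. -/
theorem avgL_mem_pI {f : LRing q M C.O} (hf : f ∈ pInf C.cdvr.le) :
    avgL C haux f ∈ pI C hM := by
  rw [mem_pI_iff C haux hM hqm]
  intro γ hγ
  have h1 := (serLT_avgLR_sub C haux hM f γ).add (hf γ hγ)
  rwa [map_sub, sub_add_cancel] at h1

include haux hqm in
/-- The average keeps the other component. -/
theorem avgL_mem_pZ {f : LRing q M C.O} (hf : f ∈ pZero C.cdvr.le) :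
    avgL C haux f ∈ pZ C hM := by
  rw [mem_pZ_iff C haux hM hqm]
  intro γ hγ
  have h1 := (serLT_avgLR_sub C haux hM f γ).add (hf γ hγ)
  rwa [map_sub, sub_add_cancel] at h1

/-- `q` vanishes on the component at `∞`. -/
theorem q_mem_pI : (q : L0 C) ∈ pI C hM := by
  rw [mem_pI, map_natCast]; exact q_mem_PT C hM _

/-- `q` vanishes on the other component. -/
theorem q_mem_pZ : (q : L0 C) ∈ pZ C hM := by
  rw [mem_pZ, map_natCast]; exact q_mem_PT C hM _

/-! ### The maximal ideals of `LRing` -/

section Lift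

variable {n : Ideal (L0 C)} (hqn : (q : L0 C) ∈ n)

include haux hM hqn in
theorem small_mem {z : L0 C} (h : ∀ γ, inclL C z ∈ smA C γ) : z ∈ n := by
  obtain ⟨w, rfl⟩ := exists_eq_q_mul C haux hM h
  exact n.mul_mem_right _ hqn

/-- The average as a map to the quotient. -/
def avgQ : LRing q M C.O →+* L0 C ⧸ n where
  toFun f := Ideal.Quotient.mk n (avgL C haux f)
  map_zero' := by simp
  map_add' f g := by simp
  map_one' := by rw [avgL_one, map_one]
  map_mul' f g := by
    rw [← map_mul, Ideal.Quotient.eq]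
    exact small_mem C haux hM hqn fun γ => avgL_mul_sub_small C haux hM f g γ

theorem avgQ_surjective : Function.Surjective (avgQ C haux hM hqn) := fun z => by
  obtain ⟨z, rfl⟩ := Ideal.Quotient.mk_surjective z
  refine ⟨toL C z, ?_⟩
  show Ideal.Quotient.mk n (avgL C haux (toL C z)) = _
  rw [avgL_toL]

/-- The ideal of `LRing` over `n`. -/
def liftN : Ideal (LRing q M C.O) := RingHom.ker (avgQ C haux hM hqn)

/-- Membership in the ideal over `n`. -/
theorem mem_liftN {f : LRing q M C.O} : f ∈ liftN C haux hM hqn ↔ avgL C haux f ∈ n :=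
  Ideal.Quotient.eq_zero_iff_mem

/-- The ideal over `n` meets `L0` in `n`. -/
theorem toL_mem_liftN {z : L0 C} : toL C z ∈ liftN C haux hM hqn ↔ z ∈ n := by
  rw [mem_liftN, avgL_toL]

/-- The ideal over a maximal ideal is maximal. -/
theorem liftN_isMaximal [n.IsMaximal] : (liftN C haux hM hqn).IsMaximal :=
  letI := Ideal.Quotient.field n
  RingHom.ker_isMaximal_of_surjective _ (avgQ_surjective C haux hM hqn)

include hqn in
/-- The ideal over `n` contains `q`. -/
theorem q_mem_liftN : (q : LRing q M C.O) ∈ liftN C haux hM hqn := by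
  rw [show (q : LRing q M C.O) = toL C (q : L0 C) from (map_natCast _ _).symm, toL_mem_liftN]
  exact hqn

include hqm in
/-- The ideal over a point of the component at `∞` contains that component. -/
theorem pInf_le_liftN (h : pI C hM ≤ n) : pInf C.cdvr.le ≤ liftN C haux hM hqn := fun _ hf =>
  (mem_liftN C haux hM hqn).mpr (h (avgL_mem_pI C haux hM hqm hf))

include hqm in
/-- The ideal over a point of the other component contains that component. -/
theorem pZero_le_liftN (h : pZ C hM ≤ n) : pZero C.cdvr.le ≤ liftN C haux hM hqn := fun _ hf =>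
  (mem_liftN C haux hM hqn).mpr (h (avgL_mem_pZ C haux hM hqm hf))

end Lift

/-! ### The Noetherian property -/

include haux in
theorem map_comap_toL (I : Ideal (L0 C)) : (I.map (toL C)).comap (toL C) = I := by
  refine le_antisymm (fun x hx => ?_) Ideal.le_comap_map
  suffices h : ∀ f ∈ I.map (toL C), ∀ r, avgL C haux (r * f) ∈ I by
    have := h _ (Ideal.mem_comap.mp hx) 1
    rwa [one_mul, avgL_toL] at this
  intro f hf
  induction hf using Submodule.span_induction with
  | mem y hy =>
    obtain ⟨z, hz, rfl⟩ := hy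
    intro r
    rw [mul_comm, avgL_mul]; exact I.mul_mem_right _ hz
  | zero => intro r; rw [mul_zero, map_zero]; exact I.zero_mem
  | add y z _ _ hy hz => intro r; rw [mul_add, map_add]; exact I.add_mem (hy r) (hz r)
  | smul s y _ hy => intro r; rw [smul_eq_mul, ← mul_assoc]; exact hy _

include haux in
/-- `L0` is Noetherian. -/
theorem isNoetherianRing_L0 : IsNoetherianRing (L0 C) := by
  have := C.cdvr.dvr
  have := isNoetherianRing_LRing (q := q) (A := C.O) haux C.root C.zeta
  rw [isNoetherianRing_iff, ← monotone_stabilizes_iff_noetherian]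
  intro f
  obtain ⟨n, hn⟩ := monotone_stabilizes_iff_noetherian.mpr
    (isNoetherianRing_iff.mp (inferInstance : IsNoetherianRing (LRing q M C.O)))
    ⟨fun k => (Ideal.map (toL C) (f k : Ideal (L0 C)) : Ideal (LRing q M C.O)),
      fun i j h => Ideal.map_mono (f.monotone h)⟩
  refine ⟨n, fun k hk => ?_⟩
  rw [← map_comap_toL C haux (f n), ← map_comap_toL C haux (f k)]
  exact congrArg (Ideal.comap (toL C)) (hn k hk)

end FermatAgent.BAD.Sq

end
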