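import Fermat.Agent.BAD.Sq.Ring

/-!
# The norm and the trace to `Γ₀(q) ∩ Γ(M)`, and their residual expansions

The norm `normA` and the trace `traceA` of a function of the model are the product and the sum of
its `q` translates by `T ^ (M j)`, which `Γ₀(q) ∩ Γ(M)` permutes (`exists_perm`); it is a root of
the monic polynomial `polA` over `L0` (`eval_polA`). The residual expansion at a cusp depends only
on its type (`inf`, `mid` or `zero`) and its cusp of level `M` (`rho`, `resA_eq_rho`). Sorting
the translates by type gives the expansions: the norm is the `q`-th power on the component `∞`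
(`rho_inf_norm`), and on the others `rho_norm` and `rho_trace` express the norm and the trace
through the types `zero` and `mid`.
-/

set_option autoImplicit false

open UpperHalfPlane CongruenceSubgroup IsLocalRing
open scoped MatrixGroups

noncomputable section

namespace FermatAgent.BAD.Sq

open FermatAgent.ES (BSub BRing SerIn HasLExp lexp lexp_eq hasLExp_lexp lexp_act act zetaC AuxLevel
  CPlace modMat mapSer twistSer liftSer cuspSer)

variable {q M m : ℕ} [hq : Fact q.Prime] [NeZero M] {P : CPlace q}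

/-- The coefficient ring is a discrete valuation ring. -/
instance isDVR_coef (C : Coef M P) : IsDiscreteValuationRing C.O := C.cdvr.dvr

variable (C : Coef M P) (haux : AuxLevel M m) (hM : M.Coprime q)

/-- The translates by `T ^ (M j)`. -/
def tA (j : ZMod q) : A0 C →+* BRing (q * M) C.O :=
  ((ES.actHom (ModularGroup.T ^ (M * j.val))).comp (A0 C).subtype).codRestrict _
    fun f => ES.act_mem_BRing f.2.1.1 _

theorem coe_tA (j : ZMod q) (f : A0 C) :
    (tA C j f : ℍ → ℂ) = act (ModularGroup.T ^ (M * j.val)) (f : ℍ → ℂ) := rfl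

/-- The zeroth translate is the function. -/
theorem tA_zero (f : A0 C) : (tA C 0 f : ℍ → ℂ) = f := by
  rw [coe_tA, ZMod.val_zero, mul_zero, pow_zero, ES.act_one]

omit [NeZero M] in
theorem T_pow_q_mem_lamD (r : ℕ) : ModularGroup.T ^ (M * (q * r)) ∈ lamD q M := by
  obtain ⟨-, h01, h10, -⟩ := ent_T_pow (q := q) (M * (q * r))
  exact Subgroup.mem_inf.mpr ⟨⟨h10, by rw [h01]; simp⟩, T_pow_mem_Gamma _⟩

omit [NeZero M] in
include hM in
/-- Elements of `Γ₀(q) ∩ Γ(M)` permute the translations up to the level group. -/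
theorem exists_perm_mat {γ : SL(2, ℤ)} (hγ : γ ∈ lam q M) :
    ∃ (π : Equiv.Perm (ZMod q)) (δ : ZMod q → lamD q M), ∀ j : ZMod q,
      ModularGroup.T ^ (M * j.val) * γ =
        (δ j : SL(2, ℤ)) * ModularGroup.T ^ (M * (π j).val) := by
  have h1 : ∀ j : ZMod q, ∃ (k : ZMod q) (δ : lamD q M),
      ModularGroup.T ^ (M * j.val) * γ =
        (δ : SL(2, ℤ)) * ModularGroup.T ^ (M * k.val) := fun j => by
    obtain ⟨k, δ, hδ, h⟩ := exists_eq_lamD_mul_T_pow hM
      (mul_mem (PSEMI.LevelMp.T_pow_mem_lam j.val) hγ)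
    refine ⟨k, ⟨δ * ModularGroup.T ^ (M * (q * (k / q))), mul_mem hδ (T_pow_q_mem_lamD _)⟩, ?_⟩
    rw [h, mul_assoc, ← pow_add, ← mul_add, ZMod.val_natCast, Nat.div_add_mod]
  choose π δ he using h1
  have hinj : Function.Injective π := fun i j hij => by
    have hij' : ModularGroup.T ^ (M * i.val) * (ModularGroup.T ^ (M * j.val))⁻¹ =
        (δ i : SL(2, ℤ)) * (δ j : SL(2, ℤ))⁻¹ := by
      calc _ = (ModularGroup.T ^ (M * i.val) * γ) * (ModularGroup.T ^ (M * j.val) * γ)⁻¹ := by
            group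
        _ = _ := by rw [he, he, hij]; group
    have hmem : ModularGroup.T ^ (M * i.val) * (ModularGroup.T ^ (M * j.val))⁻¹ ∈ diagQ q := by
      rw [hij']; exact (mul_mem (δ i).2 (inv_mem (δ j).2)).1
    have h01 : ent q (ModularGroup.T ^ (M * i.val) * (ModularGroup.T ^ (M * j.val))⁻¹) 0 1 = 0 :=
      hmem.2
    obtain ⟨j00, j01, j10, j11⟩ := ent_inv (q := q) (ModularGroup.T ^ (M * j.val))
    obtain ⟨t00, t01, -, -⟩ := ent_T_pow (q := q) (M * i.val)
    obtain ⟨s00, s01, -, -⟩ := ent_T_pow (q := q) (M * j.val)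
    rw [ent_mul, t00, t01, j01, j11, s00, s01] at h01
    push_cast [ZMod.natCast_zmod_val] at h01
    have : (M : ZMod q) * (i - j) = 0 := by linear_combination h01
    exact sub_eq_zero.mp ((mul_eq_zero.mp this).resolve_left (natCast_M_ne_zero hM))
  exact ⟨Equiv.ofBijective π ⟨hinj, Finite.injective_iff_surjective.mp hinj⟩, δ, he⟩

include hM in
/-- Elements of `Γ₀(q) ∩ Γ(M)` permute the translates. -/
theorem exists_perm {γ : SL(2, ℤ)} (hγ : γ ∈ lam q M) :
    ∃ π : Equiv.Perm (ZMod q), ∀ j f, act γ (tA C j f : ℍ → ℂ) = tA C (π j) f := by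
  obtain ⟨π, δ, he⟩ := exists_perm_mat hM hγ
  refine ⟨π, fun j f => ?_⟩
  rw [coe_tA, coe_tA, ← ES.act_mul, he, ES.act_mul, f.2.1.2 _ (δ j).2]

/-- The expansion at `∞` of the functions of level `q M`. -/
def serB : BRing (q * M) C.O →+* LaurentSeries ℂ :=
  (ES.expHom (M := q * M) 1).comp
    ((BRing (q * M) C.O).subtype.codRestrict (BSub (q * M)) fun f => f.2.1)

theorem serB_apply (f : BRing (q * M) C.O) : serB C f = lexp (q * M) 1 (f : ℍ → ℂ) := rfl

theorem mapSer_serB_tA (a : (ZMod q)ˣ) (j : ZMod q) (f : A0 C) :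
    mapSer ((C.D a).σ : ℂ →+* ℂ) (serB C (tA C j f)) = serB C (tA C (a * j) f) := by
  have e : ∀ i : ZMod q, serB C (tA C i f) =
      twistSer (zetaC (q * M) ^ (M * i.val)) (serA C 1 f) := fun i => by
    rw [serB_apply, coe_tA, lexp_act, mul_one, ← serA_apply,
      show ModularGroup.T ^ (M * i.val) = 1 * ModularGroup.T ^ (M * i.val) from (one_mul _).symm,
      serA_mul_T_pow]
  rw [e, e]
  ext n
  rw [ES.coeff_mapSer, ES.coeff_twistSer, ES.coeff_twistSer, RingEquiv.coe_toRingHom, map_mul,
    map_zpow₀, map_pow, C.apply_of_mem (serIn_serA_one C f n) a, (C.D a).zeta, ← pow_mul]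
  congr 2
  refine pow_eq_pow_of_modEq ?_ (ES.zetaC_isPrimitiveRoot (q * M)).pow_eq_one
  rw [mul_left_comm, mul_comm q M]
  refine Nat.ModEq.mul_left' M ((ZMod.natCast_eq_natCast_iff _ _ q).mp ?_)
  rw [Nat.cast_mul, C.D_a, ZMod.natCast_zmod_val, ZMod.natCast_zmod_val]

/-- Invariance and fixed expansions give membership in `L0`. -/
theorem mem_L0_of {g : ℍ → ℂ} (hg : g ∈ BRing (q * M) C.O) (hinv : ∀ γ ∈ lam q M, act γ g = g)
    (hfix : ∀ a, mapSer ((C.D a).σ : ℂ →+* ℂ) (lexp (q * M) 1 g) = lexp (q * M) 1 g) :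
    g ∈ L0 C := by
  refine Subring.mem_inf.mpr ⟨⟨⟨hg, fun δ hδ => hinv δ (lamD_le hδ)⟩, fun n => ?_⟩,
    ⟨hg, hg.1, hinv⟩⟩
  refine (C.mem_iff _).mpr ⟨hg.2 1 n, fun a => ?_⟩
  have h := congrArg (fun s => HahnSeries.coeff s n) (hfix a)
  simpa only [ES.coeff_mapSer, RingEquiv.coe_toRingHom] using h

include hM in
/-- Symmetric expressions in the translates lie in `L0`. -/
theorem symm_mem_L0 (Φ : (ZMod q → BRing (q * M) C.O) → BRing (q * M) C.O)
    (hperm : ∀ (π : Equiv.Perm (ZMod q)) v, Φ (v ∘ π) = Φ v)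
    (hact : ∀ (γ : SL(2, ℤ)) (T : BRing (q * M) C.O →+* BRing (q * M) C.O),
      (∀ g, (T g : ℍ → ℂ) = act γ (g : ℍ → ℂ)) → ∀ v, T (Φ v) = Φ (T ∘ v))
    (hser : ∀ (σ : LaurentSeries ℂ →+* LaurentSeries ℂ) (v w : ZMod q → BRing (q * M) C.O),
      (∀ j, σ (serB C (v j)) = serB C (w j)) → σ (serB C (Φ v)) = serB C (Φ w))
    (f : A0 C) : (Φ fun j => tA C j f : ℍ → ℂ) ∈ L0 C := by
  refine mem_L0_of C (SetLike.coe_mem _) (fun γ hγ => ?_) fun a => ?_
  · obtain ⟨π, hπ⟩ := exists_perm C hM hγ
    set T : BRing (q * M) C.O →+* BRing (q * M) C.O :=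
      ((ES.actHom γ).comp (BRing (q * M) C.O).subtype).codRestrict _
        fun g => ES.act_mem_BRing g.2 γ
    show (T (Φ fun j => tA C j f) : ℍ → ℂ) = _
    rw [hact γ T (fun g => rfl), show (T ∘ fun j => tA C j f) = (fun j => tA C j f) ∘ π from
      funext fun j => Subtype.ext (hπ j f), hperm]
  · show mapSer _ (serB C _) = serB C _
    rw [hser (mapSer ((C.D a).σ : ℂ →+* ℂ)) _ _ fun j => mapSer_serB_tA C a j f]
    congr 1
    exact hperm a.mulLeft (fun j => tA C j f)

/-- The norm to `Γ₀(q) ∩ Γ(M)`. -/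
def normA : A0 C →* L0 C where
  toFun f := ⟨_, symm_mem_L0 C hM (fun v => ∏ j, v j) (fun π v => Equiv.prod_comp π v)
    (fun _ T _ v => map_prod T _ _) (fun σ v w h => by simp [map_prod, h]) f⟩
  map_one' := Subtype.ext (by simp)
  map_mul' f g := Subtype.ext (by simp [Finset.prod_mul_distrib])

/-- The norm is the product of the translates. -/
theorem coe_normA (f : A0 C) :
    (normA C hM f : ℍ → ℂ) = ((∏ j, tA C j f : BRing (q * M) C.O) : ℍ → ℂ) := rfl

/-- The trace to `Γ₀(q) ∩ Γ(M)`. -/
def traceA : A0 C →+ L0 C where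
  toFun f := ⟨_, symm_mem_L0 C hM (fun v => ∑ j, v j) (fun π v => Equiv.sum_comp π v)
    (fun _ T _ v => map_sum T _ _) (fun σ v w h => by simp [map_sum, h]) f⟩
  map_zero' := Subtype.ext (by simp)
  map_add' f g := Subtype.ext (by simp [Finset.sum_add_distrib])

/-- The functions of `L0` as functions of level `q M`. -/
def toB : L0 C →+* BRing (q * M) C.O := Subring.inclusion fun _ hf => hf.2.1

/-- The translates of a function of `L0` are the function. -/
theorem tA_inclL (z : L0 C) (j : ZMod q) : tA C j (inclL C z) = toB C z :=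
  Subtype.ext ((toL C z).2.2.2 _ (PSEMI.LevelMp.T_pow_mem_lam j.val))

/-! ### The characteristic polynomial -/

/-- The characteristic polynomial over the functions of level `q M`. -/
def polB (f : A0 C) : Polynomial (BRing (q * M) C.O) :=
  ∏ j, (Polynomial.X - Polynomial.C (tA C j f))

include hM in
theorem polB_coeff_mem (f : A0 C) (i : ℕ) : ((polB C f).coeff i : ℍ → ℂ) ∈ L0 C := by
  classical
  let Φ : (ZMod q → BRing (q * M) C.O) → BRing (q * M) C.O := fun v =>
    (∏ j, (Polynomial.X - Polynomial.C (v j))).coeff i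
  refine symm_mem_L0 C hM Φ (fun π v => ?_) (fun γ T _ v => ?_) (fun σ v w h => ?_) f
  · exact congrArg (fun p => Polynomial.coeff p i)
      (Equiv.prod_comp π fun j => Polynomial.X - Polynomial.C (v j))
  · show T ((∏ j, (Polynomial.X - Polynomial.C (v j))).coeff i) = _
    rw [← Polynomial.coeff_map]
    simp [Φ, Polynomial.map_prod]
  · show (σ.comp (serB C)) ((∏ j, (Polynomial.X - Polynomial.C (v j))).coeff i) = _
    rw [← Polynomial.coeff_map]
    simp only [Φ, ← Polynomial.coeff_map, Polynomial.map_prod, Polynomial.map_sub,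
      Polynomial.map_X, Polynomial.map_C, RingHom.comp_apply, h]

/-- The characteristic polynomial over `L0`. -/
def polA (f : A0 C) : Polynomial (L0 C) :=
  ((polB C f).map (BRing (q * M) C.O).subtype).toSubring (L0 C) fun x hx => by
    obtain ⟨i, -, rfl⟩ := Polynomial.mem_coeffs_iff.mp hx
    rw [Polynomial.coeff_map]
    exact polB_coeff_mem C hM f i

/-- The characteristic polynomial at level `q M`. -/
theorem polA_map (f : A0 C) : (polA C hM f).map (toB C) = polB C f := by
  ext i : 1
  rw [Polynomial.coeff_map]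
  refine Subtype.ext ?_
  show (((polA C hM f).coeff i : L0 C) : ℍ → ℂ) = _
  rw [polA]
  erw [Polynomial.coeff_toSubring, Polynomial.coeff_map]
  rfl

/-- The characteristic polynomial is monic. -/
theorem polA_monic (f : A0 C) : (polA C hM f).Monic :=
  (Polynomial.monic_toSubring _ _ _).mpr
    ((Polynomial.monic_prod_of_monic _ _ fun _ _ => Polynomial.monic_X_sub_C _).map _)

/-- The inclusion into the functions of level `q M`. -/
def inclB : A0 C →+* BRing (q * M) C.O := Subring.inclusion fun _ hf => hf.1.1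

/-- The model embeds in the functions of level `q M`. -/
theorem inclB_injective : Function.Injective (inclB C) := Subring.inclusion_injective _

theorem inclB_comp_inclL : (inclB C).comp (inclL C) = toB C := rfl

/-- A function is a root of its characteristic polynomial. -/
theorem eval_polA (f : A0 C) : Polynomial.eval₂ (inclL C) f (polA C hM f) = 0 := by
  refine inclB_injective C ?_
  rw [Polynomial.hom_eval₂, inclB_comp_inclL, ← Polynomial.eval_map, polA_map, map_zero, polB,
    Polynomial.eval_prod]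
  refine Finset.prod_eq_zero (Finset.mem_univ 0) ?_
  rw [Polynomial.eval_sub, Polynomial.eval_X, Polynomial.eval_C, sub_eq_zero]
  exact Subtype.ext (tA_zero C f).symm

/-! ### Residual expansions -/

/-- The residual expansion on the functions of level `q M`. -/
def resB (γ : SL(2, ℤ)) : BRing (q * M) C.O →+* LaurentSeries (ResidueField C.O) :=
  (liftSer (residue C.O)).comp (cuspSer (M := q * M) C.O γ)

theorem resA_eq_resB (γ : SL(2, ℤ)) (f : A0 C) : resA C γ f = resB C γ (inclB C f) := rfl

/-- The residual expansions of a translate. -/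
theorem resB_tA (γ : SL(2, ℤ)) (j : ZMod q) (f : A0 C) :
    resB C γ (tA C j f) = resA C (ModularGroup.T ^ (M * j.val) * γ) f := by
  rw [resA_eq_resB]
  show liftSer _ (cuspSer C.O γ _) = liftSer _ (cuspSer C.O _ _)
  congr 1
  refine ES.liftSer_injective C.O.subtype_injective ?_
  rw [ES.liftSer_cuspSer, ES.liftSer_cuspSer, coe_tA, lexp_act]
  rfl

/-- The residual expansions of a function of `L0`. -/
theorem resA_inclL (γ : SL(2, ℤ)) (z : L0 C) :
    resA C γ (inclL C z) = resSer M C.O q γ (toL C z) := rfl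

theorem resA_normA (γ : SL(2, ℤ)) (f : A0 C) :
    resA C γ (inclL C (normA C hM f)) =
      ∏ j : ZMod q, resA C (ModularGroup.T ^ (M * j.val) * γ) f := by
  rw [resA_eq_resB, show inclB C (inclL C (normA C hM f)) = ∏ j, tA C j f from rfl, map_prod]
  simp only [resB_tA]

theorem resA_traceA (γ : SL(2, ℤ)) (f : A0 C) :
    resA C γ (inclL C (traceA C hM f)) =
      ∑ j : ZMod q, resA C (ModularGroup.T ^ (M * j.val) * γ) f := by
  rw [resA_eq_resB, show inclB C (inclL C (traceA C hM f)) = ∑ j, tA C j f from rfl, map_sum]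
  simp only [resB_tA]

include hM in
/-- There is a cusp of each type over every cusp of level `M`. -/
theorem exists_cusp (t : Typ) (η : SL(2, ℤ)) :
    ∃ γ : SL(2, ℤ), IsTyp q t γ ∧ modMat M γ = modMat M η := by
  cases t with
  | inf =>
    obtain ⟨γ, h, hm⟩ := exists_mat (a := (1 : ZMod q)) (b := 0) (c := 0) (d := 1) hM (by ring) η
    exact ⟨γ, h.2.2.1, hm⟩
  | mid =>
    obtain ⟨γ, h, hm⟩ := exists_mat (a := (1 : ZMod q)) (b := 0) (c := 1) (d := 1) hM (by ring) η
    exact ⟨γ, ⟨h.1 ▸ one_ne_zero, h.2.2.1 ▸ one_ne_zero⟩, hm⟩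
  | zero =>
    obtain ⟨γ, h, hm⟩ := exists_mat (a := (0 : ZMod q)) (b := -1) (c := 1) (d := 0) hM (by ring) η
    exact ⟨γ, h.1, hm⟩

/-- A cusp of type `t` over the cusp `η` of level `M`. -/
def cusp (t : Typ) (η : SL(2, ℤ)) : SL(2, ℤ) := (exists_cusp hM t η).choose

/-- The chosen cusp has the given type. -/
theorem isTyp_cusp (t : Typ) (η : SL(2, ℤ)) : IsTyp q t (cusp hM t η) :=
  (exists_cusp hM t η).choose_spec.1

/-- The chosen cusp lies over the given one. -/
theorem modMat_cusp (t : Typ) (η : SL(2, ℤ)) : modMat M (cusp hM t η) = modMat M η :=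
  (exists_cusp hM t η).choose_spec.2

/-- **The residual expansion on the component of type `t`**, at the cusp `η` of level `M`. -/
def rho (t : Typ) (η : SL(2, ℤ)) : A0 C →+* LaurentSeries (ResidueField C.O) :=
  resA C (cusp hM t η)

include haux in
/-- The residual expansions depend only on the type and the cusp of level `M`. -/
theorem resA_eq_rho {t : Typ} {γ η : SL(2, ℤ)} (hγ : IsTyp q t γ)
    (hmod : modMat M γ = modMat M η) (f : A0 C) : resA C γ f = rho C hM t η f :=
  resA_eq_of_isTyp C haux hM (isTyp_cusp hM t η) hγ (hmod.trans (modMat_cusp hM t η).symm) f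

omit [NeZero M] in
/-- The first column of a translate modulo `q`. -/
theorem ent_T_pow_mul (j : ZMod q) (γ : SL(2, ℤ)) :
    ent q (ModularGroup.T ^ (M * j.val) * γ) 0 0 =
        ent q γ 0 0 + (M : ZMod q) * j * ent q γ 1 0 ∧
      ent q (ModularGroup.T ^ (M * j.val) * γ) 1 0 = ent q γ 1 0 := by
  obtain ⟨t00, t01, t10, t11⟩ := ent_T_pow (q := q) (M * j.val)
  rw [ent_mul, ent_mul, t00, t01, t10, t11]
  push_cast [ZMod.natCast_zmod_val]
  constructor <;> ring

omit [NeZero M] in
/-- Translations by multiples of `M` do not change the class modulo `M`. -/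
theorem modMat_T_pow_mul (j : ℕ) (γ : SL(2, ℤ)) :
    modMat M (ModularGroup.T ^ (M * j) * γ) = modMat M γ := by
  rw [ES.modMat_mul, ES.modMat_eq_one_of_mem (T_pow_mem_Gamma j), one_mul]

include haux in
/-- All translates over a cusp of type `∞` have type `∞`. -/
theorem translate_inf {γ η : SL(2, ℤ)} (hγ : IsTyp q .inf γ) (hmod : modMat M γ = modMat M η)
    (j : ZMod q) (f : A0 C) :
    resA C (ModularGroup.T ^ (M * j.val) * γ) f = rho C hM .inf η f :=
  resA_eq_rho C haux hM (t := .inf) ((ent_T_pow_mul j γ).2.trans hγ)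
    ((modMat_T_pow_mul _ γ).trans hmod) f

include haux in
/-- Over a cusp not of type `∞` one translate has type `0`, the others type `mid`. -/
theorem translate_not_inf {γ η : SL(2, ℤ)} (hγ : ent q γ 1 0 ≠ 0)
    (hmod : modMat M γ = modMat M η) :
    ∃ j0 : ZMod q, ∀ (j : ZMod q) (f : A0 C),
      resA C (ModularGroup.T ^ (M * j.val) * γ) f =
        if j = j0 then rho C hM .zero η f else rho C hM .mid η f := by
  have hMc : (M : ZMod q) * ent q γ 1 0 ≠ 0 := mul_ne_zero (natCast_M_ne_zero hM) hγ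
  refine ⟨-ent q γ 0 0 / ((M : ZMod q) * ent q γ 1 0), fun j f => ?_⟩
  obtain ⟨h00, h10⟩ := ent_T_pow_mul (M := M) j γ
  have hm := (modMat_T_pow_mul (M := M) j.val γ).trans hmod
  split_ifs with hj
  · refine resA_eq_rho C haux hM ?_ hm f
    show ent q _ 0 0 = 0
    rw [h00, hj]
    field_simp [natCast_M_ne_zero hM]
    ring
  · refine resA_eq_rho C haux hM (t := .mid) ⟨fun h0 => hj ?_, by rwa [h10]⟩ hm f
    rw [h00] at h0
    rw [eq_div_iff hMc]
    linear_combination h0

include haux in
/-- On the component `∞` the norm is the `q`-th power. -/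
theorem rho_inf_norm (η : SL(2, ℤ)) (f : A0 C) :
    rho C hM .inf η (inclL C (normA C hM f)) = rho C hM .inf η f ^ q := by
  rw [rho, resA_normA]
  simp only [translate_inf C haux hM (isTyp_cusp hM .inf η) (modMat_cusp hM .inf η)]
  rw [Finset.prod_const, Finset.card_univ, ZMod.card]
  rfl

omit [NeZero M] in
/-- `q` is zero in residual series. -/
theorem natCast_q_eq_zero : (q : LaurentSeries (ResidueField C.O)) = 0 := by
  have h : (q : ResidueField C.O) = 0 := by
    rw [← map_natCast (residue C.O), residue_eq_zero_iff, C.cdvr.mem_maximalIdeal_iff]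
    simpa using P.lt_one
  rw [← map_natCast (HahnSeries.C : ResidueField C.O →+* _), h, map_zero]

/-- A cusp not of type `∞` has lower left entry prime to `q`. -/
theorem ent10_cusp_ne_zero {t : Typ} (ht : t ≠ .inf) (η : SL(2, ℤ)) :
    ent q (cusp hM t η) 1 0 ≠ 0 := fun h =>
  ht (isTyp_unique (isTyp_cusp hM t η) (t' := .inf) h)

include haux in
/-- The norm on the other components. -/
theorem rho_norm {t : Typ} (ht : t ≠ .inf) (η : SL(2, ℤ)) (f : A0 C) :
    rho C hM t η (inclL C (normA C hM f)) =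
      rho C hM .zero η f * rho C hM .mid η f ^ (q - 1) := by
  classical
  obtain ⟨j0, hj⟩ := translate_not_inf C haux hM (ent10_cusp_ne_zero hM ht η) (modMat_cusp hM t η)
  rw [rho, resA_normA]
  simp only [hj]
  rw [← Finset.mul_prod_erase _ _ (Finset.mem_univ j0), if_pos rfl,
    Finset.prod_congr rfl fun j hj' => if_neg (Finset.ne_of_mem_erase hj'), Finset.prod_const,
    Finset.card_erase_of_mem (Finset.mem_univ j0), Finset.card_univ, ZMod.card]

include haux in
/-- The trace on the components other than `∞`. -/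
theorem rho_trace {t : Typ} (ht : t ≠ .inf) (η : SL(2, ℤ)) (f : A0 C) :
    rho C hM t η (inclL C (traceA C hM f)) = rho C hM .zero η f - rho C hM .mid η f := by
  classical
  obtain ⟨j0, hj⟩ := translate_not_inf C haux hM (ent10_cusp_ne_zero hM ht η) (modMat_cusp hM t η)
  rw [rho, resA_traceA]
  simp only [hj]
  rw [← Finset.add_sum_erase _ _ (Finset.mem_univ j0), if_pos rfl,
    Finset.sum_congr rfl fun j hj' => if_neg (Finset.ne_of_mem_erase hj'), Finset.sum_const,
    Finset.card_erase_of_mem (Finset.mem_univ j0), Finset.card_univ, ZMod.card, nsmul_eq_mul,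
    Nat.cast_sub hq.out.one_le, natCast_q_eq_zero C, Nat.cast_one, zero_sub, neg_one_mul,
    ← sub_eq_add_neg]

end FermatAgent.BAD.Sq

end
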