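import Fermat.Agent.BAD.Sq.Params

/-!
# The component of type `mid`

On this component `x = σ c - c` with `c = t(q τ)` is small; at a point of this component only
`x ^ (q - 1) / q` is invertible, so `x` generates the component locally.
-/

set_option autoImplicit false

open UpperHalfPlane CongruenceSubgroup IsLocalRing
open scoped MatrixGroups

noncomputable section

namespace FermatAgent.BAD.Sq

open FermatAgent.ES (BSub BRing SerIn HasLExp lexp lexp_eq hasLExp_lexp lexp_act act zetaC AuxLevel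
  CPlace GoodPoint modMat liftSer cuspSer twistSer)

variable {q M m : ℕ} [hq : Fact q.Prime] [NeZero M] {P : CPlace q}
variable (C : Coef M P) (haux : AuxLevel M m) (hM : M.Coprime q) (hqm : q ≠ m)

/-! ### Products of small series -/

omit [NeZero M] in
theorem abv_pow_pred_le {z : ℂ} (hz : z ∈ C.O) (h : P.abv z < 1) {ϖ : C.O} (hϖ : Irreducible ϖ) :
    P.abv z ≤ P.abv (ϖ : ℂ) ∧ P.abv (ϖ : ℂ) ^ (q - 1) ≤ P.abv q := by
  classical
  have : NeZero q := ⟨hq.out.ne_zero⟩
  refine ⟨?_, ?_⟩
  · obtain ⟨w, hw, e⟩ := exists_eq_unif_mul C.cdvr hϖ hz h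
    rw [e, map_mul]
    exact mul_le_of_le_one_right (P.abv.nonneg _) (C.cdvr.le hw)
  · have h1 : ∀ z ∈ C.O, (C.D 1).σ z = z := fun z hz => (C.D 1).σ.injective (by
      rw [C.D_mul 1 1 z hz, one_mul])
    have habs : ∀ a, P.abv ((C.D a).σ (ϖ : ℂ)) = P.abv (ϖ : ℂ) := by
      intro a
      let e : C.O ≃+* C.O := RingEquiv.ofBijective ((C.D a).σO) ⟨fun x y hxy =>
        Subtype.ext ((C.D a).σ.injective (congrArg Subtype.val hxy)), fun y =>
          ⟨(C.D a⁻¹).σO y, Subtype.ext (by
            show (C.D a).σ ((C.D a⁻¹).σ y) = y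
            rw [C.D_mul a a⁻¹ y y.2, mul_inv_cancel, h1 y y.2])⟩⟩
      obtain ⟨u, hu⟩ := IsDiscreteValuationRing.associated_of_irreducible C.O hϖ
        ((MulEquiv.irreducible_iff (e : C.O ≃* C.O)).mpr hϖ)
      have h2 : ((e ϖ : C.O) : ℂ) = (ϖ : ℂ) * ((u : C.O) : ℂ) := congrArg Subtype.val hu.symm
      show P.abv ((e ϖ : C.O) : ℂ) = _
      rw [h2, map_mul, (C.cdvr.isUnit_iff _).mp u.isUnit, mul_one]
    have hsmall : P.abv (ϖ : ℂ) < 1 := (C.cdvr.mem_maximalIdeal_iff ϖ).mp
      ((mem_maximalIdeal _).mpr hϖ.not_isUnit)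
    set N : ℂ := ∏ a : (ZMod q)ˣ, (C.D a).σ (ϖ : ℂ)
    have hN : N ∈ C.O0 := (C.mem_iff _).mpr ⟨prod_mem fun a _ => (C.D a).stable _ ϖ.2, fun b => by
      rw [map_prod]
      exact Fintype.prod_equiv (Equiv.mulLeft b) _ _ fun a => C.D_mul b a _ ϖ.2⟩
    have habsN : P.abv N = P.abv (ϖ : ℂ) ^ (q - 1) := by
      rw [map_prod]
      simp only [habs]
      rw [Finset.prod_const, Finset.card_univ, ZMod.card_units q]
    rw [← habsN]
    refine abv_le_q C hN ?_
    rw [habsN]
    exact pow_lt_one₀ (P.abv.nonneg _) hsmall (by have := hq.out.two_le; omega)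

theorem serLE_prod_small {ι : Type} (S : Finset ι) (hS : S.card = q - 1) (z : ι → A0 C)
    {γ : SL(2, ℤ)} (h : ∀ i ∈ S, z i ∈ smA C γ) :
    P.SerLE (P.abv q) (serA C γ (∏ i ∈ S, z i)) := by
  classical
  obtain ⟨ϖ, hϖ⟩ := IsDiscreteValuationRing.exists_irreducible C.O
  have hb := abv_pow_pred_le C C.O.zero_mem (by simp) hϖ
  refine CPlace.SerLE.mono ?_ (hS.symm ▸ hb.2 : P.abv (ϖ : ℂ) ^ S.card ≤ P.abv q)
  clear hS
  induction S using Finset.induction_on with
  | empty => simpa using P.serLE_one_iff.mpr (fun n => C.cdvr.le (serIn_serA C γ 1 n))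
  | insert a S ha ih =>
    rw [Finset.prod_insert ha, map_mul, Finset.card_insert_of_notMem ha, pow_succ']
    refine CPlace.SerLE.mul (P.abv.nonneg _) (pow_nonneg (P.abv.nonneg _) _) (fun n => ?_)
      (ih fun i hi => h i (Finset.mem_insert_of_mem hi))
    exact (abv_pow_pred_le C (serIn_serA C γ (z a) n) (h a (Finset.mem_insert_self a S) n) hϖ).1

include haux hM hqm in
/-- Dividing by `q` on the component `mid`. -/
theorem q_dvd_mid {p x z : A0 C} (hpI : p ∈ PT C hM .inf) (hpZ : p ∈ PT C hM .zero)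
    (hx : x ∈ PT C hM .mid) (hz : z ∈ PT C hM .mid) : (q : A0 C) ∣ z * x ^ (q - 2) * p := by
  refine q_dvd_of_serLE C haux fun γ => ?_
  obtain ⟨t, ht⟩ := exists_isTyp (q := q) γ
  rcases eq_or_ne t .mid with rfl | hne
  · have h2 := hq.out.two_le
    have := serLE_prod_small C (Finset.univ : Finset (Option (Fin (q - 2))))
      (by simp; omega) (fun i => Option.elim i z fun _ => x) (γ := γ) (fun i _ => by
        cases i with
        | none => exact smA_of_mem_PT C haux hM hqm hz ht
        | some j => exact smA_of_mem_PT C haux hM hqm hx ht)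
    rw [Fintype.prod_option] at this
    simp only [Option.elim, Finset.prod_const, Finset.card_univ, Fintype.card_fin] at this
    rw [map_mul]
    exact this.mul_serIn (P.abv.nonneg _) fun n => C.cdvr.le (serIn_serA C γ p n)
  · rw [map_mul]
    refine CPlace.SerLE.serIn_mul (P.abv.nonneg _) (fun n => C.cdvr.le (serIn_serA C γ _ n)) ?_
    refine serLE_q_of_small C haux hM hne ht (smA_of_mem_PT C haux hM hqm ?_ ht)
    cases t with
    | inf => exact hpI
    | zero => exact hpZ
    | mid => exact absurd rfl hne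

include haux hM hqm in
/-- Dividing by `q` on the component `zero`. -/
theorem q_dvd_zero {p z : A0 C} (hpI : p ∈ PT C hM .inf) (hpM : p ∈ PT C hM .mid)
    (hz : z ∈ PT C hM .zero) : (q : A0 C) ∣ z * p ^ (q - 1) := by
  refine q_dvd_of_serLE C haux fun γ => ?_
  obtain ⟨t, ht⟩ := exists_isTyp (q := q) γ
  cases t with
  | inf =>
    rw [map_mul]
    refine CPlace.SerLE.serIn_mul (P.abv.nonneg _) (fun n => C.cdvr.le (serIn_serA C γ _ n))
      (serLE_q_of_small C haux hM (t := .inf) (by decide) ht (smA_of_mem_PT C haux hM hqm ?_ ht))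
    exact Ideal.pow_mem_of_mem _ hpI _ (by have := hq.out.two_le; omega)
  | zero =>
    rw [map_mul]
    exact CPlace.SerLE.mul_serIn (P.abv.nonneg _)
      (serLE_q_of_small C haux hM (t := .zero) (by decide) ht (smA_of_mem_PT C haux hM hqm hz ht))
      fun n => C.cdvr.le (serIn_serA C γ _ n)
  | mid =>
    have h := serLE_prod_small C (Finset.univ : Finset (Fin (q - 1))) (by simp) (fun _ => p)
      (γ := γ) (fun _ _ => smA_of_mem_PT C haux hM hqm hpM ht)
    rw [Finset.prod_const, Finset.card_univ, Fintype.card_fin] at h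
    rw [map_mul]
    exact CPlace.SerLE.serIn_mul (P.abv.nonneg _) (fun n => C.cdvr.le (serIn_serA C γ z n)) h

/-! ### The derivative of `t` -/

/-- The derivative of `t`, as a function of level `M`. -/
def dT : BRing M C.O :=
  ⟨_, dW_mem_BRing haux C.root (ES.polFun_mem_BRing haux C.root (ES.one_le haux))⟩

/-- The residual expansion of `t` at `∞` on level `M`. -/
def tBar : LaurentSeries (ResidueField C.O) := resCusp M C.O 1 (tRing haux C.root)

include hM in
theorem isUnit_dT : IsUnit (dT C haux) := by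
  classical
  obtain ⟨e, a, L, ha, hL, hshape⟩ := exists_dW_haupt_shape (q := q) haux C.cdvr.le C.root hM
  refine isUnit_of_mul_isUnit_left (y := cuspElt haux C.root ^ e) ?_
  show IsUnit ((⟨_, dW_mem_BRing haux C.root (ES.polFun_mem_BRing haux C.root (ES.one_le haux))⟩ :
    BRing M C.O) * cuspElt haux C.root ^ e)
  rw [hshape]
  refine IsUnit.mul ?_ ?_
  · obtain ⟨d, hd⟩ := ((C.cdvr.isUnit_iff a).mpr ha).exists_right_inv
    exact IsUnit.of_mul_eq_one (⟨_, ES.const_mem_BRing d.2⟩ : BRing M C.O)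
      (Subtype.ext (funext fun τ => congrArg Subtype.val hd))
  · clear hshape
    induction L using Multiset.induction_on with
    | empty => simp
    | cons r L ih =>
      rw [Multiset.map_cons, Multiset.prod_cons]
      refine IsUnit.mul ?_ (ih fun r' hr' => hL r' (Multiset.mem_cons_of_mem hr'))
      obtain ⟨w, hw⟩ := exists_haupt_sub_inv haux C.root (hL r (Multiset.mem_cons_self r L))
      exact IsUnit.of_mul_eq_one w hw

include hM hqm in
/-- The residual derivative, and the Hasse function. -/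
theorem exists_theta_tBar : ∃ W : LaurentSeries (ResidueField C.O), W ≠ 0 ∧
    thetaSer (tBar C haux) = W * resCusp M C.O 1 (dT C haux) ∧
    resCusp M C.O 1 (eta haux hM C.root C.zeta) * W ^ (q - 1) = 1 := by
  obtain ⟨Wo, hWo⟩ := ES.exists_liftSer (O := C.O) (wSer_inv_serIn haux C.root 1).1
  set res := liftSer (residue C.O)
  refine ⟨res Wo, fun h0 => ?_, ?_, ?_⟩
  · refine not_unitCoeff_of_residue (P := P) C.cdvr h0 ?_
    rw [hWo]
    obtain ⟨k, hk⟩ := leadUnit_auxW_conj haux C.root 1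
    exact ⟨k, P.abv_eq_one_of_unitIn
      ⟨hk.unitIn_coeff.1, C.cdvr.le hk.unitIn_coeff.2.1, C.cdvr.le hk.unitIn_coeff.2.2⟩⟩
  · have h : thetaSer (cuspSer C.O 1 (tRing haux C.root)) = Wo * cuspSer C.O 1 (dT C haux) := by
      refine ES.liftSer_injective C.O.subtype_injective ?_
      rw [map_mul, liftSer_thetaSer, ES.liftSer_cuspSer, ES.liftSer_cuspSer, hWo, mul_comm]
      exact (lexp_dW haux (tRing haux C.root).2.1 1).symm
    show thetaSer (res (cuspSer C.O 1 (tRing haux C.root))) = _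
    rw [← liftSer_thetaSer, h, map_mul]
    rfl
  · have hEW :
        expandL q (res Wo ^ (q - 1)) * resSer M C.O q 1 (hasseL haux hM C.root C.zeta) = 1 := by
      show _ * res (serO M C.O q 1 (hasseL haux hM C.root C.zeta)) = 1
      rw [← map_pow, ← liftSer_expandL, ← map_mul, ← sub_eq_zero, ← map_one res, ← map_sub]
      refine liftSer_residue_eq_zero (P := P) C.cdvr ?_
      rw [map_sub, map_mul, map_one, liftSer_serO, liftSer_expandL, map_pow, hWo, mul_comm]
      exact hasse_ser haux hM C.root C.zeta C.cdvr.le hqm (one_mem _)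
    have h1 := resSer_eq_zero_of_mem_pInf C.cdvr.le C.cdvr
      (eta_sub_mem_pInf C.cdvr.le haux hM C.root C.zeta) (one_mem (Gamma0 q))
    rw [map_sub, resSer_raiseL, sub_eq_zero] at h1
    refine expandL_injective q ?_
    rw [map_mul, h1, map_one, mul_comm]
    exact hEW

include hM hqm in
/-- The residual derivative of `t` is not zero. -/
theorem thetaSer_tBar_ne_zero : thetaSer (tBar C haux) ≠ 0 := by
  obtain ⟨W, hW, hθ, -⟩ := exists_theta_tBar C haux hM hqm
  rw [hθ]
  exact mul_ne_zero hW ((isUnit_dT C haux hM).map (resCusp M C.O 1)).ne_zero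

/-! ### Expansions at the cusp of the involution -/

/-- The Atkin matrix gives a cusp of type `0`. -/
theorem isTyp_atkinMat : IsTyp q .zero (atkinMat hM) :=
  (ZMod.intCast_zmod_eq_zero_iff_dvd _ _).mpr (atkinMat_dvd hM).1

/-- The lower left entry of the Atkin matrix is prime to `q`. -/
theorem ent10_atkinMat : ent q (atkinMat hM) 1 0 ≠ 0 := fun h =>
  atkinMat_not_dvd hM ((ZMod.intCast_zmod_eq_zero_iff_dvd _ _).mp h)

/-- The Atkin matrix is the identity modulo `M`. -/
theorem modMat_atkinMat : modMat M (atkinMat hM) = modMat M 1 := by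
  rw [ES.modMat_eq_one_of_mem (atkinMat_mem hM), ES.modMat_eq_one_of_mem (one_mem _)]

/-- The expansion at `∞` of the Atkin transform. -/
theorem serO_atkinL (f : LRing q M C.O) :
    serO M C.O q 1 (atkinL hM C.zeta f) = expandL q (serO M C.O q (atkinMat hM) f) := serO_ext (by
  rw [liftSer_expandL, liftSer_serO, serAt_apply, coe_atkinL, serAt_apply]
  refine lexp_eq ((hasLExp_dilFun q (hasLExp_lexp f.2.1.1 (atkinMat hM))).congr_fun fun τ => ?_)
  rw [ES.act_one, atkin_apply])

/-- The residual expansion at the Atkin cusp of the inverse transform. -/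
theorem resSer_atkin_symm (f : BRing M C.O) :
    resSer M C.O q (atkinMat hM) ((atkinEquiv hM C.zeta).symm (raiseL M f)) =
      resCusp M C.O 1 f := by
  refine expandL_injective q ?_
  rw [← resSer_raiseL]
  set g := (atkinEquiv hM C.zeta).symm (raiseL M f)
  have hg : atkinL hM C.zeta g = raiseL M f := (atkinEquiv hM C.zeta).apply_symm_apply _
  show expandL q (liftSer _ (serO M C.O q (atkinMat hM) g)) = liftSer _ (serO M C.O q 1 _)
  rw [← hg, serO_atkinL, liftSer_expandL]

include haux hqm in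
theorem serO_cA :
    serO M C.O q (atkinMat hM) (toL C (cA C haux hM)) = cuspSer C.O 1 (tRing haux C.root) := by
  refine expandL_injective q ?_
  rw [← serO_atkinL, ← serO_raiseL]
  congr 1
  refine Subtype.ext ?_
  show atkin hM (dilFun q ((tRing haux C.root : BRing M C.O) : ℍ → ℂ)) =
    ((tRing haux C.root : BRing M C.O) : ℍ → ℂ)
  exact atkin_dilFun_haupt hM haux hqm

include haux in
/-- The component `0` at the cusp `1` is read at the Atkin cusp. -/
theorem rho_zero_one (z : A0 C) : rho C hM .zero 1 z = resA C (atkinMat hM) z :=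
  (resA_eq_rho C haux hM (isTyp_atkinMat hM) (modMat_atkinMat hM) z).symm

include haux hqm in
/-- On the component `0` the function `c` is `t`. -/
theorem rho_zero_cA : rho C hM .zero 1 (inclL C (cA C haux hM)) = tBar C haux := by
  rw [rho_zero_one C haux hM, resA_inclL]
  show liftSer _ (serO M C.O q (atkinMat hM) (toL C (cA C haux hM))) = _
  rw [serO_cA C haux hM hqm]
  rfl

include haux hqm in
/-- The involution moves `t(q τ)`. -/
theorem sigA_cA_ne : sigA C haux hM (inclL C (cA C haux hM)) ≠ inclL C (cA C haux hM) := by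
  intro h
  have h1 := congrArg (rho C hM .zero 1) h
  rw [rho_sigA, rho_zero_cA C haux hM hqm,
    show (Typ.zero.swap : Typ) = .inf from rfl,
    ← resA_eq_rho C haux hM (γ := 1) (t := .inf) (isTyp_inf_iff.mpr (one_mem _)) rfl, resA_inclL]
    at h1
  refine thetaSer_tBar_ne_zero C haux hM hqm ?_
  have h2 : tBar C haux = expandL q (expandL q (tBar C haux)) := by
    conv_lhs => rw [← h1]
    show liftSer _ (serO M C.O q 1 (toL C (cA C haux hM))) = _
    rw [toL_cA, serO_dilL_one, liftSer_expandL, liftSer_expandL]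
    rfl
  have hq0 : (q : LaurentSeries (ResidueField C.O)) = 0 := natCast_q_eq_zero C
  rw [h2, thetaSer_expandL, hq0, zero_mul]

/-- `x = σ c - c`. -/
def xMid : A0 C := sigA C haux hM (inclL C (cA C haux hM)) - inclL C (cA C haux hM)

include haux hqm in
/-- `x` vanishes on the component `mid`. -/
theorem xMid_mem : xMid C haux hM ∈ PT C hM .mid := by
  rw [mem_PT_iff C haux hM hqm 1, xMid, map_sub, rho_sigA]
  exact sub_self _

include haux hqm in
/-- `x` is not zero. -/
theorem xMid_ne_zero : xMid C haux hM ≠ 0 := sub_ne_zero.mpr (sigA_cA_ne C haux hM hqm)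

/-! ### Roots of unity -/

omit [NeZero M] in
theorem exists_zpow_sub_one {η : C.O} (hη : IsUnit η) (hres : residue C.O η = 1) (k : ℤ) :
    ∃ G : C.O, ((η : ℂ) ^ k - 1 = ((η : ℂ) - 1) * (G : ℂ)) ∧ residue C.O G = k := by
  have hη0 : (η : ℂ) ≠ 0 := fun h => hη.ne_zero (Subtype.ext h)
  induction k using Int.induction_on with
  | zero => exact ⟨0, by simp, by simp⟩
  | succ k ih =>
    obtain ⟨G, h1, h2⟩ := ih
    refine ⟨η * G + 1, ?_, by rw [map_add, map_mul, hres, one_mul, h2, map_one]; push_cast; ring⟩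
    rw [zpow_add_one₀ hη0]
    push_cast
    linear_combination (η : ℂ) * h1
  | pred k ih =>
    obtain ⟨G, h1, h2⟩ := ih
    obtain ⟨d, hd⟩ := hη.exists_left_inv
    have hd' : (d : ℂ) * (η : ℂ) = 1 := congrArg Subtype.val hd
    have hdres : residue C.O d = 1 := by
      have := congrArg (residue C.O) hd
      rwa [map_mul, hres, mul_one, map_one] at this
    refine ⟨d * (G - 1), ?_, by
      rw [map_mul, map_sub, hdres, one_mul, h2, map_one]; push_cast; ring⟩
    rw [zpow_sub_one₀ hη0, ← eq_inv_of_mul_eq_one_left hd']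
    push_cast
    linear_combination (d : ℂ) * h1 + hd'

/-- A cusp of type `mid` over the cusp `1` of level `M`. -/
def midCusp : SL(2, ℤ) := ModularGroup.T ^ (M * (1 : ZMod q).val) * atkinMat hM

theorem isTyp_midCusp : IsTyp q .mid (midCusp hM) := by
  obtain ⟨h00, h10⟩ := ent_T_pow_mul (M := M) (1 : ZMod q) (atkinMat hM)
  refine ⟨?_, by rw [midCusp, h10]; exact ent10_atkinMat hM⟩
  rw [midCusp, h00, show ent q (atkinMat hM) 0 0 = 0 from isTyp_atkinMat hM, zero_add, mul_one]
  exact mul_ne_zero (natCast_M_ne_zero hM) (ent10_atkinMat hM)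

theorem modMat_midCusp : modMat M (midCusp hM) = modMat M 1 :=
  (modMat_T_pow_mul _ _).trans (modMat_atkinMat hM)

include haux hqm in
theorem serA_atkinMat_cA : serA C (atkinMat hM) (inclL C (cA C haux hM)) =
    liftSer C.O.subtype (cuspSer C.O 1 (tRing haux C.root)) := by
  rw [← serO_cA C haux hM hqm, liftSer_serO]
  rfl

theorem serA_lam_mul {δ : SL(2, ℤ)} (hδ : δ ∈ lam q M) (γ : SL(2, ℤ)) (z : L0 C) :
    serA C (δ * γ) (inclL C z) = serA C γ (inclL C z) := by
  rw [serA_apply, serA_apply, ← lexp_act]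
  congr 1
  exact (toL C z).2.2.2 δ hδ

include haux hqm in
/-- The expansion of `σ c - c` at the cusp of type `mid`. -/
theorem exists_serA_xMid : ∃ η : C.O, (η : ℂ) ^ q = 1 ∧ (η : ℂ) ≠ 1 ∧
    serA C (midCusp hM) (xMid C haux hM) =
      twistSer (η : ℂ) (liftSer C.O.subtype (cuspSer C.O 1 (tRing haux C.root))) -
        liftSer C.O.subtype (cuspSer C.O 1 (tRing haux C.root)) := by
  set α := atkinMat hM
  set γm := midCusp hM
  set S := cuspSer C.O 1 (tRing haux C.root)
  have hαS : serA C α (inclL C (cA C haux hM)) = liftSer C.O.subtype S :=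
    serA_atkinMat_cA C haux hM hqm
  have hγmS : serA C γm (inclL C (cA C haux hM)) = liftSer C.O.subtype S :=
    (serA_lam_mul C (PSEMI.LevelMp.T_pow_mem_lam _) α _).trans hαS
  have h1 : α * γm ∉ Gamma0 q := fun h0 => by
    have h1 : ent q (α * γm) 1 0 = 0 := Gamma0_mem.mp h0
    rw [ent_mul, show ent q α 1 1 = 0 from
      (ZMod.intCast_zmod_eq_zero_iff_dvd _ _).mpr (atkinMat_dvd hM).2, zero_mul, add_zero] at h1
    exact mul_ne_zero (ent10_atkinMat hM) (isTyp_midCusp hM).1 h1
  have h2 : modMat M (α * γm) = modMat M α := by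
    rw [ES.modMat_mul, modMat_midCusp hM, modMat_atkinMat hM,
      ES.modMat_eq_one_of_mem (one_mem _), one_mul]
  obtain ⟨j, δ, hj, hδ, hαe⟩ := exists_mem_lam_mul_T_pow (q := q) (M := M) hM
    (γ := α) (fun h => ent10_atkinMat hM (Gamma0_mem.mp h)) h1 h2
  have hser : serA C γm (xMid C haux hM) =
      twistSer (zetaC (q * M) ^ j) (liftSer C.O.subtype S) - liftSer C.O.subtype S := by
    rw [xMid, map_sub, hγmS, sigA, serA_actA, hαe, serA_lam_mul C hδ, serA_mul_T_pow, hαS]
  refine ⟨⟨zetaC (q * M) ^ j, pow_mem C.zeta j⟩, ?_, fun h1 => ?_, hser⟩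
  · show (zetaC (q * M) ^ j) ^ q = 1
    obtain ⟨i, rfl⟩ := hj
    rw [← pow_mul, show M * i * q = q * M * i by ring, pow_mul,
      (ES.zetaC_isPrimitiveRoot (q * M)).pow_eq_one, one_pow]
  · refine xMid_ne_zero C haux hM hqm (serA_injective C γm ?_)
    rw [map_zero, hser, show zetaC (q * M) ^ j = 1 from h1]
    ext k
    simp [ES.coeff_twistSer]

omit [NeZero M] in
theorem root_facts {η : C.O} (hηq : (η : ℂ) ^ q = 1) (hη1 : (η : ℂ) ≠ 1) :
    IsPrimitiveRoot (η : ℂ) q ∧ IsUnit η ∧ residue C.O η = 1 := by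
  refine ⟨IsPrimitiveRoot.mk_of_lt _ hq.out.pos hηq fun l hl hlq hpow => hη1 ?_,
    IsUnit.of_mul_eq_one (η ^ (q - 1)) (Subtype.ext (by
      push_cast
      rw [← pow_succ', Nat.sub_add_cancel hq.out.one_le, hηq])), ?_⟩
  · have h1 := orderOf_dvd_of_pow_eq_one hpow
    rcases (Nat.dvd_prime hq.out).mp (orderOf_dvd_of_pow_eq_one hηq) with h | h
    · exact orderOf_eq_one_iff.mp h
    · rw [h] at h1; exact absurd (Nat.le_of_dvd hl h1) (by omega)
  have : CharP (ResidueField C.O) q := by
    refine (CharP.charP_iff_prime_eq_zero hq.out).mpr ?_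
    rw [← map_natCast (residue C.O), residue_eq_zero_iff, C.cdvr.mem_maximalIdeal_iff]
    simpa using P.lt_one
  have h1 : residue C.O η ^ q = 1 := by
    rw [← map_pow, show η ^ q = 1 from Subtype.ext (by push_cast; exact hηq), map_one]
  refine sub_eq_zero.mp (eq_zero_of_pow_eq_zero (n := q) ?_)
  rw [sub_pow_char, h1, one_pow, sub_self]

omit [NeZero M] in
/-- `(η - 1) ^ (q - 1)` is `q` times a unit. -/
theorem exists_pi_pow {η : C.O} (hprim : IsPrimitiveRoot (η : ℂ) q) (hηu : IsUnit η)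
    (hηres : residue C.O η = 1) :
    ∃ κ : C.O, IsUnit κ ∧ (η - 1) ^ (q - 1) = (q : C.O) * κ := by
  classical
  choose G hG hGres using fun k : ℤ => exists_zpow_sub_one C hηu hηres k
  set π : C.O := η - 1
  obtain ⟨k, hk⟩ : ∃ k, q = k + 1 := ⟨q - 1, by have := hq.out.one_le; omega⟩
  have hprod := (hk ▸ hprim : IsPrimitiveRoot (η : ℂ) (k + 1)).prod_one_sub_pow_eq_order
  set u : C.O := ∏ i ∈ Finset.range k, -G (i + 1 : ℕ)
  have hu : IsUnit u := by
    rw [← residue_ne_zero_iff_isUnit, map_prod]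
    refine Finset.prod_ne_zero_iff.mpr fun i hi => ?_
    rw [map_neg, hGres, neg_ne_zero, Int.cast_natCast, ← map_natCast (residue C.O),
      residue_ne_zero_iff_isUnit, C.cdvr.isUnit_iff]
    rw [show (((i + 1 : ℕ) : C.O) : ℂ) = ((i + 1 : ℕ) : ℂ) by push_cast; rfl]
    refine P.abv_natCast_eq_one (Nat.Coprime.symm ?_)
    refine (Nat.Prime.coprime_iff_not_dvd hq.out).mpr fun hd => ?_
    have := Nat.le_of_dvd (by omega) hd
    have := Finset.mem_range.mp hi
    omega
  obtain ⟨d, hd⟩ := hu.exists_right_inv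
  refine ⟨d, IsUnit.of_mul_eq_one u (by rw [mul_comm]; exact hd), ?_⟩
  have hq' : (q : C.O) = π ^ (q - 1) * u := by
    refine Subtype.ext ?_
    have e : ∀ i ∈ Finset.range k, 1 - (η : ℂ) ^ (i + 1) =
        (π : ℂ) * ((-G (i + 1 : ℕ) : C.O) : ℂ) := fun i _ => by
      have := hG (i + 1 : ℕ)
      rw [zpow_natCast] at this
      show 1 - (η : ℂ) ^ (i + 1) = ((η : ℂ) - 1) * -((G (i + 1 : ℕ) : C.O) : ℂ)
      linear_combination -this
    rw [Finset.prod_congr rfl e, Finset.prod_mul_distrib, Finset.prod_const, Finset.card_range]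
      at hprod
    rw [show q - 1 = k by omega]
    push_cast
    rw [show ((u : C.O) : ℂ) = ∏ i ∈ Finset.range k, ((-G (i + 1 : ℕ) : C.O) : ℂ) by
      simp [u], hprod, show (q : ℂ) = (k : ℂ) + 1 by rw [hk]; push_cast; ring]
  rw [hq', mul_assoc, hd, mul_one]

include haux hqm in
/-- A function vanishing on `zero` differs from minus its trace by a function vanishing on
`mid`. -/
theorem trace_add_mem_PT_mid {a : A0 C} (ha : a ∈ PT C hM .zero) :
    inclL C (traceA C hM a) + a ∈ PT C hM .mid := by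
  rw [mem_PT_iff C haux hM hqm 1, map_add, rho_trace C haux hM (t := .mid) (by decide),
    (mem_PT_iff C haux hM hqm 1).mp ha, zero_sub, neg_add_cancel]

omit [NeZero M] in
/-- Averaging a unit constant gives a unit with the same residue. -/
theorem residue_avg_isUnit {κ : C.O} (hκ : IsUnit κ) :
    residue C.O (⟨C.avg κ, C.le (C.avg_mem κ.2)⟩ : C.O) = residue C.O κ ∧
      IsUnit (⟨C.avg κ, C.avg_mem κ.2⟩ : C.O0) := by
  have h : residue C.O (⟨C.avg κ, C.le (C.avg_mem κ.2)⟩ : C.O) = residue C.O κ := by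
    rw [← sub_eq_zero, ← map_sub, residue_eq_zero_iff, C.cdvr.mem_maximalIdeal_iff]
    exact C.abv_avg_sub κ.2
  refine ⟨h, (C.cdvr0.isUnit_iff _).mpr
    ((C.cdvr.isUnit_iff (⟨C.avg κ, C.le (C.avg_mem κ.2)⟩ : C.O)).mp ?_)⟩
  exact (residue_ne_zero_iff_isUnit (⟨C.avg κ, C.le (C.avg_mem κ.2)⟩ : C.O)).mp
    (by rw [h]; exact (residue_ne_zero_iff_isUnit κ).mpr hκ)

include haux hqm in
/-- **`x ^ (q - 1) / q` at a point of the component `mid` only.** -/
theorem mid_key {𝔪 : Ideal (A0 C)} (h𝔪 : 𝔪.IsMaximal) (hq𝔪 : (q : A0 C) ∈ 𝔪)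
    (hmid : PT C hM .mid ≤ 𝔪) {p : A0 C} (hpI : p ∈ PT C hM .inf) (hpZ : p ∈ PT C hM .zero)
    (hp : p ∉ 𝔪) : ∃ Z : A0 C, Z ∉ 𝔪 ∧ (q : A0 C) * Z = xMid C haux hM ^ (q - 1) * p := by
  classical
  set x := xMid C haux hM
  have hxM := xMid_mem C haux hM hqm
  obtain ⟨Z, hZ⟩ : (q : A0 C) ∣ x ^ (q - 1) * p := by
    obtain ⟨k, hk⟩ : ∃ k, q = k + 2 := ⟨q - 2, by have := hq.out.two_le; omega⟩
    have := q_dvd_mid C haux hM hqm hpI hpZ hxM hxM
    rwa [← pow_succ', show q - 2 + 1 = q - 1 by omega] at this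
  refine ⟨Z, fun hZ𝔪 => ?_, hZ.symm⟩
  set n := nOf C 𝔪
  have hn : n.IsMaximal := nOf_isMaximal C hM h𝔪
  have hqn : (q : L0 C) ∈ n := q_mem_nOf C hq𝔪
  have hZn : pZ C hM ≤ n := PT_le_imp_pZ C haux hM hqm (t := .mid) (by decide) hmid
  set γm := midCusp hM with hγm
  have hmid_typ : IsTyp q .mid γm := isTyp_midCusp hM
  have hρm : ∀ z, rho C hM .mid 1 z = resA C γm z := fun z =>
    (resA_eq_rho C haux hM hmid_typ (modMat_midCusp hM) z).symm
  -- the series of `x` there
  set S := cuspSer C.O 1 (tRing haux C.root)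
  obtain ⟨η, hηq, hη1, hserx⟩ := exists_serA_xMid C haux hM hqm
  obtain ⟨hprim, hηu, hηres⟩ := root_facts C hηq hη1
  choose G hG hGres using fun k : ℤ => exists_zpow_sub_one C hηu hηres k
  set π : C.O := η - 1
  obtain ⟨κ, hκ1, hκ⟩ := exists_pi_pow C hprim hηu hηres
  set V : LaurentSeries C.O := ⟨fun k => G k * S.coeff k, S.isPWO_support.mono fun k hk h0 =>
    hk (by simp [h0])⟩
  have hxV : serA C γm x = HahnSeries.C (π : ℂ) * liftSer C.O.subtype V := by
    rw [hserx]
    ext k
    rw [HahnSeries.coeff_sub, ES.coeff_twistSer, HahnSeries.C_mul_eq_smul, HahnSeries.coeff_smul,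
      smul_eq_mul, ES.coeff_liftSer, ES.coeff_liftSer]
    show ((S.coeff k : C.O) : ℂ) * (η : ℂ) ^ k - ((S.coeff k : C.O) : ℂ) =
      ((η : ℂ) - 1) * ((G k * S.coeff k : C.O) : ℂ)
    push_cast
    linear_combination ((S.coeff k : C.O) : ℂ) * hG k
  have hVres : liftSer (residue C.O) V = thetaSer (tBar C haux) := by
    ext k
    rw [ES.coeff_liftSer, coeff_thetaSer]
    show residue C.O (G k * S.coeff k) = (k : ResidueField C.O) * _
    rw [map_mul, hGres]
    rfl
  have hρZ : rho C hM .mid 1 Z = HahnSeries.C (residue C.O κ) *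
      thetaSer (tBar C haux) ^ (q - 1) * rho C hM .mid 1 p := by
    have hq0 : (HahnSeries.C (q : ℂ) : LaurentSeries ℂ) ≠ 0 :=
      HahnSeries.C_ne_zero (Nat.cast_ne_zero.mpr hq.out.ne_zero)
    have h1 : serA C γm Z = HahnSeries.C (κ : ℂ) * liftSer C.O.subtype V ^ (q - 1) *
        serA C γm p := by
      refine mul_left_cancel₀ hq0 ?_
      have h2 := congrArg (serA C γm) hZ
      rw [map_mul, map_mul, map_pow, map_natCast, hxV, mul_pow, ← map_pow,
        ← map_natCast (HahnSeries.C : ℂ →+* LaurentSeries ℂ)] at h2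
      rw [← h2, show ((π : ℂ) ^ (q - 1)) = (q : ℂ) * (κ : ℂ) by
        have := congrArg Subtype.val hκ
        push_cast at this
        exact this, map_mul]
      ring
    rw [hρm, hρm, ← hVres]
    show liftSer _ (serOI M C.O (lamD q M) q γm (inclS C Z)) = _
    rw [show serOI M C.O (lamD q M) q γm (inclS C Z) =
      HahnSeries.C κ * V ^ (q - 1) * serOI M C.O (lamD q M) q γm (inclS C p) from
      ES.liftSer_injective C.O.subtype_injective (by
        rw [map_mul, map_mul, map_pow, liftSer_serOI, liftSer_serOI, liftSer_C]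
        exact h1), map_mul, map_mul, map_pow, liftSer_C]
    rfl
  -- back on `L0`
  obtain ⟨W, hW0, hθ, hηW⟩ := exists_theta_tBar C haux hM hqm
  set E : LRing q M C.O ≃+* LRing q M C.O := atkinEquiv hM C.zeta
  set g := traceA C hM (Z * p)
  set A := avgL C haux (E.symm (raiseL M (eta haux hM C.root C.zeta)))
  set D := avgL C haux (E.symm (raiseL M (dT C haux)))
  set T := traceA C hM (p * p)
  have hg : g ∈ n := by
    have h1 : inclL C g + Z * p ∈ PT C hM .mid :=
      trace_add_mem_PT_mid C haux hM hqm (Ideal.mul_mem_left _ Z hpZ)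
    have h2 := sub_mem (hmid h1) (𝔪.mul_mem_right p hZ𝔪)
    rwa [add_sub_cancel_right] at h2
  have hT : T ∉ n := fun hT => hp (by
    have h1 : inclL C T + p * p ∈ PT C hM .mid :=
      trace_add_mem_PT_mid C haux hM hqm (Ideal.mul_mem_left _ p hpZ)
    have h2 := sub_mem (hmid h1) (show inclL C T ∈ 𝔪 from hT)
    rw [add_sub_cancel_left] at h2
    exact (h𝔪.isPrime.mem_or_mem h2).elim id id)
  have hD : D ∉ n := fun hD => by
    have := liftN_isMaximal C haux hM hqn
    exact (liftN_isMaximal C haux hM hqn).ne_top (Ideal.eq_top_of_isUnit_mem _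
      ((mem_liftN C haux hM hqn).mpr hD) (((isUnit_dT C haux hM).map (raiseL M)).map E.symm))
  set κ0 : C.O0 := ⟨C.avg κ, C.avg_mem κ.2⟩
  obtain ⟨hκres, hκu⟩ : _ ∧ IsUnit κ0 := residue_avg_isUnit C hκ1
  have hrel : g * A - constL0 C κ0 * D ^ (q - 1) * T ∈ pZ C hM := by
    rw [mem_pZ, mem_PT_iff C haux hM hqm 1]
    have hA : rho C hM .zero 1 (inclL C A) = resCusp M C.O 1 (eta haux hM C.root C.zeta) := by
      rw [rho_zero_one C haux hM, resA_inclL_avgL C haux hM]
      exact resSer_atkin_symm C hM _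
    have hD' : rho C hM .zero 1 (inclL C D) = resCusp M C.O 1 (dT C haux) := by
      rw [rho_zero_one C haux hM, resA_inclL_avgL C haux hM]
      exact resSer_atkin_symm C hM _
    have hc : rho C hM .zero 1 (inclL C (constL0 C κ0)) = HahnSeries.C (residue C.O κ) := by
      rw [rho_zero_one C haux hM, ← hκres]
      show liftSer _ (serOI M C.O (lamD q M) q (atkinMat hM) (inclS C (constA C κ0))) = _
      rw [show serOI M C.O (lamD q M) q (atkinMat hM) (inclS C (constA C κ0)) =
        HahnSeries.C (⟨C.avg κ, C.le (C.avg_mem κ.2)⟩ : C.O) from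
        ES.liftSer_injective C.O.subtype_injective (by
          rw [liftSer_serOI, liftSer_C]
          exact serA_constA C (atkinMat hM) κ0), liftSer_C]
    simp only [map_sub, map_mul, map_pow, hA, hD', hc,
      rho_trace C haux hM (t := .zero) (by decide : Typ.zero ≠ .inf), g, T,
      (mem_PT_iff C haux hM hqm 1).mp hpZ, mul_zero, zero_sub, hρZ, hθ, mul_pow]
    linear_combination (-(HahnSeries.C (residue C.O κ)) * rho C hM .mid 1 p ^ 2 *
      resCusp M C.O 1 (dT C haux) ^ (q - 1)) * hηW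
  have h1 := sub_mem (n.mul_mem_right A hg) (hZn hrel)
  rw [sub_sub_cancel] at h1
  rcases hn.isPrime.mem_or_mem h1 with h2 | h2
  · rcases hn.isPrime.mem_or_mem h2 with h3 | h3
    · exact hn.ne_top (Ideal.eq_top_of_isUnit_mem _ h3 (hκu.map _))
    · exact hD (hn.isPrime.mem_of_pow_mem _ h3)
  · exact hT h2

end FermatAgent.BAD.Sq

end
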