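import Fermat.Agent.BAD.Sq.Points

/-!
# The parameters on `L0`, and the maximal ideal at a crossing point

At a crossing point `t(τ) - b` and `t(qτ) - c` generate the maximal ideal of `L0` with `q`.
-/

set_option autoImplicit false

open UpperHalfPlane CongruenceSubgroup IsLocalRing
open scoped MatrixGroups

noncomputable section

namespace FermatAgent.BAD.Sq

open FermatAgent.ES (BSub BRing SerIn HasLExp lexp lexp_eq hasLExp_lexp lexp_act act zetaC AuxLevel
  CPlace GoodPoint modMat liftSer cuspSer)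

/-- Congruent elements have `q`-th powers congruent modulo the square. -/
theorem pow_sub_pow_mem_sq {R : Type*} [CommRing R] (I : Ideal R) {x y : R} {q : ℕ}
    (h : x - y ∈ I) (hq : (q : R) ∈ I) : x ^ q - y ^ q ∈ I ^ 2 := by
  rw [← geom_sum₂_mul x y q, sq]
  refine Ideal.mul_mem_mul ?_ h
  have hxy : Ideal.Quotient.mk I x = Ideal.Quotient.mk I y := Ideal.Quotient.eq.mpr h
  rw [← Ideal.Quotient.eq_zero_iff_mem, map_sum, Finset.sum_eq_card_nsmul
    (b := Ideal.Quotient.mk I y ^ (q - 1)) fun i hi => by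
      rw [map_mul, map_pow, map_pow, hxy, ← pow_add,
        Nat.add_sub_cancel' (by have := Finset.mem_range.mp hi; omega)]]
  rw [Finset.card_range, nsmul_eq_mul, ← map_natCast (Ideal.Quotient.mk I),
    Ideal.Quotient.eq_zero_iff_mem.mpr hq, zero_mul]

variable {q M m : ℕ} [hq : Fact q.Prime] [NeZero M] {P : CPlace q}
variable (C : Coef M P) (haux : AuxLevel M m) (hM : M.Coprime q) (hqm : q ≠ m)

/-- The Hauptfunktion with unramified coefficients. -/
abbrev t0 : BRing M C.O0 := tRing haux C.root0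

/-- Its conjugate. -/
abbrev Q0 : BRing M C.O0 := hQ haux hM C.root0

/-- `t(τ)`. -/
def bA : L0 C := raise0 C (t0 C haux)

/-- The conjugate at `τ`. -/
def bQ : L0 C := raise0 C (Q0 C haux hM)

/-- `t(qτ)`. -/
def cA : L0 C := dil0 C hM (t0 C haux)

/-- The conjugate at `qτ`. -/
def cQ : L0 C := dil0 C hM (Q0 C haux hM)

/-- The Kronecker function small at the cusps of type `0`. -/
def X0 : L0 C := bA C haux - cQ C haux hM ^ q

/-- The Kronecker function small at the cusps of type `∞`. -/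
def Y0 : L0 C := cA C haux hM - bQ C haux hM ^ q

theorem toL_bA : toL C (bA C haux) = raiseL M (tRing haux C.root) := rfl

/-- `t(qτ)` in level `q M`. -/
theorem toL_cA : toL C (cA C haux hM) = dilL hM C.zeta (tRing haux C.root) := rfl

theorem toL_cQ : toL C (cQ C haux hM) = dilL hM C.zeta (hQ haux hM C.root) := rfl

theorem toL_X0 : toL C (X0 C haux hM) = kXL haux hM C.root C.zeta := by
  rw [X0, map_sub, map_pow]; rfl

theorem toL_Y0 : toL C (Y0 C haux hM) = kYL haux hM C.root C.zeta := by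
  rw [Y0, map_sub, map_pow]; rfl

include hqm in
theorem atkin0_X0 : atkin0 C haux hM (X0 C haux hM) = Y0 C haux hM := by
  refine toL_injective C ?_
  rw [toL_atkin0, toL_X0, toL_Y0]
  exact atkinEquiv_kXL haux C.root hM C.zeta hqm

theorem atkin0_bA : atkin0 C haux hM (bA C haux) = cA C haux hM := by
  refine L0_ext C ?_
  show atkin hM ((t0 C haux : BRing M C.O0) : ℍ → ℂ) = dilFun q ((t0 C haux : BRing M C.O0) : ℍ → ℂ)
  exact atkin_of_BSub hM (t0 C haux).2.1

include hqm in
/-- `X` vanishes on the component other than `∞`. -/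
theorem X0_mem_pZ : X0 C haux hM ∈ pZ C hM := by
  rw [mem_pZ_iff C haux hM hqm, toL_X0]
  exact kXL_mem_pZero haux hM C.root C.zeta C.cdvr.le hqm

include hqm in
/-- `Y` vanishes on the component at `∞`. -/
theorem Y0_mem_pI : Y0 C haux hM ∈ pI C hM := by
  rw [mem_pI_iff C haux hM hqm, toL_Y0]
  exact kYL_mem_pInf haux hM C.root C.zeta C.cdvr.le hqm

include hqm in
theorem cQ_sub_mem_pI : cQ C haux hM - bA C haux ^ q ∈ pI C hM := by
  rw [mem_pI_iff C haux hM hqm, map_sub, map_pow, toL_cQ, toL_bA]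
  intro γ hγ n
  rw [serAt_apply]
  exact (hauptQ_kron hM haux hγ n).trans_lt (by simpa using P.lt_one)

include hqm in
theorem atkin0_mem_pZ {z : L0 C} (hz : z ∈ pI C hM) : atkin0 C haux hM z ∈ pZ C hM := by
  rw [mem_pZ_iff C haux hM hqm, toL_atkin0]
  exact atkinL_mem_pZero C.cdvr.le hM C.zeta ((mem_pI_iff C haux hM hqm).mp hz)

include hqm in
theorem X0_sub_mem_pI : X0 C haux hM - (bA C haux - bA C haux ^ (q * q)) ∈ pI C hM := by
  rw [X0, sub_sub_sub_cancel_left, pow_mul]
  obtain ⟨c, hc⟩ := sub_dvd_pow_sub_pow (bA C haux ^ q) (cQ C haux hM) q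
  rw [hc]
  refine Ideal.mul_mem_right _ _ ?_
  rw [← neg_sub]
  exact neg_mem (cQ_sub_mem_pI C haux hM hqm)

include hqm in
theorem Y0_sub_mem_pZ : Y0 C haux hM - (cA C haux hM - cA C haux hM ^ (q * q)) ∈ pZ C hM := by
  have h := atkin0_mem_pZ C haux hM hqm (X0_sub_mem_pI C haux hM hqm)
  rwa [map_sub, map_sub, map_pow, atkin0_X0 C haux hM hqm, atkin0_bA C haux hM] at h

/-- The function `G` with `X Y = - q G`, on `L0`. -/
def G0 : L0 C :=
  avgL C haux (nodeG haux hM C.root C.zeta C.cdvr.le C.cdvr hqm)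

/-- The relation `X Y = - q G`. -/
theorem X0_mul_Y0 : X0 C haux hM * Y0 C haux hM = -((q : L0 C) * G0 C haux hM hqm) := by
  have h := kXL_mul_kYL haux hM C.root C.zeta C.cdvr.le C.cdvr hqm
  rw [← toL_X0, ← toL_Y0, ← map_mul, ← map_natCast (toL C) q] at h
  have h1 := congrArg (avgL C haux) h
  rwa [avgL_toL, map_neg, avgL_mul] at h1

theorem toL_G0 : toL C (G0 C haux hM hqm) = nodeG haux hM C.root C.zeta C.cdvr.le C.cdvr hqm := by
  refine natCast_q_mul_cancel (neg_injective ?_)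
  rw [← kXL_mul_kYL, ← toL_X0, ← toL_Y0, ← map_mul, X0_mul_Y0 C haux hM hqm, map_neg, map_mul,
    map_natCast]

theorem avgL_raiseL_tPar {τ : ℍ} (hg : GoodPoint haux C.O τ) :
    avgL C haux (raiseL M (tPar haux C.root hg)) =
      bA C haux - constL0 C ⟨_, C.avg_mem hg.val.mem⟩ := by
  rw [tPar, map_sub, map_sub, ← toL_bA, avgL_toL]
  congr 1
  exact avgL_constL C haux ⟨_, hg.val.mem⟩

theorem avgL_dilL_tPar {τ : ℍ} (hg : GoodPoint haux C.O τ) :
    avgL C haux (dilL hM C.zeta (tPar haux C.root hg)) =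
      cA C haux hM - constL0 C ⟨_, C.avg_mem hg.val.mem⟩ := by
  rw [tPar, map_sub, map_sub, ← toL_cA, avgL_toL]
  congr 1
  exact avgL_constL C haux ⟨_, hg.val.mem⟩

/-- A constant in a proper ideal over `q` is a multiple of `q`. -/
theorem q_dvd_of_constL0_mem {n : Ideal (L0 C)} (hn : n ≠ ⊤) {c : C.O0}
    (h : constL0 C c ∈ n) : (q : C.O0) ∣ c := by
  have := C.cdvr0.dvr
  rw [← Ideal.mem_span_singleton, ← C.unif.maximalIdeal_eq, IsLocalRing.mem_maximalIdeal]
  exact fun hu => hn (Ideal.eq_top_of_isUnit_mem _ h (hu.map _))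

/-- Multiples of `q` lie in an ideal containing `q`. -/
theorem constL0_mem_of_dvd (I : Ideal (L0 C)) (hI : (q : L0 C) ∈ I) {c : C.O0}
    (h : (q : C.O0) ∣ c) : constL0 C c ∈ I := by
  obtain ⟨d, rfl⟩ := h
  rw [map_mul, map_natCast]
  exact I.mul_mem_right _ hI

include haux hM hqm in
theorem eq_q_mul_of_mem {z : L0 C} (hI : z ∈ pI C hM) (hZ : z ∈ pZ C hM) :
    ∃ w : L0 C, z = q * w :=
  exists_eq_q_mul C haux hM fun γ => by
    obtain ⟨t, ht⟩ := exists_isTyp (q := q) γ
    refine smA_of_mem_PT C haux hM hqm ?_ ht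
    cases t with
    | inf => exact hI
    | zero => exact hZ
    | mid => exact (mem_pZ_iff_mid C haux hM hqm).mp hZ

variable {n : Ideal (L0 C)} [hn : n.IsMaximal] (hqn : (q : L0 C) ∈ n)
include hqn

/-- `X ≡ T u` for a function `u` invertible at `n`. -/
theorem exists_param_unit {I : Ideal (L0 C)} (hIn : I ≤ n) (hqI : (q : L0 C) ∈ I) {X b : L0 C}
    {d : C.O0} (hT : b - constL0 C d ∈ n) (hX : X ∈ n) (h : X - (b - b ^ (q * q)) ∈ I) :
    ∃ u ∉ n, X - (b - constL0 C d) * u ∈ I := by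
  set D := constL0 C d
  set S := ∑ i ∈ Finset.range (q * q), b ^ i * D ^ (q * q - 1 - i)
  have hb : b ^ (q * q) - D ^ (q * q) = S * (b - D) := (geom_sum₂_mul b D _).symm
  have hS : S ∈ n := by
    have hxy : Ideal.Quotient.mk n b = Ideal.Quotient.mk n D := Ideal.Quotient.eq.mpr hT
    rw [← Ideal.Quotient.eq_zero_iff_mem, map_sum, Finset.sum_eq_card_nsmul
      (b := Ideal.Quotient.mk n D ^ (q * q - 1)) fun i hi => by
        rw [map_mul, map_pow, map_pow, hxy, ← pow_add,
          Nat.add_sub_cancel' (by have := Finset.mem_range.mp hi; omega)]]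
    rw [Finset.card_range, nsmul_eq_mul, ← map_natCast (Ideal.Quotient.mk n), Nat.cast_mul,
      Ideal.Quotient.eq_zero_iff_mem.mpr (n.mul_mem_right _ hqn), zero_mul]
  have hd : constL0 C (d - d ^ (q * q)) ∈ I := by
    refine constL0_mem_of_dvd C I hqI (q_dvd_of_constL0_mem C hn.ne_top ?_)
    rw [map_sub, map_pow]
    have e : D - D ^ (q * q) =
        X - (X - (b - b ^ (q * q))) - (b - D) + S * (b - D) := by
      rw [← hb]; ring
    rw [e]
    exact add_mem (sub_mem (sub_mem hX (hIn h)) hT) (n.mul_mem_left _ hT)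
  refine ⟨1 - S, fun h1 => hn.ne_top ((Ideal.eq_top_iff_one _).mpr ?_), ?_⟩
  · have := add_mem h1 hS
    rwa [sub_add_cancel] at this
  · rw [map_sub, map_pow] at hd
    have e : X - (b - D) * (1 - S) =
        X - (b - b ^ (q * q)) + (D - D ^ (q * q)) := by
      linear_combination -hb
    rw [e]
    exact add_mem h hd

include hqm in
/-- The residues at `n` are constants. -/
theorem exists_residue (hI : pI C hM ≤ n) (hG : GoodI C haux n) (z : L0 C) :
    ∃ c : C.O0, z - constL0 C c ∈ n := by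
  obtain ⟨τ, hg, ht⟩ := hG
  obtain ⟨s, hs, c, x, hx⟩ := gen_pI C haux hM hqm hqn hg ht hI z
  refine ⟨c, (hn.isPrime.mem_or_mem ?_).resolve_left hs⟩
  have := add_mem (hI hx) (n.mul_mem_right x ht)
  rwa [sub_add_cancel] at this

include hqm in
/-- **`G` is invertible at a crossing point.** -/
theorem G0_not_mem (hI : pI C hM ≤ n) (hZ : pZ C hM ≤ n) (hG : GoodI C haux n) :
    G0 C haux hM hqm ∉ n := by
  have := liftN_isMaximal C haux hM hqn
  obtain ⟨τ, hg, ht⟩ := hG
  rw [← toL_mem_liftN C haux hM hqn, toL_G0]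
  exact nodeG_not_mem haux hM C.root C.zeta C.cdvr.le C.cdvr hqm hg
    (pInf_le_liftN C haux hM hqm hqn hI) (pZero_le_liftN C haux hM hqm hqn hZ)
    ((mem_liftN C haux hM hqn).mpr ht)

include hqm in
/-- At a crossing point `X`, `Y`, `q` generate the maximal ideal locally. -/
theorem mem_XYq (hI : pI C hM ≤ n) (hZ : pZ C hM ≤ n) (hGI : GoodI C haux n)
    (hGZ : GoodZ C haux hM n) {z : L0 C} (hz : z ∈ n) :
    ∃ s ∉ n, s * z ∈ Ideal.span {X0 C haux hM, Y0 C haux hM, (q : L0 C)} := by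
  obtain ⟨τ, hg, ht⟩ := hGI
  obtain ⟨τ', hg', ht'⟩ := hGZ
  have hX : X0 C haux hM ∈ n := hZ (X0_mem_pZ C haux hM hqm)
  have hY : Y0 C haux hM ∈ n := hI (Y0_mem_pI C haux hM hqm)
  set T := avgL C haux (raiseL M (tPar haux C.root hg))
  set T' := avgL C haux (dilL hM C.zeta (tPar haux C.root hg'))
  obtain ⟨u, hu, hXu⟩ := exists_param_unit C hqn hI (q_mem_pI C hM)
    (by rw [← avgL_raiseL_tPar C haux hg]; exact ht) hX (X0_sub_mem_pI C haux hM hqm)
  obtain ⟨u', hu', hYu⟩ := exists_param_unit C hqn hZ (q_mem_pZ C hM)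
    (by rw [← avgL_dilL_tPar C haux hM hg']; exact ht') hY (Y0_sub_mem_pZ C haux hM hqm)
  rw [← avgL_raiseL_tPar C haux hg] at hXu
  rw [← avgL_dilL_tPar C haux hM hg'] at hYu
  obtain ⟨s, hs, c, x, hx⟩ := gen_pI C haux hM hqm hqn hg ht hI z
  have hc : constL0 C c ∈ pI C hM := by
    refine constL0_mem_of_dvd C _ (q_mem_pI C hM) (q_dvd_of_constL0_mem C hn.ne_top ?_)
    have h1 : s * constL0 C c ∈ n := by
      rw [show s * constL0 C c = s * z - T * x - (s * (z - constL0 C c) - T * x) by ring]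
      exact sub_mem (sub_mem (n.mul_mem_left _ hz) (n.mul_mem_right _ ht)) (hI hx)
    exact (hn.isPrime.mem_or_mem h1).resolve_left hs
  set p := u * s * z - X0 C haux hM * x
  have hp : p ∈ pI C hM := by
    rw [show p = u * (s * (z - constL0 C c) - T * x) + u * s * constL0 C c -
      (X0 C haux hM - T * u) * x by ring]
    exact sub_mem (add_mem (Ideal.mul_mem_left _ _ hx) (Ideal.mul_mem_left _ _ hc))
      (Ideal.mul_mem_right _ _ hXu)
  obtain ⟨s', hs', c', x', hx'⟩ := gen_pZ C haux hM hqm hqn hg' ht' hZ p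
  have hc' : constL0 C c' ∈ pI C hM ⊓ pZ C hM := by
    have hd : (q : C.O0) ∣ c' := q_dvd_of_constL0_mem C hn.ne_top (by
      have h1 : s' * constL0 C c' ∈ n := by
        rw [show s' * constL0 C c' = s' * p - T' * x' - (s' * (p - constL0 C c') - T' * x') by ring]
        exact sub_mem (sub_mem (n.mul_mem_left _ (hI hp)) (n.mul_mem_right _ ht')) (hZ hx')
      exact (hn.isPrime.mem_or_mem h1).resolve_left hs')
    exact ⟨constL0_mem_of_dvd C _ (q_mem_pI C hM) hd, constL0_mem_of_dvd C _ (q_mem_pZ C hM) hd⟩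
  set r := u' * s' * p - Y0 C haux hM * x'
  have hrZ : r ∈ pZ C hM := by
    rw [show r = u' * (s' * (p - constL0 C c') - T' * x') + u' * s' * constL0 C c' -
      (Y0 C haux hM - T' * u') * x' by ring]
    exact sub_mem (add_mem (Ideal.mul_mem_left _ _ hx') (Ideal.mul_mem_left _ _ hc'.2))
      (Ideal.mul_mem_right _ _ hYu)
  have hrI : r ∈ pI C hM :=
    sub_mem (Ideal.mul_mem_left _ _ hp) (Ideal.mul_mem_right _ _ (Y0_mem_pI C haux hM hqm))
  obtain ⟨w, hw⟩ := eq_q_mul_of_mem C haux hM hqm hrI hrZ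
  refine ⟨u' * s' * (u * s), fun h => (hn.isPrime.mem_or_mem h).elim
    (fun h => (hn.isPrime.mem_or_mem h).elim hu' hs')
    (fun h => (hn.isPrime.mem_or_mem h).elim hu hs), ?_⟩
  rw [show u' * s' * (u * s) * z =
    u' * s' * x * X0 C haux hM + x' * Y0 C haux hM + r by ring, hw]
  exact add_mem (add_mem (Ideal.mul_mem_left _ _ (Ideal.subset_span (by simp)))
    (Ideal.mul_mem_left _ _ (Ideal.subset_span (by simp))))
    (Ideal.mul_mem_right _ _ (Ideal.subset_span (by simp)))

include hqm in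
/-- **At a crossing point `t(τ) - b`, `t(qτ) - c` and `q` generate the maximal ideal locally.** -/
theorem exists_gen_cross (hI : pI C hM ≤ n) (hZ : pZ C hM ≤ n) (hGI : GoodI C haux n)
    (hGZ : GoodZ C haux hM n) {b c : C.O0} (hb : bA C haux - constL0 C b ∈ n)
    (hc : cA C haux hM - constL0 C c ∈ n) :
    ∃ s ∉ n, ∀ z ∈ n,
      s * z ∈ Ideal.span {bA C haux - constL0 C b, cA C haux hM - constL0 C c, (q : L0 C)} := by
  set J : Ideal (L0 C) :=
    Ideal.span {bA C haux - constL0 C b, cA C haux hM - constL0 C c, (q : L0 C)}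
  have hJq : (q : L0 C) ∈ J := Ideal.subset_span (by simp)
  have key : ∀ {x y : L0 C} {b : C.O0}, x - constL0 C b ∈ n → x - constL0 C b ∈ J →
      x - y ^ q ∈ n → x - y ^ q ∈ J ⊔ n ^ 2 := by
    intro x y b hxb hxJ hxy
    obtain ⟨d, hd⟩ := exists_residue C haux hM hqm hqn hI hGI y
    have h1 : y ^ q - constL0 C d ^ q ∈ n ^ 2 := pow_sub_pow_mem_sq n hd hqn
    have h2 : constL0 C (b - d ^ q) ∈ J := by
      refine constL0_mem_of_dvd C J hJq (q_dvd_of_constL0_mem C hn.ne_top ?_)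
      rw [map_sub, map_pow, show constL0 C b - constL0 C d ^ q =
        x - y ^ q - (x - constL0 C b) + (y ^ q - constL0 C d ^ q) by ring]
      exact add_mem (sub_mem hxy hxb) (Ideal.pow_le_self two_ne_zero h1)
    rw [show x - y ^ q = x - constL0 C b + constL0 C (b - d ^ q) - (y ^ q - constL0 C d ^ q) by
      rw [map_sub, map_pow]; ring]
    exact sub_mem (Ideal.mem_sup_left (add_mem hxJ h2)) (Ideal.mem_sup_right h1)
  have hXJ : X0 C haux hM ∈ J ⊔ n ^ 2 := key hb (Ideal.subset_span (by simp))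
    (hZ (X0_mem_pZ C haux hM hqm))
  have hYJ : Y0 C haux hM ∈ J ⊔ n ^ 2 := key hc (Ideal.subset_span (by simp))
    (hI (Y0_mem_pI C haux hM hqm))
  have hle : n ≤ J ⊔ n ^ 2 := fun z hz => by
    obtain ⟨s, hs, hsz⟩ := mem_XYq C haux hM hqm hqn hI hZ hGI hGZ hz
    have h1 : s * z ∈ J ⊔ n ^ 2 := by
      refine Ideal.span_le.mpr ?_ hsz
      rintro x (rfl | rfl | rfl)
      exacts [hXJ, hYJ, Ideal.mem_sup_left hJq]
    obtain ⟨r, i, hi, hri⟩ := hn.exists_inv hs
    rw [show z = r * (s * z) + i * z by linear_combination -z * hri]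
    exact add_mem (Ideal.mul_mem_left _ _ h1)
      (Ideal.mem_sup_right (sq n ▸ Ideal.mul_mem_mul hi hz))
  have := isNoetherianRing_L0 C haux
  set N : Submodule (L0 C) (L0 C ⧸ J) := Submodule.map (Submodule.mkQ J) n
  have hN : N ≤ n • N := by
    refine (Submodule.map_mono hle).trans ?_
    rw [Submodule.map_sup, Submodule.mkQ_map_self, bot_sup_eq, sq,
      ← smul_eq_mul, Submodule.map_smul'']
  obtain ⟨r, hr, hrN⟩ := Submodule.exists_sub_one_mem_and_smul_eq_zero_of_fg_of_le_smul n N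
    ((IsNoetherian.noetherian n).map _) hN
  refine ⟨r, fun h => hn.ne_top ((Ideal.eq_top_iff_one _).mpr (by
    have := sub_mem h hr
    rwa [sub_sub_cancel] at this)), fun z hz => ?_⟩
  have h := hrN (Submodule.mkQ J z) ⟨z, hz, rfl⟩
  rw [← map_smul, Submodule.mkQ_apply, Submodule.Quotient.mk_eq_zero, smul_eq_mul] at h
  exact h

end FermatAgent.BAD.Sq

end
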