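import Fermat.Agent.BAD.Sq.Glue

/-!
# The functions of level `M` whose zeros give good parameters, and independence of the level

For `G` on the model, `fI G` and `fZ G` vanish at the points of `L0` below the zeros of `G` on the
special fibre; they, and the glued function, do not depend on the coefficient rings.
-/

set_option autoImplicit false

open UpperHalfPlane CongruenceSubgroup IsLocalRing
open scoped MatrixGroups

noncomputable section

namespace FermatAgent.BAD.Sq

open FermatAgent.ES (BSub BRing SerIn HasLExp lexp lexp_eq hasLExp_lexp act zetaC AuxLevel CPlace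
  GoodRoot GoodPoint liftSer)

variable {q M m : ℕ} [hq : Fact q.Prime] [NeZero M] {P : CPlace q}

/-- The zeros of `f` of level `M` on the special fibre of `LRing q M O` have good parameters. -/
def GoodFor (haux : AuxLevel M m) (O : Subring ℂ) (q : ℕ) [Fact q.Prime] (f : ℍ → ℂ) : Prop :=
  ∀ (hA : GoodRoot M O (zetaC M)) (hf : f ∈ BRing M O) (𝔪 : Ideal (LRing q M O)), 𝔪.IsMaximal →
    (q : LRing q M O) ∈ 𝔪 → raiseL M (⟨f, hf⟩ : BRing M O) ∈ 𝔪 →
      ∃ (τ : ℍ) (hg : GoodPoint haux O τ), raiseL M (tPar haux hA hg) ∈ 𝔪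

variable (C : Coef M P) (haux : AuxLevel M m) (hM : M.Coprime q) (hqm : q ≠ m)

theorem normA_mem_nOf {𝔪 : Ideal (A0 C)} {G : A0 C} (hG : G ∈ 𝔪) :
    normA C hM G ∈ nOf C 𝔪 := by
  have h0 := congrArg (Ideal.Quotient.mk 𝔪) (eval_polA C hM G)
  rw [Polynomial.hom_eval₂, Ideal.Quotient.eq_zero_iff_mem.mpr hG, Polynomial.eval₂_at_zero,
    map_zero, RingHom.comp_apply, Ideal.Quotient.eq_zero_iff_mem] at h0
  have e : toB C ((polA C hM G).coeff 0) =
      (-1 : BRing (q * M) C.O) ^ q * toB C (normA C hM G) := by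
    rw [← Polynomial.coeff_map, polA_map, polB, Polynomial.coeff_zero_eq_eval_zero,
      Polynomial.eval_prod]
    simp only [Polynomial.eval_sub, Polynomial.eval_X, Polynomial.eval_C, zero_sub]
    rw [Finset.prod_neg, Finset.card_univ, ZMod.card]
    rfl
  have e' : normA C hM G = (-1) ^ q * (polA C hM G).coeff 0 := by
    refine Subring.inclusion_injective (fun _ hf => hf.2.1 : L0 C ≤ BRing (q * M) C.O) ?_
    show toB C _ = toB C _
    rw [map_mul, map_pow, map_neg, map_one, e, ← mul_assoc, ← mul_pow, neg_one_mul, neg_neg,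
      one_pow, one_mul]
  rw [e']
  exact Ideal.mul_mem_left _ _ h0

/-- Vanishes where `G` vanishes on the component at `∞`. -/
def fI (G : A0 C) : BRing M C.O :=
  trB (hasseL haux hM C.root C.zeta * toL C (normA C hM G))

/-- Vanishes where `G` vanishes on the other component. -/
def fZ (G : A0 C) : BRing M C.O :=
  trB (hasseL haux hM C.root C.zeta * atkinEquiv hM C.zeta (toL C (normA C hM G)))

include hqm in
theorem unitCoeff_trB {x : LRing q M C.O} (hx : resSer M C.O q (cusp hM .inf 1) x ≠ 0) :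
    P.UnitCoeff (lexp M 1 (trB (hasseL haux hM C.root C.zeta * x) : ℍ → ℂ)) := by
  set u := trB (hasseL haux hM C.root C.zeta * x)
  refine unitCoeff_of_not_serLT (fun i => C.cdvr.le (u.2.2 1 i)) fun h => ?_
  have h1 := expandL_resCusp_trB C haux hM x 1
  rw [show resCusp M C.O 1 u = 0 from
    liftSer_residue_eq_zero C.cdvr (by rw [ES.liftSer_cuspSer]; exact h), map_zero] at h1
  exact mul_ne_zero (wBar_ne_zero C haux hM hqm 1) hx h1.symm

include hqm in
/-- `fI G` has a unit coefficient when `G` is not in the component at `∞`. -/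
theorem unitCoeff_fI {G : A0 C} (hG : G ∉ PT C hM .inf) :
    P.UnitCoeff (lexp M 1 (fI C haux hM G : ℍ → ℂ)) :=
  unitCoeff_trB C haux hM hqm (fun h => hG (eq_zero_of_pow_eq_zero
    ((rho_inf_norm C haux hM 1 G).symm.trans h)))

include hqm in
/-- `fZ G` has a unit coefficient when `G` is in neither of the other components. -/
theorem unitCoeff_fZ {G : A0 C} (hZ : G ∉ PT C hM .zero) (hMd : G ∉ PT C hM .mid) :
    P.UnitCoeff (lexp M 1 (fZ C haux hM G : ℍ → ℂ)) := by
  refine unitCoeff_trB C haux hM hqm fun h => ?_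
  have h1 : rho C hM .zero 1 (inclL C (normA C hM G)) ≠ 0 := by
    rw [rho_norm C haux hM (t := .zero) (by decide)]
    exact mul_ne_zero hZ (pow_ne_zero _ hMd)
  refine h1 ?_
  rw [rho_zero_one C haux hM, resA_inclL]
  refine expandL_injective q ?_
  rw [map_zero, ← h]
  have e : resSer M C.O q (cusp hM .inf 1) (atkinEquiv hM C.zeta (toL C (normA C hM G))) =
      resSer M C.O q 1 (atkinEquiv hM C.zeta (toL C (normA C hM G))) := by
    have h2 := resA_eq_rho C haux hM (t := .inf) (isTyp_inf_iff.mpr (one_mem (Gamma0 q)))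
      (η := 1) rfl (inclL C (atkin0 C haux hM (normA C hM G)))
    rw [rho, resA_inclL, resA_inclL, toL_atkin0] at h2
    exact h2.symm
  rw [e]
  show expandL q (liftSer _ _) = liftSer _ (serO M C.O q 1 (atkinL hM C.zeta _))
  rw [serO_atkinL, liftSer_expandL]

include hqm in
/-- Good zeros of `fI G` give good parameters at the zeros of `G` on the component at `∞`. -/
theorem goodI_of_goodFor {G : A0 C} (hgood : GoodFor haux C.O q (fI C haux hM G : ℍ → ℂ))
    {𝔪 : Ideal (A0 C)} (h𝔪 : 𝔪.IsMaximal) (hq𝔪 : (q : A0 C) ∈ 𝔪) (hG : G ∈ 𝔪)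
    (hI : pI C hM ≤ nOf C 𝔪) : GoodI C haux (nOf C 𝔪) := by
  have := nOf_isMaximal C hM h𝔪
  have hqn := q_mem_nOf C hq𝔪
  set L := liftN C haux hM hqn
  have hmem : raiseL M (fI C haux hM G) ∈ L := by
    have h1 := pInf_le_liftN C haux hM hqm hqn hI
      (eta_mul_sub_mem_pInf C.cdvr.le haux hM C.root C.zeta (toL C (normA C hM G)))
    have h2 := sub_mem (Ideal.mul_mem_left L (raiseL M (eta haux hM C.root C.zeta))
      ((toL_mem_liftN C haux hM hqn).mpr (normA_mem_nOf C hM hG))) h1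
    rwa [sub_sub_cancel] at h2
  obtain ⟨τ, hg, ht⟩ := hgood C.root (fI C haux hM G).2 L (liftN_isMaximal C haux hM hqn)
    (q_mem_liftN C haux hM hqn) hmem
  exact ⟨τ, hg, (mem_liftN C haux hM hqn).mp ht⟩

include hqm in
/-- Good zeros of `fZ G` give good parameters at the zeros of `G` on the other component. -/
theorem goodZ_of_goodFor {G : A0 C} (hgood : GoodFor haux C.O q (fZ C haux hM G : ℍ → ℂ))
    {𝔪 : Ideal (A0 C)} (h𝔪 : 𝔪.IsMaximal) (hq𝔪 : (q : A0 C) ∈ 𝔪) (hG : G ∈ 𝔪)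
    (hZ : pZ C hM ≤ nOf C 𝔪) : GoodZ C haux hM (nOf C 𝔪) := by
  have := nOf_isMaximal C hM h𝔪
  have hqn := q_mem_nOf C hq𝔪
  set L := liftN C haux hM hqn
  have := liftN_isMaximal C haux hM hqn
  set Ee : LRing q M C.O ≃+* LRing q M C.O := atkinEquiv hM C.zeta
  set 𝔫 := L.comap (Ee.symm : LRing q M C.O →+* LRing q M C.O)
  have hn : 𝔫.IsMaximal := Ideal.comap_isMaximal_of_surjective _ Ee.symm.surjective
  have hinf : pInf C.cdvr.le ≤ 𝔫 := fun f hf => pZero_le_liftN C haux hM hqm hqn hZ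
    (mem_pZero_of_atkinL C.cdvr.le hM C.zeta (show Ee (Ee.symm f) ∈ pInf C.cdvr.le by
      rwa [Ee.apply_symm_apply]))
  have hmem : raiseL M (fZ C haux hM G) ∈ 𝔫 := by
    have h1 := hinf (eta_mul_sub_mem_pInf C.cdvr.le haux hM C.root C.zeta
      (Ee (toL C (normA C hM G))))
    have h0 : Ee (toL C (normA C hM G)) ∈ 𝔫 := by
      show Ee.symm (Ee (toL C (normA C hM G))) ∈ L
      rw [Ee.symm_apply_apply]
      exact (toL_mem_liftN C haux hM hqn).mpr (normA_mem_nOf C hM hG)
    have h2 := sub_mem (Ideal.mul_mem_left 𝔫 (raiseL M (eta haux hM C.root C.zeta)) h0) h1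
    rwa [sub_sub_cancel] at h2
  obtain ⟨τ, hg, ht⟩ := hgood C.root (fZ C haux hM G).2 𝔫 hn (by
    show Ee.symm (q : LRing q M C.O) ∈ L
    rw [map_natCast]
    exact q_mem_liftN C haux hM hqn) hmem
  refine ⟨τ, hg, ?_⟩
  have hEd : Ee.symm (raiseL M (tPar haux C.root hg)) = dilL hM C.zeta (tPar haux C.root hg) := by
    rw [RingEquiv.symm_apply_eq]
    refine Subtype.ext ?_
    show (tPar haux C.root hg : ℍ → ℂ) = atkin hM (dilFun q (tPar haux C.root hg : ℍ → ℂ))
    rw [coe_tPar, ES.hauptSub, map_sub, map_sub, atkin_dilFun_haupt hM haux hqm]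
    rfl
  rw [← mem_liftN C haux hM hqn, ← hEd]
  exact ht

/-! ### Independence of the coefficient rings -/

variable (C' : Coef M P)

theorem mem_PT_congr {t : Typ} {z : A0 C} {z' : A0 C'} (h : (z : ℍ → ℂ) = z')
    (hz : z ∈ PT C hM t) : z' ∈ PT C' hM t := by
  have h1 : P.SerLT (serA C (cusp hM t 1) z) := (mem_smA C).mp ((resA_eq_zero_iff C).mp hz)
  refine (resA_eq_zero_iff C').mpr ((mem_smA C').mpr ?_)
  rwa [serA_apply, ← h, ← serA_apply]

theorem coe_normA_congr {z : A0 C} {z' : A0 C'} (h : (z : ℍ → ℂ) = z') :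
    (normA C hM z : ℍ → ℂ) = normA C' hM z' := by
  rw [coe_normA', coe_normA', h]

/-- `fI G` does not depend on the coefficient rings. -/
theorem coe_fI_congr {G : A0 C} {G' : A0 C'} (h : (G : ℍ → ℂ) = G') :
    (fI C haux hM G : ℍ → ℂ) = fI C' haux hM G' := by
  show trL q M (hasseFun haux q * (normA C hM G : ℍ → ℂ)) =
    trL q M (hasseFun haux q * (normA C' hM G' : ℍ → ℂ))
  rw [coe_normA_congr C hM C' h]

/-- `fZ G` does not depend on the coefficient rings. -/
theorem coe_fZ_congr {G : A0 C} {G' : A0 C'} (h : (G : ℍ → ℂ) = G') :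
    (fZ C haux hM G : ℍ → ℂ) = fZ C' haux hM G' := by
  show trL q M (hasseFun haux q * atkin hM (normA C hM G : ℍ → ℂ)) =
    trL q M (hasseFun haux q * atkin hM (normA C' hM G' : ℍ → ℂ))
  rw [coe_normA_congr C hM C' h]

variable (hσ : ∀ a, (C.D a).σ = (C'.D a).σ)
include hσ

theorem coe_avgL_congr {f : LRing q M C.O} {f' : LRing q M C'.O} (h : (f : ℍ → ℂ) = f') :
    (avgL C haux f : ℍ → ℂ) = avgL C' haux f' := by
  refine ES.lexp_injective (avgL C haux f).2.1.1.1.1 (avgL C' haux f').2.1.1.1.1 (γ := 1)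
    (HahnSeries.ext (funext fun k => ?_))
  have e : ∀ (D : Coef M P) (g : LRing q M D.O),
      (lexp (q * M) 1 (avgL D haux g : ℍ → ℂ)).coeff k =
        D.avg ((lexp (q * M) 1 (g : ℍ → ℂ)).coeff k) := fun D g => by
    have h1 := serI_avgI D haux (ofLRing lamD_le g) k
    rw [← ofLRing_avgLR] at h1
    exact h1
  rw [e, e, h]
  show ((q - 1 : ℕ) : ℂ)⁻¹ * ∑ a, (C.D a).σ _ = ((q - 1 : ℕ) : ℂ)⁻¹ * ∑ a, (C'.D a).σ _
  simp only [hσ]

theorem coe_lop_congr {z : L0 C} {z' : L0 C'} (h : (z : ℍ → ℂ) = z') :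
    (lop C haux hM z : ℍ → ℂ) = lop C' haux hM z' := by
  refine coe_avgL_congr C haux C' hσ ?_
  show trL q M (hasseFun haux q * (z : ℍ → ℂ)) = trL q M (hasseFun haux q * (z' : ℍ → ℂ))
  rw [h]

variable {n : ℕ} (E : Elt P hM n) (hE : E.Over C) (hE' : E.Over C') {ξ : C.O0} {ξ' : C'.O0}

/-- The glued function does not depend on the coefficient rings. -/
theorem coe_gA_congr (hξ : (ξ : ℂ) = ξ') :
    (gA C haux hM E hE ξ : ℍ → ℂ) = gA C' haux hM E hE' ξ' := by
  have e1 : (eInf C haux hM : ℍ → ℂ) = eInf C' haux hM := rfl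
  have e2 : (eMid C haux hM : ℍ → ℂ) = eMid C' haux hM := rfl
  have e3 : (eZero C haux hM : ℍ → ℂ) = eZero C' haux hM := rfl
  have e4 : (vA C hM E hE : ℍ → ℂ) = vA C' hM E hE' := rfl
  have e5 : (uA C haux hM E hE : ℍ → ℂ) = uA C' haux hM E hE' := rfl
  have e6 : (wA C haux hM : ℍ → ℂ) = wA C' haux hM := coe_avgL_congr C haux C' hσ rfl
  have e7 : (xV C haux hM E hE : ℍ → ℂ) = xV C' haux hM E hE' :=
    coe_lop_congr C haux hM C' hσ rfl
  have e8 : (constA C ξ : ℍ → ℂ) = constA C' ξ' := by rw [coe_constA, coe_constA, hξ]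
  simp only [gA, Subring.coe_add, Subring.coe_mul, SubmonoidClass.coe_pow, e1, e2, e3, e4, e5, e6,
    e7, e8]

/-- The comparing root of unity does not depend on the coefficient rings. -/
theorem isXi_congr (hξ : (ξ : ℂ) = ξ') (h : IsXi C haux hM E hE ξ) :
    IsXi C' haux hM E hE' ξ' := by
  refine ⟨Subtype.ext ?_, mem_PT_congr C hM C' ?_ h.congr⟩
  · have h1 := congrArg (fun z : C.O0 => (z : ℂ)) h.pow_eq
    simpa [← hξ] using h1
  have e4 : (vA C hM E hE : ℍ → ℂ) = vA C' hM E hE' := rfl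
  have e5 : (uA C haux hM E hE : ℍ → ℂ) = uA C' haux hM E hE' := rfl
  have e6 : (xU C haux hM E hE : ℍ → ℂ) = xU C' haux hM E hE' :=
    coe_lop_congr C haux hM C' hσ rfl
  have e7 : (xV C haux hM E hE : ℍ → ℂ) = xV C' haux hM E hE' :=
    coe_lop_congr C haux hM C' hσ rfl
  simp only [AddSubgroupClass.coe_sub, Subring.coe_mul, SubmonoidClass.coe_pow, e4, e5, e6, e7,
    coe_constA, hξ]

end FermatAgent.BAD.Sq

end
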