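import Fermat.Agent.BAD.Sq.Level0
import Fermat.Agent.BAD.Diamond.Complete

/-!
# The closed points of the special fibre of the model and their components

A maximal ideal over `q` contains one or all of the three components; it is determined by its
trace on `L0` exactly when that contains the component at `∞`.
-/

set_option autoImplicit false

open UpperHalfPlane CongruenceSubgroup IsLocalRing
open scoped MatrixGroups

noncomputable section

namespace FermatAgent.BAD.Sq

open FermatAgent.ES (BSub BRing SerIn HasLExp lexp lexp_eq hasLExp_lexp lexp_act act zetaC AuxLevel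
  CPlace GoodPoint modMat liftSer cuspSer)

variable {q M m : ℕ} [hq : Fact q.Prime] [NeZero M] {P : CPlace q}
variable (C : Coef M P) (haux : AuxLevel M m) (hM : M.Coprime q) (hqm : q ≠ m)

/-- The algebra structure of the model over `L0`. -/
abbrev algL0 : Algebra (L0 C) (A0 C) := (inclL C).toAlgebra

include hM in
theorem isIntegral_A0 : letI := algL0 C; Algebra.IsIntegral (L0 C) (A0 C) := by
  let := algL0 C
  exact ⟨fun f => ⟨polA C hM f, polA_monic C hM f, eval_polA C hM f⟩⟩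

/-- The maximal ideals of the model over `q`, on `L0`. -/
abbrev nOf (𝔪 : Ideal (A0 C)) : Ideal (L0 C) := 𝔪.comap (inclL C)

include hM in
/-- A maximal ideal of the model lies over a maximal ideal of `L0`. -/
theorem nOf_isMaximal {𝔪 : Ideal (A0 C)} (h : 𝔪.IsMaximal) : (nOf C 𝔪).IsMaximal := by
  let := algL0 C
  have := isIntegral_A0 C hM
  have := h
  exact Ideal.isMaximal_comap_of_isIntegral_of_isMaximal (R := L0 C) 𝔪

/-- An ideal over `q` lies over an ideal over `q`. -/
theorem q_mem_nOf {𝔪 : Ideal (A0 C)} (hq𝔪 : (q : A0 C) ∈ 𝔪) : (q : L0 C) ∈ nOf C 𝔪 := by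
  show inclL C (q : L0 C) ∈ 𝔪
  rw [map_natCast]; exact hq𝔪

include haux hqm in
/-- On the component at `∞` the norm is the `q`-th power. -/
theorem pow_q_sub_normA_mem (z : A0 C) : z ^ q - inclL C (normA C hM z) ∈ PT C hM .inf := by
  rw [mem_PT_iff C haux hM hqm 1, map_sub, map_pow, rho_inf_norm C haux hM, sub_self]

include haux in
/-- An element small on the component at `∞` is nilpotent modulo the trace of that component. -/
theorem PT_inf_le {𝔪 : Ideal (A0 C)} (h𝔪 : 𝔪.IsPrime) (hI : pI C hM ≤ nOf C 𝔪) :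
    PT C hM .inf ≤ 𝔪 := by
  intro p hp
  have hp0 : rho C hM .inf 1 p = 0 := hp
  set φ := (Ideal.Quotient.mk 𝔪).comp (inclL C) with hφ
  set ψ := (rho C hM .inf 1).comp (inclL C) with hψ
  have hmap : (polA C hM p).map ψ = Polynomial.X ^ q := by
    rw [show ψ = (resB C (cusp hM .inf 1)).comp (toB C) from rfl, ← Polynomial.map_map, polA_map,
      polB, Polynomial.map_prod, Finset.prod_congr rfl fun j _ => show
        ((Polynomial.X - Polynomial.C (tA C j p)).map (resB C (cusp hM .inf 1))) = Polynomial.X by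
      rw [Polynomial.map_sub, Polynomial.map_X, Polynomial.map_C, resB_tA,
        translate_inf C haux hM (isTyp_cusp hM .inf 1) (modMat_cusp hM .inf 1), hp0, map_zero,
        sub_zero], Finset.prod_const, Finset.card_univ, ZMod.card]
  have hzero : ∀ c, ψ c = 0 → φ c = 0 := fun c hc =>
    Ideal.Quotient.eq_zero_iff_mem.mpr (hI (RingHom.mem_ker.mpr hc : inclL C c ∈ PT C hM .inf))
  have hmap' : (polA C hM p).map φ = Polynomial.X ^ q := by
    ext i
    have h1 := congrArg (fun f => Polynomial.coeff f i) hmap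
    simp only [Polynomial.coeff_map, Polynomial.coeff_X_pow] at h1 ⊢
    split_ifs at h1 ⊢ with hi
    · have h2 := hzero ((polA C hM p).coeff i - 1) (by rw [map_sub, h1, map_one, sub_self])
      rwa [map_sub, map_one, sub_eq_zero] at h2
    · exact hzero _ h1
  have h0 := congrArg (Ideal.Quotient.mk 𝔪) (eval_polA C hM p)
  rw [Polynomial.hom_eval₂, ← Polynomial.eval_map, ← hφ, hmap', Polynomial.eval_pow,
    Polynomial.eval_X, map_zero, ← map_pow, Ideal.Quotient.eq_zero_iff_mem] at h0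
  exact h𝔪.mem_of_pow_mem _ h0

include haux hqm in
/-- Over the component at `∞` there is only one maximal ideal. -/
theorem eq_of_nOf_eq {𝔪 𝔪' : Ideal (A0 C)} (h𝔪 : 𝔪.IsMaximal) (h𝔪' : 𝔪'.IsMaximal)
    (hI : pI C hM ≤ nOf C 𝔪) (he : nOf C 𝔪' = nOf C 𝔪) : 𝔪' = 𝔪 := by
  refine h𝔪'.eq_of_le h𝔪.ne_top fun z hz => ?_
  have h1 := PT_inf_le C haux hM h𝔪'.isPrime (he.symm ▸ hI)
    (pow_q_sub_normA_mem C haux hM hqm z)
  have h2 : normA C hM z ∈ nOf C 𝔪' := by
    have h3 := sub_mem (𝔪'.pow_mem_of_mem hz q hq.out.pos) h1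
    rwa [sub_sub_cancel] at h3
  rw [he] at h2
  have h4 := PT_inf_le C haux hM h𝔪.isPrime hI (pow_q_sub_normA_mem C haux hM hqm z)
  have h5 := add_mem h4 (show inclL C (normA C hM z) ∈ 𝔪 from h2)
  rw [sub_add_cancel] at h5
  exact h𝔪.isPrime.mem_of_pow_mem _ h5

/-- A point of the component at `∞` lies over that of `L0`. -/
theorem PT_le_imp_pI {𝔪 : Ideal (A0 C)} (h : PT C hM .inf ≤ 𝔪) : pI C hM ≤ nOf C 𝔪 :=
  Ideal.comap_mono h

include haux hqm in
/-- A point of another component lies over the other component of `L0`. -/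
theorem PT_le_imp_pZ {t : Typ} (ht : t ≠ .inf) {𝔪 : Ideal (A0 C)} (h : PT C hM t ≤ 𝔪) :
    pZ C hM ≤ nOf C 𝔪 := by
  intro z hz
  refine h ?_
  cases t with
  | inf => exact absurd rfl ht
  | zero => exact hz
  | mid => exact (mem_pZ_iff_mid C haux hM hqm).mp hz

include haux hqm in
/-- Where both components of `L0` pass, all three components of the model pass. -/
theorem PT_le_of_both {𝔪 : Ideal (A0 C)} (h𝔪 : 𝔪.IsMaximal) (hI : pI C hM ≤ nOf C 𝔪)
    (hZ : pZ C hM ≤ nOf C 𝔪) (t : Typ) : PT C hM t ≤ 𝔪 := by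
  rcases eq_or_ne t .inf with rfl | ht
  · exact PT_inf_le C haux hM h𝔪.isPrime hI
  let := algL0 C
  have := isIntegral_A0 C hM
  have := (nOf_isMaximal C hM h𝔪).isPrime
  have hle : (PT C hM t).comap (algebraMap (L0 C) (A0 C)) ≤ nOf C 𝔪 := by
    intro z hz
    refine hZ ?_
    cases t with
    | inf => exact absurd rfl ht
    | zero => exact hz
    | mid => exact (mem_pZ_iff_mid C haux hM hqm).mpr hz
  obtain ⟨Q, hQ, hQp, hQc⟩ := Ideal.exists_ideal_over_prime_of_isIntegral (nOf C 𝔪) (PT C hM t) hle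
  have := hQp
  have : (Q.comap (algebraMap (L0 C) (A0 C))).IsMaximal := hQc ▸ nOf_isMaximal C hM h𝔪
  have hQm : Q.IsMaximal := Ideal.isMaximal_of_isIntegral_of_isMaximal_comap (R := L0 C) Q ‹_›
  rw [eq_of_nOf_eq C haux hM hqm h𝔪 hQm hI hQc] at hQ
  exact hQ

/-- The involution permutes the maximal ideals. -/
theorem isMaximal_comap_sigA {𝔪 : Ideal (A0 C)} (h : 𝔪.IsMaximal) :
    (𝔪.comap (sigA C haux hM)).IsMaximal :=
  haveI := h
  Ideal.comap_isMaximal_of_surjective _ fun z => ⟨sigA C haux hM z, sigA_sigA C haux hM z⟩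

include hqm in
/-- The involution exchanges the components. -/
theorem PT_le_comap_sigA {𝔪 : Ideal (A0 C)} {t : Typ} (h : PT C hM t.swap ≤ 𝔪) :
    PT C hM t ≤ 𝔪.comap (sigA C haux hM) := fun z hz =>
  h ((sigA_mem_PT_iff C haux hM hqm).mpr (by rwa [Typ.swap_swap]))

include hqm in
/-- The involution exchanges the components, conversely. -/
theorem PT_le_of_comap_sigA {𝔪 : Ideal (A0 C)} {t : Typ}
    (h : PT C hM t.swap ≤ 𝔪.comap (sigA C haux hM)) : PT C hM t ≤ 𝔪 := fun z hz => by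
  have h1 := h ((sigA_mem_PT_iff C haux hM hqm).mpr (by rwa [Typ.swap_swap]) :
    sigA C haux hM z ∈ PT C hM t.swap)
  rwa [Ideal.mem_comap, sigA_sigA] at h1

include haux hqm in
/-- Two components meet only where all three meet. -/
theorem PT_le_of_two {𝔪 : Ideal (A0 C)} (h𝔪 : 𝔪.IsMaximal) {s t : Typ} (hst : s ≠ t)
    (hs : PT C hM s ≤ 𝔪) (ht : PT C hM t ≤ 𝔪) (u : Typ) : PT C hM u ≤ 𝔪 := by
  have key : ∀ {𝔪 : Ideal (A0 C)}, 𝔪.IsMaximal → PT C hM .inf ≤ 𝔪 → ∀ {t : Typ}, t ≠ .inf →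
      PT C hM t ≤ 𝔪 → ∀ u, PT C hM u ≤ 𝔪 := fun h hI _ ht hZ u =>
    PT_le_of_both C haux hM hqm h (PT_le_imp_pI C hM hI) (PT_le_imp_pZ C haux hM hqm ht hZ) u
  rcases eq_or_ne s .inf with rfl | hs'
  · exact key h𝔪 hs hst.symm ht u
  rcases eq_or_ne t .inf with rfl | ht'
  · exact key h𝔪 ht hst hs u
  have hzm : PT C hM .zero ≤ 𝔪 ∧ PT C hM .mid ≤ 𝔪 := by
    cases s <;> cases t
    all_goals first
      | exact absurd rfl hst
      | exact absurd rfl hs'
      | exact absurd rfl ht'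
      | exact ⟨hs, ht⟩
      | exact ⟨ht, hs⟩
  have h2 := key (isMaximal_comap_sigA C haux hM h𝔪)
    (PT_le_comap_sigA C haux hM hqm (t := .inf) hzm.1) (t := .mid) (by decide)
    (PT_le_comap_sigA C haux hM hqm (t := .mid) hzm.2)
  exact key h𝔪 (PT_le_of_comap_sigA C haux hM hqm (t := .inf) (h2 .zero)) (t := .zero) (by decide)
    hzm.1 u

include haux hqm in
/-- A function small on all components lies in every maximal ideal over `q`. -/
theorem mem_of_forall_PT {𝔪 : Ideal (A0 C)} (h𝔪 : 𝔪.IsPrime) (hq𝔪 : (q : A0 C) ∈ 𝔪) {z : A0 C}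
    (hz : ∀ t, z ∈ PT C hM t) : z ∈ 𝔪 :=
  (Ideal.IsPrime.radical_le_iff h𝔪).mpr (Ideal.span_le.mpr (Set.singleton_subset_iff.mpr hq𝔪))
    ((mem_radical_iff C haux hM hqm z).mpr hz)

include haux hqm in
/-- A prime over `q` contains a component. -/
theorem exists_PT_le {𝔪 : Ideal (A0 C)} (h𝔪 : 𝔪.IsPrime) (hq𝔪 : (q : A0 C) ∈ 𝔪) :
    ∃ t, PT C hM t ≤ 𝔪 := by
  by_contra hne
  push Not at hne
  choose p hp hp' using fun t => SetLike.not_le_iff_exists.mp (hne t)
  have h := mem_of_forall_PT C haux hM hqm h𝔪 hq𝔪 (z := p .inf * p .zero * p .mid) fun t => by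
    cases t with
    | inf => exact Ideal.mul_mem_right _ _ (Ideal.mul_mem_right _ _ (hp _))
    | zero => exact Ideal.mul_mem_right _ _ (Ideal.mul_mem_left _ _ (hp _))
    | mid => exact Ideal.mul_mem_left _ _ (hp _)
  exact (h𝔪.mem_or_mem h).elim (fun h => (h𝔪.mem_or_mem h).elim (hp' _) (hp' _)) (hp' _)

/-! ### Functions of level `M` -/

include hM in
/-- The residual expansion of an average. -/
theorem resA_inclL_avgL (γ : SL(2, ℤ)) (f : LRing q M C.O) :
    resA C γ (inclL C (avgL C haux f)) = resSer M C.O q γ f := by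
  rw [resA_inclL]
  have h := serLT_avgLR_sub C haux hM f γ
  rw [← sub_eq_zero, ← map_sub]
  exact liftSer_residue_eq_zero C.cdvr (by rw [liftSer_serO]; exact h)

/-- The residual expansions of level `M` depend only on the cusp of level `M`. -/
theorem resCusp_congr {γ η : SL(2, ℤ)} (h : modMat M γ = modMat M η) (u : BRing M C.O) :
    resCusp M C.O γ u = resCusp M C.O η u := by
  show liftSer _ (cuspSer C.O γ u) = liftSer _ (cuspSer C.O η u)
  congr 1
  refine ES.liftSer_injective C.O.subtype_injective ?_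
  rw [ES.liftSer_cuspSer, ES.liftSer_cuspSer]
  obtain ⟨δ, hδ, rfl⟩ : ∃ δ ∈ Gamma M, γ = δ * η := ⟨γ * η⁻¹, ES.mem_Gamma_of_modMat (by
    rw [ES.modMat_mul, h, ← ES.modMat_mul, mul_inv_cancel, ES.modMat_eq_one_of_mem (one_mem _)]),
    by group⟩
  rw [← lexp_act, u.2.1.1 δ hδ]

/-- Functions of level `M` have the same residual expansion on all components. -/
theorem rho_avgL_raiseL (t : Typ) (η : SL(2, ℤ)) (u : BRing M C.O) :
    rho C hM t η (inclL C (avgL C haux (raiseL M u))) = expandL q (resCusp M C.O η u) := by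
  rw [rho, resA_inclL_avgL C haux hM, resSer_raiseL, resCusp_congr C (modMat_cusp hM t η)]

include hqm in
theorem sigA_avgL_raiseL_sub_mem (u : BRing M C.O) (t : Typ) :
    sigA C haux hM (inclL C (avgL C haux (raiseL M u))) -
      inclL C (avgL C haux (raiseL M u)) ∈ PT C hM t := by
  rw [mem_PT_iff C haux hM hqm 1, map_sub, rho_sigA, rho_avgL_raiseL, rho_avgL_raiseL, sub_self]

/-! ### Good parameters -/

/-- A good parameter on the component at `∞` vanishes at `n`. -/
def GoodI (n : Ideal (L0 C)) : Prop :=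
  ∃ (τ : ℍ) (hg : GoodPoint haux C.O τ), avgL C haux (raiseL M (tPar haux C.root hg)) ∈ n

/-- A good parameter on the other component vanishes at `n`. -/
def GoodZ (n : Ideal (L0 C)) : Prop :=
  ∃ (τ : ℍ) (hg : GoodPoint haux C.O τ), avgL C haux (dilL hM C.zeta (tPar haux C.root hg)) ∈ n

section Gen

variable {n : Ideal (L0 C)} [hn : n.IsMaximal] (hqn : (q : L0 C) ∈ n)
include hqn hqm

/-- **The parameter on the component at `∞`.** -/
theorem gen_pI {τ : ℍ} (hg : GoodPoint haux C.O τ)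
    (ht : avgL C haux (raiseL M (tPar haux C.root hg)) ∈ n) (hI : pI C hM ≤ n) (z : L0 C) :
    ∃ s ∉ n, ∃ (c : C.O0) (x : L0 C), s * (z - constL0 C c) -
      avgL C haux (raiseL M (tPar haux C.root hg)) * x ∈ pI C hM := by
  have := liftN_isMaximal C haux hM hqn
  obtain ⟨s, hs, c, x, hx⟩ := exists_inf_param haux C.root C.cdvr.le C.cdvr hM hg
    (pInf_le_liftN C haux hM hqm hqn hI) ((mem_liftN C haux hM hqn).mpr ht) C.zeta hqm (toL C z)
  refine ⟨avgL C haux s, fun h => hs (Ideal.mem_comap.mpr ((mem_liftN C haux hM hqn).mpr h)),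
    ⟨C.avg c, C.avg_mem c.2⟩, avgL C haux x, ?_⟩
  have h1 : avgQ C haux hM (q_mem_pI C hM)
      (s * (toL C z - constL c) - raiseL M (tPar haux C.root hg) * x) = 0 :=
    Ideal.Quotient.eq_zero_iff_mem.mpr (avgL_mem_pI C haux hM hqm hx)
  have e : ∀ f, avgQ C haux hM (q_mem_pI C hM) f =
      Ideal.Quotient.mk (pI C hM) (avgL C haux f) := fun _ => rfl
  simp only [map_sub, map_mul] at h1
  simp only [e, avgL_toL, avgL_constL] at h1
  rw [← Ideal.Quotient.eq_zero_iff_mem]
  simpa only [map_sub, map_mul] using h1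

/-- Every maximal ideal over the component at `∞` is fixed by a level `M` congruence. -/
theorem levelM_pI (hG : GoodI C haux n) (hI : pI C hM ≤ n) (z : L0 C) :
    ∃ w u : BRing M C.O, avgL C haux (raiseL M w) ∉ n ∧
      avgL C haux (raiseL M w) * z - avgL C haux (raiseL M u) ∈ pI C hM := by
  have := liftN_isMaximal C haux hM hqn
  obtain ⟨τ, hg, ht⟩ := hG
  obtain ⟨w, u, hw, hrel⟩ := exists_levelM_congr haux C.root C.cdvr.le C.cdvr hM hg
    (pInf_le_liftN C haux hM hqm hqn hI) ((mem_liftN C haux hM hqn).mpr ht) C.zeta hqm (toL C z)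
  refine ⟨w, u, fun h => hw ((mem_liftN C haux hM hqn).mpr h), ?_⟩
  have h1 : avgQ C haux hM (q_mem_pI C hM) (raiseL M w * toL C z - raiseL M u) = 0 :=
    Ideal.Quotient.eq_zero_iff_mem.mpr (avgL_mem_pI C haux hM hqm hrel)
  have e : ∀ f, avgQ C haux hM (q_mem_pI C hM) f =
      Ideal.Quotient.mk (pI C hM) (avgL C haux f) := fun _ => rfl
  simp only [map_sub, map_mul] at h1
  simp only [e, avgL_toL] at h1
  rw [← Ideal.Quotient.eq_zero_iff_mem]
  simpa only [map_sub, map_mul] using h1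

/-- **The parameter on the other component.** -/
theorem gen_pZ {τ : ℍ} (hg : GoodPoint haux C.O τ)
    (ht : avgL C haux (dilL hM C.zeta (tPar haux C.root hg)) ∈ n) (hZ : pZ C hM ≤ n)
    (z : L0 C) : ∃ s ∉ n, ∃ (c : C.O0) (x : L0 C), s * (z - constL0 C c) -
      avgL C haux (dilL hM C.zeta (tPar haux C.root hg)) * x ∈ pZ C hM := by
  have := liftN_isMaximal C haux hM hqn
  set 𝔪 := liftN C haux hM hqn
  set E : LRing q M C.O ≃+* LRing q M C.O := atkinEquiv hM C.zeta
  set 𝔫 := 𝔪.comap (E.symm : LRing q M C.O →+* LRing q M C.O)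
  have : 𝔫.IsMaximal := Ideal.comap_isMaximal_of_surjective _ E.symm.surjective
  have hEd : E.symm (raiseL M (tPar haux C.root hg)) = dilL hM C.zeta (tPar haux C.root hg) := by
    rw [RingEquiv.symm_apply_eq]
    refine Subtype.ext ?_
    show (tPar haux C.root hg : ℍ → ℂ) = atkin hM (dilFun q (tPar haux C.root hg : ℍ → ℂ))
    rw [coe_tPar, ES.hauptSub, map_sub, map_sub, atkin_dilFun_haupt hM haux hqm]
    rfl
  have hinf' : pInf C.cdvr.le ≤ 𝔫 := fun f hf => Ideal.mem_comap.mpr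
    (pZero_le_liftN C haux hM hqm hqn hZ
      (mem_pZero_of_atkinL C.cdvr.le hM C.zeta (show E (E.symm f) ∈ pInf C.cdvr.le by
        rwa [E.apply_symm_apply])))
  have ht' : raiseL M (tPar haux C.root hg) ∈ 𝔫 := by
    show E.symm (raiseL M (tPar haux C.root hg)) ∈ 𝔪
    rw [hEd]; exact (mem_liftN C haux hM hqn).mpr ht
  obtain ⟨s, hs, c, x, hx⟩ := exists_inf_param haux C.root C.cdvr.le C.cdvr hM hg
    hinf' ht' C.zeta hqm (E (toL C z))
  refine ⟨avgL C haux (E.symm s), fun h =>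
    hs (Ideal.mem_comap.mpr ((mem_liftN C haux hM hqn).mpr h)),
    ⟨C.avg c, C.avg_mem c.2⟩, avgL C haux (E.symm x), ?_⟩
  have h1 : avgQ C haux hM (q_mem_pZ C hM)
      (E.symm (s * (E (toL C z) - constL c) - raiseL M (tPar haux C.root hg) * x)) = 0 :=
    Ideal.Quotient.eq_zero_iff_mem.mpr (avgL_mem_pZ C haux hM hqm
      (mem_pZero_of_atkinL C.cdvr.le hM C.zeta (by
        show E (E.symm _) ∈ pInf C.cdvr.le
        rwa [E.apply_symm_apply])))
  have e : ∀ f, avgQ C haux hM (q_mem_pZ C hM) f =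
      Ideal.Quotient.mk (pZ C hM) (avgL C haux f) := fun _ => rfl
  have hEc : E.symm (constL c) = constL c :=
    E.symm_apply_eq.mpr (atkinEquiv_constL hM C.zeta c).symm
  simp only [map_sub, map_mul, hEd, hEc, RingEquiv.symm_apply_apply] at h1
  simp only [e, avgL_toL, avgL_constL] at h1
  rw [← Ideal.Quotient.eq_zero_iff_mem]
  simpa only [map_sub, map_mul] using h1

end Gen

include haux hqm in
/-- At a crossing point the involution fixes the maximal ideal. -/
theorem comap_sigA_eq {𝔪 : Ideal (A0 C)} (h𝔪 : 𝔪.IsMaximal) (hq𝔪 : (q : A0 C) ∈ 𝔪)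
    (hall : ∀ t, PT C hM t ≤ 𝔪) (hG : GoodI C haux (nOf C 𝔪)) :
    𝔪.comap (sigA C haux hM) = 𝔪 := by
  have := nOf_isMaximal C hM h𝔪
  have hσ := isMaximal_comap_sigA C haux hM h𝔪
  refine eq_of_nOf_eq C haux hM hqm h𝔪 hσ (PT_le_imp_pI C hM (hall .inf)) ?_
  refine (nOf_isMaximal C hM hσ).eq_of_le (nOf_isMaximal C hM h𝔪).ne_top fun z hz => ?_
  obtain ⟨w, u, hw, hrel⟩ := levelM_pI C haux hM hqm (q_mem_nOf C hq𝔪) hG
    (PT_le_imp_pI C hM (hall .inf)) z
  set W := inclL C (avgL C haux (raiseL M w))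
  set U := inclL C (avgL C haux (raiseL M u))
  have h1 : W * inclL C z - U ∈ PT C hM .inf := by
    rw [← map_mul, ← map_sub]; exact hrel
  have h2 := hall .zero ((sigA_mem_PT_iff C haux hM hqm).mpr
    (show W * inclL C z - U ∈ PT C hM Typ.zero.swap from h1))
  rw [map_sub, map_mul] at h2
  have hσz : sigA C haux hM (inclL C z) ∈ 𝔪 := hz
  have hWW : sigA C haux hM W - W ∈ 𝔪 := mem_of_forall_PT C haux hM hqm h𝔪.isPrime hq𝔪
    (sigA_avgL_raiseL_sub_mem C haux hM hqm w)
  have hUU : sigA C haux hM U - U ∈ 𝔪 := mem_of_forall_PT C haux hM hqm h𝔪.isPrime hq𝔪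
    (sigA_avgL_raiseL_sub_mem C haux hM hqm u)
  have hU : U ∈ 𝔪 := by
    have := sub_mem (sub_mem (𝔪.mul_mem_left (sigA C haux hM W) hσz) h2) hUU
    convert this using 1
    ring
  have hWz : W * inclL C z ∈ 𝔪 := by
    have := add_mem (hall .inf h1) hU
    rwa [sub_add_cancel] at this
  exact ((h𝔪.isPrime.mem_or_mem hWz).resolve_left hw)

end FermatAgent.BAD.Sq

end
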