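import Fermat.Agent.BAD.Sq.Coef
import Fermat.Agent.BAD.Sq.Group
import Fermat.Agent.BAD.Diamond.Normal
import Fermat.Agent.BAD.Diamond.Twist

/-!
# The functions on `Γ₀(q) ∩ Γ⁰(q) ∩ Γ(M)` with unramified coefficients

The model `A0` consists of the integral invariant functions whose expansion at `∞` is unramified,
`L0` of those on `Γ₀(q) ∩ Γ(M)`; the averages retract onto them, residual expansions depend only
on the type and the cusp of level `M`, and `A0` is Noetherian.
-/

set_option autoImplicit false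

open UpperHalfPlane CongruenceSubgroup IsLocalRing
open scoped MatrixGroups

noncomputable section

namespace FermatAgent.BAD.Sq

open FermatAgent.ES (BSub BRing SerIn HasLExp lexp lexp_eq hasLExp_lexp lexp_act act zetaC AuxLevel
  CPlace GalRel modMat mapSer twistSer liftSer)

variable {q M m : ℕ} [hq : Fact q.Prime] [NeZero M] {P : CPlace q}

/-! ### Conjugation -/

section Conj

variable {O : Subring ℂ} (D : InertData M P O) (haux : AuxLevel M m) (hM : M.Coprime q)

omit [NeZero M] in
theorem lamD_iff_of_galRel {γ γ' : SL(2, ℤ)} (h : GalRel (D.a : ZMod (q * M)) γ γ') :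
    γ ∈ lamD q M ↔ γ' ∈ lamD q M := by
  obtain ⟨-, -, g01, g10⟩ := galRel_ent h
  have ha : (D.a : ZMod q) ≠ 0 := (ES.isUnit_natCast_of_dvd (dvd_mul_right q M) D.unit).ne_zero
  rw [mem_lamD, mem_lamD, D.gamma_iff_of_dvd (dvd_mul_left M q) h, ← g10, g01]
  simp [ha]

/-- The conjugation on the invariant ring. -/
def conjS : InvRing q M O (lamD q M) →+* InvRing q M O (lamD q M) :=
  D.conjInv haux fun h h' => (lamD_iff_of_galRel D h).mpr h'

theorem serI_conjS (f : InvRing q M O (lamD q M)) {γ γ' : SL(2, ℤ)}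
    (h : GalRel (D.a : ZMod (q * M)) γ γ') :
    serI M O (lamD q M) q γ' (conjS D haux f) =
      mapSer (D.σ : ℂ →+* ℂ) (serI M O (lamD q M) q γ f) :=
  D.serI_conjInv haux (fun h h' => (lamD_iff_of_galRel D h).mpr h') f h

/-- Conjugation on functions of `Γ₀(q) ∩ Γ(M)`. -/
theorem conjS_ofLRing (f : LRing q M O) :
    conjS D haux (ofLRing lamD_le f) = ofLRing lamD_le (D.conjL haux f) := rfl

end Conj

variable (C : Coef M P) (haux : AuxLevel M m) (hM : M.Coprime q)

/-- The invariant functions with coefficients in the large ring. -/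
abbrev InvS : Subring (ℍ → ℂ) := InvRing q M C.O (lamD q M)

/-- **The ring of the model**: invariant functions whose expansion at `∞` has coefficients in the
unramified ring. -/
def A0 : Subring (ℍ → ℂ) where
  carrier := {f | f ∈ InvS C ∧ SerIn C.O0 (lexp (q * M) 1 f)}
  one_mem' := ⟨one_mem _, by
    rw [lexp_eq (M := q * M) (γ := 1) (s := 1) HasLExp.one]; exact SerIn.one⟩
  zero_mem' := ⟨zero_mem _, by
    rw [lexp_eq (M := q * M) (γ := 1) (s := 0) HasLExp.zero]; exact SerIn.zero⟩
  mul_mem' {f g} hf hg := ⟨mul_mem hf.1 hg.1, by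
    rw [lexp_eq ((hasLExp_lexp hf.1.1.1 1).mul (hasLExp_lexp hg.1.1.1 1))]
    exact hf.2.mul hg.2⟩
  add_mem' {f g} hf hg := ⟨add_mem hf.1 hg.1, by
    rw [lexp_eq ((hasLExp_lexp hf.1.1.1 1).add (hasLExp_lexp hg.1.1.1 1))]
    exact hf.2.add hg.2⟩
  neg_mem' {f} hf := ⟨neg_mem hf.1, by
    rw [lexp_eq (hasLExp_lexp hf.1.1.1 1).neg]
    exact hf.2.neg⟩

/-- The inclusion. -/
def inclS : A0 C →+* InvS C := Subring.inclusion fun _ hf => hf.1

theorem inclS_injective : Function.Injective (inclS C) := Subring.inclusion_injective _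

/-- Functions of the model are determined by their values. -/
theorem A0_ext {f g : A0 C} (h : (f : ℍ → ℂ) = g) : f = g := Subtype.ext h

/-- The expansion at the cusp `γ`. -/
def serA (γ : SL(2, ℤ)) : A0 C →+* LaurentSeries ℂ :=
  (serI M C.O (lamD q M) q γ).comp (inclS C)

/-- The expansion is that of level `q M`. -/
theorem serA_apply (γ : SL(2, ℤ)) (f : A0 C) : serA C γ f = lexp (q * M) γ (f : ℍ → ℂ) := rfl

/-- A function is determined by one expansion. -/
theorem serA_injective (γ : SL(2, ℤ)) : Function.Injective (serA C γ) :=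
  fun _ _ h => inclS_injective C (serI_injective (M := M) (O := C.O) (Λ := lamD q M) γ h)

/-- The expansions have coefficients in the larger ring. -/
theorem serIn_serA (γ : SL(2, ℤ)) (f : A0 C) : SerIn C.O (serA C γ f) :=
  serIn_serI (M := M) (O := C.O) (Λ := lamD q M) γ (inclS C f)

/-- The expansion at `∞` has unramified coefficients. -/
theorem serIn_serA_one (f : A0 C) : SerIn C.O0 (serA C 1 f) := f.2.2

/-- The expansions depend only on the cusp. -/
theorem serA_lamD_mul {δ : SL(2, ℤ)} (hδ : δ ∈ lamD q M) (γ : SL(2, ℤ)) (f : A0 C) :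
    serA C (δ * γ) f = serA C γ f := by
  rw [serA_apply, serA_apply, ← lexp_act, f.2.1.2 δ hδ]

/-- A translation twists the expansion. -/
theorem serA_mul_T_pow (γ : SL(2, ℤ)) (j : ℕ) (f : A0 C) :
    serA C (γ * ModularGroup.T ^ j) f = twistSer (zetaC (q * M) ^ j) (serA C γ f) :=
  ES.lexp_mul_T_pow f.2.1.1.1 γ j

/-- The cyclotomic values are `1` modulo `M`. -/
theorem D_a_mod (hM : M.Coprime q) (a : (ZMod q)ˣ) : ((C.D a).a : ZMod M) = 1 :=
  (C.D a).a_eq_one hM

include haux in
/-- The conjugations fix the model. -/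
theorem conjS_inclS (a : (ZMod q)ˣ) (f : A0 C) :
    conjS (C.D a) haux (inclS C f) = inclS C f := by
  refine serI_injective 1 ?_
  rw [serI_conjS (C.D a) haux _ (GalRel.one _)]
  ext n
  rw [ES.coeff_mapSer, RingEquiv.coe_toRingHom]
  exact C.apply_of_mem (serIn_serA_one C f n) a

include haux in
/-- **The Galois rule.** -/
theorem serA_galRel (a : (ZMod q)ˣ) (f : A0 C) {γ γ' : SL(2, ℤ)}
    (h : GalRel ((C.D a).a : ZMod (q * M)) γ γ') :
    serA C γ' f = mapSer ((C.D a).σ : ℂ →+* ℂ) (serA C γ f) := by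
  show serI M C.O (lamD q M) q γ' (inclS C f) = _
  conv_lhs => rw [← conjS_inclS C haux a f]
  exact serI_conjS (C.D a) haux _ h

include haux hM in
/-- At the diagonal and antidiagonal cusps the coefficients are unramified. -/
theorem serIn_serA_of_isNorm {δ : SL(2, ℤ)} (hδ : IsNorm q δ) (f : A0 C) :
    SerIn C.O0 (serA C δ f) := fun n => by
  refine (C.mem_iff _).mpr ⟨serIn_serA C δ f n, fun a => ?_⟩
  obtain ⟨δ', hr⟩ := GalRel.exists_right (C.D a).unit δ
  have h1 := serA_galRel C haux a f hr
  suffices h2 : serA C δ' f = serA C δ f by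
    rw [h2] at h1
    have h3 := congrArg (fun s => HahnSeries.coeff s n) h1
    simp only [ES.coeff_mapSer, RingEquiv.coe_toRingHom] at h3
    exact h3.symm
  have hmem : δ' * δ⁻¹ ∈ lamD q M := (C.D a).mul_inv_mem_lamD hM hr hδ
  rw [← serA_lamD_mul C hmem δ, inv_mul_cancel_right]

/-- A constant. -/
def constA : C.O0 →+* A0 C :=
  RingHom.codRestrict ((InvS C).subtype.comp ((constI (q := q) (M := M) (Λ := lamD q M)).comp
    (Subring.inclusion C.le))) _ fun c => by
    refine ⟨SetLike.coe_mem _, ?_⟩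
    show SerIn C.O0 (serI M C.O (lamD q M) q 1 (constI (Subring.inclusion C.le c)))
    rw [serI_constI]
    exact SerIn.C c.2

/-- A constant as a function. -/
theorem coe_constA (c : C.O0) : (constA C c : ℍ → ℂ) = fun _ => (c : ℂ) := rfl

/-- The expansions of a constant. -/
theorem serA_constA (γ : SL(2, ℤ)) (c : C.O0) :
    serA C γ (constA C c) = HahnSeries.C (c : ℂ) := by
  rw [serA_apply, coe_constA]
  exact lexp_eq (ES.HasLExp.const (c : ℂ))

/-! ### Averaging -/

/-- The average of the conjugates. -/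
def avgI : InvS C →+ InvS C where
  toFun f := constI ⟨((q - 1 : ℕ) : ℂ)⁻¹, C.le C.inv_pred_mem⟩ *
    ∑ a, conjS (C.D a) haux f
  map_zero' := by simp
  map_add' f g := by simp [Finset.sum_add_distrib, mul_add]

/-- The coefficients of the average. -/
theorem serI_avgI (f : InvS C) (n : ℤ) :
    (serI M C.O (lamD q M) q 1 (avgI C haux f)).coeff n =
      C.avg ((serI M C.O (lamD q M) q 1 f).coeff n) := by
  show (serI M C.O (lamD q M) q 1 (_ * _)).coeff n = _ * _
  rw [map_mul, serI_constI, HahnSeries.C_mul_eq_smul, HahnSeries.coeff_smul, smul_eq_mul, map_sum,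
    HahnSeries.coeff_sum]
  congr 1
  refine Finset.sum_congr rfl fun a _ => ?_
  rw [serI_conjS (C.D a) haux _ (GalRel.one _), ES.coeff_mapSer, RingEquiv.coe_toRingHom]

theorem avgI_mem (f : InvS C) : (avgI C haux f : ℍ → ℂ) ∈ A0 C :=
  ⟨SetLike.coe_mem _, fun n => by
    show (serI M C.O (lamD q M) q 1 (avgI C haux f)).coeff n ∈ C.O0
    rw [serI_avgI]
    exact C.avg_mem (serIn_serI 1 f n)⟩

/-- **The retraction onto the ring of the model.** -/
def avgS : InvS C →+ A0 C where
  toFun f := ⟨avgI C haux f, avgI_mem C haux f⟩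
  map_zero' := by ext1; simp
  map_add' f g := by ext1; simp

theorem inclS_avgS (f : InvS C) : inclS C (avgS C haux f) = avgI C haux f := rfl

/-- The retraction is linear over the model. -/
theorem avgS_mul (z : A0 C) (f : InvS C) :
    avgS C haux (inclS C z * f) = z * avgS C haux f := by
  refine inclS_injective C ?_
  rw [inclS_avgS, map_mul (inclS C), inclS_avgS]
  show constI (⟨_, C.le C.inv_pred_mem⟩ : C.O) *
      ∑ a, conjS (C.D a) haux (inclS C z * f) =
    inclS C z * (constI (⟨_, C.le C.inv_pred_mem⟩ : C.O) * ∑ a, conjS (C.D a) haux f)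
  simp only [map_mul, conjS_inclS C haux, ← Finset.mul_sum]
  ring

/-- The retraction fixes the model. -/
theorem avgS_inclS (z : A0 C) : avgS C haux (inclS C z) = z := by
  refine serA_injective C 1 (HahnSeries.ext (funext fun n => ?_))
  show (serI M C.O (lamD q M) q 1 (avgI C haux (inclS C z))).coeff n = _
  rw [serI_avgI]
  exact C.avg_self (serIn_serA_one C z n)

/-! ### Translations -/

/-- Translation by a diagonal or antidiagonal matrix. -/
def actA {δ : SL(2, ℤ)} (hδ : IsNorm q δ) : A0 C →+* A0 C :=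
  RingHom.codRestrict ((InvS C).subtype.comp
    ((actI δ (conj_mem_lamD_of_isNorm hδ)).comp (inclS C))) _ fun f =>
    ⟨SetLike.coe_mem _, fun n => by
      show (lexp (q * M) 1 (act δ (f : ℍ → ℂ))).coeff n ∈ C.O0
      rw [lexp_act, mul_one]
      exact serIn_serA_of_isNorm C haux hM hδ f n⟩

theorem coe_actA {δ : SL(2, ℤ)} (hδ : IsNorm q δ) (f : A0 C) :
    (actA C haux hM hδ f : ℍ → ℂ) = act δ (f : ℍ → ℂ) := rfl

/-- The expansions of a translate. -/
theorem serA_actA {δ : SL(2, ℤ)} (hδ : IsNorm q δ) (f : A0 C) (γ : SL(2, ℤ)) :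
    serA C γ (actA C haux hM hδ f) = serA C (δ * γ) f := by
  rw [serA_apply, serA_apply, coe_actA, lexp_act]

/-! ### The functions on `Γ₀(q) ∩ Γ(M)` -/

/-- The subring of functions on `Γ₀(q) ∩ Γ(M)`. -/
def L0 : Subring (ℍ → ℂ) := A0 C ⊓ LRing q M C.O

/-- The inclusion into the ring of the model. -/
def inclL : L0 C →+* A0 C := Subring.inclusion inf_le_left

/-- The inclusion into the functions with coefficients in the large ring. -/
def toL : L0 C →+* LRing q M C.O := Subring.inclusion inf_le_right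

/-- The two inclusions of `L0` agree. -/
theorem inclS_inclL (f : L0 C) : inclS C (inclL C f) = ofLRing lamD_le (toL C f) := rfl

/-- The average on functions on `Γ₀(q) ∩ Γ(M)`. -/
def avgLR : LRing q M C.O →+ LRing q M C.O where
  toFun f := constL ⟨((q - 1 : ℕ) : ℂ)⁻¹, C.le C.inv_pred_mem⟩ *
    ∑ a, (C.D a).conjL haux f
  map_zero' := by simp
  map_add' f g := by simp [Finset.sum_add_distrib, mul_add]

/-- The two averages agree. -/
theorem ofLRing_avgLR (f : LRing q M C.O) :
    ofLRing lamD_le (avgLR C haux f) = avgI C haux (ofLRing lamD_le f) := by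
  show ofLRing lamD_le (constL _ * ∑ a, (C.D a).conjL haux f) =
    constI _ * ∑ a, conjS (C.D a) haux (ofLRing lamD_le f)
  rw [map_mul, map_sum, ofLRing_constL]
  rfl

/-- **The retraction onto `L0`.** -/
def avgL : LRing q M C.O →+ L0 C where
  toFun f := ⟨avgLR C haux f, Subring.mem_inf.mpr ⟨by
    rw [← coe_ofLRing lamD_le, ofLRing_avgLR]
    exact avgI_mem C haux _, SetLike.coe_mem _⟩⟩
  map_zero' := by ext1; simp
  map_add' f g := by ext1; simp

/-- The retraction onto `L0` in level `q M`. -/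
theorem toL_avgL (f : LRing q M C.O) : toL C (avgL C haux f) = avgLR C haux f := rfl

theorem inclL_avgL (f : LRing q M C.O) :
    inclL C (avgL C haux f) = avgS C haux (ofLRing lamD_le f) :=
  Subtype.ext (by
    have h := congrArg Subtype.val (ofLRing_avgLR C haux f)
    exact h)

/-- The retraction onto `L0` is linear over it. -/
theorem avgL_mul (z : L0 C) (f : LRing q M C.O) :
    avgL C haux (toL C z * f) = z * avgL C haux f := by
  refine Subtype.ext ?_
  have h := congrArg Subtype.val (avgS_mul C haux (inclL C z) (ofLRing lamD_le f))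
  rw [← inclL_avgL, inclS_inclL, ← map_mul, ← inclL_avgL] at h
  exact h

/-- The retraction fixes `L0`. -/
theorem avgL_toL (z : L0 C) : avgL C haux (toL C z) = z := by
  refine Subtype.ext ?_
  have h := congrArg Subtype.val (avgS_inclS C haux (inclL C z))
  rw [inclS_inclL, ← inclL_avgL] at h
  exact h

include hM in
/-- The average is congruent to the function modulo the uniformiser. -/
theorem unif_dvd_avgLR_sub {ϖ : C.O} (hϖ : Irreducible ϖ) (f : LRing q M C.O) :
    constL ϖ ∣ avgLR C haux f - f := by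
  have hc : (⟨((q - 1 : ℕ) : ℂ)⁻¹, C.le C.inv_pred_mem⟩ : C.O) * ((q - 1 : ℕ) : C.O) = 1 := by
    refine Subtype.ext ?_
    simp only [Subring.coe_mul, Subring.coe_one]
    rw [show (((q - 1 : ℕ) : C.O) : ℂ) = ((q - 1 : ℕ) : ℂ) by simp, inv_mul_cancel₀]
    exact Nat.cast_ne_zero.mpr (Nat.sub_pos_of_lt hq.out.one_lt).ne'
  have e : avgLR C haux f - f = constL (⟨((q - 1 : ℕ) : ℂ)⁻¹, C.le C.inv_pred_mem⟩ : C.O) *
      ∑ a, ((C.D a).conjL haux f - f) := by
    rw [Finset.sum_sub_distrib, mul_sub, Finset.sum_const, Finset.card_univ, ZMod.card_units q,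
      nsmul_eq_mul, ← mul_assoc, ← map_natCast (constL (q := q) (M := M) (O := C.O)), ← map_mul,
      hc, map_one, one_mul]
    rfl
  rw [e]
  exact (Finset.dvd_sum fun a _ =>
    (C.D a).unif_dvd_conjL_sub haux hM C.cdvr.le C.cdvr hϖ f).mul_left _

/-! ### Residual expansions -/

/-- The residual expansion at a cusp. -/
def resA (γ : SL(2, ℤ)) :
    haveI := C.cdvr.dvr
    A0 C →+* LaurentSeries (ResidueField C.O) :=
  haveI := C.cdvr.dvr
  (liftSer (residue C.O)).comp ((serOI M C.O (lamD q M) q γ).comp (inclS C))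

/-- The functions small at a cusp. -/
def smA (γ : SL(2, ℤ)) : Ideal (A0 C) := (smallI M (lamD q M) C.cdvr.le γ).comap (inclS C)

/-- Membership in the functions small at a cusp. -/
theorem mem_smA {γ : SL(2, ℤ)} {f : A0 C} : f ∈ smA C γ ↔ P.SerLT (serA C γ f) := Iff.rfl

/-- A residual expansion vanishes exactly on the functions small at the cusp. -/
theorem resA_eq_zero_iff {γ : SL(2, ℤ)} {f : A0 C} : resA C γ f = 0 ↔ f ∈ smA C γ := by
  have := C.cdvr.dvr
  show liftSer (residue C.O) (serOI M C.O (lamD q M) q γ (inclS C f)) = 0 ↔ _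
  rw [mem_smA]
  refine ⟨fun h => ?_, fun h => ?_⟩
  · by_contra hno
    have hu := unitCoeff_serI_of_not_small C.cdvr.le (Λ := lamD q M) (f := inclS C f) (γ := γ) hno
    rw [← liftSer_serOI] at hu
    exact not_unitCoeff_of_residue C.cdvr h hu
  · exact liftSer_residue_eq_zero C.cdvr (by rw [liftSer_serOI]; exact h)

include haux hM in
/-- **The residual expansion depends only on the type and the cusp of level `M`.** -/
theorem resA_eq_of_isTyp {γ γ' : SL(2, ℤ)} {t : Typ} (hγ : IsTyp q t γ) (hγ' : IsTyp q t γ')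
    (hmod : modMat M γ' = modMat M γ) (f : A0 C) : resA C γ' f = resA C γ f := by
  have := C.cdvr.dvr
  obtain ⟨a, ha⟩ := exists_galRel_of_isTyp hM hγ hγ' hmod
  obtain ⟨γ'', hr⟩ := GalRel.exists_right (C.D a).unit γ
  obtain ⟨j, δ, hδ, e⟩ := ha _ (C.D_a a) (D_a_mod C hM a) γ'' hr
  have h1 : serA C γ' f =
      twistSer (zetaC (q * M) ^ (M * j)) (mapSer ((C.D a).σ : ℂ →+* ℂ) (serA C γ f)) := by
    rw [e, serA_lamD_mul C hδ, serA_mul_T_pow, serA_galRel C haux a f hr]
  ext n
  show residue C.O ((serOI M C.O (lamD q M) q γ' (inclS C f)).coeff n) =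
    residue C.O ((serOI M C.O (lamD q M) q γ (inclS C f)).coeff n)
  rw [← sub_eq_zero, ← map_sub, residue_eq_zero_iff, C.cdvr.mem_maximalIdeal_iff,
    AddSubgroupClass.coe_sub]
  have c1 : ∀ δ : SL(2, ℤ), ((serOI M C.O (lamD q M) q δ (inclS C f)).coeff n : ℂ) =
      (serA C δ f).coeff n := fun δ => by
    have := congrArg (fun s => HahnSeries.coeff s n)
      (liftSer_serOI (M := M) (Λ := lamD q M) δ (inclS C f))
    simp only [ES.coeff_liftSer] at this
    exact this
  rw [c1, c1, h1, ES.coeff_twistSer, ES.coeff_mapSer, RingEquiv.coe_toRingHom]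
  have hc : P.abv ((serA C γ f).coeff n) ≤ 1 := C.cdvr.le (serIn_serA C γ f n)
  set c := (serA C γ f).coeff n
  set z := (zetaC (q * M) ^ (M * j)) ^ n
  have hzq : z ^ q = 1 := by
    rw [← zpow_natCast, ← zpow_mul, mul_comm n, zpow_mul, zpow_natCast,
      pow_prime_twist (dvd_mul_right M j), one_zpow]
  rw [show (C.D a).σ c * z - c = ((C.D a).σ c - c) * z + -(c * (1 - z)) by ring]
  refine P.add_lt ?_ ?_
  · rw [map_mul, P.abv_eq_one_of_pow_eq_one (NeZero.ne q) hzq, mul_one]
    exact (C.D a).small c hc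
  · rw [AbsoluteValue.map_neg, map_mul]
    exact mul_lt_one_of_nonneg_of_lt_one_right hc (P.abv.nonneg _)
      (abv_one_sub_lt_of_pow_prime P hzq)

/-! ### The Noetherian property -/

include haux in
theorem isNoetherianRing_invS : IsNoetherianRing (InvS C) :=
  have := C.cdvr.dvr
  isNoetherianRing_of_polRing haux C.root C.zeta (fun _ hf => hf.1) fun f hf =>
    (ofLRing lamD_le (raiseL M (Subring.inclusion (ES.polRing_le_BRing haux C.root) ⟨f, hf⟩))).2

include haux in
theorem map_comap_inclS (I : Ideal (A0 C)) : (I.map (inclS C)).comap (inclS C) = I := by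
  refine le_antisymm (fun x hx => ?_) Ideal.le_comap_map
  suffices h : ∀ f ∈ I.map (inclS C), ∀ r, avgS C haux (r * f) ∈ I by
    have := h _ (Ideal.mem_comap.mp hx) 1
    rwa [one_mul, avgS_inclS] at this
  intro f hf
  induction hf using Submodule.span_induction with
  | mem y hy =>
    obtain ⟨z, hz, rfl⟩ := hy
    intro r
    rw [mul_comm, avgS_mul]; exact I.mul_mem_right _ hz
  | zero => intro r; rw [mul_zero, map_zero]; exact I.zero_mem
  | add y z _ _ hy hz => intro r; rw [mul_add, map_add]; exact I.add_mem (hy r) (hz r)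
  | smul s y _ hy => intro r; rw [smul_eq_mul, ← mul_assoc]; exact hy _

include haux in
/-- **The ring of the model is Noetherian.** -/
theorem isNoetherianRing_A0 : IsNoetherianRing (A0 C) := by
  have := isNoetherianRing_invS C haux
  rw [isNoetherianRing_iff, ← monotone_stabilizes_iff_noetherian]
  intro f
  obtain ⟨n, hn⟩ := monotone_stabilizes_iff_noetherian.mpr
    (isNoetherianRing_iff.mp (inferInstance : IsNoetherianRing (InvS C)))
    ⟨fun k => (Ideal.map (inclS C) (f k : Ideal (A0 C)) : Ideal (InvS C)),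
      fun i j h => Ideal.map_mono (f.monotone h)⟩
  refine ⟨n, fun k hk => ?_⟩
  rw [← map_comap_inclS C haux (f n), ← map_comap_inclS C haux (f k)]
  exact congrArg (Ideal.comap (inclS C)) (hn k hk)

end FermatAgent.BAD.Sq

end
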